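/-
TEAM TW56 -> S56, block FLAT (architect helper33).  File 1: definitions.

`Om p = PadicAlgCl p`, `Gp p = Gal(Om/ℚ_p)`, `IF p` = intermediate fields of `Om/ℚ_p`.
Everything is written with raw cocycles `c : G → M₂(k)` for the adjoint action through `rb : G →* M₂(k)`.
-/
import Mathlib
import Fermat.Prelude.Def_GaloisRep_CompletionBridge
import Fermat.Prelude.Def_GaloisRep_Flat
import Fermat.Agent.S53.Defs

set_option autoImplicit false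

noncomputable section

namespace Fermat.Agent.TW56.Flat

open Fermat.Agent.S53 Matrix

/-- `ℚ̄` -/
abbrev Qb : Type := AlgebraicClosure ℚ
/-- `ℚ̄_p` -/
abbrev Om (p : ℕ) [Fact p.Prime] : Type := PadicAlgCl p
/-- `Gal(ℚ̄_p/ℚ_p)` -/
abbrev Gp (p : ℕ) [Fact p.Prime] : Type := PadicAlgCl p ≃ₐ[ℚ_[p]] PadicAlgCl p
/-- `ℤ_(p)` -/
abbrev Rp (p : ℕ) : Subring ℚ := GaloisRep.ratLocalizedAt p
/-- intermediate fields of `ℚ̄_p/ℚ_p` -/
abbrev IF (p : ℕ) [Fact p.Prime] : Type := IntermediateField ℚ_[p] (PadicAlgCl p)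
/-- `G_{ℚ_p} → G_ℚ` -/
abbrev loc (p : ℕ) [Fact p.Prime] : Gp p →* GQ := localGaloisToGlobal p

/-! ### flat modules -/

/-- `(W, act)` is the `G_ℚ`-module of `ℚ̄`-points of a finite flat commutative group scheme over
`ℤ_(p)` (same shape as the clause of the prelude's `IsFlatAt`). -/
def IsFlatMod (p : ℕ) (W : Type) [AddCommGroup W] (act : GQ → W → W) : Prop :=
  ∃ (H : Type) (_ : CommRing H) (_ : HopfAlgebra (Rp p) H),
    Module.Finite (Rp p) H ∧ Module.Flat (Rp p) H ∧ Coalgebra.IsCocomm (Rp p) H ∧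
    ∃ e : WithConv (H →ₐ[Rp p] Qb) ≃ W,
      (∀ f g : WithConv (H →ₐ[Rp p] Qb), e (f * g) = e f + e g) ∧
      ∀ (σ : GQ) (f g : WithConv (H →ₐ[Rp p] Qb)), (∀ h : H, g h = σ (f h)) → e g = act σ (e f)

/-- the local version: points in `ℚ̄_p`, action of `Gal(ℚ̄_p/ℚ_p)`. -/
def IsFlatLoc (p : ℕ) [Fact p.Prime] (W : Type) [AddCommGroup W] (act : Gp p → W → W) : Prop :=
  ∃ (H : Type) (_ : CommRing H) (_ : HopfAlgebra (Rp p) H),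
    Module.Finite (Rp p) H ∧ Module.Flat (Rp p) H ∧ Coalgebra.IsCocomm (Rp p) H ∧
    ∃ e : WithConv (H →ₐ[Rp p] Om p) ≃ W,
      (∀ f g : WithConv (H →ₐ[Rp p] Om p), e (f * g) = e f + e g) ∧
      ∀ (σ : Gp p) (f g : WithConv (H →ₐ[Rp p] Om p)), (∀ h : H, g h = σ (f h)) →
        e g = act σ (e f)

/-! ### raw cocycles -/

section Coc

variable {k : Type} [Field k] {G : Type} [Group G]

/-- the module `W_c = V ⊕ εV` attached to a cochain: `g (v, w) = (g v, g w + c(g) g v)`. -/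
def actW (rb : G →* M2 k) (c : G → M2 k) (σ : G) (x : (Fin 2 → k) × (Fin 2 → k)) :
    (Fin 2 → k) × (Fin 2 → k) :=
  (rb σ *ᵥ x.1, rb σ *ᵥ x.2 + (c σ * rb σ) *ᵥ x.1)

/-- trace zero 1-cocycles for the adjoint action -/
structure IsCoc0 (rb : G →* M2 k) (c : G → M2 k) : Prop where
  coc : ∀ σ τ : G, c (σ * τ) = c σ + rb σ * c τ * rb σ⁻¹
  tr : ∀ σ : G, (c σ).trace = 0

/-- the coboundary of `X` -/
def cob (rb : G →* M2 k) (X : M2 k) (σ : G) : M2 k := rb σ * X * rb σ⁻¹ - X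

/-- 1-cocycles with values in `k(η)` -/
def IsCocChar (η : G →* kˣ) (f : G → k) : Prop := ∀ σ τ : G, f (σ * τ) = f σ + (η σ : k) * f τ

/-- the set of 1-cocycles with values in `k(η)` -/
def Z1Char (η : G →* kˣ) : Set (G → k) := {f | IsCocChar η f}

/-- the set of trace zero 1-cocycles -/
def Z1Ad (rb : G →* M2 k) : Set (G → M2 k) := {c | IsCoc0 rb c}

end Coc

/-- a cocycle of `G_ℚ` whose deformation to `k[ε]` is flat at `p` -/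
def FlatCoc (p : ℕ) {k : Type} [Field k] (rb : GQ →* M2 k) (c : GQ → M2 k) : Prop :=
  IsFlatMod p ((Fin 2 → k) × (Fin 2 → k)) (actW rb c)

/-- a cocycle of `G_{ℚ_p}` whose deformation to `k[ε]` is flat -/
def FlatCocLoc (p : ℕ) [Fact p.Prime] {k : Type} [Field k] (rb : Gp p →* M2 k)
    (c : Gp p → M2 k) : Prop :=
  IsFlatLoc p ((Fin 2 → k) × (Fin 2 → k)) (actW rb c)

/-- `δ : G → kˣ` is the mod `p` cyclotomic character (of `G_{ℚ_p}`). -/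
def IsCycLoc (p : ℕ) [Fact p.Prime] {k : Type} [Field k] (δ : Gp p → k) : Prop :=
  ∀ (σ : Gp p) (a : ℕ), (∀ μ : Om p, μ ^ p = 1 → σ μ = μ ^ a) → δ σ = (a : k)

/-- **the local condition**: the additive group generated by the flat cocycles and the
coboundaries. -/
def LFlat (p : ℕ) [Fact p.Prime] {k : Type} [Field k] (rb : Gp p →* M2 k) :
    AddSubgroup (Gp p → M2 k) :=
  AddSubgroup.closure ({c | IsCoc0 rb c ∧ FlatCocLoc p rb c} ∪ {c | ∃ X : M2 k, c = cob rb X})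

/-! ### Fontaine's property `(P_m)` and the Kummer bound -/

section Pm

variable (p : ℕ) [Fact p.Prime]

/-- an approximate ring homomorphism `O_M → O_E / {‖x‖ ≤ c}` -/
structure ApproxHom (M E : IF p) (c : ℝ) (u : Om p → Om p) : Prop where
  mem : ∀ x ∈ M, ‖x‖ ≤ 1 → u x ∈ E ∧ ‖u x‖ ≤ 1
  add : ∀ x ∈ M, ∀ y ∈ M, ‖x‖ ≤ 1 → ‖y‖ ≤ 1 → ‖u (x + y) - (u x + u y)‖ ≤ c
  mul : ∀ x ∈ M, ∀ y ∈ M, ‖x‖ ≤ 1 → ‖y‖ ≤ 1 → ‖u (x * y) - u x * u y‖ ≤ c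
  one : ‖u 1 - 1‖ ≤ c

/-- **(B1)** Fontaine's property `(P_m)` for all `m > p/(p-1)` (`c = p^{-m}`). -/
def HasPm (M : IF p) : Prop :=
  ∀ (E : IF p) (c : ℝ) (u : Om p → Om p), FiniteDimensional ℚ_[p] E →
    c ^ (p - 1) * (p : ℝ) ^ p < 1 → ApproxHom p M E c u → M ≤ E

/-- **(B2)** the Kummer bound: Kummer generators of subextensions of `M` have level
`≥ p(p-2)/(p-1)²` (valuation normalised by `v(p) = 1`). -/
def KB (M : IF p) : Prop :=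
  ∀ K : IF p, K ≤ M → (∃ ζ ∈ K, ζ ≠ 1 ∧ ζ ^ p = 1) →
    ∀ a ∈ K, a ≠ 0 → (∃ α ∈ M, α ^ p = a) →
      ∃ b ∈ K, b ≠ 0 ∧ ‖a * b ^ p - 1‖ ^ ((p - 1) ^ 2) ≤ ‖(p : Om p)‖ ^ (p * (p - 2))

/-- `Gal(M/ℚ_p)` -/
abbrev GM (M : IF p) : Type := M ≃ₐ[ℚ_[p]] M

/-- the elements of the inertia subgroup of `Gal(M/ℚ_p)` -/
def IsInert (M : IF p) (g : GM p M) : Prop :=
  ∀ x : M, ‖(x : Om p)‖ ≤ 1 → ‖((g x : M) : Om p) - (x : Om p)‖ < 1

/-- the preimage in `Gal(ℚ̄_p/ℚ_p)` of the inertia subgroup of `Gal(M/ℚ_p)` -/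
def IsInertGp (M : IF p) (τ : Gp p) : Prop :=
  ∀ x ∈ M, ‖x‖ ≤ 1 → ‖τ x - x‖ < 1

end Pm

/-! ### (B3) the axioms on the finite group `Gal(M/ℚ_p)` -/

/-- the properties of `(G, I, ω) = (Gal(M/ℚ_p), inertia, cyclotomic character)` used in the final
count.  `#Z¹(G, k(η)) = #k ^ (1 + h¹ - h⁰)`. -/
structure LocAx (p : ℕ) (k : Type) [Field k] (G : Type) [Group G] (I : Subgroup G)
    (om : G →* kˣ) : Prop where
  normal : I.Normal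
  /-- `G/I` is cyclic -/
  cyc : ∃ φ : G, ∀ g : G, ∃ n : ℕ, ∃ s ∈ I, g = φ ^ n * s
  /-- `I = ⟨s₀⟩ P`, `P` a normal `p`-subgroup -/
  tame : ∃ P : Subgroup G, P ≤ I ∧ P.Normal ∧ IsPGroup p P ∧
    ∃ s₀ ∈ I, ∀ s ∈ I, ∃ n : ℕ, ∃ u ∈ P, s = s₀ ^ n * u
  /-- `ω` is ramified -/
  omI : ∃ s ∈ I, om s ≠ 1
  /-- (X1), `η|I ≠ ω|I` -/
  x1 : ∀ η : G →* kˣ, (∃ s ∈ I, η s ≠ om s) → Nat.card (Z1Char η) ≤ Nat.card k
  /-- (X1), `η|I = ω|I` -/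
  x1' : ∀ η : G →* kˣ, Nat.card (Z1Char η) ≤ Nat.card k ^ 2
  /-- (X1') -/
  hom2 : ∀ G' : Subgroup G, I ≤ G' → G'.index = 2 → ∀ f : G → k,
    (∀ σ ∈ G', ∀ τ ∈ G', f (σ * τ) = f σ + f τ) → ∀ s ∈ I, f s = 0
  /-- (X2) -/
  x2 : ∀ G' : Subgroup G, I ≤ G' → G'.index = 2 → ∀ φ : G, φ ∉ G' → ∀ χ χ' : G' →* kˣ,
    (∀ g : G', ∀ h : G', (h : G) = φ * g * φ⁻¹ → χ' g = χ h) →
    (∀ g : G', χ g * χ' g = om g) → (∃ s : G', (s : G) ∈ I ∧ χ s ≠ χ' s) →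
    Nat.card (Z1Char (χ / χ')) ≤ Nat.card k ^ 2

end Fermat.Agent.TW56.Flat

end
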