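/-
TEAM TW56 -> S56, block FLAT (architect helper33).  File 2: the statements (as Props).

   Stmt_FLAT  ⟸  Bridge/Prod (Hopf algebra bookkeeping)  +  PM (Fontaine's property (P_m))
               +  RAM ((P_m) ⟹ Kummer bound)  +  COUNT (Kummer bound ⟹ LocAx)
               +  CE (connected-étale) ⟹ ORD, NOFLAT  +  CASES (finite group cohomology).
Every package proves `theorem xxx (h : Stmt_a) ... : Stmt_b` in its own file.
-/
import Fermat.Agent.TW56.Flat.Defs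

set_option autoImplicit false

noncomputable section

namespace Fermat.Agent.TW56.Flat

open Fermat.Agent.S53 Matrix Polynomial

/-! ### A. Hopf algebra bookkeeping -/

/-- FL-BR : from `ℚ̄`-points to `ℚ̄_p`-points. -/
def Stmt_Bridge : Prop :=
  ∀ (p : ℕ) [Fact p.Prime] (W : Type) [AddCommGroup W] (act : GQ → W → W),
    IsFlatMod p W act → IsFlatLoc p W (fun τ => act (loc p τ))

/-- FL-CONGR : transport along an equivariant isomorphism. -/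
def Stmt_Congr : Prop :=
  ∀ (p : ℕ) [Fact p.Prime] (W W' : Type) [AddCommGroup W] [AddCommGroup W'] (e : W ≃+ W')
    (act : Gp p → W → W) (act' : Gp p → W' → W'), (∀ τ w, e (act τ w) = act' τ (e w)) →
    IsFlatLoc p W act → IsFlatLoc p W' act'

/-- FL-UNIT : the trivial group. -/
def Stmt_Unit : Prop :=
  ∀ (p : ℕ) [Fact p.Prime], IsFlatLoc p PUnit (fun _ x => x)

/-- FL-PROD2 : binary products (tensor product of Hopf algebras). -/
def Stmt_Prod2 : Prop :=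
  ∀ (p : ℕ) [Fact p.Prime] (W₁ W₂ : Type) [AddCommGroup W₁] [AddCommGroup W₂]
    (act₁ : Gp p → W₁ → W₁) (act₂ : Gp p → W₂ → W₂),
    IsFlatLoc p W₁ act₁ → IsFlatLoc p W₂ act₂ →
    IsFlatLoc p (W₁ × W₂) (fun τ x => (act₁ τ x.1, act₂ τ x.2))

/-- FL-PROD : finite products. -/
def Stmt_Prod : Prop :=
  ∀ (p : ℕ) [Fact p.Prime] (n : ℕ) (W : Type) [AddCommGroup W] (act : Fin n → Gp p → W → W),
    (∀ i, IsFlatLoc p W (act i)) → IsFlatLoc p (Fin n → W) (fun τ x i => act i τ (x i))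

/-! ### B. the four big blocks -/

/-- **PM** : the field generated by the points of a finite flat group scheme killed by `p` has
Fontaine's property. -/
def Stmt_PM : Prop :=
  ∀ (p : ℕ) [Fact p.Prime], p ≠ 2 → ∀ (W : Type) [AddCommGroup W] (act : Gp p → W → W),
    IsFlatLoc p W act → (∀ w : W, p • w = 0) →
    ∃ M : IF p, FiniteDimensional ℚ_[p] M ∧ Normal ℚ_[p] M ∧ HasPm p M ∧
      ∀ τ : Gp p, (∀ x ∈ M, τ x = x) → ∀ w, act τ w = w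

/-- **RAM** : `(P_m)` implies the Kummer bound. -/
def Stmt_RAM : Prop :=
  ∀ (p : ℕ) [Fact p.Prime], p ≠ 2 → ∀ M : IF p, FiniteDimensional ℚ_[p] M → Normal ℚ_[p] M →
    HasPm p M → KB p M

/-- `om` is the mod `p` cyclotomic character of `Gal(M/ℚ_p)` -/
def IsCycM (p : ℕ) [Fact p.Prime] (M : IF p) {k : Type} [Field k] (om : GM p M →* kˣ) : Prop :=
  ∀ (g : GM p M) (a : ℕ), (∀ μ : M, μ ^ p = 1 → g μ = μ ^ a) → (om g : k) = (a : k)

/-- FL-INSUB : the inertia elements form a subgroup. -/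
def Stmt_InertSub : Prop :=
  ∀ (p : ℕ) [Fact p.Prime] (M : IF p), FiniteDimensional ℚ_[p] M → Normal ℚ_[p] M →
    ∃ I : Subgroup (GM p M), ∀ g, g ∈ I ↔ IsInert p M g

/-- **COUNT** : the Kummer bound implies the axioms `LocAx`. -/
def Stmt_COUNT : Prop :=
  ∀ (p : ℕ) [Fact p.Prime], p ≠ 2 → ∀ (k : Type) [Field k] [Finite k] [CharP k p] (M : IF p),
    FiniteDimensional ℚ_[p] M → Normal ℚ_[p] M → KB p M → (∃ ζ ∈ M, ζ ≠ 1 ∧ ζ ^ p = 1) →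
    ∀ (I : Subgroup (GM p M)) (om : GM p M →* kˣ), (∀ g, g ∈ I ↔ IsInert p M g) →
      IsCycM p M om → LocAx p k (GM p M) I om

/-- the connected-étale property of `(W, act)` at the level `M` -/
def CEprop (p : ℕ) [Fact p.Prime] (M : IF p) (W : Type) [AddCommGroup W]
    (act : Gp p → W → W) : Prop :=
  ∃ W0 : AddSubgroup W, (∀ τ, IsInertGp p M τ → ∀ w, act τ w - w ∈ W0) ∧
    ∀ W1 : AddSubgroup W, (∀ τ, IsInertGp p M τ → ∀ x ∈ W1, act τ x ∈ W1) →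
      ∀ w ∈ W0, (∀ τ, IsInertGp p M τ → act τ w - w ∈ W1) → w ∈ W1

/-- **CE** : `W⁰ ⊇ (I-1)W`, and `w ∈ W⁰`, `(I-1)w ⊆ W₁` (`W₁` stable under `I`) imply `w ∈ W₁`. -/
def Stmt_CE : Prop :=
  ∀ (p : ℕ) [Fact p.Prime], p ≠ 2 → ∀ (W : Type) [AddCommGroup W] (act : Gp p → W → W),
    IsFlatLoc p W act → (∀ w : W, p • w = 0) →
    ∀ M : IF p, FiniteDimensional ℚ_[p] M → Normal ℚ_[p] M →
      (∀ τ : Gp p, (∀ x ∈ M, τ x = x) → ∀ w, act τ w = w) → CEprop p M W act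

/-! ### C. consequences of CE for cocycles -/

/-- FL-ORD : flat deformations of ordinary representations are ordinary. -/
def Stmt_ORD : Prop :=
  ∀ (p : ℕ) [Fact p.Prime] (k : Type) [Field k] (M : IF p), Normal ℚ_[p] M →
    ∀ (rb : Gp p →* M2 k) (c : Gp p → M2 k), IsCoc0 rb c →
    CEprop p M ((Fin 2 → k) × (Fin 2 → k)) (actW rb c) →
    (∀ σ, rb σ 1 0 = 0) → (∀ τ, IsInertGp p M τ → rb τ 1 1 = 1) →
    (∃ τ, IsInertGp p M τ ∧ rb τ 0 0 ≠ 1) →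
    ∃ X : M2 k, (∀ σ, (c σ + cob rb X σ) 1 0 = 0) ∧
      ∀ τ, IsInertGp p M τ → (c τ + cob rb X τ) 1 1 = 0

/-- FL-NOFLAT : a non split extension of a ramified character by an unramified one has no flat
deformation to `k[ε]`. -/
def Stmt_NOFLAT : Prop :=
  ∀ (p : ℕ) [Fact p.Prime] (k : Type) [Field k] (M : IF p), Normal ℚ_[p] M →
    ∀ (rb : Gp p →* M2 k) (c : Gp p → M2 k), IsCoc0 rb c →
    CEprop p M ((Fin 2 → k) × (Fin 2 → k)) (actW rb c) →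
    (∀ σ, rb σ 1 0 = 0) → (∀ τ, IsInertGp p M τ → rb τ 0 0 = 1) →
    (∃ τ, IsInertGp p M τ ∧ rb τ 1 1 ≠ 1) →
    ∃ v : Fin 2 → k, v 1 ≠ 0 ∧ ∀ σ, ∃ l : k, rb σ *ᵥ v = l • v

/-! ### D. CASES : finite group cohomology -/

/-- FL-CASE-I : `V` irreducible. -/
def Stmt_CaseI : Prop :=
  ∀ (p : ℕ) [Fact p.Prime] (k : Type) [Field k] [Finite k] [CharP k p] (G : Type) [Group G]
    [Finite G] (I : Subgroup G) (om : G →* kˣ), p ≠ 2 → LocAx p k G I om →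
    ∀ rb : G →* M2 k, (∀ g, (rb g).det = om g) →
    (∀ g, ∃ α β : k, (rb g).charpoly = (X - C α) * (X - C β)) →
    (¬ ∃ v : Fin 2 → k, v ≠ 0 ∧ ∀ g, ∃ l : k, rb g *ᵥ v = l • v) →
    Nat.card (Z1Ad rb) ≤ Nat.card k ^ 4

/-- FL-CASE-R : `V` upper triangular, `χ₁/χ₂` and `χ₂/χ₁` not both equal to `ω` on inertia. -/
def Stmt_CaseR : Prop :=
  ∀ (p : ℕ) [Fact p.Prime] (k : Type) [Field k] [Finite k] [CharP k p] (G : Type) [Group G]
    [Finite G] (I : Subgroup G) (om : G →* kˣ), LocAx p k G I om →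
    ∀ (rb : G →* M2 k) (χ₁ χ₂ : G →* kˣ),
    (∀ g, rb g 0 0 = χ₁ g ∧ rb g 1 1 = χ₂ g ∧ rb g 1 0 = 0) →
    ((∃ s ∈ I, χ₁ s / χ₂ s ≠ om s) ∨ (∃ s ∈ I, χ₂ s / χ₁ s ≠ om s)) →
    Nat.card (Z1Ad rb) ≤ Nat.card k ^ 4

/-- the ordinary cocycles plus the coboundaries -/
def ZOrd {k : Type} [Field k] {G : Type} [Group G] (I : Set G) (rb : G →* M2 k) :
    Set (G → M2 k) :=
  {c | ∃ (c₀ : G → M2 k) (X : M2 k), IsCoc0 rb c₀ ∧ (∀ g, c₀ g 1 0 = 0) ∧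
    (∀ s ∈ I, c₀ s 1 1 = 0) ∧ c = fun g => c₀ g + cob rb X g}

/-- FL-CASE-O : the ordinary cocycles. -/
def Stmt_CaseOrd : Prop :=
  ∀ (p : ℕ) [Fact p.Prime] (k : Type) [Field k] [Finite k] [CharP k p] (G : Type) [Group G]
    [Finite G] (I : Subgroup G) (om : G →* kˣ), LocAx p k G I om →
    ∀ (rb : G →* M2 k) (χ₁ χ₂ : G →* kˣ),
    (∀ g, rb g 0 0 = χ₁ g ∧ rb g 1 1 = χ₂ g ∧ rb g 1 0 = 0) →
    Nat.card (ZOrd (I : Set G) rb) ≤ Nat.card k ^ 4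

/-- FL-DICH : if `χ₁/χ₂ = χ₂/χ₁ = ω = χ₁χ₂` on inertia, one of `χ₁, χ₂` is unramified. -/
def Stmt_Dich : Prop :=
  ∀ (p : ℕ) [Fact p.Prime] (k : Type) [Field k] [Finite k] [CharP k p] (G : Type) [Group G]
    [Finite G] (I : Subgroup G) (om : G →* kˣ), LocAx p k G I om →
    ∀ (χ₁ χ₂ : G →* kˣ), (∀ g, χ₁ g * χ₂ g = om g) →
    (∀ s ∈ I, χ₁ s / χ₂ s = om s) → (∀ s ∈ I, χ₂ s / χ₁ s = om s) →
    (∀ s ∈ I, χ₁ s = 1) ∨ (∀ s ∈ I, χ₂ s = 1)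

/-! ### E. descent to the finite level, conjugation, final statement -/

/-- the cocycles of `Gal(ℚ̄_p/ℚ_p)` which are trivial on `Gal(ℚ̄_p/M)` -/
def Z1Lev (p : ℕ) [Fact p.Prime] {k : Type} [Field k] (M : IF p) (rb : Gp p →* M2 k) :
    Set (Gp p → M2 k) :=
  {c | IsCoc0 rb c ∧ ∀ τ : Gp p, (∀ x ∈ M, τ x = x) → c τ = 0}

/-- FL-DESC : functions on `Gal(ℚ̄_p/ℚ_p)` of level `M` are functions on `Gal(M/ℚ_p)`. -/
def Stmt_Descend : Prop :=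
  ∀ (p : ℕ) [Fact p.Prime] (M : IF p) [FiniteDimensional ℚ_[p] M] [Normal ℚ_[p] M],
    Function.Surjective (AlgEquiv.restrictNormalHom (F := ℚ_[p]) (K₁ := Om p) M) ∧
    (∀ τ : Gp p, AlgEquiv.restrictNormalHom (F := ℚ_[p]) (K₁ := Om p) M τ = 1 ↔
      ∀ x ∈ M, τ x = x) ∧
    (∀ τ : Gp p, IsInert p M (AlgEquiv.restrictNormalHom (F := ℚ_[p]) (K₁ := Om p) M τ) ↔
      IsInertGp p M τ) ∧
    (∀ (k : Type) [Field k] (rb : Gp p →* M2 k), (∀ τ : Gp p, (∀ x ∈ M, τ x = x) → rb τ = 1) →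
      ∃ rbM : GM p M →* M2 k,
        (∀ τ, rb τ = rbM (AlgEquiv.restrictNormalHom (F := ℚ_[p]) (K₁ := Om p) M τ)) ∧
        ∀ c ∈ Z1Lev p M rb, ∃ cM : GM p M → M2 k, IsCoc0 rbM cM ∧
          ∀ τ, c τ = cM (AlgEquiv.restrictNormalHom (F := ℚ_[p]) (K₁ := Om p) M τ))

/-- conjugation of a representation -/
def conjRep {k : Type} [Field k] {G : Type} [Group G] (Q Q' : M2 k) (h : Q' * Q = 1)
    (rb : G →* M2 k) : G →* M2 k where
  toFun σ := Q * rb σ * Q'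
  map_one' := by
    rw [map_one, mul_one]
    exact mul_eq_one_comm.mp h
  map_mul' σ τ := by
    rw [map_mul]
    calc Q * (rb σ * rb τ) * Q' = Q * rb σ * 1 * rb τ * Q' := by simp [mul_assoc]
      _ = Q * rb σ * Q' * (Q * rb τ * Q') := by rw [← h]; simp [mul_assoc]

/-- FL-CONJ : `LFlat` is compatible with conjugation. -/
def Stmt_Conj : Prop :=
  ∀ (p : ℕ) [Fact p.Prime] (k : Type) [Field k] (Q Q' : M2 k) (h : Q' * Q = 1)
    (rb : Gp p →* M2 k) (c : Gp p → M2 k),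
    c ∈ LFlat p rb → (fun σ => Q * c σ * Q') ∈ LFlat p (conjRep Q Q' h rb)

/-- **the output of the block FLAT** -/
def Stmt_FLAT : Prop :=
  ∀ (p : ℕ) [Fact p.Prime], p ≠ 2 → ∀ (k : Type) [Field k] [Finite k] [CharP k p]
    (rb : Gp p →* M2 k), IsCycLoc p (fun σ => (rb σ).det) →
    (∀ σ, ∃ α β : k, (rb σ).charpoly = (X - C α) * (X - C β)) →
    Finite (LFlat p rb) ∧ Nat.card (LFlat p rb) ≤ Nat.card k ^ 4

end Fermat.Agent.TW56.Flat

end
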