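/-
TEAM TW56 -> S56, block FLAT (architect helper33).  File 3: interior statements of
CASE-I, CE and PM.
-/
import Fermat.Agent.TW56.Flat.Interface

set_option autoImplicit false

noncomputable section

namespace Fermat.Agent.TW56.Flat

open Fermat.Agent.S53 Matrix Polynomial
open scoped TensorProduct

/-! ### CASE-I -/

/-- `rb` is monomial with respect to the subgroup `G'` -/
def IsMonomial {k : Type} [Field k] {G : Type} [Group G] (G' : Subgroup G) (rb : G →* M2 k) :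
    Prop :=
  (∀ g ∈ G', rb g 0 1 = 0 ∧ rb g 1 0 = 0) ∧ (∀ g, g ∉ G' → rb g 0 0 = 0 ∧ rb g 1 1 = 0)

/-- FL-CASE-I1 : an irreducible `V` is induced from the unramified quadratic extension. -/
def Stmt_CaseI1 : Prop :=
  ∀ (p : ℕ) [Fact p.Prime] (k : Type) [Field k] [Finite k] [CharP k p] (G : Type) [Group G]
    [Finite G] (I : Subgroup G) (om : G →* kˣ), LocAx p k G I om →
    ∀ rb : G →* M2 k,
    (∀ g, ∃ α β : k, (rb g).charpoly = (X - C α) * (X - C β)) →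
    (¬ ∃ v : Fin 2 → k, v ≠ 0 ∧ ∀ g, ∃ l : k, rb g *ᵥ v = l • v) →
    ∃ (Q Q' : M2 k) (h : Q' * Q = 1) (G' : Subgroup G), I ≤ G' ∧ G'.index = 2 ∧
      IsMonomial G' (conjRep Q Q' h rb) ∧
      ∃ s ∈ I, conjRep Q Q' h rb s 0 0 ≠ conjRep Q Q' h rb s 1 1

/-- FL-CASE-I2 : the count for a monomial representation. -/
def Stmt_CaseI2 : Prop :=
  ∀ (p : ℕ) [Fact p.Prime] (k : Type) [Field k] [Finite k] [CharP k p] (G : Type) [Group G]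
    [Finite G] (I : Subgroup G) (om : G →* kˣ), p ≠ 2 → LocAx p k G I om →
    ∀ (rb : G →* M2 k) (G' : Subgroup G), I ≤ G' → G'.index = 2 → (∀ g, (rb g).det = om g) →
    IsMonomial G' rb → (∃ s ∈ I, rb s 0 0 ≠ rb s 1 1) →
    Nat.card (Z1Ad rb) ≤ Nat.card k ^ 4

/-- FL-CASE-I3 : `#Z¹` is invariant under conjugation. -/
def Stmt_CardConj : Prop :=
  ∀ (k : Type) [Field k] (G : Type) [Group G] (Q Q' : M2 k) (h : Q' * Q = 1) (rb : G →* M2 k),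
    Nat.card (Z1Ad (conjRep Q Q' h rb)) = Nat.card (Z1Ad rb)

/-! ### CE -/

/-- FL-UNRFIX : the fixed field of the inertia subgroup of `Gal(M/ℚ_p)` is unramified. -/
def Stmt_UnramFix : Prop :=
  ∀ (p : ℕ) [Fact p.Prime] (M : IF p), FiniteDimensional ℚ_[p] M → Normal ℚ_[p] M →
    ∀ x ∈ M, (∀ τ, IsInertGp p M τ → τ x = x) → ‖x‖ < 1 → ‖x‖ ≤ ‖(p : Om p)‖

/-- a model of the finite `Gal`-module `Γ`: a set of functions `Γ → O_M` -/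
structure IsModel (p : ℕ) [Fact p.Prime] (M : IF p) (Γ : Type) [AddCommGroup Γ] [Fintype Γ]
    (act : Gp p → Γ → Γ) (A : Set (Γ → Om p)) : Prop where
  int : ∀ a ∈ A, ∀ γ, a γ ∈ M ∧ ‖a γ‖ ≤ 1
  equiv : ∀ a ∈ A, ∀ (τ : Gp p) (γ : Γ), a (act τ γ) = τ (a γ)
  comul : ∀ a ∈ A, ∃ (n : ℕ) (a' a'' : Fin n → Γ → Om p), (∀ i, a' i ∈ A ∧ a'' i ∈ A) ∧
    ∀ γ γ', a (γ + γ') = ∑ i, a' i γ * a'' i γ'
  sep : ∀ z : Γ → Om p, (∀ a ∈ A, ∑ γ, z γ * a γ = 0) → z = 0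

/-- FL-CE-ABS : the connected-étale property of a model. -/
def Stmt_CEabs : Prop :=
  ∀ (p : ℕ) [Fact p.Prime], p ≠ 2 → ∀ (M : IF p), FiniteDimensional ℚ_[p] M → Normal ℚ_[p] M →
    ∀ (Γ : Type) [AddCommGroup Γ] [Fintype Γ] (act : Gp p → Γ → Γ) (A : Set (Γ → Om p)),
    (∀ τ γ γ', act τ (γ + γ') = act τ γ + act τ γ') → (∀ γ : Γ, p • γ = 0) →
    IsModel p M Γ act A → CEprop p M Γ act

/-- FL-CE-MODEL : a flat module has a model. -/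
def Stmt_CEmodel : Prop :=
  ∀ (p : ℕ) [Fact p.Prime] (W : Type) [AddCommGroup W] (act : Gp p → W → W),
    IsFlatLoc p W act → ∀ M : IF p, FiniteDimensional ℚ_[p] M → Normal ℚ_[p] M →
    (∀ τ : Gp p, (∀ x ∈ M, τ x = x) → ∀ w, act τ w = w) →
    (∀ τ w w', act τ (w + w') = act τ w + act τ w') ∧
    ∃ (_ : Fintype W) (A : Set (W → Om p)), IsModel p M W act A

/-! ### PM -/

/-- an ultrametric submultiplicative norm on a commutative ring on which `p` scales by `1/p` -/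
structure UNorm (p : ℕ) (C : Type) [CommRing C] (N : C → ℝ) : Prop where
  nonneg : ∀ x, 0 ≤ N x
  eq_zero : ∀ x, N x = 0 → x = 0
  zero : N 0 = 0
  neg : ∀ x, N (-x) = N x
  add : ∀ x y, N (x + y) ≤ max (N x) (N y)
  mul : ∀ x y, N (x * y) ≤ N x * N y
  one : N 1 ≤ 1
  smul_p : ∀ x, N ((p : C) * x) = (p : ℝ)⁻¹ * N x

/-- sequential completeness -/
def UComplete {C : Type} [CommRing C] (N : C → ℝ) : Prop :=
  ∀ x : ℕ → C, (∀ ε : ℝ, 0 < ε → ∃ n₀, ∀ n, n₀ ≤ n → N (x (n + 1) - x n) ≤ ε) →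
    ∃ y, ∀ ε : ℝ, 0 < ε → ∃ n₀, ∀ n, n₀ ≤ n → N (y - x n) ≤ ε

/-- FL-ROOT-U : uniqueness of `p`-th roots near `1`. -/
def Stmt_RootU : Prop :=
  ∀ (p : ℕ) [Fact p.Prime] (C : Type) [CommRing C] (N : C → ℝ), UNorm p C N →
    ∀ y : C, y ^ p = 1 → N (y - 1) ^ (p - 1) < (p : ℝ)⁻¹ → y = 1

/-- FL-ROOT-E : existence of `p`-th roots near `1`. -/
def Stmt_RootE : Prop :=
  ∀ (p : ℕ) [Fact p.Prime] (C : Type) [CommRing C] (N : C → ℝ), UNorm p C N → UComplete N →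
    (∀ x : C, ∃ y, (p : C) * y = x) →
    ∀ (x : C) (ρ : ℝ), 0 ≤ ρ → ρ ^ (p - 1) < (p : ℝ)⁻¹ → N (x - 1) ≤ (p : ℝ)⁻¹ * ρ →
      ∃ y, y ^ p = x ∧ N (y - 1) ≤ ρ

/-- FL-ROOT-INV : elements near `1` are units. -/
def Stmt_RootInv : Prop :=
  ∀ (p : ℕ) [Fact p.Prime] (C : Type) [CommRing C] (N : C → ℝ), UNorm p C N → UComplete N →
    ∀ x : C, N (x - 1) < 1 → ∃ y, x * y = 1 ∧ N (y - 1) ≤ N (x - 1)

/-- the normed fields in which we take points -/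
structure GoodField (p : ℕ) (F : Type) [NormedField F] [Algebra (Rp p) F] : Prop where
  ultra : IsUltrametricDist F
  norm_alg : ∀ r : Rp p, ‖algebraMap (Rp p) F r‖ ≤ 1
  norm_p : ‖(p : F)‖ = (p : ℝ)⁻¹

/-- the norm of a linear form on a finite free `ℤ_(p)`-module -/
def convN (p : ℕ) (C F : Type) [AddCommGroup C] [Module (Rp p) C] [NormedField F]
    [Algebra (Rp p) F] (g : WithConv (C →ₗ[Rp p] F)) : ℝ :=
  ⨆ c : C, ‖g.ofConv c‖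

/-- FL-FREE : finite flat `ℤ_(p)`-modules are free. -/
def Stmt_Free : Prop :=
  ∀ (p : ℕ) [Fact p.Prime] (C : Type) [AddCommGroup C] [Module (Rp p) C], Module.Finite (Rp p) C →
    Module.Flat (Rp p) C → Module.Free (Rp p) C

/-- FL-CONV-N : the convolution algebra of a finite free cocommutative coalgebra is a normed
ring. -/
def Stmt_ConvN : Prop :=
  ∀ (p : ℕ) [Fact p.Prime] (C F : Type) [AddCommGroup C] [Module (Rp p) C] [Coalgebra (Rp p) C]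
    [Coalgebra.IsCocomm (Rp p) C] [Module.Finite (Rp p) C] [Module.Free (Rp p) C] [NormedField F]
    [Algebra (Rp p) F], GoodField p F →
    UNorm p (WithConv (C →ₗ[Rp p] F)) (convN p C F) ∧
    (∀ (g : WithConv (C →ₗ[Rp p] F)) (ρ : ℝ), 0 ≤ ρ →
      (convN p C F g ≤ ρ ↔ ∀ c : C, ‖g.ofConv c‖ ≤ ρ)) ∧
    (∀ g : WithConv (C →ₗ[Rp p] F), ∃ c : C, ‖g.ofConv c‖ = convN p C F g) ∧
    (∀ x : WithConv (C →ₗ[Rp p] F), ∃ y, (p : WithConv (C →ₗ[Rp p] F)) * y = x) ∧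
    (CompleteSpace F → UComplete (convN p C F))

/-- FL-LIFT : Fontaine's lifting lemma: an approximate point killed by `p` is close to a point. -/
def Stmt_Lift : Prop :=
  ∀ (p : ℕ) [Fact p.Prime] (F H : Type) [NormedField F] [Algebra (Rp p) F] [CommRing H]
    [Bialgebra (Rp p) H] [Coalgebra.IsCocomm (Rp p) H] [Module.Finite (Rp p) H]
    [Module.Free (Rp p) H], GoodField p F → CompleteSpace F →
    ∀ (z0 : H →ₗ[Rp p] F) (ρ : ℝ), 0 ≤ ρ → ρ ^ (p - 1) < (p : ℝ)⁻¹ →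
    (∀ h, ‖z0 h‖ ≤ 1) → (∀ a b, ‖z0 (a * b) - z0 a * z0 b‖ ≤ (p : ℝ)⁻¹ * ρ) →
    ‖z0 1 - 1‖ ≤ (p : ℝ)⁻¹ * ρ →
    (∀ h, ‖((WithConv.toConv z0) ^ p : WithConv (H →ₗ[Rp p] F)).ofConv h
      - algebraMap (Rp p) F (Coalgebra.counit h)‖ ≤ (p : ℝ)⁻¹ * ρ) →
    ∃ z : H →ₐ[Rp p] F, ∀ h, ‖z h - z0 h‖ ≤ ρ

/-- FL-LIFT-HOMS : the ring homomorphisms `δ, ι₁, ι₂ : C(H) → C(H ⊗ H)` and `ev₁ : C(H) → F`. -/
def Stmt_LiftHoms : Prop :=
  ∀ (p : ℕ) (F H : Type) [Field F] [Algebra (Rp p) F] [CommRing H]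
    [Bialgebra (Rp p) H] [Coalgebra.IsCocomm (Rp p) H],
    ∃ (δ ι₁ ι₂ : WithConv (H →ₗ[Rp p] F) →+* WithConv ((TensorProduct (Rp p) H H) →ₗ[Rp p] F))
      (ev : WithConv (H →ₗ[Rp p] F) →+* F),
      (∀ g a b, (δ g).ofConv (a ⊗ₜ[Rp p] b) = g.ofConv (a * b)) ∧
      (∀ g a b, (ι₁ g).ofConv (a ⊗ₜ[Rp p] b) =
        g.ofConv a * algebraMap (Rp p) F (Coalgebra.counit b)) ∧
      (∀ g a b, (ι₂ g).ofConv (a ⊗ₜ[Rp p] b) =
        algebraMap (Rp p) F (Coalgebra.counit a) * g.ofConv b) ∧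
      (∀ g a b, (ι₁ g * ι₂ g).ofConv (a ⊗ₜ[Rp p] b) = g.ofConv a * g.ofConv b) ∧
      ∀ g, ev g = g.ofConv 1

/-- FL-SEPPT : two distinct points of a group scheme killed by `p` are not congruent modulo
`p^{1/(p-1)}`. -/
def Stmt_SepPt : Prop :=
  ∀ (p : ℕ) [Fact p.Prime] (F H : Type) [NormedField F] [Algebra (Rp p) F] [CommRing H]
    [HopfAlgebra (Rp p) H] [Coalgebra.IsCocomm (Rp p) H] [Module.Finite (Rp p) H]
    [Module.Free (Rp p) H], GoodField p F →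
    (∀ f : WithConv (H →ₐ[Rp p] F), f ^ p = 1) →
    ∀ f g : H →ₐ[Rp p] F, f ≠ g → ∃ h : H, (p : ℝ)⁻¹ ≤ ‖f h - g h‖ ^ (p - 1)

/-- FL-APX : elementary properties of approximate homomorphisms. -/
def Stmt_Apx : Prop :=
  ∀ (p : ℕ) [Fact p.Prime] (M E : IF p) (c : ℝ) (u : Om p → Om p), FiniteDimensional ℚ_[p] M →
    c < (p : ℝ)⁻¹ → ApproxHom p M E c u →
    (∀ r : Rp p, ‖u (algebraMap (Rp p) (Om p) r) - algebraMap (Rp p) (Om p) r‖ ≤ c) ∧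
    (∀ (n : ℕ) (x : Fin n → Om p), (∀ i, x i ∈ M ∧ ‖x i‖ ≤ 1) →
      ‖u (∑ i, x i) - ∑ i, u (x i)‖ ≤ c) ∧
    (∀ x ∈ M, ∀ y ∈ M, ‖x‖ ≤ 1 → ‖y‖ ≤ 1 → ‖u (x - y) - (u x - u y)‖ ≤ c) ∧
    (∀ x ∈ M, ‖x‖ ≤ 1 → c < ‖x‖ → ‖u x‖ = ‖x‖)

/-- the field generated by the points -/
def ptField (p : ℕ) [Fact p.Prime] (H : Type) [CommRing H] [Algebra (Rp p) H] : IF p :=
  IntermediateField.adjoin ℚ_[p] {x | ∃ (f : H →ₐ[Rp p] Om p) (h : H), f h = x}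

/-- FL-PTFIELD : the field generated by the points is finite and normal; points are integral. -/
def Stmt_PtField : Prop :=
  ∀ (p : ℕ) [Fact p.Prime] (H : Type) [CommRing H] [Algebra (Rp p) H], Module.Finite (Rp p) H →
    FiniteDimensional ℚ_[p] (ptField p H) ∧ Normal ℚ_[p] (ptField p H) ∧
    Finite (H →ₐ[Rp p] Om p) ∧ ∀ (f : H →ₐ[Rp p] Om p) (h : H), ‖f h‖ ≤ 1

/-- FL-PMH : property `(P_m)` for the field generated by the points. -/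
def Stmt_PMH : Prop :=
  ∀ (p : ℕ) [Fact p.Prime], p ≠ 2 → ∀ (H : Type) [CommRing H] [HopfAlgebra (Rp p) H]
    [Coalgebra.IsCocomm (Rp p) H] [Module.Finite (Rp p) H] [Module.Free (Rp p) H],
    (∀ f : WithConv (H →ₐ[Rp p] Om p), f ^ p = 1) → HasPm p (ptField p H)

end Fermat.Agent.TW56.Flat

end
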