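/-
TEAM TW56 -> S56, block FLAT, sub-block RAM : `HasPm M ⟹ KB M` (architect helper33).

Language: the abstract normed presentation of CFT/Local (`IsLoc`, `LocAct`, `IsUnif`, `IsUnifFix`).
`TotRam p I L` : a totally ramified Galois extension `L/L^I` of local fields, `p` a uniformizer of `L^I`.
-/
import Fermat.Agent.TW56.Flat.Interface2
import Fermat.Agent.CFT.Local.Interface

set_option autoImplicit false

noncomputable section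

namespace Fermat.Agent.TW56.Flat

open Fermat.Agent.CFT.Local Polynomial

/-- the inertia subgroup of a group acting on a normed field (as a set) -/
def InertSet (G L : Type) [Group G] [NormedField L] [MulSemiringAction G L] : Set G :=
  {g | ∀ x : L, ‖x‖ ≤ 1 → ‖g • x - x‖ < 1}

/-- RAM-ABS1 : the inertia elements form a normal subgroup, the fixed field of inertia is unramified
and has the same residue field. -/
def Stmt_AbsInert : Prop :=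
  ∀ (G L : Type) [Group G] [Finite G] [NormedField L] [MulSemiringAction G L], LocAct G L →
    ∃ I : Subgroup G, I.Normal ∧ (∀ g, g ∈ I ↔ g ∈ InertSet G L) ∧
      (∀ ϖ : L, IsUnifFix (⊤ : Subgroup G) ϖ → IsUnifFix I ϖ) ∧
      (∀ x : L, ‖x‖ ≤ 1 → ∃ r : L, (∀ s ∈ I, s • r = r) ∧ ‖x - r‖ < 1)

/-- a totally ramified Galois extension with group `I`, `p` a uniformizer of the base -/
structure TotRam (p : ℕ) (I L : Type) [Group I] [Finite I] [NormedField L]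
    [MulSemiringAction I L] : Prop where
  act : LocAct I L
  inert : ∀ (s : I) (x : L), ‖x‖ ≤ 1 → ‖s • x - x‖ < 1
  unr : IsUnifFix (⊤ : Subgroup I) (p : L)
  res : ∀ x : L, ‖x‖ ≤ 1 → ∃ r : L, (∀ s : I, s • r = r) ∧ ‖x - r‖ < 1
  normp : ‖(p : L)‖ = (p : ℝ)⁻¹

/-- RAM-EXP : `O_{L^H} = O_{L^I}[ϖ]` for a uniformizer `ϖ` of `L^H`. -/
def Stmt_RamExp : Prop :=
  ∀ (p : ℕ) [Fact p.Prime] (I L : Type) [Group I] [Finite I] [NormedField L]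
    [MulSemiringAction I L], TotRam p I L → ∀ (H : Subgroup I) (ϖ : L), IsUnifFix H ϖ →
    ∀ x : L, (∀ h ∈ H, h • x = x) → ‖x‖ ≤ 1 →
      ∃ F : L[X], (∀ i, (∀ s : I, s • F.coeff i = F.coeff i) ∧ ‖F.coeff i‖ ≤ 1) ∧ F.eval ϖ = x

/-- RAM-DIFF : `‖s x - x‖ ≤ ‖s ϖ - ϖ‖` on `O_{L^H}`. -/
def Stmt_RamDiff : Prop :=
  ∀ (p : ℕ) [Fact p.Prime] (I L : Type) [Group I] [Finite I] [NormedField L]
    [MulSemiringAction I L], TotRam p I L → ∀ (H : Subgroup I) (ϖ : L), IsUnifFix H ϖ →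
    ∀ (s : I) (x : L), (∀ h ∈ H, h • x = x) → ‖x‖ ≤ 1 → ‖s • x - x‖ ≤ ‖s • ϖ - ϖ‖

/-- RAM-CARD : `e(L/L^H) = #H`. -/
def Stmt_RamCard : Prop :=
  ∀ (p : ℕ) [Fact p.Prime] (I L : Type) [Group I] [Finite I] [NormedField L]
    [MulSemiringAction I L], TotRam p I L → ∀ (H : Subgroup I) (ϖ Pi : L), IsUnifFix H ϖ →
    IsUnif Pi → ‖ϖ‖ = ‖Pi‖ ^ Nat.card H

/-- RAM-GPROD : `∏_{h ∈ H} ‖τ h Pi - Pi‖ ≤ sup_{x ∈ O_{L^H}} ‖τ x - x‖`. -/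
def Stmt_RamGProd : Prop :=
  ∀ (I L : Type) [Group I] [Finite I] [NormedField L] [MulSemiringAction I L], LocAct I L →
    ∀ (H : Subgroup I) (Pi : L) (τ : I) (B : ℝ), ‖Pi‖ ≤ 1 →
    (∀ x : L, (∀ h ∈ H, h • x = x) → ‖x‖ ≤ 1 → ‖τ • x - x‖ ≤ B) →
    ∏ᶠ h : H, ‖(τ * (h : I)) • Pi - Pi‖ ≤ B

/-- the bound for the different:  `v(𝔇) + (t+1) - 1 ≤ e p/(p-1)`. -/
def DB (p : ℕ) (I L : Type) [Group I] [NormedField L] [MulSemiringAction I L] (Pi : L) : Prop :=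
  ∀ s₁ : I, s₁ ≠ 1 → ‖(p : L)‖ ^ p * ‖Pi‖ ^ (p - 1) ≤
    ((∏ᶠ s : {s : I // s ≠ 1}, ‖(s : I) • Pi - Pi‖) * ‖s₁ • Pi - Pi‖) ^ (p - 1)

/-- RAM-KUM : Kummer extensions inside `L` and the bound `DB`. -/
def Stmt_RamKum : Prop :=
  ∀ (p : ℕ) [Fact p.Prime], p ≠ 2 → ∀ (I L : Type) [Group I] [Finite I] [NormedField L]
    [MulSemiringAction I L], TotRam p I L → ∀ Pi : L, IsUnif Pi → DB p I L Pi →
    ∀ (H₁ : Subgroup I) (π ζ a α : L), IsUnifFix H₁ π → (∀ h ∈ H₁, h • ζ = ζ) → ζ ≠ 1 →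
    ζ ^ p = 1 → (∀ h ∈ H₁, h • a = a) → α ^ p = a →
    (∀ n : ℕ, ¬ p ∣ n → ‖a‖ ≠ ‖π‖ ^ n) ∧
    (∀ j : ℕ, ¬ p ∣ j → ‖a - 1‖ = ‖π‖ ^ j → ‖a - 1‖ ^ ((p - 1) ^ 2) ≤ ‖(p : L)‖ ^ (p * (p - 2)))

/-- RAM-IMP : normal forms of classes in `Kˣ/Kˣᵖ`. -/
def Stmt_RamImp : Prop :=
  ∀ (p : ℕ) [Fact p.Prime], p ≠ 2 → ∀ (K : Type) [NormedField K], IsLoc K →
    ‖(p : K)‖ = (p : ℝ)⁻¹ → ∀ π : K, IsUnif π → ∀ a : K, a ≠ 0 → ∃ b : K, b ≠ 0 ∧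
    (‖a * b ^ p - 1‖ ^ ((p - 1) ^ 2) ≤ ‖(p : K)‖ ^ (p * (p - 2)) ∨
      (∃ n : ℕ, ¬ p ∣ n ∧ ‖a * b ^ p‖ = ‖π‖ ^ n) ∨
      (∃ j : ℕ, ¬ p ∣ j ∧ ‖a * b ^ p - 1‖ = ‖π‖ ^ j))

/-- RAM-INST : `Gal(M/ℚ_p)` acting on `M` is a `LocAct`; its inertia subgroup is a `TotRam`. -/
def Stmt_RamInst : Prop :=
  ∀ (p : ℕ) [Fact p.Prime] (M : IF p) [FiniteDimensional ℚ_[p] M] [Normal ℚ_[p] M],
    LocAct (GM p M) M ∧ IsUnifFix (⊤ : Subgroup (GM p M)) ((p : ℕ) : M) ∧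
    ∀ I : Subgroup (GM p M), (∀ g, g ∈ I ↔ IsInert p M g) → TotRam p I M

/-- RAM-TWIN : Fontaine's property implies the bound for the different (Eisenstein twin). -/
def Stmt_RamTwin : Prop :=
  ∀ (p : ℕ) [Fact p.Prime], p ≠ 2 → ∀ M : IF p, FiniteDimensional ℚ_[p] M → Normal ℚ_[p] M →
    HasPm p M → ∀ I : Subgroup (GM p M), (∀ g, g ∈ I ↔ IsInert p M g) →
    ∀ Pi : M, IsUnif Pi → DB p I M Pi

/-! ### sub-packages of RAM-TWIN -/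

/-- polynomials with coefficients in `O_{L^I}` -/
def IntCoeff (I L : Type) [Group I] [NormedField L] [MulSemiringAction I L] (F : L[X]) : Prop :=
  ∀ i, (∀ s : I, s • F.coeff i = F.coeff i) ∧ ‖F.coeff i‖ ≤ 1

/-- TWIN-A : the Eisenstein polynomial `P₀ = ∏_s (X - s Pi)` of a uniformizer. -/
def Stmt_TwinA : Prop :=
  ∀ (p : ℕ) [Fact p.Prime] (I L : Type) [Group I] [Finite I] [NormedField L]
    [MulSemiringAction I L], TotRam p I L → ∀ Pi : L, IsUnif Pi →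
    (∏ᶠ s : I, (X - C (s • Pi))).Monic ∧ (∏ᶠ s : I, (X - C (s • Pi))).natDegree = Nat.card I ∧
    IntCoeff I L (∏ᶠ s : I, (X - C (s • Pi))) ∧
    (∀ i, i < Nat.card I → ‖(∏ᶠ s : I, (X - C (s • Pi))).coeff i‖ ≤ ‖(p : L)‖) ∧
    ‖(∏ᶠ s : I, (X - C (s • Pi))).coeff 0‖ = ‖(p : L)‖ ∧
    (∀ s : I, s • Pi = Pi → s = 1) ∧
    (∀ F : L[X], IntCoeff I L F → F.eval Pi = 0 →
      ∃ q : L[X], IntCoeff I L q ∧ F = (∏ᶠ s : I, (X - C (s • Pi))) * q)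

/-- TWIN-GAP : `D m / ‖Pi‖` is not a value of `‖P₀(β)‖`, `β ∈ L`. -/
def Stmt_TwinGap : Prop :=
  ∀ (p : ℕ) [Fact p.Prime] (I L : Type) [Group I] [Finite I] [NormedField L]
    [MulSemiringAction I L], TotRam p I L → ∀ Pi : L, IsUnif Pi → ∀ s₁ : I, s₁ ≠ 1 →
    (∀ s : I, s ≠ 1 → ‖s₁ • Pi - Pi‖ ≤ ‖s • Pi - Pi‖) → ∀ β : L,
    (∏ᶠ s : I, ‖β - s • Pi‖) * ‖Pi‖ ≠
      (∏ᶠ s : {s : I // s ≠ 1}, ‖(s : I) • Pi - Pi‖) * ‖s₁ • Pi - Pi‖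

/-- TWIN-FIELD : `E = M^I(β)`, `β` a root of a monic polynomial of degree `#I` over `M^I`. -/
def Stmt_TwinField : Prop :=
  ∀ (p : ℕ) [Fact p.Prime] (M : IF p), FiniteDimensional ℚ_[p] M → Normal ℚ_[p] M →
    ∀ (I : Subgroup (GM p M)) (Q : (Om p)[X]) (β : Om p), Q.Monic → Q.natDegree = Nat.card I →
    (∀ i, ∃ x : M, (x : Om p) = Q.coeff i ∧ ∀ s ∈ I, s x = x) → Q.eval β = 0 →
    FiniteDimensional ℚ_[p] (IntermediateField.adjoin ℚ_[p]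
      ({y : Om p | ∃ x : M, (x : Om p) = y ∧ ∀ s ∈ I, s x = x} ∪ {β})) ∧
    (M ≤ IntermediateField.adjoin ℚ_[p]
      ({y : Om p | ∃ x : M, (x : Om p) = y ∧ ∀ s ∈ I, s x = x} ∪ {β}) → β ∈ M)

end Fermat.Agent.TW56.Flat

end
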