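/-
TEAM TW56 -> S56, block FLAT, sub-block RAM.  RAM-ABS1 : the inertia subgroup is normal, its fixed
field is unramified and has the same residue field.
-/
import Fermat.Agent.TW56.Flat.RamInterface
import Fermat.Agent.CFT.Local.Reps
import Fermat.Agent.CFT.Local.FixedLoc
import Fermat.Agent.CFT.Local.LayerAct

set_option autoImplicit false

noncomputable section

namespace Fermat.Agent.TW56.Flat

open Fermat.Agent.CFT.Local Polynomial Filter Topology

attribute [local instance] quotAct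

/-! ### powers of congruent elements -/

section Pow

variable {L : Type*} [NormedField L] [IsUltrametricDist L]

theorem AbsInert_pow_expand (b d : L) (hb : ‖b‖ ≤ 1) (hd : ‖d‖ ≤ 1) (n : ℕ) :
    ∃ c : L, ‖c‖ ≤ 1 ∧
      (b + d) ^ (n + 1) = b ^ (n + 1) + ((n + 1 : ℕ) : L) * b ^ n * d + c * d ^ 2 := by
  induction n with
  | zero => exact ⟨0, by simp, by simp⟩
  | succ n ih =>
    obtain ⟨c, hc, h⟩ := ih
    have hbd : ‖b + d‖ ≤ 1 := (IsUltrametricDist.norm_add_le_max _ _).trans (max_le hb hd)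
    refine ⟨((n + 1 : ℕ) : L) * b ^ n + c * (b + d), ?_, ?_⟩
    · refine (IsUltrametricDist.norm_add_le_max _ _).trans (max_le ?_ ?_)
      · rw [norm_mul, norm_pow]
        exact mul_le_one₀ (IsUltrametricDist.norm_natCast_le_one L _) (by positivity)
          (pow_le_one₀ (norm_nonneg _) hb)
      · rw [norm_mul]
        exact mul_le_one₀ hc (norm_nonneg _) hbd
    · rw [pow_succ, h]
      push_cast
      ring

theorem AbsInert_pow_sub_pow_le (a b : L) (ha : ‖a‖ ≤ 1) (hb : ‖b‖ ≤ 1) (Q : ℕ) (hQ : 0 < Q) :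
    ‖a ^ Q - b ^ Q‖ ≤ ‖a - b‖ * max ‖(Q : L)‖ ‖a - b‖ := by
  obtain ⟨n, rfl⟩ : ∃ n, Q = n + 1 := ⟨Q - 1, by omega⟩
  have hd : ‖a - b‖ ≤ 1 := by
    rw [sub_eq_add_neg]
    exact (IsUltrametricDist.norm_add_le_max _ _).trans (max_le ha (by rwa [norm_neg]))
  obtain ⟨c, hc, h⟩ := AbsInert_pow_expand b (a - b) hb hd n
  rw [add_sub_cancel] at h
  have e : a ^ (n + 1) - b ^ (n + 1) = ((n + 1 : ℕ) : L) * b ^ n * (a - b) + c * (a - b) ^ 2 := by
    rw [h]; ring
  rw [e]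
  refine (IsUltrametricDist.norm_add_le_max _ _).trans (max_le ?_ ?_)
  · rw [norm_mul, norm_mul, norm_pow, mul_comm]
    refine mul_le_mul_of_nonneg_left ?_ (norm_nonneg _)
    refine le_trans ?_ (le_max_left _ _)
    exact mul_le_of_le_one_right (norm_nonneg _) (pow_le_one₀ (norm_nonneg _) hb)
  · rw [norm_mul, norm_pow, sq, ← mul_assoc, mul_comm]
    refine mul_le_mul_of_nonneg_left ?_ (norm_nonneg _)
    refine le_trans ?_ (le_max_right _ _)
    exact mul_le_of_le_one_left (norm_nonneg _) hc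

/-- two congruent solutions of `X ^ Q = X` are equal. -/
theorem AbsInert_teich_unique (Q : ℕ) (hQ : 0 < Q) (hQ1 : ‖(Q : L)‖ < 1) (y y' : L)
    (hy1 : ‖y‖ ≤ 1) (hy'1 : ‖y'‖ ≤ 1) (hy : y ^ Q = y) (hy' : y' ^ Q = y') (h : ‖y - y'‖ < 1) :
    y = y' := by
  by_contra hne
  have hpos : 0 < ‖y - y'‖ := norm_pos_iff.2 (sub_ne_zero.2 hne)
  have h1 := AbsInert_pow_sub_pow_le y y' hy1 hy'1 Q hQ
  rw [hy, hy'] at h1
  have h2 : max ‖(Q : L)‖ ‖y - y'‖ < 1 := max_lt hQ1 h
  have h3 : ‖y - y'‖ * max ‖(Q : L)‖ ‖y - y'‖ < ‖y - y'‖ * 1 :=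
    mul_lt_mul_of_pos_left h2 hpos
  rw [mul_one] at h3
  exact absurd h1 (not_le.2 h3)

/-- Teichmüller representatives. -/
theorem AbsInert_teich_exists [CompleteSpace L] (Q : ℕ) (hQ : 0 < Q) (hQ1 : ‖(Q : L)‖ < 1) (x : L)
    (hx : ‖x‖ ≤ 1) (hxQ : ‖x ^ Q - x‖ < 1) : ∃ T : L, T ^ Q = T ∧ ‖T‖ ≤ 1 ∧ ‖x - T‖ < 1 := by
  set θ : ℝ := max ‖(Q : L)‖ ‖x ^ Q - x‖ with hθ
  have hθ1 : θ < 1 := max_lt hQ1 hxQ
  have hθ0 : 0 ≤ θ := (norm_nonneg _).trans (le_max_left _ _)
  let u : ℕ → L := fun n => x ^ (Q ^ n)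
  have hu1 : ∀ n, ‖u n‖ ≤ 1 := fun n => by
    show ‖x ^ (Q ^ n)‖ ≤ 1
    rw [norm_pow]; exact pow_le_one₀ (norm_nonneg _) hx
  have husucc : ∀ n, u (n + 1) = u n ^ Q := fun n => by
    show x ^ (Q ^ (n + 1)) = (x ^ (Q ^ n)) ^ Q
    rw [← pow_mul, pow_succ]
  have hδ : ∀ n, ‖u (n + 1) - u n‖ ≤ θ ^ (n + 1) := by
    intro n
    induction n with
    | zero =>
      show ‖x ^ (Q ^ (0 + 1)) - x ^ (Q ^ 0)‖ ≤ θ ^ (0 + 1)
      simp only [zero_add, pow_one, pow_zero]
      exact le_max_right _ _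
    | succ n ih =>
      have e : u (n + 1 + 1) - u (n + 1) = u (n + 1) ^ Q - u n ^ Q := by
        rw [husucc (n + 1), ← husucc n]
      rw [e]
      refine (AbsInert_pow_sub_pow_le _ _ (hu1 _) (hu1 _) Q hQ).trans ?_
      rw [pow_succ θ (n + 1)]
      refine mul_le_mul ih (max_le (le_max_left _ _) (ih.trans ?_)) ?_ (by positivity)
      · exact pow_le_of_le_one hθ0 hθ1.le (Nat.succ_ne_zero n)
      · exact (norm_nonneg _).trans (le_max_left _ _)
  have hcau : CauchySeq u := by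
    refine cauchySeq_of_le_geometric θ θ hθ1 fun n => ?_
    rw [dist_eq_norm, norm_sub_rev, mul_comm, ← pow_succ]
    exact hδ n
  obtain ⟨T, hT⟩ := cauchySeq_tendsto_of_complete hcau
  have hclose : ∀ n, ‖u n - x‖ ≤ θ := by
    intro n
    induction n with
    | zero =>
      show ‖x ^ (Q ^ 0) - x‖ ≤ θ
      simpa using hθ0
    | succ n ih =>
      have : u (n + 1) - x = (u (n + 1) - u n) + (u n - x) := by ring
      rw [this]
      refine (IsUltrametricDist.norm_add_le_max _ _).trans (max_le ((hδ n).trans ?_) ih)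
      exact pow_le_of_le_one hθ0 hθ1.le (Nat.succ_ne_zero n)
  refine ⟨T, ?_, ?_, ?_⟩
  · have h1 : Tendsto (fun n => u n ^ Q) atTop (𝓝 (T ^ Q)) := hT.pow Q
    have h2 : Tendsto (fun n => u (n + 1)) atTop (𝓝 T) := (tendsto_add_atTop_iff_nat 1).2 hT
    simp only [husucc] at h2
    exact tendsto_nhds_unique h1 h2
  · exact le_of_tendsto hT.norm (Eventually.of_forall hu1)
  · rw [norm_sub_rev]
    exact lt_of_le_of_lt (le_of_tendsto (hT.sub_const x).norm (Eventually.of_forall hclose)) hθ1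

end Pow

/-! ### the unramifiedness criterion -/

section Unr

variable {K : Type} [NormedField K] [IsUltrametricDist K]

/-- a product of monic linear factors with integral roots has integral coefficients. -/
theorem AbsInert_coeff_le {ι : Type*} (s : Finset ι) (a : ι → K) (ha : ∀ i ∈ s, ‖a i‖ ≤ 1) (k : ℕ) :
    ‖(∏ i ∈ s, (X - C (a i))).coeff k‖ ≤ 1 := by
  have h : (∏ i ∈ s, (X - C (a i))) ∈ Polynomial.lifts (repsO K).subtype := by
    refine Subsemiring.prod_mem _ fun i hi => ?_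
    rw [Polynomial.mem_lifts]
    exact ⟨X - C ⟨a i, ha i hi⟩, by simp⟩
  rw [Polynomial.lifts_iff_coeff_lifts] at h
  obtain ⟨y, hy⟩ := h k
  rw [← hy]
  exact y.2

/-- if `ζ` is integral and its conjugates are pairwise incongruent, every norm is the norm of an
invariant element. -/
theorem AbsInert_unram {Γ : Type} [Group Γ] [Finite Γ] [MulSemiringAction Γ K]
    (hiso : ∀ (γ : Γ) (x : K), ‖γ • x‖ = ‖x‖) (ζ : K) (hζ : ‖ζ‖ ≤ 1)
    (hsep : ∀ γ : Γ, γ ≠ 1 → ‖γ • ζ - ζ‖ = 1) (x : K) :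
    ∃ t : K, (∀ γ : Γ, γ • t = t) ∧ ‖t‖ = ‖x‖ := by
  classical
  have := Fintype.ofFinite Γ
  set N : K[X] := ∏ γ ∈ (Finset.univ : Finset Γ).erase 1, (X - C (γ • ζ)) with hN
  let t : ℕ → K := fun k => ∑ γ : Γ, γ • (x * ζ ^ k)
  have htfix : ∀ k (γ' : Γ), γ' • t k = t k := by
    intro k γ'
    show γ' • ∑ γ : Γ, γ • (x * ζ ^ k) = ∑ γ : Γ, γ • (x * ζ ^ k)
    rw [Finset.smul_sum]
    exact Fintype.sum_equiv (Equiv.mulLeft γ') _ _ fun γ => by
      rw [Equiv.coe_mulLeft, mul_smul]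
  have htle : ∀ k, ‖t k‖ ≤ ‖x‖ := by
    intro k
    refine IsUltrametricDist.norm_sum_le_of_forall_le_of_nonneg (norm_nonneg _) fun γ _ => ?_
    rw [hiso, norm_mul, norm_pow]
    exact mul_le_of_le_one_right (norm_nonneg _) (pow_le_one₀ (norm_nonneg _) hζ)
  have hcoeff : ∀ k, ‖N.coeff k‖ ≤ 1 := fun k =>
    AbsInert_coeff_le _ _ (fun γ _ => by rw [hiso]; exact hζ) k
  have heval0 : ∀ γ : Γ, γ ≠ 1 → N.eval (γ • ζ) = 0 := by
    intro γ hγ
    rw [hN, Polynomial.eval_prod]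
    exact Finset.prod_eq_zero (Finset.mem_erase.2 ⟨hγ, Finset.mem_univ γ⟩) (by simp)
  have heval1 : ‖N.eval ζ‖ = 1 := by
    rw [hN, Polynomial.eval_prod, norm_prod]
    refine Finset.prod_eq_one fun γ hγ => ?_
    rw [eval_sub, eval_X, eval_C, norm_sub_rev]
    exact hsep γ (Finset.mem_erase.1 hγ).1
  have hid : ∑ k ∈ Finset.range (N.natDegree + 1), N.coeff k * t k = x * N.eval ζ := by
    have h1 : ∀ k, N.coeff k * t k = ∑ γ : Γ, (γ • x) * (N.coeff k * (γ • ζ) ^ k) := by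
      intro k
      show N.coeff k * ∑ γ : Γ, γ • (x * ζ ^ k) = _
      rw [Finset.mul_sum]
      refine Finset.sum_congr rfl fun γ _ => ?_
      rw [smul_mul', smul_pow']
      ring
    simp only [h1]
    rw [Finset.sum_comm]
    simp only [← Finset.mul_sum, ← Polynomial.eval_eq_sum_range]
    rw [Finset.sum_eq_single (1 : Γ)]
    · rw [one_smul, one_smul]
    · intro γ _ hγ
      rw [heval0 γ hγ, mul_zero]
    · intro h
      exact absurd (Finset.mem_univ _) h
  obtain ⟨k, -, hk⟩ := IsUltrametricDist.exists_norm_finsetSum_le_of_nonempty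
    (t := Finset.range (N.natDegree + 1)) ⟨0, by simp⟩ (fun k => N.coeff k * t k)
  rw [hid, norm_mul, heval1, mul_one, norm_mul] at hk
  refine ⟨t k, htfix k, le_antisymm (htle k) (hk.trans ?_)⟩
  exact mul_le_of_le_one_left (norm_nonneg _) (hcoeff k)

end Unr

/-! ### the inertia subgroup -/

section Inert

variable {G L : Type} [Group G] [Finite G] [NormedField L] [MulSemiringAction G L]

/-- the inertia subgroup. -/
def AbsInert_I (h : LocAct G L) : Subgroup G where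
  carrier := InertSet G L
  one_mem' := fun x _ => by rw [one_smul, sub_self, norm_zero]; exact zero_lt_one
  mul_mem' := by
    intro a b ha hb x hx
    have := h.loc.ultra
    have e : (a * b) • x - x = (a • (b • x) - b • x) + (b • x - x) := by rw [mul_smul]; ring
    rw [e]
    exact (IsUltrametricDist.norm_add_le_max _ _).trans_lt
      (max_lt (ha _ (by rw [h.isom]; exact hx)) (hb x hx))
  inv_mem' := by
    intro a ha x hx
    have e : ‖a⁻¹ • x - x‖ = ‖a • (a⁻¹ • x - x)‖ := (h.isom a _).symm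
    rw [e, smul_sub, smul_inv_smul, norm_sub_rev]
    exact ha x hx

theorem AbsInert_mem_I (h : LocAct G L) (g : G) : g ∈ AbsInert_I h ↔ g ∈ InertSet G L := Iff.rfl

theorem AbsInert_normal (h : LocAct G L) : (AbsInert_I h).Normal := by
  refine ⟨fun n hn g x hx => ?_⟩
  have e : (g * n * g⁻¹) • x - x = g • (n • (g⁻¹ • x) - g⁻¹ • x) := by
    rw [smul_sub, smul_inv_smul, mul_smul, mul_smul]
  rw [e, h.isom]
  exact hn _ (by rw [h.isom]; exact hx)

end Inert

/-- RAM-ABS1 -/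
theorem absInert : Stmt_AbsInert := by
  intro G L _ _ _ _ h
  have hU := h.loc.ultra
  have hC := h.loc.complete
  set Q : ℕ := resCard L with hQdef
  have hQ1 : 1 < Q := one_lt_resCard h.loc
  have hQ0 : 0 < Q := by omega
  have hQn : ‖(Q : L)‖ < 1 := norm_resCard_lt h.loc
  have hnorm := AbsInert_normal h
  set I : Subgroup G := AbsInert_I h with hI
  -- Teichmüller representatives
  have hT : ∀ x : L, ‖x‖ ≤ 1 → ∃ T : L, T ^ Q = T ∧ ‖T‖ ≤ 1 ∧ ‖x - T‖ < 1 := fun x hx =>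
    AbsInert_teich_exists Q hQ0 hQn x hx (norm_pow_resCard_sub_lt h.loc x hx)
  have hfixT : ∀ r : L, r ^ Q = r → ‖r‖ ≤ 1 → ∀ s ∈ I, s • r = r := by
    intro r hr hr1 s hs
    refine AbsInert_teich_unique Q hQ0 hQn _ _ (by rw [h.isom]; exact hr1) hr1 ?_ hr (hs r hr1)
    rw [← smul_pow', hr]
  -- a generator of the roots of unity of order `Q - 1`
  have : NeZero (Q - 1) := ⟨by omega⟩
  have := rootsOfUnity.isCyclic L (Q - 1)
  obtain ⟨ζu, hζu⟩ := IsCyclic.exists_monoid_generator (α := rootsOfUnity (Q - 1) L)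
  set ζ : L := ((ζu : Lˣ) : L) with hζdef
  have hζpow : ζ ^ (Q - 1) = 1 := by
    have h1 := (mem_rootsOfUnity (Q - 1) (ζu : Lˣ)).1 ζu.2
    have h2 := congrArg (fun u : Lˣ => (u : L)) h1
    simpa using h2
  have hζQ : ζ ^ Q = ζ := by
    have : Q = (Q - 1) + 1 := by omega
    rw [this, pow_succ, hζpow, one_mul]
  have hζ1 : ‖ζ‖ = 1 := by
    have h1 : ‖ζ‖ ^ (Q - 1) = 1 := by rw [← norm_pow, hζpow, norm_one]
    exact (pow_eq_one_iff_of_nonneg (norm_nonneg ζ) (by omega)).1 h1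
  have hgen : ∀ r : L, r ^ Q = r → r = 0 ∨ ∃ k : ℕ, r = ζ ^ k := by
    intro r hr
    by_cases hr0 : r = 0
    · exact Or.inl hr0
    right
    have hr1 : r ^ (Q - 1) = 1 := by
      have e : Q = (Q - 1) + 1 := by omega
      rw [e, pow_succ] at hr
      exact mul_right_cancel₀ hr0 (by rw [hr, one_mul])
    have hmem : Units.mk0 r hr0 ∈ rootsOfUnity (Q - 1) L := by
      rw [mem_rootsOfUnity]
      apply Units.ext
      simpa using hr1
    obtain ⟨k, hk⟩ := hζu ⟨Units.mk0 r hr0, hmem⟩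
    refine ⟨k, ?_⟩
    have h2 := congrArg (fun u : rootsOfUnity (Q - 1) L => ((u : Lˣ) : L)) hk
    simpa using h2.symm
  have hstab : ∀ g : G, g • ζ = ζ → g ∈ I := by
    intro g hg x hx
    obtain ⟨T, hTQ, hT1, hxT⟩ := hT x hx
    have hgT : g • T = T := by
      rcases hgen T hTQ with rfl | ⟨k, rfl⟩
      · exact smul_zero g
      · rw [smul_pow', hg]
    have e : g • x - x = g • (x - T) + (T - x) := by rw [smul_sub, hgT]; ring
    rw [e]
    refine (IsUltrametricDist.norm_add_le_max _ _).trans_lt (max_lt ?_ ?_)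
    · rw [h.isom]; exact hxT
    · rw [norm_sub_rev]; exact hxT
  have hsep : ∀ g : G, g ∉ I → ‖g • ζ - ζ‖ = 1 := by
    intro g hg
    have hle : ‖g • ζ - ζ‖ ≤ 1 := by
      rw [sub_eq_add_neg]
      refine (IsUltrametricDist.norm_add_le_max _ _).trans (max_le ?_ ?_)
      · rw [h.isom, hζ1]
      · rw [norm_neg, hζ1]
    refine le_antisymm hle (not_lt.1 fun hlt => hg (hstab g ?_))
    refine AbsInert_teich_unique Q hQ0 hQn _ _ (by rw [h.isom, hζ1]) hζ1.le ?_ hζQ hlt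
    rw [← smul_pow', hζQ]
  refine ⟨I, hnorm, fun g => Iff.rfl, ?_, ?_⟩
  · -- unramified
    rintro ϖ ⟨h0, h1, h2, h3⟩
    refine ⟨h0, h1, fun s _ => h2 s (Subgroup.mem_top s), fun x hx hxfix => ?_⟩
    have hlay := layerAct fixedLoc G L h I
    have hU1 := hlay.loc.ultra
    let ζ1 : FixedPoints.subfield I L := ⟨ζ, fixedLoc_mem_subfield.2 (hfixT ζ hζQ hζ1.le)⟩
    let x1 : FixedPoints.subfield I L := ⟨x, fixedLoc_mem_subfield.2 hxfix⟩
    obtain ⟨t, htfix, htx⟩ := AbsInert_unram (Γ := G ⧸ I) hlay.isom ζ1 hζ1.le (by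
      intro γ hγ
      induction γ using QuotientGroup.induction_on with
      | H g =>
        have hg : g ∉ I := fun hg => hγ ((QuotientGroup.eq_one_iff g).2 hg)
        exact hsep g hg) x1
    have htx' : ‖(t : L)‖ = ‖x‖ := htx
    have ht0 : (t : L) ≠ 0 := by
      intro h0'
      rw [h0', norm_zero] at htx'
      exact hx (norm_eq_zero.1 htx'.symm)
    obtain ⟨k, hk⟩ := h3 (t : L) ht0 (fun g _ =>
      congrArg (fun y : FixedPoints.subfield I L => (y : L)) (htfix (g : G ⧸ I)))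
    exact ⟨k, by rw [← htx', hk]⟩
  · intro x hx
    obtain ⟨T, hTQ, hT1, hxT⟩ := hT x hx
    exact ⟨T, hfixT T hTQ hT1, hxT⟩

end Fermat.Agent.TW56.Flat

end
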