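import Fermat.Agent.TW56.Flat.Interface

/-!
# TW56 / Flat / InertSub : the inertia elements of `Gal(M/ℚ_p)` form a subgroup; isometry; conjugation
-/

set_option autoImplicit false

noncomputable section

namespace Fermat.Agent.TW56.Flat

variable {p : ℕ} [Fact p.Prime]

theorem InertSub_normalOm : Normal ℚ_[p] (Om p) := by
  have : Algebra.IsAlgebraic ℚ_[p] (Om p) := AlgebraicClosure.isAlgebraic ℚ_[p]
  have : IsAlgClosed (Om p) := inferInstanceAs (IsAlgClosed (AlgebraicClosure ℚ_[p]))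
  have : IsAlgClosure ℚ_[p] (Om p) := ⟨inferInstance, inferInstance⟩
  exact IsAlgClosure.normal ℚ_[p] (Om p)

/-- the Galois group acts by isometries. -/
theorem InertSub_norm_Gp (τ : Gp p) (x : Om p) : ‖τ x‖ = ‖x‖ :=
  congrArg NNReal.toReal (nnnorm_padicAlgCl_algEquiv p τ x)

theorem InertSub_norm_GM {M : IF p} (g : GM p M) (x : M) :
    ‖((g x : M) : Om p)‖ = ‖(x : Om p)‖ := by
  have := InertSub_normalOm (p := p)
  have h := AlgEquiv.liftNormal_commutes g (Om p) x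
  have h' : ((g x : M) : Om p) = g.liftNormal (Om p) (x : Om p) := h.symm
  rw [h', InertSub_norm_Gp]

theorem InertSub_mem {M : IF p} [Normal ℚ_[p] M] (τ : Gp p) {x : Om p} (hx : x ∈ M) :
    τ x ∈ M := by
  have h := AlgEquiv.restrictNormal_commutes τ M ⟨x, hx⟩
  have h' : τ x = ((τ.restrictNormal M ⟨x, hx⟩ : M) : Om p) := h.symm
  rw [h']
  exact (τ.restrictNormal M ⟨x, hx⟩).2

theorem InertSub_coe_restrictNormal {M : IF p} [Normal ℚ_[p] M] (τ : Gp p) (x : M) :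
    ((τ.restrictNormal M x : M) : Om p) = τ (x : Om p) :=
  AlgEquiv.restrictNormal_commutes τ M x

theorem InertSub_norm_p : ‖(p : Om p)‖ = (p : ℝ)⁻¹ := by
  have h := PadicAlgCl.norm_extends p (p : ℚ_[p])
  rw [Padic.norm_p] at h
  rw [← h]
  simp

theorem InertSub_lt_of_lt {a b c : Om p} (h1 : ‖a - b‖ < 1) (h2 : ‖b - c‖ < 1) : ‖a - c‖ < 1 := by
  have e : a - c = (a - b) + (b - c) := by ring
  rw [e]
  exact lt_of_le_of_lt (IsUltrametricDist.norm_add_le_max _ _) (max_lt h1 h2)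

/-! ### `IsInertGp` -/

theorem InertSub_Gp_one (M : IF p) : IsInertGp p M 1 := by
  intro x _ _
  simp

theorem InertSub_Gp_mul {M : IF p} [Normal ℚ_[p] M] {τ τ' : Gp p} (h : IsInertGp p M τ)
    (h' : IsInertGp p M τ') : IsInertGp p M (τ * τ') := by
  intro x hx hx1
  have h1 : ‖τ (τ' x) - τ' x‖ < 1 :=
    h (τ' x) (InertSub_mem τ' hx) (by rw [InertSub_norm_Gp]; exact hx1)
  exact InertSub_lt_of_lt h1 (h' x hx hx1)

theorem InertSub_Gp_inv {M : IF p} {τ : Gp p} (h : IsInertGp p M τ) : IsInertGp p M τ⁻¹ := by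
  intro x hx hx1
  have e : ‖τ⁻¹ x - x‖ = ‖τ x - x‖ := by
    rw [← InertSub_norm_Gp τ (τ⁻¹ x - x), map_sub, ← norm_neg]
    congr 1
    have : τ (τ⁻¹ x) = x := τ.apply_symm_apply x
    rw [this]
    ring
  rw [e]
  exact h x hx hx1

theorem InertSub_Gp_conj {M : IF p} [Normal ℚ_[p] M] {τ : Gp p} (h : IsInertGp p M τ)
    (σ : Gp p) : IsInertGp p M (σ * τ * σ⁻¹) := by
  intro x hx hx1
  have h1 : ‖τ (σ⁻¹ x) - σ⁻¹ x‖ < 1 :=
    h (σ⁻¹ x) (InertSub_mem σ⁻¹ hx) (by rw [InertSub_norm_Gp]; exact hx1)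
  rw [← InertSub_norm_Gp σ, map_sub] at h1
  have e : σ (σ⁻¹ x) = x := σ.apply_symm_apply x
  rw [e] at h1
  exact h1

/-- the inertia elements of `Gal(ℚ̄_p/ℚ_p)` relative to `M`, as a subgroup. -/
def InertSub_Gp (M : IF p) [Normal ℚ_[p] M] : Subgroup (Gp p) where
  carrier := {τ | IsInertGp p M τ}
  mul_mem' := InertSub_Gp_mul
  one_mem' := InertSub_Gp_one M
  inv_mem' := InertSub_Gp_inv

theorem InertSub_mem_Gp {M : IF p} [Normal ℚ_[p] M] (τ : Gp p) :
    τ ∈ InertSub_Gp M ↔ IsInertGp p M τ := Iff.rfl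

theorem InertSub_Gp_normal (M : IF p) [Normal ℚ_[p] M] : (InertSub_Gp M).Normal :=
  ⟨fun _ h σ => InertSub_Gp_conj h σ⟩

/-! ### `IsInert` -/

theorem InertSub_one (M : IF p) : IsInert p M 1 := by
  intro x _
  simp

theorem InertSub_mul {M : IF p} {g g' : GM p M} (h : IsInert p M g) (h' : IsInert p M g') :
    IsInert p M (g * g') := by
  intro x hx1
  have h1 : ‖((g (g' x) : M) : Om p) - ((g' x : M) : Om p)‖ < 1 :=
    h (g' x) (by rw [InertSub_norm_GM]; exact hx1)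
  exact InertSub_lt_of_lt h1 (h' x hx1)

theorem InertSub_inv {M : IF p} {g : GM p M} (h : IsInert p M g) : IsInert p M g⁻¹ := by
  intro x hx1
  have e : ‖((g⁻¹ x : M) : Om p) - (x : Om p)‖ = ‖((g x : M) : Om p) - (x : Om p)‖ := by
    have e1 : ((g⁻¹ x : M) : Om p) - (x : Om p) = ((g⁻¹ x - x : M) : Om p) := rfl
    have e2 : ((g x : M) : Om p) - (x : Om p) = ((g x - x : M) : Om p) := rfl
    rw [e1, e2, ← InertSub_norm_GM g (g⁻¹ x - x), map_sub, ← norm_neg]
    congr 1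
    have : g (g⁻¹ x) = x := g.apply_symm_apply x
    rw [this]
    push_cast
    ring
  rw [e]
  exact h x hx1

theorem InertSub_conj {M : IF p} {g : GM p M} (h : IsInert p M g) (s : GM p M) :
    IsInert p M (s * g * s⁻¹) := by
  intro x hx1
  have h1 : ‖((g (s⁻¹ x) : M) : Om p) - ((s⁻¹ x : M) : Om p)‖ < 1 :=
    h (s⁻¹ x) (by rw [InertSub_norm_GM]; exact hx1)
  have e1 : ((g (s⁻¹ x) : M) : Om p) - ((s⁻¹ x : M) : Om p) = ((g (s⁻¹ x) - s⁻¹ x : M) : Om p) :=
    rfl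
  rw [e1, ← InertSub_norm_GM s, map_sub] at h1
  have e : s (s⁻¹ x) = x := s.apply_symm_apply x
  rw [e] at h1
  exact h1

/-- the inertia subgroup of `Gal(M/ℚ_p)`. -/
def InertSub_GM (M : IF p) : Subgroup (GM p M) where
  carrier := {g | IsInert p M g}
  mul_mem' := InertSub_mul
  one_mem' := InertSub_one M
  inv_mem' := InertSub_inv

theorem InertSub_mem_GM {M : IF p} (g : GM p M) : g ∈ InertSub_GM M ↔ IsInert p M g := Iff.rfl

theorem InertSub_GM_normal (M : IF p) : (InertSub_GM M).Normal :=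
  ⟨fun _ h s => InertSub_conj h s⟩

/-- compatibility of the two notions. -/
theorem InertSub_iff_restrict {M : IF p} [Normal ℚ_[p] M] (τ : Gp p) :
    IsInertGp p M τ ↔ IsInert p M (τ.restrictNormal M) := by
  constructor
  · intro h x hx1
    rw [InertSub_coe_restrictNormal]
    exact h x x.2 hx1
  · intro h x hx hx1
    have := h ⟨x, hx⟩ hx1
    rwa [InertSub_coe_restrictNormal] at this

/-- **FL-INSUB** -/
theorem inertSub : Stmt_InertSub := by
  intro p _ M _ _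
  exact ⟨InertSub_GM M, fun _ => Iff.rfl⟩

end Fermat.Agent.TW56.Flat

end
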