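/-
TEAM TW56 -> S56, block FLAT, sub-block RAM : RAM-INST, `Gal(M/ℚ_p)` acting on `M` is a `LocAct`;
its inertia subgroup is a `TotRam`.
-/
import Fermat.Agent.TW56.Flat.RamInterface
import Fermat.Agent.TW56.Flat.InertSub
import Fermat.Agent.CFT.Local.PadicLoc

set_option autoImplicit false

noncomputable section

namespace Fermat.Agent.TW56.Flat

open Fermat.Agent.CFT.Local Polynomial

variable {p : ℕ} [Fact p.Prime]

theorem RamInst_norm_coe (M : IF p) (x : M) : ‖x‖ = ‖(x : Om p)‖ := rfl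

theorem RamInst_norm_p (M : IF p) : ‖((p : ℕ) : M)‖ = (p : ℝ)⁻¹ := by
  rw [RamInst_norm_coe, ← InertSub_norm_p (p := p)]
  simp

theorem RamInst_locAct (M : IF p) [FiniteDimensional ℚ_[p] M] [Normal ℚ_[p] M] :
    LocAct (GM p M) M where
  loc := padicLoc p M inferInstance
  faithful := ⟨fun h => AlgEquiv.ext h⟩
  isom g x := InertSub_norm_GM g x

theorem RamInst_unifTop (M : IF p) [FiniteDimensional ℚ_[p] M] [Normal ℚ_[p] M] :
    IsUnifFix (⊤ : Subgroup (GM p M)) ((p : ℕ) : M) := by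
  have hp : (p : ℕ).Prime := Fact.out
  have hp1 : (1 : ℝ) < p := by exact_mod_cast hp.one_lt
  refine ⟨by exact_mod_cast hp.ne_zero, ?_, fun h _ => map_natCast h p, fun x hx0 hx => ?_⟩
  · rw [RamInst_norm_p]
    exact inv_lt_one_of_one_lt₀ hp1
  · have : IsGalois ℚ_[p] M := ⟨⟩
    have hbot : x ∈ (⊥ : IntermediateField ℚ_[p] M) :=
      (IsGalois.mem_bot_iff_fixed x).2 fun f => hx f (Subgroup.mem_top f)
    obtain ⟨y, rfl⟩ := IntermediateField.mem_bot.1 hbot
    have hy0 : y ≠ 0 := by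
      rintro rfl
      exact hx0 (map_zero _)
    refine ⟨y.valuation, ?_⟩
    rw [RamInst_norm_p, norm_algebraMap', Padic.norm_eq_zpow_neg_valuation hy0, inv_zpow, zpow_neg]

theorem ramInst (hA : Stmt_AbsInert) : Stmt_RamInst := by
  intro p _ M _ _
  have hL := RamInst_locAct M
  have hU := RamInst_unifTop M
  refine ⟨hL, hU, fun I hI => ?_⟩
  obtain ⟨I', -, hI', hunr, hres⟩ := hA (GM p M) M hL
  have hII : ∀ g, g ∈ I' ↔ g ∈ I := fun g => (hI' g).trans (hI g).symm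
  obtain ⟨h1, h2, h3, h4⟩ := hunr _ hU
  refine ⟨hL.subgroup I, fun s x hx => (hI s).1 s.2 x hx, ⟨h1, h2, fun h _ => h3 h ((hII h).2 h.2),
    fun x hx0 hx => h4 x hx0 fun h hh => hx ⟨h, (hII h).1 hh⟩ (Subgroup.mem_top _)⟩, fun x hx => ?_,
    RamInst_norm_p M⟩
  obtain ⟨r, hr, hxr⟩ := hres x hx
  exact ⟨r, fun s => hr s ((hII s).2 s.2), hxr⟩

end Fermat.Agent.TW56.Flat

end

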