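/-
TEAM TW56 -> S56, block FLAT, task FL-CONJ: `LFlat` is compatible with conjugation (`Stmt_Conj`).

`c ↦ Q c Q'` is additive and maps the generators of `LFlat p rb` to generators of
`LFlat p (conjRep Q Q' h rb)`:  flat cocycles via the equivariant isomorphism
`(v, w) ↦ (Q v, Q w)` (`Stmt_Congr`), coboundaries `cob rb X ↦ cob rb' (Q X Q')`.
-/
import Fermat.Agent.TW56.Flat.Interface

set_option autoImplicit false

noncomputable section

namespace Fermat.Agent.TW56.Flat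

open Fermat.Agent.S53 Matrix Polynomial

section

variable {k : Type} [Field k] {Q Q' : M2 k}

theorem Conj_mul (h : Q' * Q = 1) (A B : M2 k) :
    Q * A * Q' * (Q * B * Q') = Q * (A * B) * Q' := by
  calc Q * A * Q' * (Q * B * Q') = Q * A * (Q' * Q) * B * Q' := by simp only [mul_assoc]
    _ = Q * (A * B) * Q' := by rw [h, mul_one]; simp only [mul_assoc]

theorem Conj_mul_right (h : Q' * Q = 1) (A : M2 k) : Q * A * Q' * Q = Q * A := by
  rw [mul_assoc, h, mul_one]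

theorem Conj_trace (h : Q' * Q = 1) (A : M2 k) : (Q * A * Q').trace = A.trace := by
  rw [Matrix.trace_mul_cycle, h, one_mul]

variable {G : Type} [Group G]

theorem Conj_conjRep_apply (h : Q' * Q = 1) (rb : G →* M2 k) (σ : G) :
    conjRep Q Q' h rb σ = Q * rb σ * Q' := rfl

theorem Conj_isCoc0 (h : Q' * Q = 1) {rb : G →* M2 k} {c : G → M2 k} (hc : IsCoc0 rb c) :
    IsCoc0 (conjRep Q Q' h rb) (fun σ => Q * c σ * Q') where
  coc σ τ := by
    show Q * c (σ * τ) * Q' = Q * c σ * Q' + Q * rb σ * Q' * (Q * c τ * Q') * (Q * rb σ⁻¹ * Q')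
    rw [Conj_mul h, Conj_mul h, hc.coc, mul_add, add_mul]
  tr σ := by
    show (Q * c σ * Q').trace = 0
    rw [Conj_trace h, hc.tr]

theorem Conj_cob (h : Q' * Q = 1) (rb : G →* M2 k) (X : M2 k) :
    (fun σ => Q * cob rb X σ * Q') = cob (conjRep Q Q' h rb) (Q * X * Q') := by
  funext σ
  show Q * (rb σ * X * rb σ⁻¹ - X) * Q' =
    Q * rb σ * Q' * (Q * X * Q') * (Q * rb σ⁻¹ * Q') - Q * X * Q'
  rw [Conj_mul h, Conj_mul h, mul_sub, sub_mul]

/-- `(v, w) ↦ (Q v, Q w)`. -/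
def Conj_e (Q Q' : M2 k) (h : Q' * Q = 1) :
    ((Fin 2 → k) × (Fin 2 → k)) ≃+ ((Fin 2 → k) × (Fin 2 → k)) where
  toFun x := (Q *ᵥ x.1, Q *ᵥ x.2)
  invFun x := (Q' *ᵥ x.1, Q' *ᵥ x.2)
  left_inv x := by
    simp only [Matrix.mulVec_mulVec, h, Matrix.one_mulVec]
  right_inv x := by
    simp only [Matrix.mulVec_mulVec, mul_eq_one_comm.mp h, Matrix.one_mulVec]
  map_add' x y := by
    simp only [Prod.fst_add, Prod.snd_add, Matrix.mulVec_add, Prod.mk_add_mk]

theorem Conj_e_actW (h : Q' * Q = 1) (rb : G →* M2 k) (c : G → M2 k) (τ : G)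
    (x : (Fin 2 → k) × (Fin 2 → k)) :
    Conj_e Q Q' h (actW rb c τ x) =
      actW (conjRep Q Q' h rb) (fun σ => Q * c σ * Q') τ (Conj_e Q Q' h x) := by
  show (Q *ᵥ (rb τ *ᵥ x.1), Q *ᵥ (rb τ *ᵥ x.2 + (c τ * rb τ) *ᵥ x.1)) =
    ((Q * rb τ * Q') *ᵥ (Q *ᵥ x.1),
      (Q * rb τ * Q') *ᵥ (Q *ᵥ x.2) + (Q * c τ * Q' * (Q * rb τ * Q')) *ᵥ (Q *ᵥ x.1))
  rw [Conj_mul h, Matrix.mulVec_add]
  simp only [Matrix.mulVec_mulVec, Conj_mul_right h]

end

/-- **FL-CONJ** -/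
theorem conj (hc : Stmt_Congr) : Stmt_Conj := by
  intro p _ k _ Q Q' h rb c hmem
  let Φ : (Gp p → M2 k) →+ (Gp p → M2 k) :=
    { toFun := fun c σ => Q * c σ * Q'
      map_zero' := by
        funext σ
        simp
      map_add' := by
        intro a b
        funext σ
        simp [mul_add, add_mul] }
  have hle : LFlat p rb ≤ (LFlat p (conjRep Q Q' h rb)).comap Φ := by
    rw [LFlat, AddSubgroup.closure_le]
    rintro c (⟨hc1, hc2⟩ | ⟨X, rfl⟩)
    · refine AddSubgroup.subset_closure (Or.inl ⟨Conj_isCoc0 h hc1, ?_⟩)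
      exact hc p _ _ (Conj_e Q Q' h) (actW rb c) _ (Conj_e_actW h rb c) hc2
    · exact AddSubgroup.subset_closure (Or.inr ⟨Q * X * Q', Conj_cob h rb X⟩)
  exact hle hmem

end Fermat.Agent.TW56.Flat

end
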