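/-
TEAM TW56 -> S56, block FLAT, task FL-CASE-O : ordinary cocycles + coboundaries, at most `#k ^ 4`.
-/
import Fermat.Agent.TW56.Flat.Interface

set_option autoImplicit false

noncomputable section

namespace Fermat.Agent.TW56.Flat

open Fermat.Agent.S53 Matrix Polynomial

section Ord

variable {k : Type} [Field k] {G : Type} [Group G]

theorem COrd_rb_inv_mul (rb : G →* M2 k) (σ : G) : rb σ⁻¹ * rb σ = 1 := by
  rw [← map_mul, inv_mul_cancel, map_one]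

theorem Ord_isCoc0_zero (rb : G →* M2 k) : IsCoc0 rb (0 : G → M2 k) :=
  ⟨fun σ τ => by simp, fun σ => by simp⟩

theorem Ord_isCoc0_add {rb : G →* M2 k} {c c' : G → M2 k} (h : IsCoc0 rb c) (h' : IsCoc0 rb c') :
    IsCoc0 rb (c + c') :=
  ⟨fun σ τ => by
    simp only [Pi.add_apply]
    rw [h.coc, h'.coc, Matrix.mul_add, Matrix.add_mul]
    abel,
  fun σ => by rw [Pi.add_apply, Matrix.trace_add, h.tr, h'.tr, add_zero]⟩

theorem Ord_isCoc0_neg {rb : G →* M2 k} {c : G → M2 k} (h : IsCoc0 rb c) : IsCoc0 rb (-c) :=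
  ⟨fun σ τ => by
    simp only [Pi.neg_apply]
    rw [h.coc, Matrix.mul_neg, Matrix.neg_mul]
    abel,
  fun σ => by rw [Pi.neg_apply, Matrix.trace_neg, h.tr, neg_zero]⟩

theorem Ord_isCoc0_cob (rb : G →* M2 k) (X : M2 k) : IsCoc0 rb (cob rb X) :=
  ⟨fun σ τ => by
    unfold cob
    rw [_root_.mul_inv_rev, map_mul, map_mul, Matrix.mul_sub, Matrix.sub_mul]
    simp only [Matrix.mul_assoc]
    abel,
  fun σ => by
    unfold cob
    rw [Matrix.trace_sub, Matrix.trace_mul_cycle, COrd_rb_inv_mul, Matrix.one_mul, sub_self]⟩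

theorem Ord_cob_add (rb : G →* M2 k) (X Y : M2 k) : cob rb (X + Y) = cob rb X + cob rb Y := by
  funext σ
  simp only [cob, Pi.add_apply]
  rw [Matrix.mul_add, Matrix.add_mul]
  abel

theorem Ord_cob_smul (rb : G →* M2 k) (x : k) (X : M2 k) : cob rb (x • X) = x • cob rb X := by
  funext σ
  simp only [cob, Pi.smul_apply]
  rw [Matrix.mul_smul, Matrix.smul_mul, smul_sub]

variable {rb : G →* M2 k} {χ₁ χ₂ : G →* kˣ}

theorem Ord_conj10 (hT : ∀ g, rb g 0 0 = χ₁ g ∧ rb g 1 1 = χ₂ g ∧ rb g 1 0 = 0) (σ : G)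
    {m : M2 k} (hm : m 1 0 = 0) : (rb σ * m * rb σ⁻¹) 1 0 = 0 := by
  simp [Matrix.mul_apply, Fin.sum_univ_two, (hT σ).2.2, (hT σ⁻¹).2.2, hm]

theorem Ord_conj11 (hT : ∀ g, rb g 0 0 = χ₁ g ∧ rb g 1 1 = χ₂ g ∧ rb g 1 0 = 0) (σ : G)
    {m : M2 k} (hm : m 1 0 = 0) : (rb σ * m * rb σ⁻¹) 1 1 = m 1 1 := by
  simp only [Matrix.mul_apply, Fin.sum_univ_two, (hT σ).2.2, (hT σ⁻¹).2.1, (hT σ).2.1, hm,
    map_inv, Units.val_inv_eq_inv_val]
  have h0 : ((χ₂ σ : kˣ) : k) ≠ 0 := (χ₂ σ).ne_zero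
  field_simp
  ring

theorem Ord_conj01 (hT : ∀ g, rb g 0 0 = χ₁ g ∧ rb g 1 1 = χ₂ g ∧ rb g 1 0 = 0) (σ : G)
    {m : M2 k} (hm : m 1 0 = 0) (hm0 : m 0 0 = 0) (hm1 : m 1 1 = 0) :
    (rb σ * m * rb σ⁻¹) 0 1 = (((χ₁ / χ₂) σ : kˣ) : k) * m 0 1 := by
  simp only [Matrix.mul_apply, Fin.sum_univ_two, (hT σ).1, (hT σ⁻¹).2.1, hm, hm0, hm1,
    map_inv, Units.val_inv_eq_inv_val, MonoidHom.div_apply, Units.val_div_eq_div_val]
  have h0 : ((χ₂ σ : kˣ) : k) ≠ 0 := (χ₂ σ).ne_zero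
  field_simp
  ring

/-- the ordinary cocycles. -/
def Ord_Z (I : Set G) (rb : G →* M2 k) : AddSubgroup (G → M2 k) where
  carrier := {c₀ | IsCoc0 rb c₀ ∧ (∀ g, c₀ g 1 0 = 0) ∧ ∀ s ∈ I, c₀ s 1 1 = 0}
  add_mem' := by
    rintro a b ⟨a1, a2, a3⟩ ⟨b1, b2, b3⟩
    refine ⟨Ord_isCoc0_add a1 b1, fun g => ?_, fun s hs => ?_⟩
    · rw [Pi.add_apply, Matrix.add_apply, a2, b2, add_zero]
    · rw [Pi.add_apply, Matrix.add_apply, a3 s hs, b3 s hs, add_zero]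
  zero_mem' := ⟨Ord_isCoc0_zero rb, fun _ => rfl, fun _ _ => rfl⟩
  neg_mem' := by
    rintro a ⟨a1, a2, a3⟩
    refine ⟨Ord_isCoc0_neg a1, fun g => ?_, fun s hs => ?_⟩
    · rw [Pi.neg_apply, Matrix.neg_apply, a2, neg_zero]
    · rw [Pi.neg_apply, Matrix.neg_apply, a3 s hs, neg_zero]

theorem Ord_mem_Z {I : Set G} {c₀ : G → M2 k} : c₀ ∈ Ord_Z I rb ↔
    IsCoc0 rb c₀ ∧ (∀ g, c₀ g 1 0 = 0) ∧ ∀ s ∈ I, c₀ s 1 1 = 0 := Iff.rfl

/-- the lower right entry is additive. -/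
theorem Ord_d_mul (hT : ∀ g, rb g 0 0 = χ₁ g ∧ rb g 1 1 = χ₂ g ∧ rb g 1 0 = 0) {c₀ : G → M2 k}
    (h : IsCoc0 rb c₀) (h10 : ∀ g, c₀ g 1 0 = 0) (σ τ : G) :
    c₀ (σ * τ) 1 1 = c₀ σ 1 1 + c₀ τ 1 1 := by
  rw [h.coc, Matrix.add_apply, Ord_conj11 hT σ (h10 τ)]

theorem Ord_d_pow (hT : ∀ g, rb g 0 0 = χ₁ g ∧ rb g 1 1 = χ₂ g ∧ rb g 1 0 = 0) {c₀ : G → M2 k}
    (h : IsCoc0 rb c₀) (h10 : ∀ g, c₀ g 1 0 = 0) (φ : G) (hφ : c₀ φ 1 1 = 0) (n : ℕ) :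
    c₀ (φ ^ n) 1 1 = 0 := by
  induction n with
  | zero =>
    have h1 := Ord_d_mul hT h h10 1 1
    rw [mul_one] at h1
    rw [pow_zero]
    exact left_eq_add.mp h1
  | succ n ih => rw [pow_succ, Ord_d_mul hT h h10, ih, hφ, add_zero]

/-- evaluation of the lower right entry at `φ`. -/
def Ord_ev (I : Set G) (rb : G →* M2 k) (φ : G) : Ord_Z I rb →+ k where
  toFun c := c.1 φ 1 1
  map_zero' := rfl
  map_add' _ _ := rfl

end Ord

/-- **FL-CASE-O**. -/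
theorem caseOrd : Stmt_CaseOrd := by
  intro p _ k _ _ _ G _ _ I om hL rb χ₁ χ₂ hT
  obtain ⟨φ, hφ⟩ := hL.cyc
  -- the kernel of the evaluation
  have hker : Nat.card (Ord_ev (I : Set G) rb φ).ker ≤ Nat.card k ^ 2 := by
    refine le_trans ?_ (hL.x1' (χ₁ / χ₂))
    have hz : ∀ c : (Ord_ev (I : Set G) rb φ).ker, ∀ g, c.1.1 g 1 1 = 0 ∧ c.1.1 g 0 0 = 0 := by
      intro c g
      obtain ⟨h1, h2, h3⟩ := c.1.2
      have h4 : c.1.1 φ 1 1 = 0 := c.2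
      have h5 : c.1.1 g 1 1 = 0 := by
        obtain ⟨n, s, hs, rfl⟩ := hφ g
        rw [Ord_d_mul hT h1 h2, Ord_d_pow hT h1 h2 φ h4, h3 s hs, add_zero]
      refine ⟨h5, ?_⟩
      have h6 := h1.tr g
      rw [Matrix.trace_fin_two, h5, add_zero] at h6
      exact h6
    refine Nat.card_le_card_of_injective
      (fun c : (Ord_ev (I : Set G) rb φ).ker =>
        (⟨fun g => c.1.1 g 0 1, fun σ τ => ?_⟩ : Z1Char (χ₁ / χ₂))) ?_
    · obtain ⟨h1, h2, h3⟩ := c.1.2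
      show c.1.1 (σ * τ) 0 1 = c.1.1 σ 0 1 + _ * c.1.1 τ 0 1
      rw [h1.coc, Matrix.add_apply, Ord_conj01 hT σ (h2 τ) (hz c τ).2 (hz c τ).1]
    · intro c c' hcc
      apply Subtype.ext
      apply Subtype.ext
      funext g
      have h01 : c.1.1 g 0 1 = c'.1.1 g 0 1 := congrFun (congrArg Subtype.val hcc) g
      ext i j
      fin_cases i <;> fin_cases j
      · exact (hz c g).2.trans (hz c' g).2.symm
      · exact h01
      · exact (c.1.2.2.1 g).trans (c'.1.2.2.1 g).symm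
      · exact (hz c g).1.trans (hz c' g).1.symm
  have hZ : Nat.card (Ord_Z (I : Set G) rb) ≤ Nat.card k ^ 3 := by
    rw [← AddSubgroup.card_mul_index (Ord_ev (I : Set G) rb φ).ker, AddSubgroup.index_ker,
      pow_succ]
    exact Nat.mul_le_mul hker (Nat.card_le_card_of_injective Subtype.val Subtype.val_injective)
  -- the covering
  have hsurj : ∀ c : ZOrd (I : Set G) rb, ∃ z : Ord_Z (I : Set G) rb × k,
      z.1.1 + z.2 • cob rb !![0, 0; 1, 0] = c.1 := by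
    rintro ⟨c, c₀, X, h1, h2, h3, rfl⟩
    have hX : X = (X - X 1 0 • !![0, 0; 1, 0]) + X 1 0 • !![0, 0; 1, 0] := by
      rw [sub_add_cancel]
    have hup : (X - X 1 0 • (!![0, 0; 1, 0] : M2 k)) 1 0 = 0 := by simp
    refine ⟨⟨⟨c₀ + cob rb (X - X 1 0 • !![0, 0; 1, 0]), ?_⟩, X 1 0⟩, ?_⟩
    · refine (Ord_Z (I : Set G) rb).add_mem ⟨h1, h2, h3⟩
        ⟨Ord_isCoc0_cob rb _, fun g => ?_, fun s _ => ?_⟩
      · unfold cob
        rw [Matrix.sub_apply, Ord_conj10 hT g hup, hup, sub_zero]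
      · unfold cob
        rw [Matrix.sub_apply, Ord_conj11 hT s hup, sub_self]
    · show c₀ + cob rb (X - X 1 0 • !![0, 0; 1, 0]) + X 1 0 • cob rb !![0, 0; 1, 0]
        = fun g => c₀ g + cob rb X g
      rw [add_assoc, ← Ord_cob_smul, ← Ord_cob_add, ← hX]
      rfl
  choose ζ hζ using hsurj
  have hinj : Function.Injective ζ := by
    intro c c' h
    apply Subtype.ext
    rw [← hζ c, ← hζ c', h]
  calc Nat.card (ZOrd (I : Set G) rb) ≤ Nat.card (Ord_Z (I : Set G) rb × k) :=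
        Nat.card_le_card_of_injective ζ hinj
    _ = Nat.card (Ord_Z (I : Set G) rb) * Nat.card k := Nat.card_prod _ _
    _ ≤ Nat.card k ^ 3 * Nat.card k := Nat.mul_le_mul_right _ hZ
    _ = Nat.card k ^ 4 := (pow_succ _ _).symm

end Fermat.Agent.TW56.Flat

end
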