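/-
TEAM TW56 -> S56, block FLAT, task FL-APX (helper8, task 1319):
elementary properties of approximate ring homomorphisms.
-/
import Fermat.Agent.TW56.Flat.Interface2
import Fermat.Agent.CFT.Local.PadicLoc

set_option autoImplicit false

noncomputable section

namespace Fermat.Agent.TW56.Flat

section Abs

variable {L : Type} [NormedField L] [IsUltrametricDist L]

theorem Apx_trans {c : ℝ} {a b d : L} (h1 : ‖a - b‖ ≤ c) (h2 : ‖b - d‖ ≤ c) : ‖a - d‖ ≤ c := by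
  have e : a - d = (a - b) + (b - d) := by ring
  rw [e]
  exact (IsUltrametricDist.norm_add_le_max _ _).trans (max_le h1 h2)

omit [IsUltrametricDist L] in
theorem Apx_symm {c : ℝ} {a b : L} (h : ‖a - b‖ ≤ c) : ‖b - a‖ ≤ c := by rwa [norm_sub_rev]

omit [IsUltrametricDist L] in
theorem Apx_refl {c : ℝ} (hc : 0 ≤ c) (a : L) : ‖a - a‖ ≤ c := by rwa [sub_self, norm_zero]

theorem Apx_add {c : ℝ} {a b a' b' : L} (h1 : ‖a - b‖ ≤ c) (h2 : ‖a' - b'‖ ≤ c) :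
    ‖(a + a') - (b + b')‖ ≤ c := by
  have e : (a + a') - (b + b') = (a - b) + (a' - b') := by ring
  rw [e]
  exact (IsUltrametricDist.norm_add_le_max _ _).trans (max_le h1 h2)

theorem Apx_sub {c : ℝ} {a b a' b' : L} (h1 : ‖a - b‖ ≤ c) (h2 : ‖a' - b'‖ ≤ c) :
    ‖(a - a') - (b - b')‖ ≤ c := by
  have e : (a - a') - (b - b') = (a - b) + (b' - a') := by ring
  rw [e]
  exact (IsUltrametricDist.norm_add_le_max _ _).trans (max_le h1 (Apx_symm h2))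

theorem Apx_mul {c : ℝ} {a b a' b' : L} (ha : ‖a‖ ≤ 1) (hb' : ‖b'‖ ≤ 1) (h1 : ‖a - b‖ ≤ c)
    (h2 : ‖a' - b'‖ ≤ c) : ‖a * a' - b * b'‖ ≤ c := by
  have e : a * a' - b * b' = a * (a' - b') + (a - b) * b' := by ring
  rw [e]
  refine (IsUltrametricDist.norm_add_le_max _ _).trans (max_le ?_ ?_)
  · rw [norm_mul]
    exact (mul_le_of_le_one_left (norm_nonneg _) ha).trans h2
  · rw [norm_mul]
    exact (mul_le_of_le_one_right (norm_nonneg _) hb').trans h1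

theorem Apx_norm_eq {c : ℝ} {a b : L} (h : ‖a - b‖ ≤ c) (hb : c < ‖b‖) : ‖a‖ = ‖b‖ :=
  CFT.Local.padicLoc_norm_eq (h.trans_lt hb)

/-- an approximate ring homomorphism on the unit ball of the subfield `M`. -/
structure Apx_H (M : Subfield L) (c : ℝ) (u : L → L) : Prop where
  le : ∀ x ∈ M, ‖x‖ ≤ 1 → ‖u x‖ ≤ 1
  add : ∀ x ∈ M, ∀ y ∈ M, ‖x‖ ≤ 1 → ‖y‖ ≤ 1 → ‖u (x + y) - (u x + u y)‖ ≤ c
  mul : ∀ x ∈ M, ∀ y ∈ M, ‖x‖ ≤ 1 → ‖y‖ ≤ 1 → ‖u (x * y) - u x * u y‖ ≤ c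
  one : ‖u 1 - 1‖ ≤ c

variable {M : Subfield L} {c : ℝ} {u : L → L}

omit [IsUltrametricDist L] in
theorem Apx_H.nonneg (h : Apx_H M c u) : 0 ≤ c := (norm_nonneg _).trans h.one

omit [IsUltrametricDist L] in
theorem Apx_H.zero (h : Apx_H M c u) : ‖u 0 - 0‖ ≤ c := by
  have h1 := h.add 0 M.zero_mem 0 M.zero_mem (by simp) (by simp)
  rw [add_zero] at h1
  have e : u 0 - (u 0 + u 0) = -(u 0 - 0) := by ring
  rwa [e, norm_neg] at h1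

theorem Apx_H.sub (h : Apx_H M c u) {x y : L} (hx : x ∈ M) (hy : y ∈ M) (hx1 : ‖x‖ ≤ 1)
    (hy1 : ‖y‖ ≤ 1) : ‖u (x - y) - (u x - u y)‖ ≤ c := by
  have hxy : ‖x - y‖ ≤ 1 := by
    rw [sub_eq_add_neg]
    exact (IsUltrametricDist.norm_add_le_max _ _).trans (max_le hx1 (by rwa [norm_neg]))
  have h1 := h.add (x - y) (M.sub_mem hx hy) y hy hxy hy1
  rw [sub_add_cancel] at h1
  have e : u x - (u (x - y) + u y) = -(u (x - y) - (u x - u y)) := by ring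
  rwa [e, norm_neg] at h1

theorem Apx_H.sum (h : Apx_H M c u) (n : ℕ) (x : Fin n → L) (hx : ∀ i, x i ∈ M ∧ ‖x i‖ ≤ 1) :
    (∑ i, x i ∈ M ∧ ‖∑ i, x i‖ ≤ 1) ∧ ‖u (∑ i, x i) - ∑ i, u (x i)‖ ≤ c := by
  induction n with
  | zero =>
    simp only [Finset.univ_eq_empty, Finset.sum_empty, norm_zero, zero_le_one, and_true]
    exact ⟨M.zero_mem, h.zero⟩
  | succ n ih =>
    obtain ⟨⟨h1, h2⟩, h3⟩ := ih (fun i => x i.castSucc) (fun i => hx _)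
    rw [Fin.sum_univ_castSucc, Fin.sum_univ_castSucc]
    refine ⟨⟨M.add_mem h1 (hx _).1,
      (IsUltrametricDist.norm_add_le_max _ _).trans (max_le h2 (hx _).2)⟩, ?_⟩
    exact Apx_trans (h.add _ h1 _ (hx _).1 h2 (hx _).2) (Apx_add h3 (Apx_refl h.nonneg _))

theorem Apx_H.natCast (h : Apx_H M c u) (n : ℕ) : ‖u (n : L) - n‖ ≤ c := by
  induction n with
  | zero => simpa using h.zero
  | succ n ih =>
    rw [Nat.cast_succ]
    exact Apx_trans (h.add _ (natCast_mem M n) 1 M.one_mem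
      (IsUltrametricDist.norm_natCast_le_one L n) (by simp)) (Apx_add ih h.one)

theorem Apx_H.intCast (h : Apx_H M c u) (n : ℤ) : ‖u (n : L) - n‖ ≤ c := by
  obtain ⟨a, rfl | rfl⟩ := n.eq_nat_or_neg
  · simpa using h.natCast a
  · have h1 := h.sub M.zero_mem (natCast_mem M a) (by simp)
      (IsUltrametricDist.norm_natCast_le_one L a)
    have h2 := Apx_trans h1 (Apx_sub h.zero (h.natCast a))
    simpa using h2

theorem Apx_H.ratCast (h : Apx_H M c u) (r : ℚ) (hden : ‖(r.den : L)‖ = 1) :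
    ‖u (r : L) - r‖ ≤ c := by
  have hb0 : (r.den : L) ≠ 0 := by
    intro h0
    rw [h0, norm_zero] at hden
    exact zero_ne_one hden
  have hr : (r : L) * r.den = r.num := by
    rw [Rat.cast_def, div_mul_cancel₀ _ hb0]
  have hr1 : ‖(r : L)‖ ≤ 1 := by
    have e : ‖(r : L)‖ * ‖(r.den : L)‖ = ‖(r.num : L)‖ := by rw [← norm_mul, hr]
    rw [hden, mul_one] at e
    rw [e]
    exact IsUltrametricDist.norm_intCast_le_one L _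
  have hrM : (r : L) ∈ M := SubfieldClass.ratCast_mem M r
  have h1 := h.mul _ hrM _ (natCast_mem M r.den) hr1 hden.le
  rw [hr] at h1
  have h2 : ‖u r * u r.den - u r * r.den‖ ≤ c :=
    Apx_mul (h.le _ hrM hr1) hden.le (Apx_refl h.nonneg _) (h.natCast _)
  have h3 : ‖u r * r.den - r.num‖ ≤ c :=
    Apx_trans (Apx_symm h2) (Apx_trans (Apx_symm h1) (h.intCast _))
  rwa [← hr, ← sub_mul, norm_mul, hden, mul_one] at h3

theorem Apx_H.pow (h : Apx_H M c u) {x : L} (hx : x ∈ M) (hx1 : ‖x‖ ≤ 1) (n : ℕ) :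
    ‖u (x ^ n) - u x ^ n‖ ≤ c := by
  induction n with
  | zero => simpa using h.one
  | succ n ih =>
    rw [pow_succ, pow_succ]
    have hxn : ‖x ^ n‖ ≤ 1 := by
      rw [norm_pow]
      exact pow_le_one₀ (norm_nonneg _) hx1
    exact Apx_trans (h.mul _ (M.pow_mem hx n) _ hx hxn hx1)
      (Apx_mul (h.le _ (M.pow_mem hx n) hxn) (h.le _ hx hx1) ih (Apx_refl h.nonneg _))

theorem Apx_H.unit (h : Apx_H M c u) (hc : c < 1) {w : L} (hw : w ∈ M) (hw1 : ‖w‖ = 1) :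
    ‖u w‖ = 1 := by
  have hw0 : w ≠ 0 := by
    rintro rfl
    rw [norm_zero] at hw1
    exact zero_ne_one hw1
  have hi1 : ‖w⁻¹‖ = 1 := by rw [norm_inv, hw1, inv_one]
  have h1 := h.mul w hw w⁻¹ (M.inv_mem hw) hw1.le hi1.le
  rw [mul_inv_cancel₀ hw0] at h1
  have h2 : ‖u w * u w⁻¹ - 1‖ ≤ c := Apx_trans (Apx_symm h1) h.one
  have h3 : ‖u w * u w⁻¹‖ = 1 := by
    have := Apx_norm_eq h2 (by rwa [norm_one])
    rwa [norm_one] at this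
  rw [norm_mul] at h3
  have ha := h.le w hw hw1.le
  have hb := h.le _ (M.inv_mem hw) hi1.le
  apply le_antisymm ha
  calc 1 = ‖u w‖ * ‖u w⁻¹‖ := h3.symm
    _ ≤ ‖u w‖ * 1 := by gcongr
    _ = ‖u w‖ := mul_one _

/-- `u (ϖ ^ a * w) ≈ u ϖ ^ a * u w`. -/
theorem Apx_H.pow_mul (h : Apx_H M c u) {ϖ w : L} (hϖ : ϖ ∈ M) (hϖ1 : ‖ϖ‖ ≤ 1) (hw : w ∈ M)
    (hw1 : ‖w‖ ≤ 1) (a : ℕ) : ‖u (ϖ ^ a * w) - u ϖ ^ a * u w‖ ≤ c := by
  have hn : ‖ϖ ^ a‖ ≤ 1 := by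
    rw [norm_pow]
    exact pow_le_one₀ (norm_nonneg _) hϖ1
  exact Apx_trans (h.mul _ (M.pow_mem hϖ a) _ hw hn hw1)
    (Apx_mul (h.le _ (M.pow_mem hϖ a) hn) (h.le _ hw hw1) (h.pow hϖ hϖ1 a) (Apx_refl h.nonneg _))

omit [IsUltrametricDist L] in
/-- decomposition with respect to a uniformizer. -/
theorem Apx_decomp {ϖ : L} (hϖM : ϖ ∈ M) (hϖ0 : ϖ ≠ 0) (hϖ1 : ‖ϖ‖ < 1)
    (hϖ : ∀ x ∈ M, x ≠ 0 → ∃ k : ℤ, ‖x‖ = ‖ϖ‖ ^ k) {x : L} (hx : x ∈ M) (hx0 : x ≠ 0)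
    (hx1 : ‖x‖ ≤ 1) : ∃ (a : ℕ) (w : L), w ∈ M ∧ ‖w‖ = 1 ∧ x = ϖ ^ a * w := by
  obtain ⟨k, hk⟩ := hϖ x hx hx0
  have hpos : 0 < ‖ϖ‖ := norm_pos_iff.2 hϖ0
  have hk0 : 0 ≤ k := by
    by_contra hcon
    have := one_lt_zpow_of_neg₀ hpos hϖ1 (not_le.1 hcon)
    rw [← hk] at this
    exact absurd hx1 (not_le.2 this)
  obtain ⟨a, rfl⟩ := Int.eq_ofNat_of_zero_le hk0
  rw [zpow_natCast] at hk
  have hϖa : ϖ ^ a ≠ 0 := pow_ne_zero _ hϖ0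
  refine ⟨a, x / ϖ ^ a, M.div_mem hx (M.pow_mem hϖM a), ?_, (mul_div_cancel₀ x hϖa).symm⟩
  rw [norm_div, norm_pow, hk, div_self (pow_ne_zero _ hpos.ne')]

/-- `u` preserves the norms `> c`. -/
theorem Apx_H.norm_eq (h : Apx_H M c u) {P : L} (hPM : P ∈ M) (hP1 : ‖P‖ < 1) (hcP : c < ‖P‖)
    (huP : ‖u P - P‖ ≤ c) {ϖ : L} (hϖM : ϖ ∈ M) (hϖ0 : ϖ ≠ 0) (hϖ1 : ‖ϖ‖ < 1)
    (hϖ : ∀ x ∈ M, x ≠ 0 → ∃ k : ℤ, ‖x‖ = ‖ϖ‖ ^ k) {x : L} (hx : x ∈ M) (hx1 : ‖x‖ ≤ 1)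
    (hcx : c < ‖x‖) : ‖u x‖ = ‖x‖ := by
  have hc1 : c < 1 := hcP.trans hP1
  have hP0 : P ≠ 0 := norm_pos_iff.1 (h.nonneg.trans_lt hcP)
  have hx0 : x ≠ 0 := norm_pos_iff.1 (h.nonneg.trans_lt hcx)
  -- the uniformizer
  have huϖ : ‖u ϖ‖ = ‖ϖ‖ := by
    obtain ⟨e, w, hwM, hw1, hPe⟩ := Apx_decomp hϖM hϖ0 hϖ1 hϖ hPM hP0 hP1.le
    have he : e ≠ 0 := by
      rintro rfl
      rw [pow_zero, one_mul] at hPe
      rw [hPe, hw1] at hP1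
      exact lt_irrefl _ hP1
    have h1 := h.pow_mul hϖM hϖ1.le hwM hw1.le e
    rw [← hPe] at h1
    have h2 : ‖u ϖ ^ e * u w‖ = ‖P‖ := Apx_norm_eq (Apx_trans (Apx_symm h1) huP) hcP
    rw [norm_mul, norm_pow, h.unit hc1 hwM hw1, mul_one] at h2
    have h3 : ‖P‖ = ‖ϖ‖ ^ e := by rw [hPe, norm_mul, norm_pow, hw1, mul_one]
    rw [h3] at h2
    exact (pow_left_inj₀ (norm_nonneg _) (norm_nonneg _) he).1 h2
  obtain ⟨a, w, hwM, hw1, hxa⟩ := Apx_decomp hϖM hϖ0 hϖ1 hϖ hx hx0 hx1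
  have h1 := h.pow_mul hϖM hϖ1.le hwM hw1.le a
  rw [← hxa] at h1
  have h2 : ‖u ϖ ^ a * u w‖ = ‖x‖ := by
    rw [norm_mul, norm_pow, h.unit hc1 hwM hw1, mul_one, huϖ, hxa, norm_mul, norm_pow, hw1,
      mul_one]
  rw [← h2]
  exact Apx_norm_eq h1 (by rwa [h2])

end Abs

/-- FL-APX -/
theorem apx : Stmt_Apx := by
  intro p _ M E c u hfin hc hu
  have hH : Apx_H M.toSubfield c u :=
    ⟨fun x hx hx1 => (hu.mem x hx hx1).2, hu.add, hu.mul, hu.one⟩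
  have hnp : ‖(p : Om p)‖ = (p : ℝ)⁻¹ := by
    have e : (p : Om p) = algebraMap ℚ_[p] (Om p) (p : ℚ_[p]) := (map_natCast _ p).symm
    rw [e, norm_algebraMap', Padic.norm_p]
  have hp1 : (p : ℝ)⁻¹ < 1 :=
    inv_lt_one_of_one_lt₀ (by exact_mod_cast (Fact.out : p.Prime).one_lt)
  refine ⟨fun r => ?_, fun n x hx => (hH.sum n x hx).2,
    fun x hx y hy hx1 hy1 => hH.sub hx hy hx1 hy1, fun x hx hx1 hcx => ?_⟩
  · have e : algebraMap (Rp p) (Om p) r = (((r : ℚ) : ℚ) : Om p) := by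
      rw [← eq_ratCast (algebraMap ℚ (Om p)) (r : ℚ)]
      rfl
    rw [e]
    apply hH.ratCast
    have e2 : (((r : ℚ).den : ℕ) : Om p) = algebraMap ℚ_[p] (Om p) (((r : ℚ).den : ℕ) : ℚ_[p]) :=
      (map_natCast _ _).symm
    rw [e2, norm_algebraMap', Padic.norm_natCast_eq_one_iff]
    exact (Nat.coprime_comm.1 r.2)
  · obtain ⟨ϖ, hϖ0, hϖ1, hϖ⟩ := (CFT.Local.padicLoc p M hfin).unif
    refine hH.norm_eq (P := (p : Om p)) (natCast_mem M.toSubfield p) (hnp ▸ hp1) (hnp ▸ hc)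
      (hH.natCast p) (ϖ := (ϖ : Om p)) ϖ.2 (fun h0 => hϖ0 (Subtype.ext h0)) hϖ1 ?_ hx hx1 hcx
    intro y hy hy0
    exact hϖ ⟨y, hy⟩ (fun h0 => hy0 (congrArg Subtype.val h0))

end Fermat.Agent.TW56.Flat

end
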