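/-
TEAM TW56 -> S56, block FLAT, package FL-BR : from `ℚ̄`-points to `ℚ̄_p`-points (`Stmt_Bridge`).
-/
import Fermat.Agent.TW56.Flat.Interface

set_option autoImplicit false

noncomputable section

namespace Fermat.Agent.TW56.Flat

open Fermat.Agent.S53 Polynomial WithConv

section

variable (p : ℕ) [Fact p.Prime]

/-- `padicEmbedding p` as a `ℤ_(p)`-algebra homomorphism. -/
def Bridge_iota : Qb →ₐ[Rp p] Om p :=
  { (padicEmbedding p).toRingHom with
    commutes' := fun r => (padicEmbedding p).commutes (r : ℚ) }

lemma Bridge_iota_apply (x : Qb) : Bridge_iota p x = padicEmbedding p x := rfl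

lemma Bridge_iota_injective : Function.Injective (Bridge_iota p) :=
  (padicEmbedding p).toRingHom.injective

/-- the elements of `ℚ̄_p` which are algebraic over `ℚ` are in the image of `ℚ̄`. -/
lemma Bridge_mem_range (x : Om p) (hx : IsIntegral ℚ x) : x ∈ (Bridge_iota p).range := by
  have hs : ((minpoly ℚ x).map (algebraMap ℚ Qb)).Splits := IsAlgClosed.splits _
  have h0 : (minpoly ℚ x).map (algebraMap ℚ Qb) ≠ 0 :=
    Polynomial.map_ne_zero (minpoly.ne_zero hx)
  have hr : (((minpoly ℚ x).map (algebraMap ℚ Qb)).map (padicEmbedding p).toRingHom).IsRoot x := by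
    rw [Polynomial.map_map, AlgHom.toRingHom_eq_coe, AlgHom.comp_algebraMap, IsRoot.def,
      eval_map_algebraMap, minpoly.aeval]
  obtain ⟨y, hy⟩ := hs.mem_range_of_isRoot h0 hr
  exact ⟨y, hy⟩

variable {p} {H : Type} [CommRing H] [Algebra (Rp p) H]

/-- values of points of a finite algebra are integral over `ℚ`. -/
lemma Bridge_isIntegral [Module.Finite (Rp p) H] (g : H →ₐ[Rp p] Om p) (h : H) :
    IsIntegral ℚ (g h) := by
  have h1 : IsIntegral (Rp p) h := Algebra.IsIntegral.isIntegral h
  have h2 : IsIntegral (Rp p) (g h) := h1.map g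
  exact h2.tower_top

/-- `f ↦ ι ∘ f` is a bijection. -/
def Bridge_equiv [Module.Finite (Rp p) H] : (H →ₐ[Rp p] Qb) ≃ (H →ₐ[Rp p] Om p) :=
  Equiv.ofBijective (fun f => (Bridge_iota p).comp f) (by
    constructor
    · intro f f' hff
      ext h
      exact Bridge_iota_injective p (DFunLike.congr_fun hff h)
    · intro g
      let e := AlgEquiv.ofInjective (Bridge_iota p) (Bridge_iota_injective p)
      let g' : H →ₐ[Rp p] (Bridge_iota p).range :=
        g.codRestrict _ (fun h => Bridge_mem_range p _ (Bridge_isIntegral g h))
      refine ⟨(e.symm : (Bridge_iota p).range →ₐ[Rp p] Qb).comp g', ?_⟩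
      ext h
      show Bridge_iota p (e.symm (g' h)) = g h
      have : (e (e.symm (g' h)) : Om p) = g h := by rw [e.apply_symm_apply]; rfl
      exact this)

lemma Bridge_equiv_apply [Module.Finite (Rp p) H] (f : H →ₐ[Rp p] Qb) (h : H) :
    Bridge_equiv f h = padicEmbedding p (f h) := rfl

end

theorem bridge : Stmt_Bridge := by
  intro p _ W _ act hW
  obtain ⟨H, _, _, hfin, hflat, hco, e, hadd, hact⟩ := hW
  refine ⟨H, inferInstance, inferInstance, hfin, hflat, hco,
    (WithConv.congr Bridge_equiv).symm.trans e, ?_, ?_⟩
  · intro f g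
    show e ((WithConv.congr Bridge_equiv).symm (f * g)) = _
    have key : (WithConv.congr Bridge_equiv).symm (f * g) =
        (WithConv.congr Bridge_equiv).symm f * (WithConv.congr Bridge_equiv).symm g := by
      apply (WithConv.congr Bridge_equiv).injective
      rw [Equiv.apply_symm_apply]
      set f' := (WithConv.congr (Bridge_equiv (p := p) (H := H))).symm f with hf'
      set g' := (WithConv.congr (Bridge_equiv (p := p) (H := H))).symm g with hg'
      have hf : f = toConv ((Bridge_iota p).comp f'.ofConv) := by
        rw [hf']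
        exact ((WithConv.congr (Bridge_equiv (p := p) (H := H))).apply_symm_apply f).symm
      have hg : g = toConv ((Bridge_iota p).comp g'.ofConv) := by
        rw [hg']
        exact ((WithConv.congr (Bridge_equiv (p := p) (H := H))).apply_symm_apply g).symm
      rw [hf, hg]
      apply WithConv.ofConv_injective
      exact (AlgHom.comp_convMul_distrib (Bridge_iota p) f' g').symm
    rw [key, hadd]
    rfl
  · intro σ f g hfg
    show e ((WithConv.congr Bridge_equiv).symm g) = act (loc p σ) (e ((WithConv.congr Bridge_equiv).symm f))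
    apply hact
    intro h
    apply (padicEmbedding p).toRingHom.injective
    show padicEmbedding p _ = padicEmbedding p _
    rw [padicEmbedding_localGaloisToGlobal]
    have hf : ∀ (f : WithConv (H →ₐ[Rp p] Om p)) (h : H),
        padicEmbedding p (((WithConv.congr Bridge_equiv).symm f) h) = f h := by
      intro f h
      have := (WithConv.congr (Bridge_equiv (p := p) (H := H))).apply_symm_apply f
      exact DFunLike.congr_fun (congrArg WithConv.ofConv this) h
    rw [hf, hf, hfg]

end Fermat.Agent.TW56.Flat

end
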