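/-
TEAM TW56 -> S56, block FLAT.  FL-CE-ABS : the connected-étale property of a model.
-/
import Fermat.Agent.TW56.Flat.Interface2

set_option autoImplicit false

noncomputable section

namespace Fermat.Agent.TW56.Flat

open Fermat.Agent.S53 Matrix Polynomial

section Norm

variable {p : ℕ} [Fact p.Prime]

theorem CEabs_norm_sum_le {ι : Type*} (s : Finset ι) (f : ι → Om p) {c : ℝ} (hc : 0 ≤ c)
    (h : ∀ i ∈ s, ‖f i‖ ≤ c) : ‖∑ i ∈ s, f i‖ ≤ c :=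
  IsUltrametricDist.norm_sum_le_of_forall_le_of_nonneg hc h

theorem CEabs_norm_sum_lt {ι : Type*} (s : Finset ι) (f : ι → Om p) {c : ℝ} (hc : 0 < c)
    (h : ∀ i ∈ s, ‖f i‖ < c) : ‖∑ i ∈ s, f i‖ < c := by
  classical
  induction s using Finset.induction_on with
  | empty => simpa using hc
  | insert a s ha ih =>
    rw [Finset.sum_insert ha]
    refine lt_of_le_of_lt (IsUltrametricDist.norm_add_le_max _ _) (max_lt ?_ ?_)
    · exact h a (Finset.mem_insert_self a s)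
    · exact ih fun i hi => h i (Finset.mem_insert_of_mem hi)

theorem CEabs_norm_sub_le {x y : Om p} {c : ℝ} (hx : ‖x‖ ≤ c) (hy : ‖y‖ ≤ c) : ‖x - y‖ ≤ c := by
  rw [sub_eq_add_neg]
  exact (IsUltrametricDist.norm_add_le_max x (-y)).trans (max_le hx (by rwa [norm_neg]))

theorem CEabs_norm_add_lt {x y : Om p} {c : ℝ} (hx : ‖x‖ < c) (hy : ‖y‖ < c) : ‖x + y‖ < c :=
  lt_of_le_of_lt (IsUltrametricDist.norm_add_le_max x y) (max_lt hx hy)

theorem CEabs_norm_mul_lt {x y : Om p} (hx : ‖x‖ < 1) (hy : ‖y‖ ≤ 1) : ‖x * y‖ < 1 := by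
  rw [norm_mul]
  exact mul_lt_one_of_nonneg_of_lt_one_left (norm_nonneg _) hx hy

theorem CEabs_norm_mul_lt' {x y : Om p} (hx : ‖x‖ ≤ 1) (hy : ‖y‖ < 1) : ‖x * y‖ < 1 := by
  rw [mul_comm]
  exact CEabs_norm_mul_lt hy hx

theorem CEabs_norm_p : ‖(p : Om p)‖ = (p : ℝ)⁻¹ := by
  have h : ((p : ℚ_[p]) : Om p) = (p : Om p) := map_natCast (algebraMap ℚ_[p] (Om p)) p
  rw [← h, PadicAlgCl.norm_extends, Padic.norm_p]

theorem CEabs_norm_p_pos : 0 < ‖(p : Om p)‖ := by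
  rw [CEabs_norm_p]
  exact inv_pos.2 (by exact_mod_cast (Fact.out : p.Prime).pos)

theorem CEabs_norm_p_lt_one : ‖(p : Om p)‖ < 1 := by
  rw [CEabs_norm_p]
  exact inv_lt_one_of_one_lt₀ (by exact_mod_cast (Fact.out : p.Prime).one_lt)

theorem CEabs_norm_natCast_le (n : ℕ) : ‖(n : Om p)‖ ≤ 1 :=
  IsUltrametricDist.norm_natCast_le_one (Om p) n

theorem CEabs_eq_zero_of_le_pow {x : Om p} (h : ∀ k : ℕ, ‖x‖ ≤ ‖(p : Om p)‖ ^ k) : x = 0 := by
  have h1 : Filter.Tendsto (fun k : ℕ => ‖(p : Om p)‖ ^ k) Filter.atTop (nhds 0) :=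
    tendsto_pow_atTop_nhds_zero_of_lt_one (norm_nonneg _) CEabs_norm_p_lt_one
  have h2 : ‖x‖ ≤ 0 := ge_of_tendsto' h1 h
  exact norm_le_zero_iff.1 h2

end Norm

section Model

variable {p : ℕ} [Fact p.Prime] {M : IF p} {Γ : Type} [AddCommGroup Γ] [Fintype Γ]
  {act : Gp p → Γ → Γ} {A : Set (Γ → Om p)}

/-- the functions of a model separate the points. -/
theorem CEabs_sep (hA : IsModel p M Γ act A) {x y : Γ} (h : ∀ a ∈ A, a x = a y) : x = y := by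
  classical
  by_contra hxy
  have hz := hA.sep (fun γ => (if γ = x then 1 else 0) - (if γ = y then 1 else 0)) (by
    intro a ha
    simp only [sub_mul, ite_mul, one_mul, zero_mul, Finset.sum_sub_distrib, Finset.sum_ite_eq',
      Finset.mem_univ, if_true]
    rw [h a ha, sub_self])
  have h1 := congrFun hz x
  simp only [if_true, if_neg hxy, sub_zero, Pi.zero_apply] at h1
  exact one_ne_zero h1

theorem CEabs_act_injective (hA : IsModel p M Γ act A) (τ : Gp p) : Function.Injective (act τ) := by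
  intro x y hxy
  apply CEabs_sep hA
  intro a ha
  apply τ.injective
  rw [← hA.equiv a ha, ← hA.equiv a ha, hxy]

/-- the connected part. -/
def CEabs_W0set (A : Set (Γ → Om p)) : Set Γ := {γ | ∀ a ∈ A, ‖a γ - a 0‖ < 1}

theorem CEabs_W0_add (hA : IsModel p M Γ act A) {γ γ' : Γ} (h : γ ∈ CEabs_W0set A)
    (h' : γ' ∈ CEabs_W0set A) : γ + γ' ∈ CEabs_W0set A := by
  intro a ha
  obtain ⟨n, a', a'', hmem, hcom⟩ := hA.comul a ha
  have h0 : a 0 = ∑ i, a' i 0 * a'' i 0 := by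
    rw [← hcom, add_zero]
  rw [hcom, h0, ← Finset.sum_sub_distrib]
  refine CEabs_norm_sum_lt _ _ one_pos fun i _ => ?_
  have e : a' i γ * a'' i γ' - a' i 0 * a'' i 0
      = (a' i γ - a' i 0) * a'' i γ' + a' i 0 * (a'' i γ' - a'' i 0) := by ring
  rw [e]
  exact CEabs_norm_add_lt
    (CEabs_norm_mul_lt (h _ (hmem i).1) (hA.int _ (hmem i).2 _).2)
    (CEabs_norm_mul_lt' (hA.int _ (hmem i).1 _).2 (h' _ (hmem i).2))

omit [Fintype Γ] in
theorem CEabs_W0_zero : (0 : Γ) ∈ CEabs_W0set A := by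
  intro a _
  rw [sub_self, norm_zero]
  exact one_pos

theorem CEabs_W0_nsmul (hA : IsModel p M Γ act A) {γ : Γ} (h : γ ∈ CEabs_W0set A) (n : ℕ) :
    n • γ ∈ CEabs_W0set A := by
  induction n with
  | zero => rw [zero_nsmul]; exact CEabs_W0_zero
  | succ n ih => rw [succ_nsmul]; exact CEabs_W0_add hA ih h

omit [Fintype Γ] in
theorem CEabs_neg_eq (hp : ∀ γ : Γ, p • γ = 0) (γ : Γ) : -γ = (p - 1) • γ := by
  have h1 : (p - 1) • γ + γ = 0 := by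
    rw [← succ_nsmul, Nat.sub_add_cancel (Fact.out : p.Prime).one_le, hp]
  exact (eq_neg_of_add_eq_zero_left h1).symm

/-- the connected part, as a subgroup. -/
def CEabs_W0 (hp : ∀ γ : Γ, p • γ = 0) (hA : IsModel p M Γ act A) : AddSubgroup Γ where
  carrier := CEabs_W0set A
  add_mem' := CEabs_W0_add hA
  zero_mem' := CEabs_W0_zero
  neg_mem' := by
    intro γ h
    rw [CEabs_neg_eq hp]
    exact CEabs_W0_nsmul hA h _

/-- step (1): `(τ - 1) Γ ⊆ Γ⁰` for `τ` in the inertia group. -/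
theorem CEabs_inert_sub (hA : IsModel p M Γ act A) {τ : Gp p} (hτ : IsInertGp p M τ) (w : Γ) :
    act τ w - w ∈ CEabs_W0set A := by
  intro a ha
  obtain ⟨n, a', a'', hmem, hcom⟩ := hA.comul a ha
  have h0 : a 0 = ∑ i, a' i w * a'' i (-w) := by
    rw [← hcom, add_neg_cancel]
  rw [sub_eq_add_neg (act τ w), hcom, h0, ← Finset.sum_sub_distrib]
  refine CEabs_norm_sum_lt _ _ one_pos fun i _ => ?_
  rw [← sub_mul, hA.equiv _ (hmem i).1]
  exact CEabs_norm_mul_lt (hτ _ (hA.int _ (hmem i).1 _).1 (hA.int _ (hmem i).1 _).2)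
    (hA.int _ (hmem i).2 _).2

/-! ### the main step -/

open Classical in
/-- `S_a δ = ∑_{g ∈ W₁} a (g + δ)`. -/
def CEabs_S (W1 : AddSubgroup Γ) (a : Γ → Om p) (δ : Γ) : Om p :=
  ∑ g ∈ Finset.univ.filter (fun g => g ∈ W1), a (g + δ)

/-- `∇^i S_a`, `(∇ F) δ = F (δ + γ) - F δ`. -/
def CEabs_T (W1 : AddSubgroup Γ) (γ : Γ) (i : ℕ) (a : Γ → Om p) : Γ → Om p :=
  (fwdDiff γ)^[i] (CEabs_S W1 a)

theorem CEabs_T_zero (W1 : AddSubgroup Γ) (γ : Γ) (a : Γ → Om p) (δ : Γ) :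
    CEabs_T W1 γ 0 a δ = CEabs_S W1 a δ := rfl

theorem CEabs_T_succ (W1 : AddSubgroup Γ) (γ : Γ) (i : ℕ) (a : Γ → Om p) (δ : Γ) :
    CEabs_T W1 γ (i + 1) a δ = CEabs_T W1 γ i a (δ + γ) - CEabs_T W1 γ i a δ := by
  unfold CEabs_T
  rw [Function.iterate_succ_apply']
  rfl

theorem CEabs_T_mem (hA : IsModel p M Γ act A) (W1 : AddSubgroup Γ) (γ : Γ) (i : ℕ)
    {a : Γ → Om p} (ha : a ∈ A) (δ : Γ) : CEabs_T W1 γ i a δ ∈ M := by
  induction i generalizing δ with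
  | zero =>
    rw [CEabs_T_zero]
    exact sum_mem fun g _ => (hA.int a ha _).1
  | succ i ih =>
    rw [CEabs_T_succ]
    exact sub_mem (ih _) (ih _)

theorem CEabs_T_zero_norm (hA : IsModel p M Γ act A) (W1 : AddSubgroup Γ) (γ : Γ)
    {a : Γ → Om p} (ha : a ∈ A) (δ : Γ) : ‖CEabs_T W1 γ 0 a δ‖ ≤ 1 := by
  rw [CEabs_T_zero]
  exact CEabs_norm_sum_le _ _ zero_le_one fun g _ => (hA.int a ha _).2

/-- (b) compatibility with the comultiplication. -/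
theorem CEabs_T_comul (W1 : AddSubgroup Γ) (γ : Γ) (i : ℕ) {a : Γ → Om p} {n : ℕ}
    {a' a'' : Fin n → Γ → Om p} (hcom : ∀ γ γ', a (γ + γ') = ∑ l, a' l γ * a'' l γ') (δ δ' : Γ) :
    CEabs_T W1 γ i a (δ + δ') = ∑ l, CEabs_T W1 γ i (a' l) δ * a'' l δ' := by
  induction i generalizing δ with
  | zero =>
    simp only [CEabs_T_zero, CEabs_S]
    simp only [Finset.sum_mul]
    rw [Finset.sum_comm]
    refine Finset.sum_congr rfl fun g _ => ?_
    rw [← add_assoc, hcom]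
  | succ i ih =>
    simp only [CEabs_T_succ]
    rw [add_right_comm, ih, ih, ← Finset.sum_sub_distrib]
    exact Finset.sum_congr rfl fun l _ => by ring

theorem CEabs_D_succ (W1 : AddSubgroup Γ) (γ : Γ) (i : ℕ) {a : Γ → Om p} {n : ℕ}
    {a' a'' : Fin n → Γ → Om p} (hcom : ∀ γ γ', a (γ + γ') = ∑ l, a' l γ * a'' l γ') :
    CEabs_T W1 γ (i + 1) a 0 = ∑ l, CEabs_T W1 γ i (a' l) 0 * (a'' l γ - a'' l 0) := by
  rw [CEabs_T_succ, CEabs_T_comul W1 γ i hcom 0 γ]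
  have h := CEabs_T_comul W1 γ i hcom 0 0
  rw [add_zero] at h
  rw [h, ← Finset.sum_sub_distrib]
  exact Finset.sum_congr rfl fun l _ => by ring

omit [AddCommGroup Γ] [Fintype Γ] in
/-- a self-injection of a finite set permutes it. -/
theorem CEabs_sum_perm {s : Finset Γ} {φ : Γ → Γ} (hφ : Function.Injective φ)
    (hs : ∀ g ∈ s, φ g ∈ s) (F : Γ → Om p) : ∑ g ∈ s, F (φ g) = ∑ g ∈ s, F g := by
  classical
  have h1 : s.image φ = s := by
    apply Finset.eq_of_subset_of_card_le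
    · intro x hx
      obtain ⟨g, hg, rfl⟩ := Finset.mem_image.1 hx
      exact hs g hg
    · rw [Finset.card_image_of_injective s hφ]
  conv_rhs => rw [← h1]
  rw [Finset.sum_image fun x _ y _ h => hφ h]

omit [Fintype Γ] in
theorem CEabs_act_nsmul (hadd : ∀ τ γ γ', act τ (γ + γ') = act τ γ + act τ γ') (τ : Gp p) (j : ℕ)
    (γ : Γ) : act τ (j • γ) = j • act τ γ :=
  map_nsmul (AddMonoidHom.mk' (act τ) (hadd τ)) j γ

/-- (a) the `∇^i S_a (j γ)` are fixed by the inertia group. -/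
theorem CEabs_T_fixed (hadd : ∀ τ γ γ', act τ (γ + γ') = act τ γ + act τ γ')
    (hA : IsModel p M Γ act A) (W1 : AddSubgroup Γ) (γ : Γ) {τ : Gp p}
    (hW1 : ∀ x ∈ W1, act τ x ∈ W1) (hγ : act τ γ - γ ∈ W1) (i : ℕ) {a : Γ → Om p} (ha : a ∈ A)
    (j : ℕ) : τ (CEabs_T W1 γ i a (j • γ)) = CEabs_T W1 γ i a (j • γ) := by
  classical
  induction i generalizing j with
  | zero =>
    simp only [CEabs_T_zero, CEabs_S]
    rw [map_sum]
    have h1 : ∀ g : Γ, τ (a (g + j • γ)) = a ((act τ g + j • (act τ γ - γ)) + j • γ) := by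
      intro g
      rw [← hA.equiv a ha, hadd, CEabs_act_nsmul hadd, add_assoc, ← nsmul_add, sub_add_cancel]
    simp only [h1]
    refine CEabs_sum_perm (φ := fun g => act τ g + j • (act τ γ - γ)) ?_ ?_
      (fun g => a (g + j • γ))
    · intro x y hxy
      exact CEabs_act_injective hA τ (add_right_cancel hxy)
    · intro g hg
      exact Finset.mem_filter.2 ⟨Finset.mem_univ _,
        W1.add_mem (hW1 g (Finset.mem_filter.1 hg).2) (W1.nsmul_mem hγ j)⟩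
  | succ i ih =>
    rw [CEabs_T_succ, map_sub, ← succ_nsmul, ih, ih]

/-- (c) one more difference gains one power of `p`. -/
theorem CEabs_step (hU : Stmt_UnramFix) (hfin : FiniteDimensional ℚ_[p] M) (hnor : Normal ℚ_[p] M)
    (hadd : ∀ τ γ γ', act τ (γ + γ') = act τ γ + act τ γ') (hA : IsModel p M Γ act A)
    (W1 : AddSubgroup Γ) (γ : Γ) (hW1 : ∀ τ, IsInertGp p M τ → ∀ x ∈ W1, act τ x ∈ W1)
    (hγ0 : γ ∈ CEabs_W0set A) (hγ : ∀ τ, IsInertGp p M τ → act τ γ - γ ∈ W1) (i k : ℕ)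
    (h : ∀ a ∈ A, ‖CEabs_T W1 γ i a 0‖ ≤ ‖(p : Om p)‖ ^ k) :
    ∀ a ∈ A, ‖CEabs_T W1 γ (i + 1) a 0‖ ≤ ‖(p : Om p)‖ ^ (k + 1) := by
  intro a ha
  obtain ⟨n, a', a'', hmem, hcom⟩ := hA.comul a ha
  have hpk : 0 < ‖(p : Om p)‖ ^ k := pow_pos CEabs_norm_p_pos k
  have hlt : ‖CEabs_T W1 γ (i + 1) a 0‖ < ‖(p : Om p)‖ ^ k := by
    rw [CEabs_D_succ W1 γ i hcom]
    refine CEabs_norm_sum_lt _ _ hpk fun l _ => ?_
    rw [norm_mul]
    calc ‖CEabs_T W1 γ i (a' l) 0‖ * ‖a'' l γ - a'' l 0‖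
        ≤ ‖(p : Om p)‖ ^ k * ‖a'' l γ - a'' l 0‖ :=
          mul_le_mul_of_nonneg_right (h _ (hmem l).1) (norm_nonneg _)
      _ < ‖(p : Om p)‖ ^ k * 1 := mul_lt_mul_of_pos_left (hγ0 _ (hmem l).2) hpk
      _ = ‖(p : Om p)‖ ^ k := mul_one _
  have hx := hU p M hfin hnor (CEabs_T W1 γ (i + 1) a 0 / (p : Om p) ^ k)
    (div_mem (CEabs_T_mem hA W1 γ (i + 1) ha 0) (pow_mem (natCast_mem M p) k))
    (by
      intro τ hτ
      have h0 := CEabs_T_fixed hadd hA W1 γ (hW1 τ hτ) (hγ τ hτ) (i + 1) ha 0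
      rw [zero_nsmul] at h0
      rw [map_div₀, map_pow, map_natCast, h0])
    (by
      rw [norm_div, norm_pow, div_lt_one hpk]
      exact hlt)
  rw [norm_div, norm_pow, div_le_iff₀ hpk] at hx
  rw [pow_succ']
  exact hx

theorem CEabs_iter (hU : Stmt_UnramFix) (hfin : FiniteDimensional ℚ_[p] M) (hnor : Normal ℚ_[p] M)
    (hadd : ∀ τ γ γ', act τ (γ + γ') = act τ γ + act τ γ') (hA : IsModel p M Γ act A)
    (W1 : AddSubgroup Γ) (γ : Γ) (hW1 : ∀ τ, IsInertGp p M τ → ∀ x ∈ W1, act τ x ∈ W1)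
    (hγ0 : γ ∈ CEabs_W0set A) (hγ : ∀ τ, IsInertGp p M τ → act τ γ - γ ∈ W1) (K : ℕ)
    (h : ∀ a ∈ A, ‖CEabs_T W1 γ 1 a 0‖ ≤ ‖(p : Om p)‖ ^ K) (i : ℕ) :
    ∀ a ∈ A, ‖CEabs_T W1 γ (i + 1) a 0‖ ≤ ‖(p : Om p)‖ ^ (K + i) := by
  induction i with
  | zero => exact h
  | succ i ih => exact CEabs_step hU hfin hnor hadd hA W1 γ hW1 hγ0 hγ (i + 1) (K + i) ih

/-- (d) Newton's formula. -/
theorem CEabs_newton (hp : ∀ γ : Γ, p • γ = 0) (W1 : AddSubgroup Γ) (γ : Γ) (a : Γ → Om p) :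
    ∑ k ∈ Finset.range p, p.choose (k + 1) • CEabs_T W1 γ (k + 1) a 0 = 0 := by
  have h := shift_eq_sum_fwdDiff_iter γ (CEabs_S W1 a) p 0
  rw [hp, add_zero, Finset.sum_range_succ', Nat.choose_zero_right, one_smul,
    Function.iterate_zero, id] at h
  exact right_eq_add.1 h

theorem CEabs_pow_le {m n : ℕ} (h : m ≤ n) : ‖(p : Om p)‖ ^ n ≤ ‖(p : Om p)‖ ^ m :=
  pow_le_pow_of_le_one (norm_nonneg _) CEabs_norm_p_lt_one.le h

theorem CEabs_improve (hp2 : p ≠ 2) (hU : Stmt_UnramFix) (hfin : FiniteDimensional ℚ_[p] M)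
    (hnor : Normal ℚ_[p] M)
    (hadd : ∀ τ γ γ', act τ (γ + γ') = act τ γ + act τ γ') (hp : ∀ γ : Γ, p • γ = 0)
    (hA : IsModel p M Γ act A)
    (W1 : AddSubgroup Γ) (γ : Γ) (hW1 : ∀ τ, IsInertGp p M τ → ∀ x ∈ W1, act τ x ∈ W1)
    (hγ0 : γ ∈ CEabs_W0set A) (hγ : ∀ τ, IsInertGp p M τ → act τ γ - γ ∈ W1) (K : ℕ)
    (h : ∀ a ∈ A, ‖CEabs_T W1 γ 1 a 0‖ ≤ ‖(p : Om p)‖ ^ K) :
    ∀ a ∈ A, ‖CEabs_T W1 γ 1 a 0‖ ≤ ‖(p : Om p)‖ ^ (K + 1) := by
  intro a ha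
  have hpp : p.Prime := Fact.out
  have hp3 : 3 ≤ p := by
    have := hpp.two_le
    omega
  have hit := CEabs_iter hU hfin hnor hadd hA W1 γ hW1 hγ0 hγ K h
  have hN := CEabs_newton hp W1 γ a
  rw [← Finset.add_sum_erase (Finset.range p) _ (Finset.mem_range.2 hpp.pos)] at hN
  have hrest : ‖∑ k ∈ (Finset.range p).erase 0, p.choose (k + 1) • CEabs_T W1 γ (k + 1) a 0‖
      ≤ ‖(p : Om p)‖ ^ (K + 2) := by
    refine CEabs_norm_sum_le _ _ (pow_nonneg (norm_nonneg _) _) fun k hk => ?_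
    obtain ⟨hk0, hkp⟩ := Finset.mem_erase.1 hk
    have hkp' : k < p := Finset.mem_range.1 hkp
    rw [nsmul_eq_mul, norm_mul]
    have hT := hit k a ha
    by_cases hlast : k + 1 < p
    · obtain ⟨c, hc⟩ := hpp.dvd_choose_self (Nat.succ_ne_zero k) hlast
      have h1 : ‖((p.choose (k + 1) : ℕ) : Om p)‖ ≤ ‖(p : Om p)‖ := by
        rw [hc, Nat.cast_mul, norm_mul]
        exact mul_le_of_le_one_right (norm_nonneg _) (CEabs_norm_natCast_le c)
      have h2 : ‖CEabs_T W1 γ (k + 1) a 0‖ ≤ ‖(p : Om p)‖ ^ (K + 1) :=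
        hT.trans (CEabs_pow_le (by omega))
      calc ‖((p.choose (k + 1) : ℕ) : Om p)‖ * ‖CEabs_T W1 γ (k + 1) a 0‖
          ≤ ‖(p : Om p)‖ * ‖(p : Om p)‖ ^ (K + 1) :=
            mul_le_mul h1 h2 (norm_nonneg _) (norm_nonneg _)
        _ = ‖(p : Om p)‖ ^ (K + 2) := by rw [← pow_succ']
    · have h2 : ‖CEabs_T W1 γ (k + 1) a 0‖ ≤ ‖(p : Om p)‖ ^ (K + 2) :=
        hT.trans (CEabs_pow_le (by omega))
      calc ‖((p.choose (k + 1) : ℕ) : Om p)‖ * ‖CEabs_T W1 γ (k + 1) a 0‖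
          ≤ 1 * ‖(p : Om p)‖ ^ (K + 2) :=
            mul_le_mul (CEabs_norm_natCast_le _) h2 (norm_nonneg _) zero_le_one
        _ = ‖(p : Om p)‖ ^ (K + 2) := one_mul _
  have h1 : p.choose (0 + 1) • CEabs_T W1 γ (0 + 1) a 0
      = -∑ k ∈ (Finset.range p).erase 0, p.choose (k + 1) • CEabs_T W1 γ (k + 1) a 0 :=
    eq_neg_of_add_eq_zero_left hN
  have h2 := congrArg norm h1
  rw [norm_neg, zero_add, Nat.choose_one_right, nsmul_eq_mul, norm_mul] at h2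
  rw [← h2, pow_succ' _ (K + 1)] at hrest
  exact le_of_mul_le_mul_left hrest CEabs_norm_p_pos

/-- `D₁ a = 0`. -/
theorem CEabs_D_one_eq_zero (hp2 : p ≠ 2) (hU : Stmt_UnramFix) (hfin : FiniteDimensional ℚ_[p] M)
    (hnor : Normal ℚ_[p] M)
    (hadd : ∀ τ γ γ', act τ (γ + γ') = act τ γ + act τ γ') (hp : ∀ γ : Γ, p • γ = 0)
    (hA : IsModel p M Γ act A)
    (W1 : AddSubgroup Γ) (γ : Γ) (hW1 : ∀ τ, IsInertGp p M τ → ∀ x ∈ W1, act τ x ∈ W1)
    (hγ0 : γ ∈ CEabs_W0set A) (hγ : ∀ τ, IsInertGp p M τ → act τ γ - γ ∈ W1) :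
    ∀ a ∈ A, CEabs_T W1 γ 1 a 0 = 0 := by
  have key : ∀ K : ℕ, ∀ a ∈ A, ‖CEabs_T W1 γ 1 a 0‖ ≤ ‖(p : Om p)‖ ^ K := by
    intro K
    induction K with
    | zero =>
      intro a ha
      rw [pow_zero, CEabs_T_succ]
      exact CEabs_norm_sub_le (CEabs_T_zero_norm hA W1 γ ha _) (CEabs_T_zero_norm hA W1 γ ha _)
    | succ K ih => exact CEabs_improve hp2 hU hfin hnor hadd hp hA W1 γ hW1 hγ0 hγ K ih
  intro a ha
  exact CEabs_eq_zero_of_le_pow fun K => key K a ha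

/-- (e) -/
theorem CEabs_mem_of_D_one (hA : IsModel p M Γ act A) (W1 : AddSubgroup Γ) (γ : Γ)
    (h : ∀ a ∈ A, CEabs_T W1 γ 1 a 0 = 0) : γ ∈ W1 := by
  classical
  have hz := hA.sep (fun δ => (if δ - γ ∈ W1 then 1 else 0) - (if δ ∈ W1 then 1 else 0)) (by
    intro a ha
    have h1 := h a ha
    rw [CEabs_T_succ, CEabs_T_zero, CEabs_T_zero, zero_add] at h1
    unfold CEabs_S at h1
    simp only [sub_mul, ite_mul, one_mul, zero_mul, Finset.sum_sub_distrib]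
    have e1 : (∑ δ : Γ, if δ - γ ∈ W1 then a δ else 0)
        = ∑ g ∈ Finset.univ.filter (fun g => g ∈ W1), a (g + γ) := by
      rw [Finset.sum_filter, ← Equiv.sum_comp (Equiv.addRight γ)]
      refine Finset.sum_congr rfl fun g _ => ?_
      simp only [Equiv.coe_addRight, add_sub_cancel_right]
    have e2 : (∑ δ : Γ, if δ ∈ W1 then a δ else 0)
        = ∑ g ∈ Finset.univ.filter (fun g => g ∈ W1), a (g + 0) := by
      rw [Finset.sum_filter]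
      refine Finset.sum_congr rfl fun g _ => ?_
      rw [add_zero]
    rw [e1, e2]
    exact h1)
  have h1 := congrFun hz γ
  simp only [sub_self, W1.zero_mem, if_true, Pi.zero_apply] at h1
  by_contra hγ
  rw [if_neg hγ, sub_zero] at h1
  exact one_ne_zero h1

end Model

theorem ceAbs (hU : Stmt_UnramFix) : Stmt_CEabs := by
  intro p _ hp2 M hfin hnor Γ _ _ act A hadd hp hA
  refine ⟨CEabs_W0 hp hA, fun τ hτ w => CEabs_inert_sub hA hτ w, ?_⟩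
  intro W1 hW1 w hw hw1
  exact CEabs_mem_of_D_one hA W1 w
    (CEabs_D_one_eq_zero hp2 hU hfin hnor hadd hp hA W1 w hW1 hw hw1)

end Fermat.Agent.TW56.Flat

end
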