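/-
TEAM TW56 -> S56, block FLAT, package FL-CE-MODEL : a flat module has a model (`Stmt_CEmodel`),
and the assembly of `Stmt_CE`.
-/
import Fermat.Agent.TW56.Flat.Interface2

set_option autoImplicit false

noncomputable section

namespace Fermat.Agent.TW56.Flat

open Fermat.Agent.S53 WithConv

/-- the convolution product of two points, evaluated with a fixed representation of `Δ h`. -/
theorem CEmodel_mul_apply {R H F : Type} [CommRing R] [CommRing H] [Bialgebra R H] [CommRing F]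
    [Algebra R F] (h : H) :
    ∃ (n : ℕ) (l r : Fin n → H), ∀ f g : WithConv (H →ₐ[R] F),
      (f * g) h = ∑ i, f (l i) * g (r i) := by
  let 𝓡 := Coalgebra.Repr.arbitrary R h
  let ε := 𝓡.index.equivFin
  refine ⟨𝓡.index.card, fun i => 𝓡.left (ε.symm i), fun i => 𝓡.right (ε.symm i), fun f g => ?_⟩
  have h1 : (f * g) h = ∑ i ∈ 𝓡.index, f (𝓡.left i) * g (𝓡.right i) :=
    𝓡.convMul_apply (toConv f.ofConv.toLinearMap) (toConv g.ofConv.toLinearMap)
  rw [h1, ← Finset.sum_coe_sort, ← ε.symm.sum_comp]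

/-- distinct points are linearly independent (Dedekind). -/
theorem CEmodel_indep {R H F W : Type} [CommRing R] [CommRing H] [Algebra R H] [Field F]
    [Algebra R F] [Fintype W] (φ : W → (H →ₐ[R] F)) (hφ : Function.Injective φ) (z : W → F)
    (hz : ∀ h : H, ∑ γ, z γ * φ γ h = 0) : z = 0 := by
  have h1 : LinearIndependent F (fun f => f : (H →* F) → H → F) := linearIndependent_monoidHom H F
  have hinj : Function.Injective (fun γ : W => ((φ γ : H →ₐ[R] F) : H →* F)) := by
    intro γ γ' hγ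
    apply hφ
    ext h
    exact DFunLike.congr_fun hγ h
  have h2 := h1.comp _ hinj
  rw [Fintype.linearIndependent_iff] at h2
  funext γ
  refine h2 z ?_ γ
  funext h
  rw [Finset.sum_apply]
  exact hz h

section

variable {p : ℕ} [Fact p.Prime]

/-- an element of the Galois group as a `ℤ_(p)`-algebra homomorphism. -/
def CEmodel_gal (τ : Gp p) : Om p →ₐ[Rp p] Om p :=
  { (τ : Om p →+* Om p) with
    commutes' := fun r => RingHom.map_rat_algebraMap (τ : Om p →+* Om p) (r : ℚ) }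

variable {H : Type} [CommRing H]

/-- `f ↦ τ ∘ f`. -/
def CEmodel_tw [Algebra (Rp p) H] (τ : Gp p) (f : WithConv (H →ₐ[Rp p] Om p)) :
    WithConv (H →ₐ[Rp p] Om p) :=
  toConv ((CEmodel_gal τ).comp f.ofConv)

theorem CEmodel_tw_apply [Algebra (Rp p) H] (τ : Gp p) (f : WithConv (H →ₐ[Rp p] Om p)) (h : H) :
    CEmodel_tw τ f h = τ (f h) := rfl

theorem CEmodel_tw_mul [Bialgebra (Rp p) H] (τ : Gp p) (f g : WithConv (H →ₐ[Rp p] Om p)) :
    CEmodel_tw τ (f * g) = CEmodel_tw τ f * CEmodel_tw τ g := by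
  apply WithConv.ofConv_injective
  exact AlgHom.comp_convMul_distrib (CEmodel_gal τ) f g

/-- an element fixed by all automorphisms fixing `M` lies in `M`. -/
theorem CEmodel_mem (M : IF p) (x : Om p) (hx : ∀ τ : Gp p, (∀ y ∈ M, τ y = y) → τ x = x) :
    x ∈ M := by
  rw [← InfiniteGalois.fixedField_fixingSubgroup M, IntermediateField.mem_fixedField_iff]
  intro τ hτ
  refine hx τ fun y hy => ?_
  exact (IntermediateField.mem_fixingSubgroup_iff M τ).1 hτ y hy

end

/-- FL-CE-MODEL -/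
theorem ceModel (hPt : Stmt_PtField) : Stmt_CEmodel := by
  intro p _ W _ act hW M _ _ hM
  obtain ⟨H, _, _, hfin, -, -, e, hadd, hact⟩ := hW
  obtain ⟨-, -, hFin, hnorm⟩ := hPt p H hfin
  have hτ : ∀ (τ : Gp p) (f : WithConv (H →ₐ[Rp p] Om p)), e (CEmodel_tw τ f) = act τ (e f) :=
    fun τ f => hact τ f _ fun _ => rfl
  have hτ' : ∀ (τ : Gp p) (w : W), e.symm (act τ w) = CEmodel_tw τ (e.symm w) := by
    intro τ w
    rw [Equiv.symm_apply_eq, hτ, Equiv.apply_symm_apply]
  have hadd' : ∀ w w' : W, e.symm (w + w') = e.symm w * e.symm w' := by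
    intro w w'
    rw [Equiv.symm_apply_eq, hadd, Equiv.apply_symm_apply, Equiv.apply_symm_apply]
  have hFW : Finite W := Finite.of_equiv _ ((WithConv.equiv _).symm.trans e)
  let _ : Fintype W := Fintype.ofFinite W
  refine ⟨?_, inferInstance, {a | ∃ h : H, a = fun w => (e.symm w) h}, ?_, ?_, ?_, ?_⟩
  · intro τ w w'
    apply e.symm.injective
    rw [hτ', hadd', hadd', CEmodel_tw_mul, hτ', hτ']
  · rintro a ⟨h, rfl⟩ γ
    refine ⟨CEmodel_mem M _ fun τ hτM => ?_, hnorm _ h⟩
    have h1 : CEmodel_tw τ (e.symm γ) = e.symm γ := by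
      rw [← hτ', hM τ hτM]
    calc τ ((e.symm γ) h) = CEmodel_tw τ (e.symm γ) h := rfl
      _ = (e.symm γ) h := by rw [h1]
  · rintro a ⟨h, rfl⟩ τ γ
    show (e.symm (act τ γ)) h = τ ((e.symm γ) h)
    rw [hτ']
    rfl
  · rintro a ⟨h, rfl⟩
    obtain ⟨n, l, r, hlr⟩ := CEmodel_mul_apply (R := Rp p) (F := Om p) h
    refine ⟨n, fun i w => (e.symm w) (l i), fun i w => (e.symm w) (r i),
      fun i => ⟨⟨l i, rfl⟩, ⟨r i, rfl⟩⟩, fun γ γ' => ?_⟩
    show (e.symm (γ + γ')) h = _
    rw [hadd', hlr]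
  · intro z hz
    refine CEmodel_indep (fun w => (e.symm w).ofConv)
      (WithConv.ofConv_injective.comp e.symm.injective) z fun h => ?_
    exact hz _ ⟨h, rfl⟩

/-- assembly of **CE** -/
theorem ce (h1 : Stmt_CEabs) (h2 : Stmt_CEmodel) : Stmt_CE := by
  intro p _ hp W _ act hfl hpW M hfd hn hM
  obtain ⟨hadd, hFin, A, hA⟩ := h2 p W act hfl M hfd hn hM
  exact h1 p hp M hfd hn W act A hadd hpW hA

end Fermat.Agent.TW56.Flat

end
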