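/-
TEAM TW56 -> S56, block FLAT.  FL-CASE-I3 (`#Z¹` is invariant under conjugation) and the
assembly of FL-CASE-I from FL-CASE-I1, FL-CASE-I2, FL-CASE-I3.
-/
import Fermat.Agent.TW56.Flat.Interface2

set_option autoImplicit false

noncomputable section

namespace Fermat.Agent.TW56.Flat

open Fermat.Agent.S53 Matrix Polynomial

theorem CaseI_conjRep_apply {k : Type} [Field k] {G : Type} [Group G] (Q Q' : M2 k)
    (h : Q' * Q = 1) (rb : G →* M2 k) (σ : G) : conjRep Q Q' h rb σ = Q * rb σ * Q' := rfl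

/-- conjugating a cocycle of `rb` gives a cocycle of the conjugated representation -/
theorem CaseI_coc_conj {k : Type} [Field k] {G : Type} [Group G] (Q Q' : M2 k)
    (h : Q' * Q = 1) (rb : G →* M2 k) (c : G → M2 k) (hc : IsCoc0 rb c) :
    IsCoc0 (conjRep Q Q' h rb) (fun g => Q * c g * Q') where
  coc σ τ := by
    show Q * c (σ * τ) * Q' = Q * c σ * Q' + conjRep Q Q' h rb σ * (Q * c τ * Q') *
      conjRep Q Q' h rb σ⁻¹
    rw [CaseI_conjRep_apply, CaseI_conjRep_apply, hc.coc σ τ, mul_add, add_mul]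
    congr 1
    calc Q * (rb σ * c τ * rb σ⁻¹) * Q'
        = Q * rb σ * 1 * c τ * 1 * rb σ⁻¹ * Q' := by simp only [mul_one, mul_assoc]
      _ = Q * rb σ * Q' * (Q * c τ * Q') * (Q * rb σ⁻¹ * Q') := by
          rw [← h]; simp only [mul_assoc]
  tr σ := by
    show (Q * c σ * Q').trace = 0
    rw [Matrix.trace_mul_comm, ← mul_assoc, h, one_mul]
    exact hc.tr σ

/-- going back -/
theorem CaseI_coc_unconj {k : Type} [Field k] {G : Type} [Group G] (Q Q' : M2 k)
    (h : Q' * Q = 1) (rb : G →* M2 k) (c : G → M2 k) (hc : IsCoc0 (conjRep Q Q' h rb) c) :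
    IsCoc0 rb (fun g => Q' * c g * Q) where
  coc σ τ := by
    show Q' * c (σ * τ) * Q = Q' * c σ * Q + rb σ * (Q' * c τ * Q) * rb σ⁻¹
    rw [hc.coc σ τ, CaseI_conjRep_apply, CaseI_conjRep_apply, mul_add, add_mul]
    congr 1
    calc Q' * (Q * rb σ * Q' * c τ * (Q * rb σ⁻¹ * Q')) * Q
        = (Q' * Q) * rb σ * (Q' * c τ * Q) * rb σ⁻¹ * (Q' * Q) := by simp only [mul_assoc]
      _ = rb σ * (Q' * c τ * Q) * rb σ⁻¹ := by rw [h, one_mul, mul_one]
  tr σ := by
    have h' : Q * Q' = 1 := mul_eq_one_comm.mp h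
    show (Q' * c σ * Q).trace = 0
    rw [Matrix.trace_mul_comm, ← mul_assoc, h', one_mul]
    exact hc.tr σ

/-- **FL-CASE-I3** -/
theorem cardConj : Stmt_CardConj := by
  intro k _ G _ Q Q' h rb
  have h' : Q * Q' = 1 := mul_eq_one_comm.mp h
  refine (Nat.card_congr ?_).symm
  refine
    { toFun := fun c => ⟨fun g => Q * c.1 g * Q', CaseI_coc_conj Q Q' h rb c.1 c.2⟩
      invFun := fun c => ⟨fun g => Q' * c.1 g * Q, CaseI_coc_unconj Q Q' h rb c.1 c.2⟩
      left_inv := ?_
      right_inv := ?_ }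
  · intro c
    apply Subtype.ext
    funext g
    show Q' * (Q * c.1 g * Q') * Q = c.1 g
    calc Q' * (Q * c.1 g * Q') * Q = (Q' * Q) * c.1 g * (Q' * Q) := by simp only [mul_assoc]
      _ = c.1 g := by rw [h, one_mul, mul_one]
  · intro c
    apply Subtype.ext
    funext g
    show Q * (Q' * c.1 g * Q) * Q' = c.1 g
    calc Q * (Q' * c.1 g * Q) * Q' = (Q * Q') * c.1 g * (Q * Q') := by simp only [mul_assoc]
      _ = c.1 g := by rw [h', one_mul, mul_one]

/-- the determinant is invariant under conjugation -/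
theorem CaseI_det_conj {k : Type} [Field k] {G : Type} [Group G] (Q Q' : M2 k)
    (h : Q' * Q = 1) (rb : G →* M2 k) (g : G) : (conjRep Q Q' h rb g).det = (rb g).det := by
  have hd : Q'.det * Q.det = 1 := by rw [← Matrix.det_mul, h, Matrix.det_one]
  rw [CaseI_conjRep_apply, Matrix.det_mul, Matrix.det_mul]
  calc Q.det * (rb g).det * Q'.det = (Q'.det * Q.det) * (rb g).det := by ring
    _ = (rb g).det := by rw [hd, one_mul]

/-- **FL-CASE-I** from its three pieces -/
theorem caseI (h1 : Stmt_CaseI1) (h2 : Stmt_CaseI2) (h3 : Stmt_CardConj) : Stmt_CaseI := by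
  intro p _ k _ _ _ G _ _ I om hp hL rb hdet hsplit hirr
  obtain ⟨Q, Q', h, G', hIG, hidx, hmon, hs⟩ := h1 p k G I om hL rb hsplit hirr
  have hd : ∀ g, (conjRep Q Q' h rb g).det = om g := fun g => by
    rw [CaseI_det_conj, hdet g]
  have := h2 p k G I om hp hL (conjRep Q Q' h rb) G' hIG hidx hd hmon hs
  rwa [h3 k G Q Q' h rb] at this

end Fermat.Agent.TW56.Flat

end
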