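/-
TEAM TW56 -> S56, block FLAT, package FL-CASE-I1 : an irreducible `V` is monomial for an index 2
subgroup containing inertia (`Stmt_CaseI1`).
-/
import Fermat.Agent.TW56.Flat.Interface2

set_option autoImplicit false

noncomputable section

namespace Fermat.Agent.TW56.Flat

open Fermat.Agent.S53 Matrix Polynomial

section Lin

variable {k : Type} [Field k]

/-- an eigenvector from a root of the characteristic polynomial -/
lemma CaseI1_exists_eigen (M : M2 k) (α β : k) (h : M.charpoly = (X - C α) * (X - C β)) :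
    ∃ v : Fin 2 → k, v ≠ 0 ∧ M *ᵥ v = α • v := by
  have h1 : (Matrix.scalar (Fin 2) α - M).det = 0 := by
    rw [← Matrix.eval_charpoly, h]
    simp
  obtain ⟨v, hv, hv0⟩ := Matrix.exists_mulVec_eq_zero_iff.2 h1
  refine ⟨v, hv, ?_⟩
  rw [Matrix.sub_mulVec, sub_eq_zero] at hv0
  rw [← hv0]
  ext i
  fin_cases i <;> simp [Matrix.mulVec, dotProduct, Matrix.diagonal]

lemma CaseI1_pow_eigen (M : M2 k) (v : Fin 2 → k) (l : k) (h : M *ᵥ v = l • v) (n : ℕ) :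
    (M ^ n) *ᵥ v = l ^ n • v := by
  induction n with
  | zero => simp
  | succ n ih => rw [pow_succ, ← mulVec_mulVec, h, mulVec_smul, ih, smul_smul, pow_succ, mul_comm]

lemma CaseI1_det_ne_zero (v w : Fin 2 → k) (hv : v ≠ 0) (hw : ∀ l : k, w ≠ l • v) :
    v 0 * w 1 - w 0 * v 1 ≠ 0 := by
  intro h
  by_cases h0 : v 0 = 0
  · have h1 : v 1 ≠ 0 := by
      intro h1
      apply hv
      ext i
      fin_cases i
      · exact h0
      · exact h1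
    have hw0 : w 0 = 0 := by
      rw [h0, zero_mul, zero_sub, neg_eq_zero] at h
      exact (mul_eq_zero.1 h).resolve_right h1
    apply hw (w 1 / v 1)
    ext i
    fin_cases i
    · show w 0 = w 1 / v 1 * v 0
      rw [hw0, h0, mul_zero]
    · show w 1 = w 1 / v 1 * v 1
      field_simp
  · apply hw (w 0 / v 0)
    ext i
    fin_cases i
    · show w 0 = w 0 / v 0 * v 0
      field_simp
    · show w 1 = w 0 / v 0 * v 1
      field_simp
      linear_combination h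

/-- the matrix with columns `v`, `w` -/
def CaseI1_Q (v w : Fin 2 → k) : M2 k := !![v 0, w 0; v 1, w 1]

omit [Field k] in
lemma CaseI1_Q_col0 (v w : Fin 2 → k) (i : Fin 2) : CaseI1_Q v w i 0 = v i := by
  fin_cases i <;> rfl

lemma CaseI1_Q_isUnit (v w : Fin 2 → k) (hv : v ≠ 0) (hw : ∀ l : k, w ≠ l • v) :
    IsUnit (CaseI1_Q v w).det := by
  rw [CaseI1_Q, Matrix.det_fin_two_of, isUnit_iff_ne_zero]
  exact CaseI1_det_ne_zero v w hv hw

lemma CaseI1_mul_Q (A : M2 k) (v w : Fin 2 → k) :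
    A * CaseI1_Q v w = CaseI1_Q (A *ᵥ v) (A *ᵥ w) := by
  ext i j
  fin_cases i <;> fin_cases j <;>
    simp [CaseI1_Q, Matrix.mul_apply, Matrix.mulVec, dotProduct, Fin.sum_univ_two]

lemma CaseI1_Q_smul (v w : Fin 2 → k) (a b : k) :
    CaseI1_Q (a • v) (b • w) = CaseI1_Q v w * Matrix.diagonal ![a, b] := by
  ext i j
  fin_cases i <;> fin_cases j <;>
    simp [CaseI1_Q, Matrix.mul_apply, Matrix.diagonal, mul_comm]

lemma CaseI1_eq_of_basis (v w : Fin 2 → k) (hv : v ≠ 0) (hw : ∀ l : k, w ≠ l • v) (A B : M2 k)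
    (h1 : A *ᵥ v = B *ᵥ v) (h2 : A *ᵥ w = B *ᵥ w) : A = B := by
  have hU : IsUnit (CaseI1_Q v w) := (Matrix.isUnit_iff_isUnit_det _).2 (CaseI1_Q_isUnit v w hv hw)
  apply hU.mul_left_inj.1
  rw [CaseI1_mul_Q, CaseI1_mul_Q, h1, h2]

end Lin

section Rep

variable {k : Type} [Field k] {G : Type} [Group G]

lemma CaseI1_mul_inv (ρ : G →* M2 k) (g : G) : ρ g * ρ g⁻¹ = 1 := by
  rw [← map_mul, mul_inv_cancel, map_one]

lemma CaseI1_det_ne (ρ : G →* M2 k) (g : G) : ρ g 0 0 * ρ g 1 1 - ρ g 0 1 * ρ g 1 0 ≠ 0 := by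
  rw [← Matrix.det_fin_two]
  intro h
  have := congrArg Matrix.det (CaseI1_mul_inv ρ g)
  rw [Matrix.det_mul, h, zero_mul, Matrix.det_one] at this
  exact zero_ne_one this

/-- a `p`-group fixes a nonzero vector. -/
lemma CaseI1_fixed (p : ℕ) [Fact p.Prime] [Finite k] [CharP k p] (rb : G →* M2 k)
    (P : Subgroup G) (hP : IsPGroup p P) :
    ∃ v : Fin 2 → k, v ≠ 0 ∧ ∀ u ∈ P, rb u *ᵥ v = v := by
  let _ : MulAction P (Fin 2 → k) :=
    { smul := fun u v => rb (u : G) *ᵥ v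
      one_smul := fun v => by
        show rb ((1 : P) : G) *ᵥ v = v
        simp
      mul_smul := fun a b v => by
        show rb ((a * b : P) : G) *ᵥ v = rb (a : G) *ᵥ (rb (b : G) *ᵥ v)
        rw [Matrix.mulVec_mulVec, ← map_mul]
        rfl }
  have hpk : p ∣ Nat.card k := by
    have h1 : addOrderOf (1 : k) = p := CharP.eq k (CharP.addOrderOf_one k) inferInstance
    rw [← h1]
    exact addOrderOf_dvd_natCard 1
  have hcard : p ∣ Nat.card (Fin 2 → k) := by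
    rw [Nat.card_fun]
    simp only [Nat.card_eq_fintype_card, Fintype.card_fin]
    exact dvd_pow hpk two_ne_zero
  have h0 : (0 : Fin 2 → k) ∈ MulAction.fixedPoints P (Fin 2 → k) := by
    intro u
    show rb (u : G) *ᵥ (0 : Fin 2 → k) = 0
    simp
  obtain ⟨v, hv, hne⟩ := hP.exists_fixed_point_of_prime_dvd_card_of_fixed_point (Fin 2 → k) hcard h0
  exact ⟨v, hne.symm, fun u hu => hv ⟨u, hu⟩⟩

/-- a normal `p`-subgroup acts trivially on an irreducible representation. -/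
lemma CaseI1_trivial_P (p : ℕ) [Fact p.Prime] [Finite k] [CharP k p] (rb : G →* M2 k)
    (P : Subgroup G) (hP : IsPGroup p P) (hPn : P.Normal)
    (hirr : ¬ ∃ v : Fin 2 → k, v ≠ 0 ∧ ∀ g, ∃ l : k, rb g *ᵥ v = l • v) :
    ∀ u ∈ P, rb u = 1 := by
  obtain ⟨v, hv, hfix⟩ := CaseI1_fixed p rb P hP
  have : ∃ g, ∀ l : k, rb g *ᵥ v ≠ l • v := by
    by_contra hcon
    push Not at hcon
    exact hirr ⟨v, hv, hcon⟩
  obtain ⟨g, hg⟩ := this
  intro u hu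
  have h2 : rb u *ᵥ (rb g *ᵥ v) = rb g *ᵥ v := by
    have hc : g⁻¹ * u * g ∈ P := by simpa using hPn.conj_mem u hu g⁻¹
    have h3 := hfix _ hc
    calc rb u *ᵥ (rb g *ᵥ v) = rb (g * (g⁻¹ * u * g)) *ᵥ v := by
          rw [mulVec_mulVec, ← map_mul]
          congr 2
          group
      _ = rb g *ᵥ (rb (g⁻¹ * u * g) *ᵥ v) := by rw [map_mul, mulVec_mulVec]
      _ = _ := by rw [h3]
  exact CaseI1_eq_of_basis v (rb g *ᵥ v) hv hg (rb u) 1 (by rw [hfix u hu, one_mulVec])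
    (by rw [h2, one_mulVec])

/-- the dichotomy diagonal/antidiagonal. -/
lemma CaseI1_dich (ρ : G →* M2 k) (I : Subgroup G) (hI : I.Normal) (s₀ : G) (hs₀ : s₀ ∈ I)
    (α β : k) (hαβ : α ≠ β) (hD : ρ s₀ = Matrix.diagonal ![α, β])
    (hgen : ∀ s ∈ I, ∃ n : ℕ, ρ s = ρ s₀ ^ n) (g : G) :
    (ρ g 0 1 = 0 ∧ ρ g 1 0 = 0) ∨ (ρ g 0 0 = 0 ∧ ρ g 1 1 = 0) := by
  have hc : g⁻¹ * s₀ * g ∈ I := by simpa using hI.conj_mem s₀ hs₀ g⁻¹
  obtain ⟨n, hn⟩ := hgen _ hc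
  have hcomm : ρ s₀ * ρ g = ρ g * ρ s₀ ^ n := by
    rw [← hn, ← map_mul, ← map_mul]
    congr 1
    group
  rw [hD, Matrix.diagonal_pow] at hcomm
  have e : ∀ i j, ![α, β] i * ρ g i j = ρ g i j * (![α, β] ^ n) j := by
    intro i j
    have := congrFun (congrFun hcomm i) j
    rwa [Matrix.diagonal_mul, Matrix.mul_diagonal] at this
  have h00 : α * ρ g 0 0 = ρ g 0 0 * α ^ n := by simpa using e 0 0
  have h10 : β * ρ g 1 0 = ρ g 1 0 * α ^ n := by simpa using e 1 0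
  have h01 : α * ρ g 0 1 = ρ g 0 1 * β ^ n := by simpa using e 0 1
  have h11 : β * ρ g 1 1 = ρ g 1 1 * β ^ n := by simpa using e 1 1
  have hdet := CaseI1_det_ne ρ g
  have hA : ρ g 0 0 = 0 ∨ ρ g 1 0 = 0 := by
    by_contra hcon
    push Not at hcon
    apply hαβ
    have e1 : α = α ^ n := mul_right_cancel₀ hcon.1 (by rw [h00, mul_comm])
    have e2 : β = α ^ n := mul_right_cancel₀ hcon.2 (by rw [h10, mul_comm])
    rw [e2, ← e1]
  have hB : ρ g 0 1 = 0 ∨ ρ g 1 1 = 0 := by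
    by_contra hcon
    push Not at hcon
    apply hαβ
    have e1 : α = β ^ n := mul_right_cancel₀ hcon.1 (by rw [h01, mul_comm])
    have e2 : β = β ^ n := mul_right_cancel₀ hcon.2 (by rw [h11, mul_comm])
    rw [e1, ← e2]
  rcases hA with hA | hA <;> rcases hB with hB | hB
  · exact absurd (by rw [hA, hB]; ring) hdet
  · exact Or.inr ⟨hA, hB⟩
  · exact Or.inl ⟨hB, hA⟩
  · exact absurd (by rw [hA, hB]; ring) hdet

/-- the subgroup of the diagonal elements has index two. -/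
lemma CaseI1_index (ρ : G →* M2 k)
    (hdich : ∀ g, (ρ g 0 1 = 0 ∧ ρ g 1 0 = 0) ∨ (ρ g 0 0 = 0 ∧ ρ g 1 1 = 0))
    (g₀ : G) (hg₀ : ¬ (ρ g₀ 0 1 = 0 ∧ ρ g₀ 1 0 = 0)) :
    ∃ G' : Subgroup G, G'.index = 2 ∧ ∀ g, g ∈ G' ↔ (ρ g 0 1 = 0 ∧ ρ g 1 0 = 0) := by
  have hnot : ∀ g, (ρ g 0 0 = 0 ∧ ρ g 1 1 = 0) → ¬ (ρ g 0 1 = 0 ∧ ρ g 1 0 = 0) := by
    intro g h1 h2
    apply CaseI1_det_ne ρ g
    rw [h1.1, h2.1]
    ring
  let G' : Subgroup G :=
    { carrier := {g | ρ g 0 1 = 0 ∧ ρ g 1 0 = 0}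
      one_mem' := by
        show ρ 1 0 1 = 0 ∧ ρ 1 1 0 = 0
        rw [map_one]
        simp
      mul_mem' := by
        intro a b ha hb
        have ha' : ρ a 0 1 = 0 ∧ ρ a 1 0 = 0 := ha
        have hb' : ρ b 0 1 = 0 ∧ ρ b 1 0 = 0 := hb
        show ρ (a * b) 0 1 = 0 ∧ ρ (a * b) 1 0 = 0
        rw [map_mul, Matrix.mul_apply, Matrix.mul_apply, Fin.sum_univ_two, Fin.sum_univ_two,
          ha'.1, ha'.2, hb'.1, hb'.2]
        simp
      inv_mem' := by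
        intro a ha
        have ha' : ρ a 0 1 = 0 ∧ ρ a 1 0 = 0 := ha
        show ρ a⁻¹ 0 1 = 0 ∧ ρ a⁻¹ 1 0 = 0
        rcases hdich a⁻¹ with h | h
        · exact h
        · exfalso
          have := congrFun (congrFun (CaseI1_mul_inv ρ a) 0) 0
          rw [Matrix.mul_apply, Fin.sum_univ_two, ha'.1, h.1] at this
          simp at this }
  refine ⟨G', ?_, fun g => Iff.rfl⟩
  have hA₀ : ρ g₀ 0 0 = 0 ∧ ρ g₀ 1 1 = 0 := (hdich g₀).resolve_left hg₀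
  rw [Subgroup.index_eq_two_iff]
  refine ⟨g₀, fun b => ?_⟩
  by_cases hb : b ∈ G'
  · refine Or.inr ⟨hb, ?_⟩
    have hb' : ρ b 0 1 = 0 ∧ ρ b 1 0 = 0 := hb
    apply hnot
    rw [map_mul, Matrix.mul_apply, Matrix.mul_apply, Fin.sum_univ_two, Fin.sum_univ_two,
      hb'.1, hb'.2, hA₀.1, hA₀.2]
    simp
  · refine Or.inl ⟨?_, hb⟩
    have hb' : ρ b 0 0 = 0 ∧ ρ b 1 1 = 0 := (hdich b).resolve_left hb
    show ρ (b * g₀) 0 1 = 0 ∧ ρ (b * g₀) 1 0 = 0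
    rw [map_mul, Matrix.mul_apply, Matrix.mul_apply, Fin.sum_univ_two, Fin.sum_univ_two,
      hb'.1, hb'.2, hA₀.1, hA₀.2]
    simp

end Rep

/-- **FL-CASE-I1** -/
theorem caseI1 : Stmt_CaseI1 := by
  intro p _ k _ _ _ G _ _ I om hax rb hsplit hirr
  obtain ⟨P, hPI, hPn, hP, s₀, hs₀, hgen⟩ := hax.tame
  obtain ⟨φ, hφ⟩ := hax.cyc
  have hIn := hax.normal
  have hPtriv := CaseI1_trivial_P p rb P hP hPn hirr
  -- `rb (I)` is generated by `rb s₀`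
  have hgen' : ∀ s ∈ I, ∃ n : ℕ, rb s = rb s₀ ^ n := by
    intro s hs
    obtain ⟨n, u, hu, rfl⟩ := hgen s hs
    exact ⟨n, by rw [map_mul, hPtriv u hu, mul_one, map_pow]⟩
  -- an eigenvector
  obtain ⟨α, β₀, hc⟩ := hsplit s₀
  obtain ⟨v₁, hv₁, hev₁⟩ := CaseI1_exists_eigen _ α β₀ hc
  have : ∃ g, ∀ l : k, rb g *ᵥ v₁ ≠ l • v₁ := by
    by_contra hcon
    push Not at hcon
    exact hirr ⟨v₁, hv₁, hcon⟩
  obtain ⟨g₀, hg₀⟩ := this
  set v₂ := rb g₀ *ᵥ v₁ with hv₂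
  -- `v₂` is an eigenvector
  obtain ⟨β, hev₂⟩ : ∃ β : k, rb s₀ *ᵥ v₂ = β • v₂ := by
    have hc : g₀⁻¹ * s₀ * g₀ ∈ I := by simpa using hIn.conj_mem s₀ hs₀ g₀⁻¹
    obtain ⟨n, hn⟩ := hgen' _ hc
    refine ⟨α ^ n, ?_⟩
    calc rb s₀ *ᵥ v₂ = rb (g₀ * (g₀⁻¹ * s₀ * g₀)) *ᵥ v₁ := by
          rw [hv₂, mulVec_mulVec, ← map_mul]
          congr 2
          group
      _ = rb g₀ *ᵥ (rb s₀ ^ n *ᵥ v₁) := by rw [map_mul, hn, mulVec_mulVec]
      _ = _ := by rw [CaseI1_pow_eigen _ _ _ hev₁, mulVec_smul]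
  -- `α ≠ β`
  have hαβ : α ≠ β := by
    rintro rfl
    have hu : rb s₀ = α • (1 : M2 k) :=
      CaseI1_eq_of_basis v₁ v₂ hv₁ hg₀ _ _ (by rw [hev₁, smul_mulVec, one_mulVec])
        (by rw [hev₂, smul_mulVec, one_mulVec])
    obtain ⟨l, l', hcφ⟩ := hsplit φ
    obtain ⟨w, hw, hew⟩ := CaseI1_exists_eigen _ l l' hcφ
    apply hirr
    refine ⟨w, hw, fun g => ?_⟩
    obtain ⟨n, s, hs, rfl⟩ := hφ g
    obtain ⟨m, hm⟩ := hgen' s hs
    refine ⟨α ^ m * l ^ n, ?_⟩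
    rw [map_mul, map_pow, hm, hu, _root_.smul_pow, one_pow, ← mulVec_mulVec, smul_mulVec, one_mulVec,
      mulVec_smul, CaseI1_pow_eigen _ _ _ hew, smul_smul]
  -- the change of basis
  set Q' : M2 k := CaseI1_Q v₁ v₂ with hQ'
  have hdet : IsUnit Q'.det := CaseI1_Q_isUnit v₁ v₂ hv₁ hg₀
  have h1 : Q' * Q'⁻¹ = 1 := Matrix.mul_nonsing_inv _ hdet
  have h2 : Q'⁻¹ * Q' = 1 := Matrix.nonsing_inv_mul _ hdet
  set ρ := conjRep Q'⁻¹ Q' h1 rb with hρ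
  have hρ_apply : ∀ g, ρ g = Q'⁻¹ * rb g * Q' := fun g => rfl
  have hQρ : ∀ g, Q' * ρ g = rb g * Q' := by
    intro g
    rw [hρ_apply, ← mul_assoc, ← mul_assoc, h1, one_mul]
  have hD : ρ s₀ = Matrix.diagonal ![α, β] := by
    rw [hρ_apply, mul_assoc, hQ', CaseI1_mul_Q, hev₁, hev₂, CaseI1_Q_smul, ← hQ', ← mul_assoc, h2,
      one_mul]
  have hgenρ : ∀ s ∈ I, ∃ n : ℕ, ρ s = ρ s₀ ^ n := by
    intro s hs
    obtain ⟨n, u, hu, rfl⟩ := hgen s hs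
    refine ⟨n, ?_⟩
    have : ρ u = 1 := by rw [hρ_apply, hPtriv u hu, mul_one, h2]
    rw [map_mul, this, mul_one, map_pow]
  have hdich := CaseI1_dich ρ I hIn s₀ hs₀ α β hαβ hD hgenρ
  have hg₀' : ¬ (ρ g₀ 0 1 = 0 ∧ ρ g₀ 1 0 = 0) := by
    intro h
    apply hg₀ (ρ g₀ 0 0)
    have e := hQρ g₀
    rw [hQ', CaseI1_mul_Q] at e
    ext i
    have e' := congrFun (congrFun e i) 0
    rw [Matrix.mul_apply, Fin.sum_univ_two, h.2, mul_zero, add_zero] at e'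
    rw [CaseI1_Q_col0, CaseI1_Q_col0] at e'
    show v₂ i = ρ g₀ 0 0 * v₁ i
    rw [mul_comm]
    exact e'.symm
  obtain ⟨G', hidx, hG'⟩ := CaseI1_index ρ hdich g₀ hg₀'
  refine ⟨Q'⁻¹, Q', h1, G', ?_, hidx, ⟨fun g hg => (hG' g).1 hg, fun g hg => ?_⟩, s₀, hs₀, ?_⟩
  · intro s hs
    rw [hG']
    obtain ⟨n, hn⟩ := hgenρ s hs
    rw [hn, hD, Matrix.diagonal_pow]
    simp
  · exact (hdich g).resolve_left (fun h => hg ((hG' g).2 h))
  · show ρ s₀ 0 0 ≠ ρ s₀ 1 1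
    rw [hD]
    simpa using hαβ

end Fermat.Agent.TW56.Flat

end
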