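/-
TEAM TW56 -> S56, block FLAT, task FL-CASE-I2 (helper76): the count of trace zero cocycles for a
monomial representation.
-/
import Fermat.Agent.TW56.Flat.Interface2

set_option autoImplicit false

noncomputable section

namespace Fermat.Agent.TW56.Flat

open Fermat.Agent.S53 Matrix

section CaseI2

variable {k : Type} [Field k] {G : Type} [Group G]

/-- the cocycle relation without inverses. -/
theorem CaseI2_rel {rb : G →* M2 k} {c : G → M2 k} (hc : IsCoc0 rb c) (σ τ : G) :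
    c (σ * τ) * rb σ = c σ * rb σ + rb σ * c τ := by
  have h1 : rb σ⁻¹ * rb σ = 1 := by rw [← map_mul, inv_mul_cancel, map_one]
  rw [hc.coc σ τ, add_mul, mul_assoc (rb σ * c τ), h1, mul_one]

theorem CaseI2_tr {rb : G →* M2 k} {c : G → M2 k} (hc : IsCoc0 rb c) (σ : G) :
    c σ 1 1 = - c σ 0 0 := by
  have h := hc.tr σ
  rw [Matrix.trace_fin_two] at h
  linear_combination h

/-- the cocycle relation for a diagonal `rb g`. -/
theorem CaseI2_diag {rb : G →* M2 k} {c : G → M2 k} (hc : IsCoc0 rb c) {g : G}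
    (h01 : rb g 0 1 = 0) (h10 : rb g 1 0 = 0) (h00 : rb g 0 0 ≠ 0) (τ : G) :
    c (g * τ) 0 0 = c g 0 0 + c τ 0 0 ∧
    c (g * τ) 0 1 * rb g 1 1 = c g 0 1 * rb g 1 1 + rb g 0 0 * c τ 0 1 ∧
    c (g * τ) 1 0 * rb g 0 0 = c g 1 0 * rb g 0 0 + rb g 1 1 * c τ 1 0 := by
  have h := CaseI2_rel hc g τ
  have e00 := congrFun (congrFun h 0) 0
  have e01 := congrFun (congrFun h 0) 1
  have e10 := congrFun (congrFun h 1) 0
  simp only [Matrix.add_apply, Matrix.mul_apply, Fin.sum_univ_two, h01, h10, mul_zero, zero_mul,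
    add_zero, zero_add] at e00 e01 e10
  refine ⟨?_, e01, e10⟩
  apply mul_right_cancel₀ h00
  rw [e00]
  ring

/-- the cocycle relation for an antidiagonal `rb φ`. -/
theorem CaseI2_anti {rb : G →* M2 k} {c : G → M2 k} (hc : IsCoc0 rb c) {φ : G}
    (h00 : rb φ 0 0 = 0) (h11 : rb φ 1 1 = 0) (h01 : rb φ 0 1 ≠ 0) (τ : G) :
    c (φ * τ) 0 0 = c φ 0 0 + c τ 1 1 ∧
    c (φ * τ) 0 1 * rb φ 1 0 = c φ 0 1 * rb φ 1 0 + rb φ 0 1 * c τ 1 0 := by
  have h := CaseI2_rel hc φ τ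
  have e00 := congrFun (congrFun h 0) 0
  have e01 := congrFun (congrFun h 0) 1
  simp only [Matrix.add_apply, Matrix.mul_apply, Fin.sum_univ_two, h00, h11, mul_zero, zero_mul,
    add_zero, zero_add] at e00 e01
  refine ⟨?_, e00⟩
  apply mul_right_cancel₀ h01
  rw [e01]
  ring

/-- commutators lie in `I` when `G/I` is cyclic. -/
theorem CaseI2_comm {I : Subgroup G} (hn : I.Normal)
    (hcyc : ∃ φ : G, ∀ g : G, ∃ n : ℕ, ∃ s ∈ I, g = φ ^ n * s) (g h : G) :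
    g * h * g⁻¹ * h⁻¹ ∈ I := by
  obtain ⟨φ, hφ⟩ := hcyc
  have key : ∀ g : G, ∃ n : ℕ, (QuotientGroup.mk g : G ⧸ I) = (QuotientGroup.mk φ : G ⧸ I) ^ n := by
    intro g
    obtain ⟨n, s, hs, rfl⟩ := hφ g
    refine ⟨n, ?_⟩
    rw [QuotientGroup.mk_mul, (QuotientGroup.eq_one_iff s).2 hs, mul_one, QuotientGroup.mk_pow]
  rw [← QuotientGroup.eq_one_iff]
  obtain ⟨n, hn'⟩ := key g
  obtain ⟨m, hm'⟩ := key h
  rw [QuotientGroup.mk_mul, QuotientGroup.mk_mul, QuotientGroup.mk_mul, QuotientGroup.mk_inv,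
    QuotientGroup.mk_inv, hn', hm', ← pow_add, add_comm, pow_add]
  group

theorem CaseI2_ne_diag {rb : G →* M2 k} {om : G →* kˣ} (hdet : ∀ g, (rb g).det = om g) {g : G}
    (h01 : rb g 0 1 = 0) : rb g 0 0 ≠ 0 ∧ rb g 1 1 ≠ 0 := by
  have h := hdet g
  rw [Matrix.det_fin_two, h01, zero_mul, sub_zero] at h
  have h0 : rb g 0 0 * rb g 1 1 ≠ 0 := by rw [h]; exact (om g).ne_zero
  exact ⟨left_ne_zero_of_mul h0, right_ne_zero_of_mul h0⟩

theorem CaseI2_ne_anti {rb : G →* M2 k} {om : G →* kˣ} (hdet : ∀ g, (rb g).det = om g) {g : G}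
    (h00 : rb g 0 0 = 0) : rb g 0 1 ≠ 0 ∧ rb g 1 0 ≠ 0 := by
  have h := hdet g
  rw [Matrix.det_fin_two, h00, zero_mul, zero_sub] at h
  have h0 : rb g 0 1 * rb g 1 0 ≠ 0 := by
    intro h1
    rw [h1, neg_zero] at h
    exact (om g).ne_zero h.symm
  exact ⟨left_ne_zero_of_mul h0, right_ne_zero_of_mul h0⟩

/-- **the kernel**: a cocycle with `b|G' = 0`, `c φ = [[0,0],[*,*]]` vanishes. -/
theorem CaseI2_zero (h2 : (2 : k) ≠ 0) {I : Subgroup G} {om : G →* kˣ} (hn : I.Normal)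
    (hcyc : ∃ φ : G, ∀ g : G, ∃ n : ℕ, ∃ s ∈ I, g = φ ^ n * s) {G' : Subgroup G}
    (hom2 : ∀ f : G → k, (∀ σ ∈ G', ∀ τ ∈ G', f (σ * τ) = f σ + f τ) → ∀ s ∈ I, f s = 0)
    {rb : G →* M2 k} (hi : G'.index = 2) (hdet : ∀ g, (rb g).det = om g)
    (hm : IsMonomial G' rb) {φ : G} (hφ : φ ∉ G') {c : G → M2 k} (hc : IsCoc0 rb c)
    (hb : ∀ g ∈ G', c g 0 1 = 0) (h00 : c φ 0 0 = 0) (h01 : c φ 0 1 = 0) : c = 0 := by
  have hN : G'.Normal := Subgroup.normal_of_index_eq_two hi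
  obtain ⟨hx, hy⟩ := CaseI2_ne_anti hdet (hm.2 φ hφ).1
  -- `c φ = 0`
  have h10 : c φ 1 0 = 0 := by
    have h := (CaseI2_anti hc (hm.2 φ hφ).1 (hm.2 φ hφ).2 hx φ).2
    rw [hb _ (Subgroup.mul_self_mem_of_index_two hi φ), h01, zero_mul, zero_add] at h
    exact (mul_eq_zero.1 h.symm).resolve_left hx
  -- on `G'`
  have hG' : ∀ g ∈ G', c g 0 0 = 0 ∧ c g 1 0 = 0 := by
    intro g hg
    have hh : φ * g * φ⁻¹ ∈ G' := hN.conj_mem g hg φ
    have e : φ * g * φ⁻¹ * φ = φ * g := by group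
    obtain ⟨hA, hD⟩ := CaseI2_ne_diag hdet (hm.1 _ hh).1
    obtain ⟨d1, d2, -⟩ := CaseI2_diag hc (hm.1 _ hh).1 (hm.1 _ hh).2 hA φ
    obtain ⟨a1, a2⟩ := CaseI2_anti hc (hm.2 φ hφ).1 (hm.2 φ hφ).2 hx g
    rw [e] at d1 d2
    rw [hb _ hh, h01, zero_mul, mul_zero, add_zero] at d2
    have d3 : c (φ * g) 0 1 = 0 := (mul_eq_zero.1 d2).resolve_right hD
    rw [d3, h01, zero_mul, zero_add] at a2
    refine ⟨?_, (mul_eq_zero.1 a2.symm).resolve_left hx⟩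
    rw [h00, zero_add, CaseI2_tr hc g] at a1
    rw [h00, add_zero, a1] at d1
    -- `a (φ g φ⁻¹) = a g`
    have hadd : ∀ σ ∈ G', ∀ τ ∈ G', c (σ * τ) 0 0 = c σ 0 0 + c τ 0 0 := fun σ hσ τ _ =>
      (CaseI2_diag hc (hm.1 _ hσ).1 (hm.1 _ hσ).2 (CaseI2_ne_diag hdet (hm.1 _ hσ).1).1 τ).1
    have hI : c (φ * g * φ⁻¹ * g⁻¹) 0 0 = 0 :=
      hom2 (fun g => c g 0 0) hadd _ (CaseI2_comm hn hcyc φ g)
    have e2 : φ * g * φ⁻¹ = φ * g * φ⁻¹ * g⁻¹ * g := by group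
    have h3 := hadd (φ * g * φ⁻¹ * g⁻¹) (G'.mul_mem hh (G'.inv_mem hg)) g hg
    rw [← e2] at h3
    rw [hI, zero_add, ← d1] at h3
    have h4 : (2 : k) * c g 0 0 = 0 := by linear_combination -h3
    exact (mul_eq_zero.1 h4).resolve_left h2
  funext g
  have hfin : c g 0 0 = 0 ∧ c g 0 1 = 0 ∧ c g 1 0 = 0 := by
    by_cases hg : g ∈ G'
    · exact ⟨(hG' g hg).1, hb g hg, (hG' g hg).2⟩
    · have hg' : g * φ⁻¹ ∈ G' := by
        rw [Subgroup.mul_mem_iff_of_index_two hi, inv_mem_iff]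
        exact iff_of_false hg hφ
      have e : g * φ⁻¹ * φ = g := by group
      obtain ⟨hA, hD⟩ := CaseI2_ne_diag hdet (hm.1 _ hg').1
      obtain ⟨d1, d2, d3⟩ := CaseI2_diag hc (hm.1 _ hg').1 (hm.1 _ hg').2 hA φ
      rw [e] at d1 d2 d3
      rw [(hG' _ hg').1, h00, add_zero] at d1
      rw [hb _ hg', h01, zero_mul, mul_zero, add_zero] at d2
      rw [(hG' _ hg').2, h10, zero_mul, mul_zero, add_zero] at d3
      exact ⟨d1, (mul_eq_zero.1 d2).resolve_right hD, (mul_eq_zero.1 d3).resolve_right hA⟩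
  ext i j
  fin_cases i <;> fin_cases j
  · exact hfin.1
  · exact hfin.2.1
  · exact hfin.2.2
  · show c g 1 1 = 0
    rw [CaseI2_tr hc g, hfin.1, neg_zero]

/-- the diagonal entries as multiplicative maps on `G'`. -/
def CaseI2_chi0 (rb : G →* M2 k) (G' : Subgroup G)
    (hm : ∀ g ∈ G', rb g 0 1 = 0 ∧ rb g 1 0 = 0) (i : Fin 2) : G' →* k where
  toFun g := rb g i i
  map_one' := by
    show rb ((1 : G') : G) i i = 1
    rw [Subgroup.coe_one, map_one, Matrix.one_apply_eq]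
  map_mul' g h := by
    show rb ((g * h : G') : G) i i = rb g i i * rb h i i
    rw [Subgroup.coe_mul, map_mul, Matrix.mul_apply, Fin.sum_univ_two]
    fin_cases i
    · show rb g 0 0 * rb h 0 0 + rb g 0 1 * rb h 1 0 = rb g 0 0 * rb h 0 0
      rw [(hm g g.2).1, zero_mul, add_zero]
    · show rb g 1 0 * rb h 0 1 + rb g 1 1 * rb h 1 1 = rb g 1 1 * rb h 1 1
      rw [(hm g g.2).2, zero_mul, zero_add]

/-- the diagonal characters of `G'`. -/
def CaseI2_chi (rb : G →* M2 k) (G' : Subgroup G)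
    (hm : ∀ g ∈ G', rb g 0 1 = 0 ∧ rb g 1 0 = 0) (i : Fin 2) : G' →* kˣ :=
  (CaseI2_chi0 rb G' hm i).toHomUnits

theorem CaseI2_chi_coe (rb : G →* M2 k) (G' : Subgroup G)
    (hm : ∀ g ∈ G', rb g 0 1 = 0 ∧ rb g 1 0 = 0) (i : Fin 2) (g : G') :
    ((CaseI2_chi rb G' hm i g : kˣ) : k) = rb g i i := rfl

theorem CaseI2_sub {rb : G →* M2 k} {c₁ c₂ : G → M2 k} (h₁ : IsCoc0 rb c₁) (h₂ : IsCoc0 rb c₂) :
    IsCoc0 rb (c₁ - c₂) where
  coc σ τ := by
    simp only [Pi.sub_apply, h₁.coc σ τ, h₂.coc σ τ, mul_sub, sub_mul]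
    abel
  tr σ := by
    rw [Pi.sub_apply, Matrix.trace_sub, h₁.tr, h₂.tr, sub_zero]

end CaseI2

theorem caseI2 : Stmt_CaseI2 := by
  intro p _ k _ _ _ G _ _ I om hp2 hax rb G' hIG hi hdet hm hs
  obtain ⟨φ, hφ⟩ : ∃ φ, φ ∉ G' := by
    by_contra h
    push Not at h
    have h1 : G' = ⊤ := (Subgroup.eq_top_iff' G').2 h
    rw [h1, Subgroup.index_top] at hi
    omega
  have h2 : (2 : k) ≠ 0 := by
    intro h
    have h3 : ((2 : ℕ) : k) = 0 := by exact_mod_cast h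
    rw [CharP.cast_eq_zero_iff k p 2] at h3
    exact hp2 ((Nat.prime_dvd_prime_iff_eq Fact.out Nat.prime_two).1 h3)
  obtain ⟨hx, hy⟩ := CaseI2_ne_anti hdet (hm.2 φ hφ).1
  have hx2 : Nat.card (Z1Char (CaseI2_chi rb G' hm.1 0 / CaseI2_chi rb G' hm.1 1))
      ≤ Nat.card k ^ 2 := by
    refine hax.x2 G' hIG hi φ hφ _ _ ?_ ?_ ?_
    · intro g h hgh
      apply Units.ext
      rw [CaseI2_chi_coe, CaseI2_chi_coe]
      have e : rb h * rb φ = rb φ * rb g := by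
        rw [← map_mul, ← map_mul, hgh]
        congr 1
        group
      have e01 := congrFun (congrFun e 0) 1
      simp only [Matrix.mul_apply, Fin.sum_univ_two, (hm.2 φ hφ).1, (hm.2 φ hφ).2,
        (hm.1 g g.2).1, (hm.1 h h.2).1, mul_zero, add_zero, zero_add] at e01
      apply mul_left_cancel₀ hx
      rw [← e01, mul_comm]
    · intro g
      apply Units.ext
      rw [Units.val_mul, CaseI2_chi_coe, CaseI2_chi_coe, ← hdet, Matrix.det_fin_two,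
        (hm.1 g g.2).1, zero_mul, sub_zero]
    · obtain ⟨s, hs, hne⟩ := hs
      refine ⟨⟨s, hIG hs⟩, hs, fun h => hne ?_⟩
      exact congrArg Units.val h
  have hmem : ∀ c : Z1Ad rb, (fun g : G' => c.1 g 0 1)
      ∈ Z1Char (CaseI2_chi rb G' hm.1 0 / CaseI2_chi rb G' hm.1 1) := by
    intro c σ τ
    obtain ⟨hA, hD⟩ := CaseI2_ne_diag hdet (hm.1 σ σ.2).1
    have h := (CaseI2_diag c.2 (hm.1 σ σ.2).1 (hm.1 σ σ.2).2 hA τ).2.1
    show c.1 ((σ * τ : G') : G) 0 1 = c.1 σ 0 1 + _ * c.1 τ 0 1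
    rw [MonoidHom.div_apply, Units.val_div_eq_div_val, CaseI2_chi_coe, CaseI2_chi_coe,
      Subgroup.coe_mul]
    apply mul_right_cancel₀ hD
    rw [h]
    field_simp
  let F : Z1Ad rb → Z1Char (CaseI2_chi rb G' hm.1 0 / CaseI2_chi rb G' hm.1 1) × k × k :=
    fun c => (⟨fun g : G' => c.1 g 0 1, hmem c⟩, c.1 φ 0 0, c.1 φ 0 1)
  have hF : Function.Injective F := by
    intro c₁ c₂ h
    have e1 : ∀ g ∈ G', c₁.1 g 0 1 = c₂.1 g 0 1 := fun g hg =>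
      congrFun (congrArg Subtype.val (congrArg Prod.fst h)) ⟨g, hg⟩
    have e2 : c₁.1 φ 0 0 = c₂.1 φ 0 0 := congrArg (fun x => x.2.1) h
    have e3 : c₁.1 φ 0 1 = c₂.1 φ 0 1 := congrArg (fun x => x.2.2) h
    have hz := CaseI2_zero h2 hax.normal hax.cyc (hax.hom2 G' hIG hi) hi hdet hm hφ
      (CaseI2_sub c₁.2 c₂.2)
      (fun g hg => by rw [Pi.sub_apply, Matrix.sub_apply, e1 g hg, sub_self])
      (by rw [Pi.sub_apply, Matrix.sub_apply, e2, sub_self])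
      (by rw [Pi.sub_apply, Matrix.sub_apply, e3, sub_self])
    exact Subtype.ext (sub_eq_zero.1 hz)
  calc Nat.card (Z1Ad rb)
      ≤ Nat.card (Z1Char (CaseI2_chi rb G' hm.1 0 / CaseI2_chi rb G' hm.1 1) × k × k) :=
        Nat.card_le_card_of_injective F hF
    _ = Nat.card (Z1Char (CaseI2_chi rb G' hm.1 0 / CaseI2_chi rb G' hm.1 1))
          * (Nat.card k * Nat.card k) := by rw [Nat.card_prod, Nat.card_prod]
    _ ≤ Nat.card k ^ 2 * (Nat.card k * Nat.card k) := Nat.mul_le_mul_right _ hx2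
    _ = Nat.card k ^ 4 := by ring

end Fermat.Agent.TW56.Flat

end
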