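/-
TEAM TW56 -> S56, block FLAT, FL-CASE-R : the upper triangular case.
-/
import Fermat.Agent.TW56.Flat.Interface

set_option autoImplicit false

noncomputable section

namespace Fermat.Agent.TW56.Flat

open Fermat.Agent.S53 Matrix

/-! ### a counting lemma -/

theorem CaseR_card_le {X Y : Type} [AddCommGroup X] [AddCommGroup Y] [Finite X] [Finite Y]
    (A : AddSubgroup X) (f : X →+ Y) (B : AddSubgroup Y) (hf : ∀ a ∈ A, f a ∈ B) :
    Nat.card A ≤ Nat.card B * Nat.card (A ⊓ f.ker : AddSubgroup X) := by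
  classical
  let s : Y → X := fun y => if h : ∃ a ∈ A, f a = y then h.choose else 0
  have hs : ∀ a ∈ A, s (f a) ∈ A ∧ f (s (f a)) = f a := by
    intro a ha
    have h : ∃ a' ∈ A, f a' = f a := ⟨a, ha, rfl⟩
    have e : s (f a) = h.choose := dif_pos h
    rw [e]
    exact h.choose_spec
  let φ : A → B × (A ⊓ f.ker : AddSubgroup X) := fun a =>
    (⟨f a, hf a a.2⟩, ⟨a - s (f a), AddSubgroup.mem_inf.2 ⟨A.sub_mem a.2 (hs a a.2).1, by
      rw [AddMonoidHom.mem_ker, map_sub, (hs a a.2).2, sub_self]⟩⟩)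
  have hφ : Function.Injective φ := by
    intro a a' h
    have h1 : f a = f a' := congrArg (fun x => (x.1 : Y)) h
    have h2 : (a : X) - s (f a) = a' - s (f a') := congrArg (fun x => (x.2 : X)) h
    rw [h1] at h2
    exact Subtype.ext (sub_left_injective h2)
  calc Nat.card A ≤ Nat.card (B × (A ⊓ f.ker : AddSubgroup X)) :=
        Nat.card_le_card_of_injective φ hφ
    _ = _ := Nat.card_prod _ _

/-! ### the groups of cocycles -/

section Coc

variable {k : Type} [Field k] {G : Type} [Group G]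

/-- `Z1Char η` as an additive subgroup. -/
def CaseR_ZC (η : G →* kˣ) : AddSubgroup (G → k) where
  carrier := Z1Char η
  zero_mem' := fun σ τ => by simp
  add_mem' := by
    intro f g hf hg σ τ
    simp only [Pi.add_apply]
    rw [hf σ τ, hg σ τ]
    ring
  neg_mem' := by
    intro f hf σ τ
    simp only [Pi.neg_apply]
    rw [hf σ τ]
    ring

/-- `Z1Ad rb` as an additive subgroup. -/
def CaseR_ZA (rb : G →* M2 k) : AddSubgroup (G → M2 k) where
  carrier := Z1Ad rb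
  zero_mem' := ⟨fun σ τ => by simp, fun σ => by simp⟩
  add_mem' := by
    intro c d hc hd
    refine ⟨fun σ τ => ?_, fun σ => ?_⟩
    · simp only [Pi.add_apply]
      rw [hc.coc σ τ, hd.coc σ τ, Matrix.mul_add, Matrix.add_mul]
      abel
    · simp only [Pi.add_apply]
      rw [Matrix.trace_add, hc.tr, hd.tr, add_zero]
  neg_mem' := by
    intro c hc
    refine ⟨fun σ τ => ?_, fun σ => ?_⟩
    · simp only [Pi.neg_apply]
      rw [hc.coc σ τ, Matrix.mul_neg, Matrix.neg_mul]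
      abel
    · simp only [Pi.neg_apply]
      rw [Matrix.trace_neg, hc.tr, neg_zero]

/-- the entry `(i, j)`. -/
def CaseR_ent (k G : Type) [Field k] (i j : Fin 2) : (G → M2 k) →+ (G → k) where
  toFun c := fun g => c g i j
  map_zero' := rfl
  map_add' _ _ := rfl

omit [Group G] in
theorem CaseR_mem_ker {i j : Fin 2} {c : G → M2 k} :
    c ∈ (CaseR_ent k G i j).ker ↔ ∀ g, c g i j = 0 := by
  rw [AddMonoidHom.mem_ker]
  exact funext_iff

theorem CaseR_entries (R R' m : M2 k) (h : R 1 0 = 0) (h' : R' 1 0 = 0) :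
    (R * m * R') 1 0 = R 1 1 * R' 0 0 * m 1 0 ∧
    (m 1 0 = 0 → (R * m * R') 0 0 = R 0 0 * R' 0 0 * m 0 0) ∧
    (m 1 0 = 0 → m 0 0 = 0 → m 1 1 = 0 → (R * m * R') 0 1 = R 0 0 * R' 1 1 * m 0 1) := by
  refine ⟨?_, fun h1 => ?_, fun h1 h2 h3 => ?_⟩
  · simp [Matrix.mul_apply, Fin.sum_univ_two, h, h']
    ring
  · simp [Matrix.mul_apply, Fin.sum_univ_two, h', h1]
    ring
  · simp [Matrix.mul_apply, Fin.sum_univ_two, h1, h2, h3]
    ring

end Coc

theorem caseR : Stmt_CaseR := by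
  intro p _ k _ _ _ G _ _ I om hax rb χ₁ χ₂ hrb hne
  have hinv : ∀ (χ : G →* kˣ) (σ : G), ((χ σ : kˣ) : k) * ((χ σ⁻¹ : kˣ) : k) = 1 := by
    intro χ σ
    rw [← Units.val_mul, ← map_mul, mul_inv_cancel, map_one, Units.val_one]
  have hdiv : ∀ (χ χ' : G →* kˣ) (σ : G),
      (((χ / χ') σ : kˣ) : k) = ((χ σ : kˣ) : k) * ((χ' σ⁻¹ : kˣ) : k) := by
    intro χ χ' σ
    rw [MonoidHom.div_apply, div_eq_mul_inv, Units.val_mul, map_inv]
  have hent := fun (σ : G) (m : M2 k) => CaseR_entries (rb σ) (rb σ⁻¹) m (hrb σ).2.2 (hrb σ⁻¹).2.2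
  -- step 1
  have s1 := CaseR_card_le (CaseR_ZA rb) (CaseR_ent k G 1 0) (CaseR_ZC (χ₂ / χ₁)) (by
    intro c hc σ τ
    show c (σ * τ) 1 0 = c σ 1 0 + _ * c τ 1 0
    rw [hc.coc σ τ, Matrix.add_apply, (hent σ (c τ)).1, (hrb σ).2.1, (hrb σ⁻¹).1, hdiv])
  -- step 2
  have s2 := CaseR_card_le (CaseR_ZA rb ⊓ (CaseR_ent k G 1 0).ker) (CaseR_ent k G 0 0)
    (CaseR_ZC (1 : G →* kˣ)) (by
    rintro c ⟨hc, h10⟩ σ τ
    have h10' := CaseR_mem_ker.1 h10
    show c (σ * τ) 0 0 = c σ 0 0 + _ * c τ 0 0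
    rw [hc.coc σ τ, Matrix.add_apply, (hent σ (c τ)).2.1 (h10' τ), (hrb σ).1, (hrb σ⁻¹).1, hinv]
    simp)
  -- step 3
  have s3 := CaseR_card_le (CaseR_ZA rb ⊓ (CaseR_ent k G 1 0).ker ⊓ (CaseR_ent k G 0 0).ker)
    (CaseR_ent k G 0 1) (CaseR_ZC (χ₁ / χ₂)) (by
    rintro c ⟨⟨hc, h10⟩, h00⟩ σ τ
    have h10' := CaseR_mem_ker.1 h10
    have h00' := CaseR_mem_ker.1 h00
    have h11 : c τ 1 1 = 0 := by
      have := hc.tr τ
      rw [Matrix.trace_fin_two, h00' τ, zero_add] at this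
      exact this
    show c (σ * τ) 0 1 = c σ 0 1 + _ * c τ 0 1
    rw [hc.coc σ τ, Matrix.add_apply, (hent σ (c τ)).2.2 (h10' τ) (h00' τ) h11, (hrb σ).1,
      (hrb σ⁻¹).2.1, hdiv])
  -- the last group is trivial
  have s4 : Nat.card (CaseR_ZA rb ⊓ (CaseR_ent k G 1 0).ker ⊓ (CaseR_ent k G 0 0).ker ⊓
      (CaseR_ent k G 0 1).ker : AddSubgroup (G → M2 k)) = 1 := by
    rw [AddSubgroup.card_eq_one, eq_bot_iff]
    rintro c ⟨⟨⟨hc, h10⟩, h00⟩, h01⟩
    have h10' := CaseR_mem_ker.1 h10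
    have h00' := CaseR_mem_ker.1 h00
    have h01' := CaseR_mem_ker.1 h01
    rw [AddSubgroup.mem_bot]
    funext g
    have h11 : c g 1 1 = 0 := by
      have := hc.tr g
      rw [Matrix.trace_fin_two, h00' g, zero_add] at this
      exact this
    ext i j
    fin_cases i <;> fin_cases j
    · exact h00' g
    · exact h01' g
    · exact h10' g
    · exact h11
  rw [s4, mul_one] at s3
  have e1 : Nat.card (CaseR_ZC (1 : G →* kˣ)) ≤ Nat.card k := by
    obtain ⟨s, hs, hs1⟩ := hax.omI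
    exact hax.x1 1 ⟨s, hs, fun h => hs1 h.symm⟩
  have total : Nat.card (Z1Ad rb) ≤ Nat.card (CaseR_ZC (χ₂ / χ₁)) *
      (Nat.card (CaseR_ZC (1 : G →* kˣ)) * Nat.card (CaseR_ZC (χ₁ / χ₂))) :=
    s1.trans (Nat.mul_le_mul_left _ (s2.trans (Nat.mul_le_mul_left _ s3)))
  refine total.trans ?_
  rcases hne with ⟨s, hs, h⟩ | ⟨s, hs, h⟩
  · have a1 : Nat.card (CaseR_ZC (χ₁ / χ₂)) ≤ Nat.card k := hax.x1 _ ⟨s, hs, h⟩
    have a2 : Nat.card (CaseR_ZC (χ₂ / χ₁)) ≤ Nat.card k ^ 2 := hax.x1' _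
    calc _ ≤ Nat.card k ^ 2 * (Nat.card k * Nat.card k) :=
          Nat.mul_le_mul a2 (Nat.mul_le_mul e1 a1)
      _ = Nat.card k ^ 4 := by ring
  · have a1 : Nat.card (CaseR_ZC (χ₂ / χ₁)) ≤ Nat.card k := hax.x1 _ ⟨s, hs, h⟩
    have a2 : Nat.card (CaseR_ZC (χ₁ / χ₂)) ≤ Nat.card k ^ 2 := hax.x1' _
    calc _ ≤ Nat.card k * (Nat.card k * Nat.card k ^ 2) :=
          Nat.mul_le_mul a1 (Nat.mul_le_mul e1 a2)
      _ = Nat.card k ^ 4 := by ring

end Fermat.Agent.TW56.Flat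

end
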