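import Fermat.Agent.TW56.Flat.Interface

/-!
# TW56 / Flat : FL-CONGR, transport of `IsFlatLoc` along an equivariant isomorphism
-/

set_option autoImplicit false

namespace Fermat.Agent.TW56.Flat

theorem congr : Stmt_Congr := by
  intro p _ W W' _ _ e act act' he h
  obtain ⟨H, i1, i2, h1, h2, h3, e₀, hadd, hact⟩ := h
  refine ⟨H, i1, i2, h1, h2, h3, e₀.trans e.toEquiv, ?_, ?_⟩
  · intro f g
    show e (e₀ (f * g)) = e (e₀ f) + e (e₀ g)
    rw [hadd, map_add]
  · intro σ f g hfg
    show e (e₀ g) = act' σ (e (e₀ f))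
    rw [hact σ f g hfg, he]

end Fermat.Agent.TW56.Flat
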