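/-
TEAM TW56 -> S56, block FLAT.  FL-CONV-N : the convolution algebra `Hom(C, F)` of a finite free
cocommutative coalgebra is an ultrametric normed ring.
-/
import Fermat.Agent.TW56.Flat.Interface2

set_option autoImplicit false

noncomputable section

namespace Fermat.Agent.TW56.Flat

open scoped TensorProduct
open Filter Topology

/-! ### linear forms on a finite free module -/

section Lin

variable {R C F ι : Type*} [CommRing R] [AddCommGroup C] [Module R C] [NormedField F]
  [Algebra R F] [Fintype ι]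

/-- a bound on a basis is a bound everywhere. -/
theorem ConvN_le_of_basis (hU : IsUltrametricDist F) (hR : ∀ r : R, ‖algebraMap R F r‖ ≤ 1)
    (b : Module.Basis ι R C) (g : C →ₗ[R] F) (ρ : ℝ) (hρ : 0 ≤ ρ) (h : ∀ i, ‖g (b i)‖ ≤ ρ) (c : C) :
    ‖g c‖ ≤ ρ := by
  rw [← b.sum_repr c, map_sum]
  refine IsUltrametricDist.norm_sum_le_of_forall_le_of_nonneg hρ fun i _ => ?_
  rw [map_smul, Algebra.smul_def, norm_mul]
  calc ‖algebraMap R F (b.repr c i)‖ * ‖g (b i)‖ ≤ 1 * ρ :=
        mul_le_mul (hR _) (h i) (norm_nonneg _) zero_le_one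
    _ = ρ := one_mul ρ

theorem ConvN_bdd (hU : IsUltrametricDist F) (hR : ∀ r : R, ‖algebraMap R F r‖ ≤ 1)
    (b : Module.Basis ι R C) (g : C →ₗ[R] F) : BddAbove (Set.range fun c : C => ‖g c‖) := by
  refine ⟨∑ i, ‖g (b i)‖, ?_⟩
  rintro _ ⟨c, rfl⟩
  refine ConvN_le_of_basis hU hR b g _ (Finset.sum_nonneg fun i _ => norm_nonneg _) (fun i => ?_) c
  exact Finset.single_le_sum (f := fun i => ‖g (b i)‖) (fun i _ => norm_nonneg _)
    (Finset.mem_univ i)

theorem ConvN_le_iff (hU : IsUltrametricDist F) (hR : ∀ r : R, ‖algebraMap R F r‖ ≤ 1)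
    (b : Module.Basis ι R C) (g : C →ₗ[R] F) (ρ : ℝ) :
    (⨆ c : C, ‖g c‖) ≤ ρ ↔ ∀ c : C, ‖g c‖ ≤ ρ :=
  ⟨fun h c => (le_ciSup (ConvN_bdd hU hR b g) c).trans h, fun h => ciSup_le h⟩

theorem ConvN_attained (hU : IsUltrametricDist F) (hR : ∀ r : R, ‖algebraMap R F r‖ ≤ 1)
    (b : Module.Basis ι R C) (g : C →ₗ[R] F) : ∃ c : C, ‖g c‖ = ⨆ c : C, ‖g c‖ := by
  classical
  obtain ⟨c₀, -, hmax⟩ := Finset.exists_max_image (insert (0 : C) (Finset.univ.image b))
    (fun c => ‖g c‖) ⟨_, Finset.mem_insert_self _ _⟩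
  refine ⟨c₀, le_antisymm (le_ciSup (ConvN_bdd hU hR b g) c₀) ?_⟩
  rw [ConvN_le_iff hU hR b]
  refine ConvN_le_of_basis hU hR b g _ (norm_nonneg _) fun i => ?_
  exact hmax _ (Finset.mem_insert_of_mem (Finset.mem_image_of_mem _ (Finset.mem_univ i)))

end Lin

/-! ### the convolution ring -/

section Ring

variable {R C F : Type*} [CommRing R] [AddCommGroup C] [Module R C] [Coalgebra R C]
  [NormedField F] [Algebra R F]

theorem ConvN_natCast_mul (n : ℕ) (x : WithConv (C →ₗ[R] F)) (c : C) :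
    ((n : WithConv (C →ₗ[R] F)) * x).ofConv c = (n : F) * x.ofConv c := by
  induction n with
  | zero => simp
  | succ n ih =>
    rw [Nat.cast_succ, add_mul, one_mul, WithConv.ofConv_add, LinearMap.add_apply, ih,
      Nat.cast_succ, add_mul, one_mul]

theorem ConvN_mul_le (hU : IsUltrametricDist F) (x y : WithConv (C →ₗ[R] F)) (a b : ℝ)
    (ha : ∀ c, ‖x.ofConv c‖ ≤ a) (hb : ∀ c, ‖y.ofConv c‖ ≤ b) (c : C) :
    ‖(x * y).ofConv c‖ ≤ a * b := by
  have ha0 : 0 ≤ a := (norm_nonneg _).trans (ha 0)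
  have hb0 : 0 ≤ b := (norm_nonneg _).trans (hb 0)
  have h := (Coalgebra.Repr.arbitrary R c).convMul_apply x y
  rw [show (x * y).ofConv c = _ from h]
  refine IsUltrametricDist.norm_sum_le_of_forall_le_of_nonneg (mul_nonneg ha0 hb0) fun i _ => ?_
  rw [norm_mul]
  exact mul_le_mul (ha _) (hb _) (norm_nonneg _) ha0

end Ring

/-- FL-CONV-N -/
theorem convNorm : Stmt_ConvN := by
  intro p hp C F _ _ _ _ _ _ _ _ hF
  have hU := hF.ultra
  have hR := hF.norm_alg
  let b := Module.Free.chooseBasis (Rp p) C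
  have hle : ∀ (g : WithConv (C →ₗ[Rp p] F)) (ρ : ℝ),
      convN p C F g ≤ ρ ↔ ∀ c : C, ‖g.ofConv c‖ ≤ ρ :=
    fun g ρ => ConvN_le_iff hU hR b g.ofConv ρ
  have hle' : ∀ (g : WithConv (C →ₗ[Rp p] F)) (c : C), ‖g.ofConv c‖ ≤ convN p C F g :=
    fun g c => (hle g _).1 le_rfl c
  have hnn : ∀ g : WithConv (C →ₗ[Rp p] F), 0 ≤ convN p C F g :=
    fun g => (norm_nonneg _).trans (hle' g 0)
  have hp0 : (p : F) ≠ 0 := by
    intro h
    have h1 := hF.norm_p
    rw [h, norm_zero] at h1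
    exact (inv_ne_zero (Nat.cast_ne_zero.2 hp.out.ne_zero)) h1.symm
  have hadd : ∀ x y : WithConv (C →ₗ[Rp p] F),
      convN p C F (x + y) ≤ max (convN p C F x) (convN p C F y) := by
    intro x y
    rw [hle]
    intro c
    rw [WithConv.ofConv_add, LinearMap.add_apply]
    exact (IsUltrametricDist.norm_add_le_max _ _).trans (max_le_max (hle' x c) (hle' y c))
  have hneg : ∀ x : WithConv (C →ₗ[Rp p] F), convN p C F (-x) = convN p C F x := by
    intro x
    unfold convN
    congr 1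
    funext c
    rw [WithConv.ofConv_neg, LinearMap.neg_apply, norm_neg]
  refine ⟨⟨hnn, ?_, ?_, hneg, hadd, ?_, ?_, ?_⟩, fun g ρ _ => hle g ρ,
    fun g => ConvN_attained hU hR b g.ofConv, ?_, ?_⟩
  · intro x hx
    apply WithConv.ext
    ext c
    have := hle' x c
    rw [hx] at this
    exact norm_le_zero_iff.1 this
  · refine le_antisymm ((hle _ _).2 fun c => ?_) (hnn 0)
    simp
  · intro x y
    rw [hle]
    exact ConvN_mul_le hU x y _ _ (hle' x) (hle' y)
  · rw [hle]
    intro c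
    exact hR _
  · intro x
    unfold convN
    rw [Real.mul_iSup_of_nonneg (by positivity)]
    congr 1
    funext c
    rw [ConvN_natCast_mul, norm_mul, hF.norm_p]
  · intro x
    refine ⟨WithConv.toConv ((p : F)⁻¹ • x.ofConv), ?_⟩
    apply WithConv.ext
    ext c
    rw [ConvN_natCast_mul, WithConv.ofConv_toConv, LinearMap.smul_apply, smul_eq_mul,
      mul_inv_cancel_left₀ hp0]
  · intro hcomp x hx
    -- uniform Cauchy estimate
    have hC : ∀ ε : ℝ, 0 < ε → ∃ n₀, ∀ n, n₀ ≤ n → ∀ m, n ≤ m →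
        convN p C F (x m - x n) ≤ ε := by
      intro ε hε
      obtain ⟨n₀, hn₀⟩ := hx ε hε
      refine ⟨n₀, fun n hn m hm => ?_⟩
      induction m, hm using Nat.le_induction with
      | base =>
        rw [sub_self]
        refine (hle _ _).2 fun c => ?_
        simpa using hε.le
      | succ m hm ih =>
        have : x (m + 1) - x n = (x (m + 1) - x m) + (x m - x n) := by abel
        rw [this]
        exact (hadd _ _).trans (max_le (hn₀ m (hn.trans hm)) ih)
    have hlim : ∀ i, ∃ y : F, Tendsto (fun n => (x n).ofConv (b i)) atTop (𝓝 y) := by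
      intro i
      apply cauchySeq_tendsto_of_complete
      rw [Metric.cauchySeq_iff']
      intro ε hε
      obtain ⟨n₀, hn₀⟩ := hC (ε / 2) (half_pos hε)
      refine ⟨n₀, fun n hn => ?_⟩
      rw [dist_eq_norm]
      have h1 := hle' (x n - x n₀) (b i)
      rw [WithConv.ofConv_sub, LinearMap.sub_apply] at h1
      exact lt_of_le_of_lt (h1.trans (hn₀ n₀ le_rfl n hn)) (half_lt_self hε)
    choose y hy using hlim
    refine ⟨WithConv.toConv (b.constr (Rp p) y), fun ε hε => ?_⟩
    obtain ⟨n₀, hn₀⟩ := hC ε hε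
    refine ⟨n₀, fun n hn => ?_⟩
    rw [hle]
    refine ConvN_le_of_basis hU hR b _ ε hε.le fun i => ?_
    rw [WithConv.ofConv_sub, LinearMap.sub_apply, WithConv.ofConv_toConv, Module.Basis.constr_basis]
    refine le_of_tendsto ((hy i).sub_const ((x n).ofConv (b i))).norm ?_
    filter_upwards [eventually_ge_atTop n] with m hm
    have h1 := hle' (x m - x n) (b i)
    rw [WithConv.ofConv_sub, LinearMap.sub_apply] at h1
    exact h1.trans (hn₀ n hn m hm)

end Fermat.Agent.TW56.Flat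

end
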