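/-
TEAM TW56 -> S56, block FLAT, task FL-DESC (helper99): functions on `Gal(ℚ̄_p/ℚ_p)` of level `M` are
functions on `Gal(M/ℚ_p)`.
-/
import Fermat.Agent.TW56.Flat.Interface

set_option autoImplicit false

noncomputable section

namespace Fermat.Agent.TW56.Flat

open Fermat.Agent.S53 Matrix

/-- abstract descent along a surjective homomorphism. -/
theorem Descend_abs {G H : Type} [Group G] [Group H] (π : G →* H) (hπ : Function.Surjective π)
    (k : Type) [Field k] (rb : G →* M2 k) (hrb : ∀ τ : G, π τ = 1 → rb τ = 1) :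
    ∃ rbM : H →* M2 k, (∀ τ, rb τ = rbM (π τ)) ∧
      ∀ c : G → M2 k, IsCoc0 rb c → (∀ τ : G, π τ = 1 → c τ = 0) →
        ∃ cM : H → M2 k, IsCoc0 rbM cM ∧ ∀ τ, c τ = cM (π τ) := by
  have hs : ∀ h : H, π (Function.surjInv hπ h) = h := Function.surjInv_eq hπ
  have hker : ∀ a b : G, π a = π b → π (b⁻¹ * a) = 1 := by
    intro a b hab
    rw [map_mul, map_inv, hab, inv_mul_cancel]
  have h1 : ∀ a b : G, π a = π b → rb a = rb b := by
    intro a b hab
    have h2 : a = b * (b⁻¹ * a) := by group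
    rw [h2, map_mul, hrb _ (hker a b hab), mul_one]
  let rbM : H →* M2 k :=
    { toFun := fun h => rb (Function.surjInv hπ h)
      map_one' := hrb _ (hs 1)
      map_mul' := fun h h' => by
        rw [← map_mul]
        exact h1 _ _ (by rw [hs, map_mul, hs, hs]) }
  have hrbM : ∀ τ, rb τ = rbM (π τ) := fun τ => h1 _ _ (hs (π τ)).symm
  refine ⟨rbM, hrbM, fun c hc hc0 => ?_⟩
  have h3 : ∀ a b : G, π a = π b → c a = c b := by
    intro a b hab
    have h2 : a = b * (b⁻¹ * a) := by group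
    rw [h2, hc.coc, hc0 _ (hker a b hab), mul_zero, zero_mul, add_zero]
  refine ⟨fun h => c (Function.surjInv hπ h), ⟨fun h h' => ?_, fun h => hc.tr _⟩,
    fun τ => h3 _ _ (hs (π τ)).symm⟩
  show c (Function.surjInv hπ (h * h')) = c (Function.surjInv hπ h)
    + rb (Function.surjInv hπ h) * c (Function.surjInv hπ h') * rb (Function.surjInv hπ h⁻¹)
  rw [h3 (Function.surjInv hπ (h * h')) (Function.surjInv hπ h * Function.surjInv hπ h')
      (by rw [hs, map_mul, hs, hs]), hc.coc,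
    h1 (Function.surjInv hπ h⁻¹) (Function.surjInv hπ h)⁻¹ (by rw [hs, map_inv, hs])]

theorem Descend_coe (p : ℕ) [Fact p.Prime] (M : IF p) [Normal ℚ_[p] M] (τ : Gp p) (x : M) :
    ((AlgEquiv.restrictNormalHom (F := ℚ_[p]) (K₁ := Om p) M τ x : M) : Om p) = τ (x : Om p) :=
  AlgEquiv.restrictNormal_commutes τ M x

theorem Descend_eq_one_iff (p : ℕ) [Fact p.Prime] (M : IF p) [Normal ℚ_[p] M] (τ : Gp p) :
    AlgEquiv.restrictNormalHom (F := ℚ_[p]) (K₁ := Om p) M τ = 1 ↔ ∀ x ∈ M, τ x = x := by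
  constructor
  · intro h x hx
    have := Descend_coe p M τ ⟨x, hx⟩
    rw [h] at this
    exact this.symm
  · intro h
    ext x
    rw [Descend_coe]
    exact h x x.2

theorem descend : Stmt_Descend := by
  intro p _ M _ _
  have hsurj : Function.Surjective (AlgEquiv.restrictNormalHom (F := ℚ_[p]) (K₁ := Om p) M) :=
    AlgEquiv.restrictNormalHom_surjective (Om p)
  refine ⟨hsurj, Descend_eq_one_iff p M, fun τ => ?_, fun k _ rb hrb => ?_⟩
  · constructor
    · intro h x hx hx1
      have := h ⟨x, hx⟩ hx1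
      rwa [Descend_coe] at this
    · intro h x hx1
      rw [Descend_coe]
      exact h x x.2 hx1
  · obtain ⟨rbM, h1, h2⟩ := Descend_abs _ hsurj k rb
      (fun τ hτ => hrb τ ((Descend_eq_one_iff p M τ).1 hτ))
    exact ⟨rbM, h1, fun c hc => h2 c hc.1 (fun τ hτ => hc.2 τ ((Descend_eq_one_iff p M τ).1 hτ))⟩

end Fermat.Agent.TW56.Flat

end
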