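import Fermat.Agent.TW56.Flat.Interface

/-!
# TW56 / Flat : FL-DICH  (one of `χ₁`, `χ₂` is unramified)
-/

set_option autoImplicit false

namespace Fermat.Agent.TW56.Flat

theorem Dich_eq_one_of_pow (p : ℕ) [Fact p.Prime] {k : Type} [Field k] [CharP k p] {x : kˣ} {m : ℕ}
    (h : x ^ p ^ m = 1) : x = 1 := by
  apply Units.ext
  have h' : (x : k) ^ p ^ m = 1 := by rw [← Units.val_pow_eq_pow_val, h, Units.val_one]
  have h1 : ((x : k) - 1) ^ p ^ m = 0 := by rw [sub_pow_char_pow, h', one_pow, sub_self]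
  exact sub_eq_zero.1 (pow_eq_zero_iff (pow_ne_zero m (Fact.out : p.Prime).ne_zero) |>.1 h1)

theorem Dich_sq {H : Type} [CommGroup H] {a b : H} (h : b / a = a * b) : a * a = 1 := by
  have h1 : b = a * b * a := div_eq_iff_eq_mul.1 h
  have h2 : b * 1 = b * (a * a) := by
    rw [mul_one]
    calc b = a * b * a := h1
      _ = b * (a * a) := by rw [mul_comm a b, mul_assoc]
  exact (mul_left_cancel h2).symm

theorem Dich_neg_one {k : Type} [Field k] {x : kˣ} (h : x * x = 1) (hx : x ≠ 1) :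
    (x : k) = -1 := by
  have h' : (x : k) * (x : k) = 1 := by rw [← Units.val_mul, h, Units.val_one]
  rcases mul_self_eq_one_iff.1 h' with h1 | h1
  · exact absurd (Units.ext h1) hx
  · exact h1

/-- **FL-DICH** -/
theorem dich : Stmt_Dich := by
  intro p _ k _ _ _ G _ _ I om hL χ₁ χ₂ hprod h12 h21
  obtain ⟨P, -, -, hPp, s₀, hs₀, hgen⟩ := hL.tame
  have hP : ∀ (χ : G →* kˣ), ∀ u ∈ P, χ u = 1 := by
    intro χ u hu
    obtain ⟨m, hm⟩ := hPp ⟨u, hu⟩
    have hm' : u ^ p ^ m = 1 := congrArg Subtype.val hm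
    exact Dich_eq_one_of_pow p (m := m) (by rw [← map_pow, hm', map_one])
  have htriv : ∀ χ : G →* kˣ, χ s₀ = 1 → ∀ s ∈ I, χ s = 1 := by
    intro χ h s hs
    obtain ⟨n, u, hu, rfl⟩ := hgen s hs
    rw [map_mul, map_pow, h, one_pow, one_mul, hP χ u hu]
  have hsq1 : χ₁ s₀ * χ₁ s₀ = 1 := Dich_sq (by rw [h21 s₀ hs₀, hprod])
  have hsq2 : χ₂ s₀ * χ₂ s₀ = 1 := Dich_sq (by rw [h12 s₀ hs₀, mul_comm, hprod])
  by_cases c1 : χ₁ s₀ = 1
  · exact Or.inl (htriv χ₁ c1)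
  by_cases c2 : χ₂ s₀ = 1
  · exact Or.inr (htriv χ₂ c2)
  exfalso
  have hom : om s₀ = 1 := by
    apply Units.ext
    rw [← hprod, Units.val_mul, Dich_neg_one hsq1 c1, Dich_neg_one hsq2 c2, Units.val_one]
    ring
  obtain ⟨s, hs, hne⟩ := hL.omI
  exact hne (htriv om hom s hs)

end Fermat.Agent.TW56.Flat

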