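/-
TEAM TW56 -> S56, block FLAT (architect helper33).  File 5: the final assembly of `Stmt_FLAT`.

`LFlat p rb = closure (flat cocycles ∪ coboundaries)`.  It suffices (FIN-1) to put every FINITE
family `T` of flat cocycles, together with all coboundaries, in an additive subgroup `Z` with
`#Z ≤ #k⁴` (`Claim rb T`).  For such a family there is a finite Galois extension `M/ℚ_p`
(`IsLevel`, FIN-2) through which everything factors and which satisfies the Kummer bound and the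
connected-étale property; then `Gal(M/ℚ_p)` satisfies `LocAx` (FIN-4) and the rest is a case
analysis (FIN-5,6,7).
-/
import Fermat.Agent.TW56.Flat.Interface

set_option autoImplicit false

noncomputable section

namespace Fermat.Agent.TW56.Flat

open Fermat.Agent.S53 Matrix Polynomial

/-- FIN-1 : a closure all of whose finitely generated pieces are small is small. -/
def Stmt_Fin1 : Prop :=
  ∀ (X : Type) [AddCommGroup X] (A B : Set X) (N : ℕ),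
    (∀ (n : ℕ) (T : Fin n → X), (∀ i, T i ∈ A) →
      ∃ Z : AddSubgroup X, (∀ i, T i ∈ Z) ∧ B ⊆ Z ∧ Finite Z ∧ Nat.card Z ≤ N) →
    Finite (AddSubgroup.closure (A ∪ B)) ∧ Nat.card (AddSubgroup.closure (A ∪ B)) ≤ N

/-- the claim for a finite family of cochains -/
def Claim {k : Type} [Field k] {G : Type} [Group G] (rb : G →* M2 k) {n : ℕ}
    (T : Fin n → G → M2 k) : Prop :=
  ∃ Z : AddSubgroup (G → M2 k), (∀ i, T i ∈ Z) ∧ (∀ X : M2 k, cob rb X ∈ Z) ∧ Finite Z ∧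
    Nat.card Z ≤ Nat.card k ^ 4

/-- FIN-0 : the coboundaries. -/
def Stmt_Fin0 : Prop :=
  ∀ (k : Type) [Field k] [Finite k] (G : Type) [Group G] (rb : G →* M2 k)
    (T : Fin 0 → G → M2 k), Claim rb T

/-- `M` is a level for `(rb, T)` -/
structure IsLevel (p : ℕ) [Fact p.Prime] {k : Type} [Field k] (M : IF p) (rb : Gp p →* M2 k)
    {n : ℕ} (T : Fin n → Gp p → M2 k) : Prop where
  fin : FiniteDimensional ℚ_[p] M
  normal : Normal ℚ_[p] M
  kb : KB p M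
  zeta : ∃ ζ ∈ M, ζ ≠ 1 ∧ ζ ^ p = 1
  rb1 : ∀ τ : Gp p, (∀ x ∈ M, τ x = x) → rb τ = 1
  coc : ∀ i, IsCoc0 rb (T i)
  c0 : ∀ i, ∀ τ : Gp p, (∀ x ∈ M, τ x = x) → T i τ = 0
  ce : ∀ i, CEprop p M ((Fin 2 → k) × (Fin 2 → k)) (actW rb (T i))

/-- FIN-2 : a non empty finite family of flat cocycles has a level. -/
def Stmt_Fin2 : Prop :=
  ∀ (p : ℕ) [Fact p.Prime], p ≠ 2 → ∀ (k : Type) [Field k] [Finite k] [CharP k p]
    (rb : Gp p →* M2 k), IsCycLoc p (fun σ => (rb σ).det) →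
    ∀ (n : ℕ) (T : Fin (n + 1) → Gp p → M2 k), (∀ i, IsCoc0 rb (T i) ∧ FlatCocLoc p rb (T i)) →
    ∃ M : IF p, IsLevel p M rb T

/-- FIN-3 : levels are compatible with conjugation. -/
def Stmt_Fin3 : Prop :=
  ∀ (p : ℕ) [Fact p.Prime] (k : Type) [Field k] (Q Q' : M2 k) (h : Q' * Q = 1) (M : IF p)
    (rb : Gp p →* M2 k) (n : ℕ) (T : Fin n → Gp p → M2 k), IsLevel p M rb T →
    IsLevel p M (conjRep Q Q' h rb) (fun i σ => Q * T i σ * Q')

/-- FIN-3' : the claim is compatible with conjugation. -/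
def Stmt_Fin3' : Prop :=
  ∀ (k : Type) [Field k] (G : Type) [Group G] (Q Q' : M2 k) (h : Q' * Q = 1)
    (rb : G →* M2 k) (n : ℕ) (T : Fin n → G → M2 k),
    Claim (conjRep Q Q' h rb) (fun i σ => Q * T i σ * Q') → Claim rb T

/-- the finite quotient `π : Γ → G` with its inertia subgroup, cyclotomic character, and the
descended representation.  `J` = the preimage of inertia. -/
structure FinData (p : ℕ) (k : Type) [Field k] {Γ : Type} [Group Γ] (J : Γ → Prop)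
    (rb : Γ →* M2 k) {G : Type} [Group G] (π : Γ →* G) (I : Subgroup G) (om : G →* kˣ)
    (rbM : G →* M2 k) : Prop where
  surj : Function.Surjective π
  inert : ∀ τ, π τ ∈ I ↔ J τ
  ax : LocAx p k G I om
  fac : ∀ τ, rb τ = rbM (π τ)
  det : ∀ g, (rbM g).det = om g

/-- FIN-4 : the finite data attached to a level. -/
def Stmt_Fin4 : Prop :=
  ∀ (p : ℕ) [Fact p.Prime], p ≠ 2 → ∀ (k : Type) [Field k] [Finite k] [CharP k p] (M : IF p)
    (rb : Gp p →* M2 k), FiniteDimensional ℚ_[p] M → Normal ℚ_[p] M → KB p M →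
    (∃ ζ ∈ M, ζ ≠ 1 ∧ ζ ^ p = 1) → (∀ τ : Gp p, (∀ x ∈ M, τ x = x) → rb τ = 1) →
    IsCycLoc p (fun σ => (rb σ).det) →
    ∃ (G : Type) (_ : Group G) (_ : Finite G) (π : Gp p →* G) (I : Subgroup G) (om : G →* kˣ)
      (rbM : G →* M2 k), FinData p k (IsInertGp p M) rb π I om rbM ∧
        ∀ τ, π τ = 1 ↔ ∀ x ∈ M, τ x = x

/-- FIN-5a : the cocycles of level `π`. -/
def Stmt_Fin5a : Prop :=
  ∀ (k : Type) [Field k] [Finite k] (Γ G : Type) [Group Γ] [Group G] [Finite G] (π : Γ →* G)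
    (rb : Γ →* M2 k) (rbM : G →* M2 k), Function.Surjective π → (∀ τ, rb τ = rbM (π τ)) →
    ∃ Z : AddSubgroup (Γ → M2 k),
      (∀ c, IsCoc0 rb c → (∀ τ, π τ = 1 → c τ = 0) → c ∈ Z) ∧ Finite Z ∧
      Nat.card Z ≤ Nat.card (Z1Ad rbM)

/-- FIN-5b : the ordinary cocycles of level `π`, plus coboundaries. -/
def Stmt_Fin5b : Prop :=
  ∀ (k : Type) [Field k] [Finite k] (Γ G : Type) [Group Γ] [Group G] [Finite G] (π : Γ →* G)
    (I : Subgroup G) (rb : Γ →* M2 k) (rbM : G →* M2 k), Function.Surjective π →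
    (∀ τ, rb τ = rbM (π τ)) →
    ∃ Z : AddSubgroup (Γ → M2 k),
      (∀ (c₀ : Γ → M2 k) (X : M2 k), IsCoc0 rb c₀ → (∀ τ, π τ = 1 → c₀ τ = 0) →
        (∀ σ, c₀ σ 1 0 = 0) → (∀ τ, π τ ∈ I → c₀ τ 1 1 = 0) →
        (fun σ => c₀ σ + cob rb X σ) ∈ Z) ∧ Finite Z ∧
      Nat.card Z ≤ Nat.card (ZOrd (I : Set G) rbM)

/-- FIN-CHI : the diagonal characters of an upper triangular representation. -/
def Stmt_FinChi : Prop :=
  ∀ (k : Type) [Field k] (G : Type) [Group G] (rb : G →* M2 k), (∀ g, rb g 1 0 = 0) →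
    ∃ χ₁ χ₂ : G →* kˣ, (∀ g, rb g 0 0 = χ₁ g ∧ rb g 1 1 = χ₂ g ∧ rb g 1 0 = 0) ∧
      ∀ g, (rb g).det = (χ₁ g : k) * (χ₂ g : k)

/-- FIN-LIN : conjugating an eigenvector to `e₀`. -/
def Stmt_FinLin : Prop :=
  ∀ (k : Type) [Field k] (G : Type) [Group G] (rb : G →* M2 k) (v : Fin 2 → k) (l : G → k),
    v ≠ 0 → (∀ g, rb g *ᵥ v = l g • v) →
    ∃ (Q Q' : M2 k) (h : Q' * Q = 1), ∀ g, conjRep Q Q' h rb g 1 0 = 0 ∧
      conjRep Q Q' h rb g 0 0 = l g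

/-- FIN-6I : the irreducible case. -/
def Stmt_Fin6I : Prop :=
  ∀ (p : ℕ) [Fact p.Prime], p ≠ 2 → ∀ (k : Type) [Field k] [Finite k] [CharP k p]
    (Γ G : Type) [Group Γ] [Group G] [Finite G] (J : Γ → Prop) (rb : Γ →* M2 k) (π : Γ →* G)
    (I : Subgroup G) (om : G →* kˣ) (rbM : G →* M2 k), FinData p k J rb π I om rbM →
    (∀ σ, ∃ α β : k, (rb σ).charpoly = (X - C α) * (X - C β)) →
    (¬ ∃ v : Fin 2 → k, v ≠ 0 ∧ ∀ σ, ∃ l : k, rb σ *ᵥ v = l • v) →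
    ∀ (n : ℕ) (T : Fin n → Γ → M2 k), (∀ i, IsCoc0 rb (T i)) →
    (∀ i τ, π τ = 1 → T i τ = 0) → Claim rb T

/-- FIN-6T : the upper triangular case: either `χ₁` is unramified or the claim holds. -/
def Stmt_Fin6T : Prop :=
  ∀ (p : ℕ) [Fact p.Prime] (k : Type) [Field k] [Finite k] [CharP k p]
    (Γ G : Type) [Group Γ] [Group G] [Finite G] (J : Γ → Prop) (rb : Γ →* M2 k) (π : Γ →* G)
    (I : Subgroup G) (om : G →* kˣ) (rbM : G →* M2 k), FinData p k J rb π I om rbM →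
    (∀ σ, rb σ 1 0 = 0) →
    ∀ (n : ℕ) (T : Fin n → Γ → M2 k), (∀ i, IsCoc0 rb (T i)) →
    (∀ i τ, π τ = 1 → T i τ = 0) →
    ((∀ τ, J τ → rb τ 1 1 = 1) → (∃ τ, J τ ∧ rb τ 0 0 ≠ 1) →
      ∀ i, ∃ X : M2 k, (∀ σ, (T i σ + cob rb X σ) 1 0 = 0) ∧
        ∀ τ, J τ → (T i τ + cob rb X τ) 1 1 = 0) →
    (∀ τ, J τ → rb τ 0 0 = 1) ∨ Claim rb T

/-- FIN-7T : the claim for an upper triangular `rb`. -/
def Stmt_Fin7T : Prop :=
  ∀ (p : ℕ) [Fact p.Prime], p ≠ 2 → ∀ (k : Type) [Field k] [Finite k] [CharP k p]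
    (rb : Gp p →* M2 k), IsCycLoc p (fun σ => (rb σ).det) → (∀ σ, rb σ 1 0 = 0) →
    ∀ (M : IF p) (n : ℕ) (T : Fin (n + 1) → Gp p → M2 k), IsLevel p M rb T → Claim rb T

/-- FIN-7 : the claim. -/
def Stmt_Fin7 : Prop :=
  ∀ (p : ℕ) [Fact p.Prime], p ≠ 2 → ∀ (k : Type) [Field k] [Finite k] [CharP k p]
    (rb : Gp p →* M2 k), IsCycLoc p (fun σ => (rb σ).det) →
    (∀ σ, ∃ α β : k, (rb σ).charpoly = (X - C α) * (X - C β)) →
    ∀ (M : IF p) (n : ℕ) (T : Fin (n + 1) → Gp p → M2 k), IsLevel p M rb T → Claim rb T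

end Fermat.Agent.TW56.Flat

end
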