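/-
TEAM TW56 -> S56, block FLAT.  FIN-1 (a closure all of whose finitely generated pieces are small is
small) and FIN-0 (the coboundaries).
-/
import Fermat.Agent.TW56.Flat.FinInterface
import Fermat.Agent.TW56.Flat.CaseOrd

set_option autoImplicit false

noncomputable section

namespace Fermat.Agent.TW56.Flat

open Fermat.Agent.S53 Matrix

theorem Fin1_exists_finset {X : Type} [AddCommGroup X] (A B : Set X) (x : X)
    (hx : x ∈ AddSubgroup.closure (A ∪ B)) :
    ∃ F : Finset X, (F : Set X) ⊆ A ∧ x ∈ AddSubgroup.closure ((F : Set X) ∪ B) := by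
  classical
  induction hx using AddSubgroup.closure_induction with
  | mem x hx =>
    rcases hx with hx | hx
    · exact ⟨{x}, by simpa using hx, AddSubgroup.subset_closure (Or.inl (by simp))⟩
    · exact ⟨∅, by simp, AddSubgroup.subset_closure (Or.inr hx)⟩
  | zero => exact ⟨∅, by simp, AddSubgroup.zero_mem _⟩
  | add x y _ _ hx hy =>
    obtain ⟨F, hF, hxF⟩ := hx
    obtain ⟨F', hF', hyF⟩ := hy
    refine ⟨F ∪ F', by rw [Finset.coe_union]; exact Set.union_subset hF hF', ?_⟩
    refine AddSubgroup.add_mem _ (AddSubgroup.closure_mono ?_ hxF) (AddSubgroup.closure_mono ?_ hyF)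
    · rw [Finset.coe_union]
      exact Set.union_subset_union_left _ Set.subset_union_left
    · rw [Finset.coe_union]
      exact Set.union_subset_union_left _ Set.subset_union_right
  | neg x _ hx =>
    obtain ⟨F, hF, hxF⟩ := hx
    exact ⟨F, hF, AddSubgroup.neg_mem _ hxF⟩

theorem Fin1_exists_finset' {X : Type} [AddCommGroup X] (A B : Set X) (s : Finset X)
    (hs : ∀ x ∈ s, x ∈ AddSubgroup.closure (A ∪ B)) :
    ∃ F : Finset X, (F : Set X) ⊆ A ∧ ∀ x ∈ s, x ∈ AddSubgroup.closure ((F : Set X) ∪ B) := by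
  classical
  induction s using Finset.induction_on with
  | empty => exact ⟨∅, by simp, by simp⟩
  | insert a s _ ih =>
    obtain ⟨F, hF, hFs⟩ := ih fun x hx => hs x (Finset.mem_insert_of_mem hx)
    obtain ⟨F', hF', ha⟩ := Fin1_exists_finset A B a (hs a (Finset.mem_insert_self a s))
    refine ⟨F ∪ F', by rw [Finset.coe_union]; exact Set.union_subset hF hF', fun x hx => ?_⟩
    rcases Finset.mem_insert.1 hx with rfl | hx
    · refine AddSubgroup.closure_mono ?_ ha
      rw [Finset.coe_union]
      exact Set.union_subset_union_left _ Set.subset_union_right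
    · refine AddSubgroup.closure_mono ?_ (hFs x hx)
      rw [Finset.coe_union]
      exact Set.union_subset_union_left _ Set.subset_union_left

theorem fin1 : Stmt_Fin1 := by
  classical
  intro X _ A B N h
  have key : ∀ s : Finset X, (∀ x ∈ s, x ∈ AddSubgroup.closure (A ∪ B)) → s.card ≤ N := by
    intro s hs
    obtain ⟨F, hF, hFs⟩ := Fin1_exists_finset' A B s hs
    obtain ⟨Z, hTZ, hBZ, hfin, hcard⟩ := h F.card (fun i => (F.equivFin.symm i : X))
      (fun i => hF (F.equivFin.symm i).2)
    have hle : AddSubgroup.closure ((F : Set X) ∪ B) ≤ Z := by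
      rw [AddSubgroup.closure_le]
      rintro x (hx | hx)
      · have := hTZ (F.equivFin ⟨x, hx⟩)
        simpa using this
      · exact hBZ hx
    have hsub : (s : Set X) ⊆ (Z : Set X) := fun x hx => hle (hFs x hx)
    have h1 : (s : Set X).ncard ≤ (Z : Set X).ncard := Set.ncard_le_ncard hsub hfin
    rw [Set.ncard_coe_finset] at h1
    exact h1.trans hcard
  have key' : ∀ s : Finset (AddSubgroup.closure (A ∪ B)), s.card ≤ N := by
    intro s
    have := key (s.map ⟨Subtype.val, Subtype.val_injective⟩) (by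
      intro x hx
      obtain ⟨y, -, rfl⟩ := Finset.mem_map.1 hx
      exact y.2)
    rwa [Finset.card_map] at this
  have hfin : Finite (AddSubgroup.closure (A ∪ B)) := by
    by_contra hinf
    rw [not_finite_iff_infinite] at hinf
    obtain ⟨s, hs⟩ := Infinite.exists_subset_card_eq (AddSubgroup.closure (A ∪ B)) (N + 1)
    have := key' s
    omega
  refine ⟨hfin, ?_⟩
  have := Fintype.ofFinite (AddSubgroup.closure (A ∪ B))
  rw [Nat.card_eq_fintype_card]
  exact key' Finset.univ

/-- `X ↦ cob rb X`. -/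
def Fin1_cobHom {k : Type} [Field k] {G : Type} [Group G] (rb : G →* M2 k) :
    M2 k →+ (G → M2 k) :=
  AddMonoidHom.mk' (cob rb) (Ord_cob_add rb)

theorem Fin1_card_M2 (k : Type) [Field k] [Finite k] : Nat.card (M2 k) = Nat.card k ^ 4 := by
  show Nat.card (Fin 2 → Fin 2 → k) = _
  rw [Nat.card_fun, Nat.card_fun, Nat.card_fin, ← pow_mul]

theorem fin0 : Stmt_Fin0 := by
  intro k _ _ G _ rb T
  have : Finite (M2 k) := inferInstanceAs (Finite (Fin 2 → Fin 2 → k))
  refine ⟨(Fin1_cobHom rb).range, fun i => i.elim0, fun X => ⟨X, rfl⟩, ?_, ?_⟩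
  · exact Set.finite_range (Fin1_cobHom rb)
  · rw [← Fin1_card_M2]
    exact Nat.card_le_card_of_surjective (Fin1_cobHom rb).rangeRestrict
      (Fin1_cobHom rb).rangeRestrict_surjective

end Fermat.Agent.TW56.Flat

end
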