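/-
TEAM TW56 -> S56, block FLAT, task FIN-2 (helper92): a finite family of flat cocycles has a level.
-/
import Fermat.Agent.TW56.Flat.FinInterface

set_option autoImplicit false

noncomputable section

namespace Fermat.Agent.TW56.Flat

open Fermat.Agent.S53 Matrix Polynomial

section Galois

variable {p : ℕ} [Fact p.Prime]

theorem Fin2_isGalois : IsGalois ℚ_[p] (Om p) := by
  have : Algebra.IsAlgebraic ℚ_[p] (Om p) := AlgebraicClosure.isAlgebraic ℚ_[p]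
  have : IsAlgClosed (Om p) := inferInstanceAs (IsAlgClosed (AlgebraicClosure ℚ_[p]))
  have : IsAlgClosure ℚ_[p] (Om p) := ⟨inferInstance, inferInstance⟩
  exact IsAlgClosure.isGalois ℚ_[p] (Om p)

/-- Galois correspondence. -/
theorem Fin2_mem_of_fixed (M : IF p) (x : Om p)
    (h : ∀ τ : Gp p, (∀ y ∈ M, τ y = y) → τ x = x) : x ∈ M := by
  have := Fin2_isGalois (p := p)
  rw [← InfiniteGalois.fixedField_fixingSubgroup M, IntermediateField.mem_fixedField_iff]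
  intro τ hτ
  exact h τ fun y hy => (IntermediateField.mem_fixingSubgroup_iff M τ).1 hτ y hy

theorem Fin2_exists_zeta : ∃ ζ : Om p, IsPrimitiveRoot ζ p := by
  have : IsAlgClosed (Om p) := inferInstanceAs (IsAlgClosed (AlgebraicClosure ℚ_[p]))
  have : CharZero (Om p) := charZero_of_injective_algebraMap (algebraMap ℚ_[p] (Om p)).injective
  have : NeZero p := ⟨(Fact.out : p.Prime).ne_zero⟩
  exact HasEnoughRootsOfUnity.exists_primitiveRoot (Om p) p

/-- an element of the Galois group with trivial cyclotomic character fixes `ζ`. -/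
theorem Fin2_fix_zeta {k : Type} [Field k] [CharP k p] {δ : Gp p → k} (hδ : IsCycLoc p δ)
    {ζ : Om p} (hζ : IsPrimitiveRoot ζ p) (τ : Gp p) (hτ : δ τ = 1) : τ ζ = ζ := by
  have hp : p.Prime := Fact.out
  have : NeZero p := ⟨hp.ne_zero⟩
  have h1 : (τ ζ) ^ p = 1 := by rw [← map_pow, hζ.pow_eq_one, map_one]
  obtain ⟨a, ha, haζ⟩ := hζ.eq_pow_of_pow_eq_one h1
  have h2 : ∀ μ : Om p, μ ^ p = 1 → τ μ = μ ^ a := by
    intro μ hμ
    obtain ⟨j, -, rfl⟩ := hζ.eq_pow_of_pow_eq_one hμ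
    rw [map_pow, ← haζ, ← pow_mul, ← pow_mul, mul_comm]
  have h3 : (a : k) = ((1 : ℕ) : k) := by rw [← hδ τ a h2, hτ, Nat.cast_one]
  have h4 : a ≡ 1 [MOD p] := (CharP.natCast_eq_natCast k p).1 h3
  have h5 : a = 1 := Nat.ModEq.eq_of_lt_of_lt h4 ha hp.one_lt
  rw [← haζ, h5, pow_one]

end Galois

section Lin

variable {k : Type} [Field k]

theorem Fin2_eq_one {A : M2 k} (h : ∀ v : Fin 2 → k, A *ᵥ v = v) : A = 1 :=
  Matrix.ext_iff_mulVec.2 fun v => by rw [h, Matrix.one_mulVec]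

theorem Fin2_eq_zero {A : M2 k} (h : ∀ v : Fin 2 → k, A *ᵥ v = 0) : A = 0 :=
  Matrix.ext_iff_mulVec.2 fun v => by rw [h, Matrix.zero_mulVec]

theorem Fin2_nsmul (p : ℕ) [CharP k p] (w : (Fin 2 → k) × (Fin 2 → k)) : p • w = 0 := by
  have h : ∀ v : Fin 2 → k, p • v = 0 := by
    intro v
    funext i
    simp [nsmul_eq_mul, CharP.cast_eq_zero]
  exact Prod.ext (h w.1) (h w.2)

end Lin

/-- **FIN-2**. -/
theorem fin2 (h1 : Stmt_Prod) (h2 : Stmt_PM) (h3 : Stmt_RAM) (h4 : Stmt_CE) : Stmt_Fin2 := by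
  intro p _ hp2 k _ _ _ rb hcyc n T hT
  have hp : p.Prime := Fact.out
  have hflat := h1 p (n + 1) ((Fin 2 → k) × (Fin 2 → k)) (fun i => actW rb (T i))
    (fun i => (hT i).2)
  have hpW : ∀ w : (Fin 2 → k) × (Fin 2 → k), p • w = 0 := Fin2_nsmul p
  have hpWn : ∀ w : Fin (n + 1) → (Fin 2 → k) × (Fin 2 → k), p • w = 0 := by
    intro w
    funext i
    exact hpW (w i)
  obtain ⟨M, hfin, hnor, hPm, hfix⟩ := h2 p hp2 _ _ hflat hpWn
  have hKB := h3 p hp2 M hfin hnor hPm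
  have hfix' : ∀ τ : Gp p, (∀ x ∈ M, τ x = x) → ∀ i x, actW rb (T i) τ x = x :=
    fun τ hτ i x => congrFun (hfix τ hτ (fun _ => x)) i
  have hrb1 : ∀ τ : Gp p, (∀ x ∈ M, τ x = x) → rb τ = 1 := by
    intro τ hτ
    refine Fin2_eq_one fun v => ?_
    exact congrArg Prod.fst (hfix' τ hτ 0 (v, 0))
  have hc0 : ∀ i, ∀ τ : Gp p, (∀ x ∈ M, τ x = x) → T i τ = 0 := by
    intro i τ hτ
    refine Fin2_eq_zero fun v => ?_
    have h := congrArg Prod.snd (hfix' τ hτ i (v, 0))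
    simpa [actW, hrb1 τ hτ] using h
  obtain ⟨ζ, hζ⟩ := Fin2_exists_zeta (p := p)
  refine ⟨M, hfin, hnor, hKB, ⟨ζ, ?_, hζ.ne_one hp.one_lt, hζ.pow_eq_one⟩, hrb1,
    fun i => (hT i).1, hc0, fun i => h4 p hp2 _ _ (hT i).2 hpW M hfin hnor
      (fun τ hτ w => hfix' τ hτ i w)⟩
  refine Fin2_mem_of_fixed M ζ fun τ hτ => Fin2_fix_zeta hcyc hζ τ ?_
  show (rb τ).det = 1
  rw [hrb1 τ hτ, Matrix.det_one]

end Fermat.Agent.TW56.Flat

end
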