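/-
TEAM TW56 -> S56, block FLAT, package FIN-3 (helper2):
levels and the claim are compatible with conjugation.
-/
import Fermat.Agent.TW56.Flat.FinInterface
import Fermat.Agent.TW56.Flat.Conj

set_option autoImplicit false

noncomputable section

namespace Fermat.Agent.TW56.Flat

open Fermat.Agent.S53 Matrix Polynomial

/-- the connected-étale property transports along an equivariant isomorphism -/
theorem Fin3_ce (p : ℕ) [Fact p.Prime] (M : IF p) {W W' : Type} [AddCommGroup W]
    [AddCommGroup W'] (e : W ≃+ W') (act : Gp p → W → W) (act' : Gp p → W' → W')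
    (he : ∀ τ w, e (act τ w) = act' τ (e w)) :
    CEprop p M W act → CEprop p M W' act' := by
  rintro ⟨W0, h1, h2⟩
  refine ⟨W0.map e.toAddMonoidHom, ?_, ?_⟩
  · intro τ hτ w'
    obtain ⟨w, rfl⟩ := e.surjective w'
    refine ⟨act τ w - w, h1 τ hτ w, ?_⟩
    show e (act τ w - w) = act' τ (e w) - e w
    rw [map_sub, he]
  · intro W1' hW1' w' hw' hcond
    obtain ⟨w, hw, rfl⟩ := hw'
    have h3 : w ∈ W1'.comap e.toAddMonoidHom := by
      refine h2 (W1'.comap e.toAddMonoidHom) ?_ w hw ?_
      · intro τ hτ x hx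
        show e (act τ x) ∈ W1'
        rw [he]
        exact hW1' τ hτ _ hx
      · intro τ hτ
        show e (act τ w - w) ∈ W1'
        rw [map_sub, he]
        exact hcond τ hτ
    exact h3

/-- FIN-3 -/
theorem fin3 : Stmt_Fin3 := by
  intro p _ k _ Q Q' h M rb n T L
  exact
    { fin := L.fin
      normal := L.normal
      kb := L.kb
      zeta := L.zeta
      rb1 := fun τ hτ => by
        rw [Conj_conjRep_apply, L.rb1 τ hτ, mul_one]
        exact mul_eq_one_comm.mp h
      coc := fun i => Conj_isCoc0 h (L.coc i)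
      c0 := fun i τ hτ => by
        show Q * T i τ * Q' = 0
        rw [L.c0 i τ hτ, mul_zero, zero_mul]
      ce := fun i => Fin3_ce p M (Conj_e Q Q' h) _ _ (Conj_e_actW h rb (T i)) (L.ce i) }

/-- FIN-3' -/
theorem fin3' : Stmt_Fin3' := by
  rintro k _ G _ Q Q' h rb n T ⟨Z', hT, hcob, hfin, hcard⟩
  let Φ : (G → M2 k) →+ (G → M2 k) :=
    { toFun := fun c σ => Q * c σ * Q'
      map_zero' := by
        funext σ
        simp
      map_add' := by
        intro a b
        funext σ
        simp [mul_add, add_mul] }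
  have hback : ∀ A : M2 k, Q' * (Q * A * Q') * Q = A := by
    intro A
    calc Q' * (Q * A * Q') * Q = (Q' * Q) * A * (Q' * Q) := by simp only [mul_assoc]
      _ = A := by rw [h, one_mul, mul_one]
  have hinj : Function.Injective Φ := by
    intro a b hab
    funext σ
    have h1 : Q * a σ * Q' = Q * b σ * Q' := congrFun hab σ
    rw [← hback (a σ), h1, hback]
  let ι : (Z'.comap Φ) → Z' := fun z => ⟨Φ z.1, z.2⟩
  have hι : Function.Injective ι := by
    intro a b hab
    exact Subtype.ext (hinj (congrArg Subtype.val hab))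
  refine ⟨Z'.comap Φ, fun i => hT i, fun X => ?_, Finite.of_injective ι hι,
    le_trans (Nat.card_le_card_of_injective ι hι) hcard⟩
  show Φ (cob rb X) ∈ Z'
  have h2 : Φ (cob rb X) = cob (conjRep Q Q' h rb) (Q * X * Q') := Conj_cob h rb X
  rw [h2]
  exact hcob _

end Fermat.Agent.TW56.Flat

end
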