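/-
TEAM TW56 -> S56, block FLAT, task FIN-4 (helper64): the finite data
`(Gal(M/ℚ_p), inertia, det, rbM)` attached to a level.
-/
import Fermat.Agent.TW56.Flat.FinInterface
import Fermat.Agent.TW56.Flat.InertSub
import Fermat.Agent.TW56.Flat.Descend

set_option autoImplicit false

noncomputable section

namespace Fermat.Agent.TW56.Flat

open Fermat.Agent.S53 Matrix Polynomial

/-- every `p`-th root of unity of `Om p` lies in `M` as soon as a non trivial one does. -/
theorem Fin4_mu_mem (p : ℕ) [Fact p.Prime] (M : IF p) (hz : ∃ ζ ∈ M, ζ ≠ 1 ∧ ζ ^ p = 1)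
    (μ : Om p) (hμ : μ ^ p = 1) : μ ∈ M := by
  obtain ⟨ζ, hζM, hζ1, hζp⟩ := hz
  have hp : p.Prime := Fact.out
  have hord : orderOf ζ = p := orderOf_eq_prime hζp hζ1
  have hprim : IsPrimitiveRoot ζ p := by
    have h0 := IsPrimitiveRoot.orderOf ζ
    have h1 : ∀ n : ℕ, orderOf ζ = n → IsPrimitiveRoot ζ n := fun n hn => hn ▸ h0
    exact h1 p hord
  have : NeZero p := ⟨hp.ne_zero⟩
  obtain ⟨j, _, hj⟩ := hprim.eq_pow_of_pow_eq_one hμ
  rw [← hj]
  exact pow_mem hζM j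

theorem fin4 (hD : Stmt_Descend) (hC : Stmt_COUNT) : Stmt_Fin4 := by
  intro p _ hp k _ _ _ M rb hfin hnor hkb hz hrb1 hcycL
  have := hfin
  have := hnor
  obtain ⟨hsurj, hone, hinert, hdesc⟩ := hD p M
  obtain ⟨rbM, hfac, -⟩ := hdesc k rb hrb1
  let π : Gp p →* GM p M := AlgEquiv.restrictNormalHom (F := ℚ_[p]) (K₁ := Om p) M
  let om : GM p M →* kˣ := (Matrix.detMonoidHom.comp rbM).toHomUnits
  have hom : ∀ g, (om g : k) = (rbM g).det := fun g => by
    show (((Matrix.detMonoidHom.comp rbM).toHomUnits g : kˣ) : k) = _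
    rw [MonoidHom.coe_toHomUnits]
    rfl
  have hcyc : IsCycM p M om := by
    intro g a hg
    obtain ⟨τ, rfl⟩ := hsurj g
    rw [hom, ← hfac τ]
    refine hcycL τ a (fun μ hμ => ?_)
    have hμM : μ ∈ M := Fin4_mu_mem p M hz μ hμ
    have h1 := hg ⟨μ, hμM⟩ (by ext; exact hμ)
    have h2 : ((AlgEquiv.restrictNormalHom (F := ℚ_[p]) (K₁ := Om p) M τ ⟨μ, hμM⟩ : M) : Om p)
        = μ ^ a := congrArg (fun x : M => (x : Om p)) h1
    rw [Descend_coe] at h2
    exact h2
  have hfinG : Finite (GM p M) := inferInstance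
  refine ⟨GM p M, inferInstance, hfinG, π, InertSub_GM M, om, rbM,
    ⟨hsurj, hinert, hC p hp k M hfin hnor hkb hz (InertSub_GM M) om (fun _ => Iff.rfl) hcyc,
      hfac, fun g => (hom g).symm⟩, hone⟩

end Fermat.Agent.TW56.Flat

end
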