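/-
TEAM TW56 -> S56, block FLAT, task FIN-5 : cocycles of finite level (helper97).
-/
import Fermat.Agent.TW56.Flat.FinInterface
import Fermat.Agent.TW56.Flat.CaseR
import Fermat.Agent.TW56.Flat.CaseOrd

set_option autoImplicit false

noncomputable section

namespace Fermat.Agent.TW56.Flat

open Fermat.Agent.S53 Matrix Polynomial

/-- pull-back of cochains. -/
def Fin5_pb {Γ G : Type} (Y : Type) [AddGroup Y] (π : Γ → G) : (G → Y) →+ (Γ → Y) where
  toFun f := fun σ => f (π σ)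
  map_zero' := rfl
  map_add' _ _ := rfl

theorem Fin5_map {X Y : Type} [AddGroup X] [AddGroup Y] (S : AddSubgroup X) [Finite S]
    (Φ : X →+ Y) : Finite (S.map Φ) ∧ Nat.card (S.map Φ) ≤ Nat.card S := by
  have hs : Function.Surjective
      (fun x : S => (⟨Φ x.1, AddSubgroup.mem_map_of_mem Φ x.2⟩ : S.map Φ)) := by
    rintro ⟨y, x, hx, rfl⟩
    exact ⟨⟨x, hx⟩, rfl⟩
  exact ⟨Finite.of_surjective _ hs, Nat.card_le_card_of_surjective _ hs⟩

/-- descent of a cocycle. -/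
theorem Fin5_desc {k : Type} [Field k] {Γ G : Type} [Group Γ] [Group G] (π : Γ →* G)
    (rb : Γ →* M2 k) (rbM : G →* M2 k) (hπ : Function.Surjective π)
    (hrb : ∀ τ, rb τ = rbM (π τ)) (c : Γ → M2 k) (hc : IsCoc0 rb c)
    (hc0 : ∀ τ, π τ = 1 → c τ = 0) :
    ∃ cM : G → M2 k, IsCoc0 rbM cM ∧ ∀ τ, c τ = cM (π τ) := by
  have hs : ∀ h : G, π (Function.surjInv hπ h) = h := Function.surjInv_eq hπ
  have h3 : ∀ a b : Γ, π a = π b → c a = c b := by
    intro a b hab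
    have h2 : a = b * (b⁻¹ * a) := by group
    have h4 : π (b⁻¹ * a) = 1 := by rw [map_mul, map_inv, hab, inv_mul_cancel]
    rw [h2, hc.coc, hc0 _ h4, mul_zero, zero_mul, add_zero]
  refine ⟨fun h => c (Function.surjInv hπ h), ⟨fun h h' => ?_, fun h => hc.tr _⟩,
    fun τ => h3 _ _ (hs (π τ)).symm⟩
  show c (Function.surjInv hπ (h * h')) = c (Function.surjInv hπ h)
    + rbM h * c (Function.surjInv hπ h') * rbM h⁻¹
  rw [h3 (Function.surjInv hπ (h * h')) (Function.surjInv hπ h * Function.surjInv hπ h')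
    (by rw [hs, map_mul, hs, hs]), hc.coc, hrb, hrb, map_inv, hs]

theorem fin5a : Stmt_Fin5a := by
  intro k _ _ Γ G _ _ _ π rb rbM hπ hrb
  haveI : Finite (CaseR_ZA rbM) := inferInstanceAs (Finite {x : G → M2 k // x ∈ CaseR_ZA rbM})
  obtain ⟨h1, h2⟩ := Fin5_map (CaseR_ZA rbM) (Fin5_pb (M2 k) π)
  refine ⟨(CaseR_ZA rbM).map (Fin5_pb (M2 k) π), fun c hc hc0 => ?_, h1, h2⟩
  obtain ⟨cM, hcM, he⟩ := Fin5_desc π rb rbM hπ hrb c hc hc0
  exact ⟨cM, hcM, funext fun τ => (he τ).symm⟩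

theorem Fin5_cob_zero {k : Type} [Field k] {G : Type} [Group G] (rb : G →* M2 k) (σ : G) :
    cob rb 0 σ = 0 := by simp [cob]

theorem Fin5_cob_neg {k : Type} [Field k] {G : Type} [Group G] (rb : G →* M2 k) (X : M2 k)
    (σ : G) : cob rb (-X) σ = -cob rb X σ := by
  simp only [cob, Matrix.mul_neg, Matrix.neg_mul]
  abel

/-- `ZOrd` as an additive subgroup. -/
def Fin5_ZO {k : Type} [Field k] {G : Type} [Group G] (I : Set G) (rb : G →* M2 k) :
    AddSubgroup (G → M2 k) where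
  carrier := ZOrd I rb
  zero_mem' := ⟨0, 0, Ord_isCoc0_zero rb, fun _ => rfl, fun _ _ => rfl, by
    funext g
    rw [Fin5_cob_zero]
    simp⟩
  add_mem' := by
    rintro _ _ ⟨a, X, a1, a2, a3, rfl⟩ ⟨b, Y, b1, b2, b3, rfl⟩
    refine ⟨a + b, X + Y, Ord_isCoc0_add a1 b1, fun g => ?_, fun s hs => ?_, ?_⟩
    · rw [Pi.add_apply, Matrix.add_apply, a2, b2, add_zero]
    · rw [Pi.add_apply, Matrix.add_apply, a3 s hs, b3 s hs, add_zero]
    · funext g
      rw [Ord_cob_add]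
      simp only [Pi.add_apply]
      abel
  neg_mem' := by
    rintro _ ⟨a, X, a1, a2, a3, rfl⟩
    refine ⟨-a, -X, Ord_isCoc0_neg a1, fun g => ?_, fun s hs => ?_, ?_⟩
    · rw [Pi.neg_apply, Matrix.neg_apply, a2, neg_zero]
    · rw [Pi.neg_apply, Matrix.neg_apply, a3 s hs, neg_zero]
    · funext g
      rw [Fin5_cob_neg]
      simp only [Pi.neg_apply]
      abel

theorem fin5b : Stmt_Fin5b := by
  intro k _ _ Γ G _ _ _ π I rb rbM hπ hrb
  haveI : Finite (Fin5_ZO (I : Set G) rbM) :=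
    inferInstanceAs (Finite {x : G → M2 k // x ∈ Fin5_ZO (I : Set G) rbM})
  obtain ⟨h1, h2⟩ := Fin5_map (Fin5_ZO (I : Set G) rbM) (Fin5_pb (M2 k) π)
  refine ⟨(Fin5_ZO (I : Set G) rbM).map (Fin5_pb (M2 k) π), fun c₀ X hc hc0 h10 h11 => ?_, h1, h2⟩
  obtain ⟨cM, hcM, he⟩ := Fin5_desc π rb rbM hπ hrb c₀ hc hc0
  refine ⟨fun g => cM g + cob rbM X g, ⟨cM, X, hcM, fun g => ?_, fun s hs => ?_, rfl⟩, ?_⟩
  · obtain ⟨σ, rfl⟩ := hπ g
    rw [← he]
    exact h10 σ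
  · obtain ⟨σ, rfl⟩ := hπ s
    rw [← he]
    exact h11 σ hs
  · funext σ
    show cM (π σ) + cob rbM X (π σ) = c₀ σ + cob rb X σ
    rw [he σ]
    simp only [cob, hrb, map_inv]

end Fermat.Agent.TW56.Flat
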