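/-
TEAM TW56 -> S56, block FLAT, task FIN-6I : the irreducible case of the final assembly.
-/
import Fermat.Agent.TW56.Flat.FinInterface
import Fermat.Agent.TW56.Flat.CaseOrd

set_option autoImplicit false

noncomputable section

namespace Fermat.Agent.TW56.Flat

open Fermat.Agent.S53 Matrix Polynomial

/-- **FIN-6I** -/
theorem fin6I (hI : Stmt_CaseI) (h5 : Stmt_Fin5a) : Stmt_Fin6I := by
  intro p _ hp k _ _ _ Γ G _ _ _ J rb π I om rbM D hsplit hirr n T hT hT0
  obtain ⟨Z, hZ, hfin, hcard⟩ := h5 k Γ G π rb rbM D.surj D.fac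
  refine ⟨Z, fun i => hZ (T i) (hT i) (hT0 i), fun X => ?_, hfin, hcard.trans ?_⟩
  · refine hZ (cob rb X) (Ord_isCoc0_cob rb X) fun τ hτ => ?_
    have h1 : rb τ = 1 := by rw [D.fac, hτ, map_one]
    have h2 : rb τ⁻¹ = 1 := by rw [D.fac, map_inv, hτ, inv_one, map_one]
    unfold cob
    rw [h1, h2, one_mul, mul_one, sub_self]
  · refine hI p k G I om hp D.ax rbM D.det (fun g => ?_) ?_
    · obtain ⟨σ, rfl⟩ := D.surj g
      rw [← D.fac]
      exact hsplit σ
    · rintro ⟨v, hv, hev⟩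
      exact hirr ⟨v, hv, fun σ => by rw [D.fac]; exact hev (π σ)⟩

end Fermat.Agent.TW56.Flat

end
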