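/-
TEAM TW56 -> S56, block FLAT, task FIN-6T : the upper triangular case.
-/
import Fermat.Agent.TW56.Flat.FinInterface
import Fermat.Agent.TW56.Flat.CaseOrd

set_option autoImplicit false

noncomputable section

namespace Fermat.Agent.TW56.Flat

open Fermat.Agent.S53 Matrix Polynomial

/-- FIN-6T : the upper triangular case: either `χ₁` is unramified or the claim holds. -/
theorem fin6T (hR : Stmt_CaseR) (hO : Stmt_CaseOrd) (hD : Stmt_Dich) (hX : Stmt_FinChi)
    (h5a : Stmt_Fin5a) (h5b : Stmt_Fin5b) : Stmt_Fin6T := by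
  intro p _ k _ _ _ Γ G _ _ _ J rb π I om rbM D htri n T hcoc hlev hord
  have htriM : ∀ g, rbM g 1 0 = 0 := by
    intro g
    obtain ⟨σ, rfl⟩ := D.surj g
    rw [← D.fac]
    exact htri σ
  obtain ⟨χ₁, χ₂, hχ, hdet⟩ := hX k G rbM htriM
  have hprod : ∀ g, χ₁ g * χ₂ g = om g := by
    intro g
    apply Units.ext
    rw [Units.val_mul, ← hdet, D.det]
  have hcob1 : ∀ (X : M2 k) (τ : Γ), π τ = 1 → cob rb X τ = 0 := by
    intro X τ hτ
    have h1 : rb τ = 1 := by rw [D.fac, hτ, map_one]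
    have h2 : rb τ⁻¹ = 1 := by rw [D.fac, map_inv, hτ, inv_one, map_one]
    unfold cob
    rw [h1, h2, one_mul, mul_one, sub_self]
  by_cases hA : (∃ s ∈ I, χ₁ s / χ₂ s ≠ om s) ∨ (∃ s ∈ I, χ₂ s / χ₁ s ≠ om s)
  · right
    obtain ⟨Z, hZ, hfin, hcard⟩ := h5a k Γ G π rb rbM D.surj D.fac
    exact ⟨Z, fun i => hZ _ (hcoc i) (hlev i), fun X => hZ _ (Ord_isCoc0_cob rb X) (hcob1 X), hfin,
      hcard.trans (hR p k G I om D.ax rbM χ₁ χ₂ hχ hA)⟩
  · push Not at hA
    rcases hD p k G I om D.ax χ₁ χ₂ hprod hA.1 hA.2 with h1 | h2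
    · left
      intro τ hτ
      rw [D.fac, (hχ _).1, h1 _ ((D.inert τ).2 hτ), Units.val_one]
    · right
      have a1 : ∀ τ, J τ → rb τ 1 1 = 1 := by
        intro τ hτ
        rw [D.fac, (hχ _).2.1, h2 _ ((D.inert τ).2 hτ), Units.val_one]
      have a2 : ∃ τ, J τ ∧ rb τ 0 0 ≠ 1 := by
        obtain ⟨s, hs, hom⟩ := D.ax.omI
        obtain ⟨τ, rfl⟩ := D.surj s
        refine ⟨τ, (D.inert τ).1 hs, ?_⟩
        rw [D.fac, (hχ _).1]
        intro h
        apply hom
        rw [← hprod, h2 _ hs, mul_one]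
        exact Units.ext h
      have hXi := hord a1 a2
      choose X hX10 hX11 using hXi
      obtain ⟨Z, hZ, hfin, hcard⟩ := h5b k Γ G π I rb rbM D.surj D.fac
      refine ⟨Z, fun i => ?_, fun Y => ?_, hfin,
        hcard.trans (hO p k G I om D.ax rbM χ₁ χ₂ hχ)⟩
      · have := hZ (T i + cob rb (X i)) (-(X i))
          (Ord_isCoc0_add (hcoc i) (Ord_isCoc0_cob rb _))
          (fun τ hτ => by rw [Pi.add_apply, hlev i τ hτ, hcob1 _ τ hτ, add_zero])
          (hX10 i) (fun τ hτ => hX11 i τ ((D.inert τ).1 hτ))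
        have e : (fun σ => (T i + cob rb (X i)) σ + cob rb (-(X i)) σ) = T i := by
          funext σ
          simp only [Pi.add_apply, cob, mul_neg, neg_mul]
          abel
        rwa [e] at this
      · have := hZ 0 Y (Ord_isCoc0_zero rb) (fun _ _ => rfl) (fun _ => rfl) (fun _ _ => rfl)
        have e : (fun σ => (0 : Γ → M2 k) σ + cob rb Y σ) = cob rb Y := by
          funext σ
          rw [Pi.zero_apply, zero_add]
        rwa [e] at this

end Fermat.Agent.TW56.Flat

end
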