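/-
TEAM TW56 -> S56, block FLAT, task FIN-7T (helper46): the claim for an upper triangular `rb`.
-/
import Fermat.Agent.TW56.Flat.FinInterface

set_option autoImplicit false

noncomputable section

namespace Fermat.Agent.TW56.Flat

open Fermat.Agent.S53 Matrix Polynomial

/-- STEP: either `χ₁` is unramified or the claim holds; and `det` is ramified. -/
theorem Fin7T_step (h4 : Stmt_Fin4) (h6 : Stmt_Fin6T) (hO : Stmt_ORD)
    (p : ℕ) [Fact p.Prime] (hp : p ≠ 2) (k : Type) [Field k] [Finite k] [CharP k p]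
    (rb : Gp p →* M2 k) (hcyc : IsCycLoc p (fun σ => (rb σ).det)) (htri : ∀ σ, rb σ 1 0 = 0)
    (M : IF p) (n : ℕ) (T : Fin n → Gp p → M2 k) (L : IsLevel p M rb T) :
    ((∀ τ, IsInertGp p M τ → rb τ 0 0 = 1) ∨ Claim rb T) ∧
      ∃ τ, IsInertGp p M τ ∧ (rb τ).det ≠ 1 := by
  obtain ⟨G, _, _, π, I, om, rbM, D, hker⟩ :=
    h4 p hp k M rb L.fin L.normal L.kb L.zeta L.rb1 hcyc
  refine ⟨?_, ?_⟩
  · exact h6 p k (Gp p) G (IsInertGp p M) rb π I om rbM D htri n T L.coc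
      (fun i τ hτ => L.c0 i τ ((hker τ).1 hτ))
      (fun a b i => hO p k M L.normal rb (T i) (L.coc i) (L.ce i) htri a b)
  · obtain ⟨s, hs, hom⟩ := D.ax.omI
    obtain ⟨τ, rfl⟩ := D.surj s
    refine ⟨τ, (D.inert τ).1 hs, ?_⟩
    rw [D.fac, D.det]
    intro h
    exact hom (Units.ext h)

/-- FIN-7T : the claim for an upper triangular `rb`. -/
theorem fin7T (h3 : Stmt_Fin3) (h3' : Stmt_Fin3') (h4 : Stmt_Fin4) (hL : Stmt_FinLin)
    (h6 : Stmt_Fin6T) (hO : Stmt_ORD) (hN : Stmt_NOFLAT) : Stmt_Fin7T := by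
  intro p _ hp k _ _ _ rb hcyc htri M n T L
  obtain ⟨h1, τ₀, hτ₀, hdet⟩ := Fin7T_step h4 h6 hO p hp k rb hcyc htri M (n + 1) T L
  rcases h1 with h1 | h1
  swap
  · exact h1
  have h11 : rb τ₀ 1 1 ≠ 1 := by
    intro h
    apply hdet
    rw [Matrix.det_fin_two, h1 τ₀ hτ₀, h, htri]
    ring
  obtain ⟨v, hv1, hv⟩ := hN p k M L.normal rb (T 0) (L.coc 0) (L.ce 0) htri h1 ⟨τ₀, hτ₀, h11⟩
  choose l hl using hv
  have hl' : ∀ σ, l σ = rb σ 1 1 := by
    intro σ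
    have h2 := congrFun (hl σ) 1
    simp only [Matrix.mulVec, dotProduct, Fin.sum_univ_two, htri, zero_mul, zero_add,
      Pi.smul_apply, smul_eq_mul] at h2
    exact (mul_right_cancel₀ hv1 h2).symm
  have hv0 : v ≠ 0 := fun h => hv1 (by rw [h]; rfl)
  obtain ⟨Q, Q', h, hQ⟩ := hL k (Gp p) rb v l hv0 hl
  have hdet' : ∀ σ, (conjRep Q Q' h rb σ).det = (rb σ).det := by
    intro σ
    show (Q * rb σ * Q').det = _
    rw [Matrix.det_mul, Matrix.det_mul, mul_right_comm, ← Matrix.det_mul, mul_eq_one_comm.mp h,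
      Matrix.det_one, one_mul]
  have hcyc' : IsCycLoc p (fun σ => (conjRep Q Q' h rb σ).det) := by
    intro σ a ha
    show (conjRep Q Q' h rb σ).det = a
    rw [hdet' σ]
    exact hcyc σ a ha
  have L' := h3 p k Q Q' h M rb (n + 1) T L
  obtain ⟨h2, -⟩ := Fin7T_step h4 h6 hO p hp k (conjRep Q Q' h rb) hcyc' (fun σ => (hQ σ).1) M
    (n + 1) _ L'
  rcases h2 with h2 | h2
  · exfalso
    apply h11
    rw [← hl', ← (hQ τ₀).2]
    exact h2 τ₀ hτ₀
  · exact h3' k (Gp p) Q Q' h rb (n + 1) T h2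

end Fermat.Agent.TW56.Flat

end
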