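/-
TEAM TW56 -> S56, block FLAT, tasks FIN-7 + FIN-8 : the claim in general and the assembly of
`Stmt_FLAT`.
-/
import Fermat.Agent.TW56.Flat.FinInterface

set_option autoImplicit false

noncomputable section

namespace Fermat.Agent.TW56.Flat

open Fermat.Agent.S53 Matrix Polynomial

theorem Fin8_det_conjRep {k : Type} [Field k] {G : Type} [Group G] (Q Q' : M2 k)
    (h : Q' * Q = 1) (rb : G →* M2 k) (σ : G) : (conjRep Q Q' h rb σ).det = (rb σ).det := by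
  show (Q * rb σ * Q').det = (rb σ).det
  have h1 : Q'.det * Q.det = 1 := by rw [← Matrix.det_mul, h, Matrix.det_one]
  rw [Matrix.det_mul, Matrix.det_mul, mul_comm Q.det, mul_assoc, mul_comm Q.det, h1, mul_one]

/-- **FIN-7**. -/
theorem fin7 (h3 : Stmt_Fin3) (h3' : Stmt_Fin3') (h4 : Stmt_Fin4) (hL : Stmt_FinLin)
    (h6 : Stmt_Fin6I) (h7 : Stmt_Fin7T) : Stmt_Fin7 := by
  intro p _ hp2 k _ _ _ rb hcyc hsplit M n T L
  by_cases hred : ∃ v : Fin 2 → k, v ≠ 0 ∧ ∀ σ, ∃ l : k, rb σ *ᵥ v = l • v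
  · obtain ⟨v, hv, hl⟩ := hred
    choose l hl using hl
    obtain ⟨Q, Q', h, hQ⟩ := hL k (Gp p) rb v l hv hl
    have hcyc' : IsCycLoc p (fun σ => (conjRep Q Q' h rb σ).det) := by
      intro σ a ha
      show (conjRep Q Q' h rb σ).det = (a : k)
      rw [Fin8_det_conjRep]
      exact hcyc σ a ha
    have L' := h3 p k Q Q' h M rb (n + 1) T L
    have C' := h7 p hp2 k (conjRep Q Q' h rb) hcyc' (fun σ => (hQ σ).1) M n _ L'
    exact h3' k (Gp p) Q Q' h rb (n + 1) T C'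
  · obtain ⟨G, _, _, π, I, om, rbM, hF, hπ⟩ :=
      h4 p hp2 k M rb L.fin L.normal L.kb L.zeta L.rb1 hcyc
    exact h6 p hp2 k (Gp p) G (IsInertGp p M) rb π I om rbM hF hsplit hred (n + 1) T L.coc
      (fun i τ hτ => L.c0 i τ ((hπ τ).1 hτ))

/-- **FIN-8** : the assembly. -/
theorem flat_of (h0 : Stmt_Fin0) (h1 : Stmt_Fin1) (h2 : Stmt_Fin2) (h7 : Stmt_Fin7) :
    Stmt_FLAT := by
  intro p _ hp2 k _ _ _ rb hcyc hsplit
  refine h1 (Gp p → M2 k) {c | IsCoc0 rb c ∧ FlatCocLoc p rb c} {c | ∃ X : M2 k, c = cob rb X}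
    (Nat.card k ^ 4) ?_
  intro n T hT
  cases n with
  | zero =>
    obtain ⟨Z, hZ1, hZ2, hZ3, hZ4⟩ := h0 k (Gp p) rb T
    refine ⟨Z, hZ1, ?_, hZ3, hZ4⟩
    rintro _ ⟨X, rfl⟩
    exact hZ2 X
  | succ m =>
    obtain ⟨M, hM⟩ := h2 p hp2 k rb hcyc m T hT
    obtain ⟨Z, hZ1, hZ2, hZ3, hZ4⟩ := h7 p hp2 k rb hcyc hsplit M m T hM
    refine ⟨Z, hZ1, ?_, hZ3, hZ4⟩
    rintro _ ⟨X, rfl⟩
    exact hZ2 X

end Fermat.Agent.TW56.Flat

end
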