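/-
TEAM TW56 -> S56, block FLAT, tasks FIN-CHI + FIN-LIN (helper54): the diagonal characters of an
upper triangular representation; conjugating an eigenvector to `e₀`.
-/
import Fermat.Agent.TW56.Flat.FinInterface

set_option autoImplicit false

noncomputable section

namespace Fermat.Agent.TW56.Flat

open Fermat.Agent.S53 Matrix Polynomial

/-- FIN-CHI : the diagonal characters of an upper triangular representation. -/
theorem finChi : Stmt_FinChi := by
  intro k _ G _ rb h10
  have hmul0 : ∀ g g', rb (g * g') 0 0 = rb g 0 0 * rb g' 0 0 := by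
    intro g g'
    rw [map_mul, Matrix.mul_apply, Fin.sum_univ_two, h10 g', mul_zero, add_zero]
  have hmul1 : ∀ g g', rb (g * g') 1 1 = rb g 1 1 * rb g' 1 1 := by
    intro g g'
    rw [map_mul, Matrix.mul_apply, Fin.sum_univ_two, h10 g, zero_mul, zero_add]
  let d0 : G →* k :=
    { toFun := fun g => rb g 0 0
      map_one' := by rw [map_one]; rfl
      map_mul' := hmul0 }
  let d1 : G →* k :=
    { toFun := fun g => rb g 1 1
      map_one' := by rw [map_one]; rfl
      map_mul' := hmul1 }
  refine ⟨d0.toHomUnits, d1.toHomUnits, fun g => ⟨rfl, rfl, h10 g⟩, fun g => ?_⟩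
  rw [Matrix.det_fin_two, h10 g, mul_zero, sub_zero]
  rfl

lemma FinLin_exists_P {k : Type} [Field k] (v : Fin 2 → k) (hv : v ≠ 0) :
    ∃ P : M2 k, IsUnit P.det ∧ P *ᵥ (Pi.single 0 1) = v := by
  by_cases h0 : v 0 = 0
  · have h1 : v 1 ≠ 0 := by
      intro h1
      apply hv
      funext i
      fin_cases i
      · exact h0
      · exact h1
    refine ⟨!![v 0, 1; v 1, 0], ?_, ?_⟩
    · rw [Matrix.det_fin_two_of, mul_zero, one_mul, zero_sub]
      exact (neg_ne_zero.2 h1).isUnit
    · rw [Matrix.mulVec_single_one]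
      funext i
      fin_cases i <;> rfl
  · refine ⟨!![v 0, 0; v 1, 1], ?_, ?_⟩
    · rw [Matrix.det_fin_two_of, mul_one, zero_mul, sub_zero]
      exact (Ne.isUnit h0)
    · rw [Matrix.mulVec_single_one]
      funext i
      fin_cases i <;> rfl

/-- FIN-LIN : conjugating an eigenvector to `e₀`. -/
theorem finLin : Stmt_FinLin := by
  intro k _ G _ rb v l hv hl
  obtain ⟨P, hP, hPe⟩ := FinLin_exists_P v hv
  refine ⟨P⁻¹, P, Matrix.mul_nonsing_inv P hP, fun g => ?_⟩
  have key : (P⁻¹ * rb g * P) *ᵥ (Pi.single 0 1) = l g • (Pi.single 0 1 : Fin 2 → k) := by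
    rw [← Matrix.mulVec_mulVec, hPe, ← Matrix.mulVec_mulVec, hl g, Matrix.mulVec_smul]
    conv_lhs => rw [← hPe]
    rw [Matrix.mulVec_mulVec, Matrix.nonsing_inv_mul P hP, Matrix.one_mulVec]
  rw [Matrix.mulVec_single_one] at key
  refine ⟨?_, ?_⟩
  · have := congrFun key 1
    show (P⁻¹ * rb g * P) 1 0 = 0
    simpa using this
  · have := congrFun key 0
    show (P⁻¹ * rb g * P) 0 0 = l g
    simpa using this

end Fermat.Agent.TW56.Flat

end
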