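/-
TEAM TW56 -> S56, block FLAT, task FL-LIFT (helper40; architect helper33).

Fontaine's lifting lemma via `p`-th roots in the dual algebra:
`lift : Stmt_RootU → Stmt_RootE → Stmt_RootInv → Stmt_ConvN → Stmt_LiftHoms → Stmt_Lift`.
-/
import Fermat.Agent.TW56.Flat.Interface2

set_option autoImplicit false

noncomputable section

namespace Fermat.Agent.TW56.Flat

open scoped TensorProduct

/-! ### calculus of ultrametric norms -/

section UN

variable {p : ℕ} {C : Type} [CommRing C] {N : C → ℝ}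

theorem Lift_add_le (h : UNorm p C N) {x y : C} {c : ℝ} (hx : N x ≤ c) (hy : N y ≤ c) :
    N (x + y) ≤ c :=
  (h.add x y).trans (max_le hx hy)

theorem Lift_sub_comm (h : UNorm p C N) (x y : C) : N (x - y) = N (y - x) := by
  rw [← h.neg (y - x), neg_sub]

theorem Lift_mul_le (h : UNorm p C N) {x y : C} {a b : ℝ} (hx : N x ≤ a) (hy : N y ≤ b) :
    N (x * y) ≤ a * b :=
  (h.mul x y).trans (mul_le_mul hx hy (h.nonneg y) ((h.nonneg x).trans hx))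

theorem Lift_pow_le_one (h : UNorm p C N) {x : C} (hx : N x ≤ 1) (n : ℕ) : N (x ^ n) ≤ 1 := by
  induction n with
  | zero => simpa using h.one
  | succ n ih =>
    rw [pow_succ]
    simpa using Lift_mul_le h ih hx

end UN

theorem Lift_rho_lt_one {p : ℕ} (hp : p.Prime) {ρ : ℝ} (hρ : ρ ^ (p - 1) < (p : ℝ)⁻¹) : ρ < 1 := by
  by_contra hcon
  have h1 : 1 ≤ ρ ^ (p - 1) := one_le_pow₀ (not_lt.mp hcon)
  have hp1 : (p : ℝ)⁻¹ ≤ 1 := inv_le_one_of_one_le₀ (by exact_mod_cast hp.one_le)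
  linarith

/-- the abstract form of the lifting lemma. -/
theorem Lift_abs (hU : Stmt_RootU) (hE : Stmt_RootE) (hI : Stmt_RootInv) (p : ℕ) [Fact p.Prime]
    (C C2 : Type) [CommRing C] [CommRing C2] (N : C → ℝ) (N2 : C2 → ℝ)
    (hN : UNorm p C N) (hN2 : UNorm p C2 N2) (hc : UComplete N)
    (hdiv : ∀ x : C, ∃ y, (p : C) * y = x) (δ ι₁ ι₂ : C →+* C2)
    (hδ : ∀ g, N2 (δ g) ≤ N g) (h₁ : ∀ g, N2 (ι₁ g) ≤ N g) (h₂ : ∀ g, N2 (ι₂ g) ≤ N g)
    (Z0 : C) (ρ : ℝ) (hρ0 : 0 ≤ ρ) (hρ : ρ ^ (p - 1) < (p : ℝ)⁻¹)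
    (hZ1 : N Z0 ≤ 1) (hZp : N (Z0 ^ p - 1) ≤ (p : ℝ)⁻¹ * ρ)
    (hZm : N2 (δ Z0 - ι₁ Z0 * ι₂ Z0) ≤ ρ) :
    ∃ z : C, z ^ p = 1 ∧ N (z - Z0) ≤ ρ ∧ δ z = ι₁ z * ι₂ z := by
  have hp : p.Prime := Fact.out
  have hρ1 : ρ < 1 := Lift_rho_lt_one hp hρ
  obtain ⟨y, hy, hy1⟩ := hE p C N hN hc hdiv (Z0 ^ p) ρ hρ0 hρ hZp
  obtain ⟨y', hyy', hy'1⟩ := hI p C N hN hc y (hy1.trans_lt hρ1)
  have hy'ρ : N (y' - 1) ≤ ρ := hy'1.trans hy1
  have hzp : (Z0 * y') ^ p = 1 := by rw [mul_pow, ← hy, ← mul_pow, hyy', one_pow]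
  have hzZ : N (Z0 * y' - Z0) ≤ ρ := by
    have e : Z0 * y' - Z0 = Z0 * (y' - 1) := by ring
    rw [e]
    simpa using Lift_mul_le hN hZ1 hy'ρ
  generalize Z0 * y' = z at hzp hzZ
  have hz1 : N z ≤ 1 := by
    have e : z = (z - Z0) + Z0 := by ring
    rw [e]
    exact Lift_add_le hN (hzZ.trans hρ1.le) hZ1
  have hZz : N (Z0 - z) ≤ ρ := by rw [Lift_sub_comm hN]; exact hzZ
  refine ⟨z, hzp, hzZ, ?_⟩
  have hAp : δ z ^ p = 1 := by rw [← map_pow, hzp, map_one]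
  have hBp : (ι₁ z * ι₂ z) ^ p = 1 := by
    rw [mul_pow, ← map_pow, ← map_pow, hzp, map_one, map_one, one_mul]
  have hB1 : N2 (ι₁ z * ι₂ z) ≤ 1 := by
    simpa using Lift_mul_le hN2 ((h₁ z).trans hz1) ((h₂ z).trans hz1)
  have hAB : N2 (δ z - ι₁ z * ι₂ z) ≤ ρ := by
    have e : δ z - ι₁ z * ι₂ z = δ (z - Z0) + (δ Z0 - ι₁ Z0 * ι₂ Z0)
        + (ι₁ Z0 * ι₂ (Z0 - z) + ι₁ (Z0 - z) * ι₂ z) := by
      simp only [map_sub]; ring
    rw [e]
    refine Lift_add_le hN2 (Lift_add_le hN2 ((hδ _).trans hzZ) hZm) (Lift_add_le hN2 ?_ ?_)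
    · simpa using Lift_mul_le hN2 ((h₁ Z0).trans hZ1) ((h₂ _).trans hZz)
    · simpa using Lift_mul_le hN2 ((h₁ _).trans hZz) ((h₂ z).trans hz1)
  generalize δ z = A at hAp hAB
  generalize ι₁ z * ι₂ z = B at hBp hB1 hAB
  have hpp : p - 1 + 1 = p := Nat.sub_add_cancel hp.one_le
  have hBB : B ^ (p - 1) * B = 1 := by rw [← pow_succ, hpp, hBp]
  have hcc : A * B ^ (p - 1) = 1 := by
    apply hU p C2 N2 hN2
    · rw [mul_pow, hAp, one_mul, ← pow_mul, mul_comm, pow_mul, hBp, one_pow]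
    · have e : A * B ^ (p - 1) - 1 = (A - B) * B ^ (p - 1) := by
        linear_combination hBB
      have h3 : N2 (A * B ^ (p - 1) - 1) ≤ ρ := by
        rw [e]
        simpa using Lift_mul_le hN2 hAB (Lift_pow_le_one hN2 hB1 _)
      exact (pow_le_pow_left₀ (hN2.nonneg _) h3 _).trans_lt hρ
  linear_combination B * hcc - A * hBB

/-! ### the concrete norms -/

/-- a linear form on a tensor product which is bounded on the pure tensors is bounded. -/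
theorem Lift_tensor_bound {p : ℕ} {F : Type} [NormedField F] [Algebra (Rp p) F]
    (hG : GoodField p F) {M₁ M₂ : Type} [AddCommGroup M₁] [Module (Rp p) M₁] [AddCommGroup M₂]
    [Module (Rp p) M₂] (g : M₁ ⊗[Rp p] M₂ →ₗ[Rp p] F) (c : ℝ) (hc : 0 ≤ c)
    (h : ∀ a b, ‖g (a ⊗ₜ[Rp p] b)‖ ≤ c) (t : M₁ ⊗[Rp p] M₂) : ‖g t‖ ≤ c := by
  have := hG.ultra
  induction t using TensorProduct.induction_on with
  | zero => simpa using hc
  | tmul a b => exact h a b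
  | add x y hx hy =>
    rw [map_add]
    exact (IsUltrametricDist.norm_add_le_max _ _).trans (max_le hx hy)

/-- the norm of a good field is a `UNorm`. -/
theorem Lift_unormF {p : ℕ} {F : Type} [NormedField F] [Algebra (Rp p) F] (hG : GoodField p F) :
    UNorm p F (fun x => ‖x‖) where
  nonneg := norm_nonneg
  eq_zero := fun _ h => norm_eq_zero.mp h
  zero := norm_zero
  neg := norm_neg
  add := fun x y => by
    have := hG.ultra
    exact IsUltrametricDist.norm_add_le_max x y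
  mul := fun x y => (norm_mul x y).le
  one := norm_one.le
  smul_p := fun x => by rw [norm_mul, hG.norm_p]

/-- **FL-LIFT**. -/
theorem lift (hU : Stmt_RootU) (hE : Stmt_RootE) (hI : Stmt_RootInv) (hN : Stmt_ConvN)
    (hH : Stmt_LiftHoms) : Stmt_Lift := by
  intro p _ F H _ _ _ _ _ _ _ hG hF z0 ρ hρ0 hρ hz1 hzm hz11 hzp
  have hp : p.Prime := Fact.out
  have hult := hG.ultra
  obtain ⟨hUN, hch, -, hdiv, hcomp⟩ := hN p H F hG
  obtain ⟨hUN2, hch2, -, -, -⟩ := hN p (H ⊗[Rp p] H) F hG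
  obtain ⟨δ, ι₁, ι₂, ev, hδ, h₁, h₂, h12, hev⟩ := hH p F H
  have hpr : (p : ℝ)⁻¹ * ρ ≤ ρ := by
    have hp1 : (p : ℝ)⁻¹ ≤ 1 := inv_le_one_of_one_le₀ (by exact_mod_cast hp.one_le)
    nlinarith
  have hpr0 : 0 ≤ (p : ℝ)⁻¹ * ρ := by positivity
  have hle : ∀ (g : WithConv (H →ₗ[Rp p] F)) (c : H), ‖g.ofConv c‖ ≤ convN p H F g :=
    fun g c => (hch g _ (hUN.nonneg g)).mp le_rfl c
  have hδN : ∀ g, convN p (H ⊗[Rp p] H) F (δ g) ≤ convN p H F g := fun g =>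
    (hch2 _ _ (hUN.nonneg g)).mpr (Lift_tensor_bound hG _ _ (hUN.nonneg g) fun a b => by
      rw [hδ]; exact hle g _)
  have h₁N : ∀ g, convN p (H ⊗[Rp p] H) F (ι₁ g) ≤ convN p H F g := fun g =>
    (hch2 _ _ (hUN.nonneg g)).mpr (Lift_tensor_bound hG _ _ (hUN.nonneg g) fun a b => by
      rw [h₁, norm_mul]
      calc ‖g.ofConv a‖ * ‖algebraMap (Rp p) F (Coalgebra.counit b)‖
          ≤ convN p H F g * 1 :=
            mul_le_mul (hle g a) (hG.norm_alg _) (norm_nonneg _) (hUN.nonneg g)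
        _ = convN p H F g := mul_one _)
  have h₂N : ∀ g, convN p (H ⊗[Rp p] H) F (ι₂ g) ≤ convN p H F g := fun g =>
    (hch2 _ _ (hUN.nonneg g)).mpr (Lift_tensor_bound hG _ _ (hUN.nonneg g) fun a b => by
      rw [h₂, norm_mul]
      calc ‖algebraMap (Rp p) F (Coalgebra.counit a)‖ * ‖g.ofConv b‖
          ≤ 1 * convN p H F g :=
            mul_le_mul (hG.norm_alg _) (hle g b) (norm_nonneg _) zero_le_one
        _ = convN p H F g := one_mul _)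
  have hZ1 : convN p H F (WithConv.toConv z0) ≤ 1 := (hch _ 1 zero_le_one).mpr hz1
  have hZp : convN p H F (WithConv.toConv z0 ^ p - 1) ≤ (p : ℝ)⁻¹ * ρ :=
    (hch _ _ hpr0).mpr fun h => hzp h
  have hZm : convN p (H ⊗[Rp p] H) F
      (δ (WithConv.toConv z0) - ι₁ (WithConv.toConv z0) * ι₂ (WithConv.toConv z0)) ≤ ρ :=
    (hch2 _ _ hρ0).mpr (Lift_tensor_bound hG _ _ hρ0 fun a b => by
      rw [WithConv.ofConv_sub, LinearMap.sub_apply, hδ, h12]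
      exact (hzm a b).trans hpr)
  obtain ⟨z, hzp', hzZ, hmul⟩ := Lift_abs hU hE hI p _ _ (convN p H F)
    (convN p (H ⊗[Rp p] H) F) hUN hUN2 (hcomp hF) hdiv δ ι₁ ι₂ hδN h₁N h₂N (WithConv.toConv z0) ρ
    hρ0 hρ hZ1 hZp hZm
  have hclose : ∀ h, ‖z.ofConv h - z0 h‖ ≤ ρ := (hch (z - WithConv.toConv z0) ρ hρ0).mp hzZ
  have hmul' : ∀ a b, z.ofConv (a * b) = z.ofConv a * z.ofConv b := fun a b => by
    rw [← hδ, hmul, h12]
  have hone : z.ofConv 1 = 1 := by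
    rw [← hev]
    apply hU p F (fun x => ‖x‖) (Lift_unormF hG)
    · rw [← map_pow, hzp', map_one]
    · have h3 : ‖ev z - 1‖ ≤ ρ := by
        rw [hev]
        have e : z.ofConv 1 - 1 = (z.ofConv 1 - z0 1) + (z0 1 - 1) := by ring
        rw [e]
        exact (IsUltrametricDist.norm_add_le_max _ _).trans (max_le (hclose 1) (hz11.trans hpr))
      exact (pow_le_pow_left₀ (norm_nonneg _) h3 _).trans_lt hρ
  exact ⟨AlgHom.ofLinearMap z.ofConv hone hmul', hclose⟩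

end Fermat.Agent.TW56.Flat

end
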