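/-
TEAM TW56 -> S56, block [FLAT] : FL-LIFT-HOMS (helper19).
The ring homomorphisms `δ, ι₁, ι₂ : C(H) → C(H ⊗ H)` and `ev₁ : C(H) → F`.
-/
import Fermat.Agent.TW56.Flat.Interface2

set_option autoImplicit false

noncomputable section

namespace Fermat.Agent.TW56.Flat

open Coalgebra TensorProduct WithConv LinearMap

section Gen

variable {R F C C' : Type*} [CommRing R] [Field F] [Algebra R F]
  [AddCommGroup C] [Module R C] [Coalgebra R C] [AddCommGroup C'] [Module R C'] [Coalgebra R C']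

/-- precomposition with a coalgebra homomorphism is a ring homomorphism of convolution rings. -/
def LiftHoms_pre (φ : C' →ₗc[R] C) : WithConv (C →ₗ[R] F) →+* WithConv (C' →ₗ[R] F) where
  toFun g := toConv (g.ofConv.comp φ.toLinearMap)
  map_one' := by
    apply ofConv_injective
    ext c
    show algebraMap R F (counit (R := R) (φ c)) = algebraMap R F (counit (R := R) c)
    rw [CoalgHomClass.counit_comp_apply]
  map_mul' f g := by
    apply ofConv_injective
    exact convMul_comp_coalgHom_distrib f g φ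
  map_zero' := by
    apply ofConv_injective
    ext c
    rfl
  map_add' f g := by
    apply ofConv_injective
    ext c
    rfl

theorem LiftHoms_pre_apply (φ : C' →ₗc[R] C) (g : WithConv (C →ₗ[R] F)) (c : C') :
    (LiftHoms_pre φ g).ofConv c = g.ofConv (φ c) := rfl

end Gen

section Bi

variable (R F H : Type*) [CommRing R] [Field F] [Algebra R F] [CommRing H] [Bialgebra R H]

/-- evaluation at `1`. -/
def LiftHoms_ev : WithConv (H →ₗ[R] F) →+* F where
  toFun g := g.ofConv 1
  map_one' := by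
    show algebraMap R F (counit (R := R) (1 : H)) = 1
    rw [Bialgebra.counit_one, map_one]
  map_mul' f g := by
    show (f * g) (1 : H) = _
    rw [convMul_apply, Bialgebra.comul_one]
    rfl
  map_zero' := rfl
  map_add' _ _ := rfl

/-- `a ⊗ b ↦ ε(b) a` as a coalgebra homomorphism. -/
def LiftHoms_p1 : H ⊗[R] H →ₗc[R] H :=
  (Coalgebra.TensorProduct.rid R R H).toCoalgHom.comp
    (Coalgebra.TensorProduct.map (CoalgHom.id R H) (counitCoalgHom R H))

/-- `a ⊗ b ↦ ε(a) b` as a coalgebra homomorphism. -/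
def LiftHoms_p2 : H ⊗[R] H →ₗc[R] H :=
  (Coalgebra.TensorProduct.lid R H).toCoalgHom.comp
    (Coalgebra.TensorProduct.map (counitCoalgHom R H) (CoalgHom.id R H))

theorem LiftHoms_p1_tmul (a b : H) : LiftHoms_p1 R H (a ⊗ₜ[R] b) = counit (R := R) b • a := rfl

theorem LiftHoms_p2_tmul (a b : H) : LiftHoms_p2 R H (a ⊗ₜ[R] b) = counit (R := R) a • b := rfl

variable {R F H}

theorem LiftHoms_i1 (g : WithConv (H →ₗ[R] F)) (a b : H) :
    (LiftHoms_pre (LiftHoms_p1 R H) g).ofConv (a ⊗ₜ[R] b) =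
      g.ofConv a * algebraMap R F (counit (R := R) b) := by
  rw [LiftHoms_pre_apply, LiftHoms_p1_tmul, map_smul, Algebra.smul_def, mul_comm]

theorem LiftHoms_i2 (g : WithConv (H →ₗ[R] F)) (a b : H) :
    (LiftHoms_pre (LiftHoms_p2 R H) g).ofConv (a ⊗ₜ[R] b) =
      algebraMap R F (counit (R := R) a) * g.ofConv b := by
  rw [LiftHoms_pre_apply, LiftHoms_p2_tmul, map_smul, Algebra.smul_def]

theorem LiftHoms_sum_right (g : H →ₗ[R] F) (a : H) :
    ∑ i ∈ (ℛ R a).index, g ((ℛ R a).left i) * algebraMap R F (counit (R := R) ((ℛ R a).right i))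
      = g a := by
  have h := sum_tmul_counit_eq (R := R) (ℛ R a)
  have h2 := congrArg (fun x => g (TensorProduct.rid R H x)) h
  simp only [map_sum, TensorProduct.rid_tmul, map_smul, one_smul] at h2
  rw [← h2]
  refine Finset.sum_congr rfl fun i _ => ?_
  rw [Algebra.smul_def, mul_comm]

theorem LiftHoms_sum_left (g : H →ₗ[R] F) (a : H) :
    ∑ i ∈ (ℛ R a).index, algebraMap R F (counit (R := R) ((ℛ R a).left i)) * g ((ℛ R a).right i)
      = g a := by
  have h := sum_counit_smul (R := R) (ℛ R a)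
  have h2 := congrArg g h
  simp only [map_sum, map_smul] at h2
  rw [← h2]
  refine Finset.sum_congr rfl fun i _ => ?_
  rw [Algebra.smul_def]

theorem LiftHoms_i12 (g : WithConv (H →ₗ[R] F)) (a b : H) :
    (LiftHoms_pre (LiftHoms_p1 R H) g * LiftHoms_pre (LiftHoms_p2 R H) g).ofConv (a ⊗ₜ[R] b) =
      g.ofConv a * g.ofConv b := by
  have h := ((ℛ R a).tmul (ℛ R b)).convMul_apply (LiftHoms_pre (LiftHoms_p1 R H) g)
    (LiftHoms_pre (LiftHoms_p2 R H) g)
  refine h.trans ?_
  simp only [Coalgebra.Repr.tmul_index, Coalgebra.Repr.tmul_left, Coalgebra.Repr.tmul_right]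
  rw [Finset.sum_product]
  have e : ∀ i j, (LiftHoms_pre (LiftHoms_p1 R H) g).ofConv
        ((ℛ R a).left i ⊗ₜ[R] (ℛ R b).left j) *
      (LiftHoms_pre (LiftHoms_p2 R H) g).ofConv ((ℛ R a).right i ⊗ₜ[R] (ℛ R b).right j) =
      (g.ofConv ((ℛ R a).left i) * algebraMap R F (counit (R := R) ((ℛ R a).right i))) *
      (algebraMap R F (counit (R := R) ((ℛ R b).left j)) * g.ofConv ((ℛ R b).right j)) := by
    intro i j
    rw [LiftHoms_i1, LiftHoms_i2]
    ring
  calc _ = ∑ i ∈ (ℛ R a).index, ∑ j ∈ (ℛ R b).index,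
      (g.ofConv ((ℛ R a).left i) * algebraMap R F (counit (R := R) ((ℛ R a).right i))) *
      (algebraMap R F (counit (R := R) ((ℛ R b).left j)) * g.ofConv ((ℛ R b).right j)) :=
        Finset.sum_congr rfl fun i _ => Finset.sum_congr rfl fun j _ => e i j
    _ = _ := by
        rw [← Finset.sum_mul_sum, LiftHoms_sum_right, LiftHoms_sum_left]

end Bi

/-- **FL-LIFT-HOMS** -/
theorem liftHoms : Stmt_LiftHoms := by
  intro p F H _ _ _ _ _
  refine ⟨LiftHoms_pre (Bialgebra.mulCoalgHom (Rp p) H), LiftHoms_pre (LiftHoms_p1 (Rp p) H),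
    LiftHoms_pre (LiftHoms_p2 (Rp p) H), LiftHoms_ev (Rp p) F H, ?_, ?_, ?_, ?_, ?_⟩
  · intro g a b
    rfl
  · intro g a b
    exact LiftHoms_i1 g a b
  · intro g a b
    exact LiftHoms_i2 g a b
  · intro g a b
    exact LiftHoms_i12 g a b
  · intro g
    rfl

end Fermat.Agent.TW56.Flat

end
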