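/-
TEAM TW56 -> S56, block FLAT, task FL-NOFLAT: unramified sub + ramified quotient + flat deformation
implies split.
-/
import Fermat.Agent.TW56.Flat.Interface

set_option autoImplicit false

noncomputable section

namespace Fermat.Agent.TW56.Flat

open Fermat.Agent.S53 Matrix Polynomial

section Inert

variable (p : ℕ) [Fact p.Prime]

/-- automorphisms of `ℚ̄_p` are isometries. -/
theorem NoFlat_isom (σ : Gp p) (x : Om p) : ‖σ x‖ = ‖x‖ := by
  rw [← PadicAlgCl.spectralNorm_eq, ← PadicAlgCl.spectralNorm_eq]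
  exact (spectralNorm_eq_of_equiv σ x).symm

theorem NoFlat_mem (M : IF p) (hM : Normal ℚ_[p] M) (σ : Gp p) {x : Om p} (hx : x ∈ M) :
    σ x ∈ M := by
  have h := AlgEquiv.restrictNormal_commutes σ M ⟨x, hx⟩
  have h2 : σ x = ((σ.restrictNormal M ⟨x, hx⟩ : M) : Om p) := h.symm
  rw [h2]
  exact (σ.restrictNormal M ⟨x, hx⟩).2

/-- the inertia elements are stable under conjugation. -/
theorem NoFlat_conj (M : IF p) (hM : Normal ℚ_[p] M) (σ τ : Gp p) (hτ : IsInertGp p M τ) :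
    IsInertGp p M (σ * τ * σ⁻¹) := by
  intro x hx hx1
  have hy : σ⁻¹ x ∈ M := NoFlat_mem p M hM σ⁻¹ hx
  have hy1 : ‖σ⁻¹ x‖ ≤ 1 := by rw [NoFlat_isom]; exact hx1
  have h := hτ _ hy hy1
  have e : (σ * τ * σ⁻¹) x - x = σ (τ (σ⁻¹ x) - σ⁻¹ x) := by
    rw [map_sub]
    have e1 : σ (σ⁻¹ x) = x := by
      show (σ * σ⁻¹) x = x
      rw [mul_inv_cancel]
      rfl
    rw [e1]
    rfl
  rw [e, NoFlat_isom]
  exact h

end Inert

theorem noFlat : Stmt_NOFLAT := by
  intro p _ k _ M hM rb c _ ⟨W0, hW1, hW2⟩ h10 h00 ⟨τ₀, hτ₀, h11⟩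
  set V' : Submodule k (Fin 2 → k) := Submodule.span k
    {x | ∃ τ, IsInertGp p M τ ∧ ∃ v : Fin 2 → k, x = rb τ *ᵥ v - v} with hV'
  -- stability
  have hstab : ∀ σ, ∀ x ∈ V', rb σ *ᵥ x ∈ V' := by
    intro σ x hx
    induction hx using Submodule.span_induction with
    | mem x hx =>
      obtain ⟨τ, hτ, v, rfl⟩ := hx
      apply Submodule.subset_span
      refine ⟨σ * τ * σ⁻¹, NoFlat_conj p M hM σ τ hτ, rb σ *ᵥ v, ?_⟩
      rw [Matrix.mulVec_sub, Matrix.mulVec_mulVec, Matrix.mulVec_mulVec, ← map_mul, ← map_mul,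
        inv_mul_cancel_right]
    | zero => rw [Matrix.mulVec_zero]; exact V'.zero_mem
    | add x y _ _ hx hy => rw [Matrix.mulVec_add]; exact V'.add_mem hx hy
    | smul a x _ hx => rw [Matrix.mulVec_smul]; exact V'.smul_mem a hx
  -- `0 ⊕ V' ⊆ W0`
  have hW : ∀ x ∈ V', ∀ l : k, ((0 : Fin 2 → k), l • x) ∈ W0 := by
    intro x hx
    induction hx using Submodule.span_induction with
    | mem x hx =>
      obtain ⟨τ, hτ, v, rfl⟩ := hx
      intro l
      have h := hW1 τ hτ (0, l • v)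
      have e : actW rb c τ (0, l • v) - (0, l • v) = (0, l • (rb τ *ᵥ v - v)) := by
        simp only [actW, Matrix.mulVec_zero, add_zero, Prod.mk_sub_mk, sub_zero,
          Matrix.mulVec_smul, smul_sub]
      rwa [e] at h
    | zero => intro l; rw [smul_zero]; exact W0.zero_mem
    | add x y _ _ hx hy =>
      intro l
      have h := W0.add_mem (hx l) (hy l)
      rw [Prod.mk_add_mk, add_zero, ← smul_add] at h
      exact h
    | smul a x _ hx => intro l; rw [smul_smul]; exact hx _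
  -- `e0 ∉ V'`
  have he0 : (![1, 0] : Fin 2 → k) ∉ V' := by
    intro h
    have h1 : ((0 : Fin 2 → k), (![1, 0] : Fin 2 → k)) ∈ W0 := by
      have := hW _ h 1
      rwa [one_smul] at this
    have h2 := hW2 ⊥ (by
      intro τ _ x hx
      rw [AddSubgroup.mem_bot] at hx ⊢
      subst hx
      simp [actW]) _ h1 (by
      intro τ hτ
      rw [AddSubgroup.mem_bot, sub_eq_zero]
      have e : rb τ *ᵥ (![1, 0] : Fin 2 → k) = ![1, 0] := by
        ext i
        fin_cases i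
        · simp [Matrix.mulVec, dotProduct, Fin.sum_univ_two, h00 τ hτ]
        · simp [Matrix.mulVec, dotProduct, Fin.sum_univ_two, h10 τ]
      simp only [actW, Matrix.mulVec_zero, add_zero, e])
    rw [AddSubgroup.mem_bot] at h2
    have h3 := congrFun (congrArg Prod.snd h2) 0
    simp at h3
  -- the vector
  have hv : rb τ₀ *ᵥ (![0, 1] : Fin 2 → k) - ![0, 1] ∈ V' :=
    Submodule.subset_span ⟨τ₀, hτ₀, _, rfl⟩
  set v : Fin 2 → k := rb τ₀ *ᵥ (![0, 1] : Fin 2 → k) - ![0, 1] with hvdef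
  have hv1 : v 1 ≠ 0 := by
    have e : v 1 = rb τ₀ 1 1 - 1 := by
      simp [hvdef]
    rw [e]
    exact sub_ne_zero.2 h11
  refine ⟨v, hv1, fun σ => ⟨(rb σ *ᵥ v) 1 / v 1, ?_⟩⟩
  have hu : rb σ *ᵥ v ∈ V' := hstab σ v hv
  set u : Fin 2 → k := rb σ *ᵥ v with hudef
  have hd : u - (u 1 / v 1) • v ∈ V' := V'.sub_mem hu (V'.smul_mem _ hv)
  have hd1 : (u - (u 1 / v 1) • v) 1 = 0 := by
    rw [Pi.sub_apply, Pi.smul_apply, smul_eq_mul, div_mul_cancel₀ _ hv1, sub_self]
  by_contra hne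
  have hd0 : (u - (u 1 / v 1) • v) 0 ≠ 0 := by
    intro h0
    apply hne
    rw [← sub_eq_zero]
    ext i
    fin_cases i
    · exact h0
    · exact hd1
  apply he0
  have e : (![1, 0] : Fin 2 → k) = ((u - (u 1 / v 1) • v) 0)⁻¹ • (u - (u 1 / v 1) • v) := by
    ext i
    fin_cases i
    · show (1 : k) = ((u - (u 1 / v 1) • v) 0)⁻¹ * (u - (u 1 / v 1) • v) 0
      rw [inv_mul_cancel₀ hd0]
    · show (0 : k) = ((u - (u 1 / v 1) • v) 0)⁻¹ * (u - (u 1 / v 1) • v) 1
      rw [hd1, mul_zero]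
  rw [e]
  exact V'.smul_mem _ hd

end Fermat.Agent.TW56.Flat

end
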