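/-
TEAM TW56 -> S56, block FLAT, package FL-ORD (helper65).

`theorem ord : Stmt_ORD` : flat (= connected-étale property) deformations of ordinary
representations are ordinary.
-/
import Fermat.Agent.TW56.Flat.Interface

set_option autoImplicit false
set_option linter.unusedSimpArgs false

noncomputable section

namespace Fermat.Agent.TW56.Flat

open Fermat.Agent.S53 Matrix

section General

variable {k : Type} [Field k] {G : Type} [Group G]

theorem Ord_rb_mul_inv (rb : G →* M2 k) (σ : G) : rb σ * rb σ⁻¹ = 1 := by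
  rw [← map_mul, mul_inv_cancel, map_one]

theorem Ord_rb_inv_mul (rb : G →* M2 k) (σ : G) : rb σ⁻¹ * rb σ = 1 := by
  rw [← map_mul, inv_mul_cancel, map_one]

theorem Ord_actW_mul (rb : G →* M2 k) (c : G → M2 k) (hc : IsCoc0 rb c) (σ τ : G)
    (x : (Fin 2 → k) × (Fin 2 → k)) :
    actW rb c (σ * τ) x = actW rb c σ (actW rb c τ x) := by
  unfold actW
  have h1 : c (σ * τ) * rb (σ * τ) = rb σ * (c τ * rb τ) + c σ * rb σ * rb τ := by
    rw [hc.coc, map_mul, add_mul]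
    have : rb σ * c τ * rb σ⁻¹ * (rb σ * rb τ) = rb σ * (c τ * rb τ) := by
      calc rb σ * c τ * rb σ⁻¹ * (rb σ * rb τ) = rb σ * c τ * (rb σ⁻¹ * rb σ) * rb τ := by
            simp only [mul_assoc]
        _ = rb σ * (c τ * rb τ) := by rw [Ord_rb_inv_mul, mul_one, mul_assoc]
    rw [this, add_comm, mul_assoc (c σ)]
  ext i
  · simp only [map_mul, Matrix.mulVec_mulVec]
  · rw [h1]
    simp only [Matrix.mulVec_add, Matrix.mulVec_mulVec, Matrix.add_mulVec, map_mul,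
      Pi.add_apply]
    ring

theorem Ord_actW_add (rb : G →* M2 k) (c : G → M2 k) (σ : G)
    (x y : (Fin 2 → k) × (Fin 2 → k)) :
    actW rb c σ (x + y) = actW rb c σ x + actW rb c σ y := by
  unfold actW
  ext i
  · simp only [Prod.fst_add, Matrix.mulVec_add]
  · simp only [Prod.fst_add, Prod.snd_add, Matrix.mulVec_add, Pi.add_apply]
    ring

theorem Ord_actW_smul (rb : G →* M2 k) (c : G → M2 k) (σ : G) (l : k)
    (x : (Fin 2 → k) × (Fin 2 → k)) :
    actW rb c σ (l • x) = l • actW rb c σ x := by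
  unfold actW
  ext i
  · simp only [Prod.smul_fst, Matrix.mulVec_smul]
  · simp only [Prod.smul_fst, Prod.smul_snd, Matrix.mulVec_smul, smul_add]

theorem Ord_actW_zero (rb : G →* M2 k) (c : G → M2 k) (σ : G) :
    actW rb c σ 0 = 0 := by
  have := Ord_actW_smul rb c σ 0 0
  simpa using this

theorem Ord_actW_neg (rb : G →* M2 k) (c : G → M2 k) (σ : G)
    (x : (Fin 2 → k) × (Fin 2 → k)) :
    actW rb c σ (-x) = - actW rb c σ x := by
  have := Ord_actW_smul rb c σ (-1) x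
  simpa using this

theorem Ord_actW_sub (rb : G →* M2 k) (c : G → M2 k) (σ : G)
    (x y : (Fin 2 → k) × (Fin 2 → k)) :
    actW rb c σ (x - y) = actW rb c σ x - actW rb c σ y := by
  rw [sub_eq_add_neg, Ord_actW_add, Ord_actW_neg, ← sub_eq_add_neg]

/-- the subgroup `(I - 1) W` -/
def Ord_W' (rb : G →* M2 k) (c : G → M2 k) (I : G → Prop) :
    AddSubgroup ((Fin 2 → k) × (Fin 2 → k)) :=
  AddSubgroup.closure {y | ∃ τ, I τ ∧ ∃ x, y = actW rb c τ x - x}

theorem Ord_W'_gen (rb : G →* M2 k) (c : G → M2 k) (I : G → Prop) (τ : G) (hτ : I τ)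
    (x : (Fin 2 → k) × (Fin 2 → k)) : actW rb c τ x - x ∈ Ord_W' rb c I :=
  AddSubgroup.subset_closure ⟨τ, hτ, x, rfl⟩

theorem Ord_W'_smul (rb : G →* M2 k) (c : G → M2 k) (I : G → Prop) (l : k)
    (y : (Fin 2 → k) × (Fin 2 → k)) (hy : y ∈ Ord_W' rb c I) : l • y ∈ Ord_W' rb c I := by
  unfold Ord_W' at hy
  induction hy using AddSubgroup.closure_induction with
  | mem y hy =>
    obtain ⟨τ, hτ, x, rfl⟩ := hy
    have : l • (actW rb c τ x - x) = actW rb c τ (l • x) - l • x := by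
      rw [smul_sub, Ord_actW_smul]
    rw [this]
    exact Ord_W'_gen rb c I τ hτ _
  | zero => rw [smul_zero]; exact AddSubgroup.zero_mem _
  | add a b _ _ ha hb => rw [smul_add]; exact AddSubgroup.add_mem _ ha hb
  | neg a _ ha => rw [smul_neg]; exact AddSubgroup.neg_mem _ ha

theorem Ord_W'_act (rb : G →* M2 k) (c : G → M2 k) (hc : IsCoc0 rb c) (I : G → Prop)
    (hI : ∀ σ τ, I τ → I (σ * τ * σ⁻¹)) (σ : G)
    (y : (Fin 2 → k) × (Fin 2 → k)) (hy : y ∈ Ord_W' rb c I) :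
    actW rb c σ y ∈ Ord_W' rb c I := by
  unfold Ord_W' at hy
  induction hy using AddSubgroup.closure_induction with
  | mem y hy =>
    obtain ⟨τ, hτ, x, rfl⟩ := hy
    have : actW rb c σ (actW rb c τ x - x)
        = actW rb c (σ * τ * σ⁻¹) (actW rb c σ x) - actW rb c σ x := by
      rw [Ord_actW_sub, ← Ord_actW_mul rb c hc, ← Ord_actW_mul rb c hc, inv_mul_cancel_right]
    rw [this]
    exact Ord_W'_gen rb c I _ (hI σ τ hτ) _
  | zero => rw [Ord_actW_zero]; exact AddSubgroup.zero_mem _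
  | add a b _ _ ha hb => rw [Ord_actW_add]; exact AddSubgroup.add_mem _ ha hb
  | neg a _ ha => rw [Ord_actW_neg]; exact AddSubgroup.neg_mem _ ha

end General

theorem Ord_inert_conj (p : ℕ) [Fact p.Prime] (M : IF p) (hM : Normal ℚ_[p] M) (σ τ : Gp p)
    (hτ : IsInertGp p M τ) : IsInertGp p M (σ * τ * σ⁻¹) := by
  intro x hx hx1
  have hnorm : ∀ (ρ : Gp p) (y : Om p), ‖ρ y‖ = ‖y‖ := fun ρ y =>
    (spectralNorm_eq_of_equiv ρ y).symm
  have hmem : σ⁻¹ x ∈ M := by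
    have h := AlgEquiv.restrictNormal_commutes (σ⁻¹ : Gp p) M ⟨x, hx⟩
    have h2 : σ⁻¹ x = ((AlgEquiv.restrictNormal (σ⁻¹ : Gp p) M ⟨x, hx⟩ : M) : Om p) := h.symm
    rw [h2]
    exact SetLike.coe_mem _
  have h1 : (σ * τ * σ⁻¹) x - x = σ (τ (σ⁻¹ x) - σ⁻¹ x) := by
    rw [map_sub]
    simp [AlgEquiv.mul_apply]
  rw [h1, hnorm]
  exact hτ _ hmem (by rw [hnorm]; exact hx1)

/-- the abstract form of FL-ORD -/
theorem Ord_main {k : Type} [Field k] {G : Type} [Group G] (rb : G →* M2 k) (c : G → M2 k)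
    (hc : IsCoc0 rb c) (I : G → Prop) (hI : ∀ σ τ, I τ → I (σ * τ * σ⁻¹))
    (hCE : ∃ W0 : AddSubgroup ((Fin 2 → k) × (Fin 2 → k)),
      (∀ τ, I τ → ∀ w, actW rb c τ w - w ∈ W0) ∧
      ∀ W1 : AddSubgroup ((Fin 2 → k) × (Fin 2 → k)),
        (∀ τ, I τ → ∀ x ∈ W1, actW rb c τ x ∈ W1) →
        ∀ w ∈ W0, (∀ τ, I τ → actW rb c τ w - w ∈ W1) → w ∈ W1)
    (h10 : ∀ σ, rb σ 1 0 = 0) (h11 : ∀ τ, I τ → rb τ 1 1 = 1)
    (hram : ∃ τ, I τ ∧ rb τ 0 0 ≠ 1) :
    ∃ X : M2 k, (∀ σ, (c σ + cob rb X σ) 1 0 = 0) ∧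
      ∀ τ, I τ → (c τ + cob rb X τ) 1 1 = 0 := by
  obtain ⟨W0, hW0, hW0'⟩ := hCE
  have hle : Ord_W' rb c I ≤ W0 := by
    refine (AddSubgroup.closure_le _).2 ?_
    rintro y ⟨τ, hτ, x, rfl⟩
    exact hW0 τ hτ x
  -- the subgroup `W1`
  let W1 : AddSubgroup ((Fin 2 → k) × (Fin 2 → k)) :=
    { carrier := {x | x.1 = 0 ∧ x.2 1 = 0}
      add_mem' := by
        rintro a b ⟨ha1, ha2⟩ ⟨hb1, hb2⟩
        exact ⟨by rw [Prod.fst_add, ha1, hb1, add_zero],
          by rw [Prod.snd_add, Pi.add_apply, ha2, hb2, add_zero]⟩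
      zero_mem' := ⟨rfl, rfl⟩
      neg_mem' := by
        rintro a ⟨ha1, ha2⟩
        exact ⟨by rw [Prod.fst_neg, ha1, neg_zero],
          by rw [Prod.snd_neg, Pi.neg_apply, ha2, neg_zero]⟩ }
  have hW1 : ∀ x, x ∈ W1 ↔ (x.1 = 0 ∧ x.2 1 = 0) := fun x => Iff.rfl
  -- STEP 1
  have step1 : ∀ w : Fin 2 → k, ((0 : Fin 2 → k), w) ∈ Ord_W' rb c I → w 1 = 0 := by
    intro w hw
    have := hW0' W1 ?_ _ (hle hw) ?_
    · exact ((hW1 _).1 this).2
    · rintro τ hτ x hx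
      obtain ⟨hx1, hx2⟩ := (hW1 _).1 hx
      rw [hW1]
      refine ⟨?_, ?_⟩
      · simp [actW, hx1]
      · simp [actW, hx1, Matrix.mulVec, dotProduct, Fin.sum_univ_two, h10, hx2]
    · intro τ hτ
      rw [hW1]
      refine ⟨?_, ?_⟩
      · simp [actW]
      · simp [actW, Matrix.mulVec, dotProduct, Fin.sum_univ_two, h10, h11 τ hτ, Matrix.vecHead,
          Matrix.vecTail]
  -- STEP 2
  obtain ⟨τ0, hτ0, hne⟩ := hram
  have hne' : rb τ0 0 0 - 1 ≠ 0 := sub_ne_zero.2 hne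
  obtain ⟨u, hu⟩ : ∃ u : Fin 2 → k, ((![1, 0] : Fin 2 → k), u) ∈ Ord_W' rb c I := by
    refine ⟨(rb τ0 0 0 - 1)⁻¹ • ((c τ0 * rb τ0) *ᵥ ![1, 0]), ?_⟩
    have h := Ord_W'_smul rb c I (rb τ0 0 0 - 1)⁻¹ _
      (Ord_W'_gen rb c I τ0 hτ0 ((![1, 0] : Fin 2 → k), 0))
    convert h using 1
    ext i
    · fin_cases i
      · simp [actW, Matrix.mulVec, dotProduct, Fin.sum_univ_two, hne']
      · simp [actW, Matrix.mulVec, dotProduct, Fin.sum_univ_two, h10]
    · fin_cases i <;> simp [actW]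
  have hχ : ∀ σ, rb σ 0 0 * rb σ⁻¹ 0 0 = 1 := by
    intro σ
    have h := congrFun (congrFun (Ord_rb_mul_inv rb σ) 0) 0
    simpa [Matrix.mul_apply, Fin.sum_univ_two, h10] using h
  have hχ2 : ∀ σ, rb σ 1 1 * rb σ⁻¹ 1 1 = 1 := by
    intro σ
    have h := congrFun (congrFun (Ord_rb_mul_inv rb σ) 1) 1
    simpa [Matrix.mul_apply, Fin.sum_univ_two, h10] using h
  refine ⟨!![u 0, 0; u 1, 0], ?_, ?_⟩
  · -- STEP 3
    intro σ
    have h1 : actW rb c σ ((![1, 0] : Fin 2 → k), u) - rb σ 0 0 • ((![1, 0] : Fin 2 → k), u)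
        ∈ Ord_W' rb c I :=
      AddSubgroup.sub_mem _ (Ord_W'_act rb c hc I hI σ _ hu) (Ord_W'_smul rb c I _ _ hu)
    have h2 : actW rb c σ ((![1, 0] : Fin 2 → k), u) - rb σ 0 0 • ((![1, 0] : Fin 2 → k), u)
        = ((0 : Fin 2 → k), rb σ *ᵥ u + (c σ * rb σ) *ᵥ ![1, 0] - rb σ 0 0 • u) := by
      ext i
      · fin_cases i
        · simp [actW, Matrix.mulVec, dotProduct, Fin.sum_univ_two]
        · simp [actW, Matrix.mulVec, dotProduct, Fin.sum_univ_two, h10]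
      · fin_cases i <;> simp [actW, Matrix.vecHead, Matrix.vecTail]
    rw [h2] at h1
    have h3 := step1 _ h1
    simp only [Pi.sub_apply, Pi.add_apply, Pi.smul_apply, Matrix.mulVec, dotProduct,
      Fin.sum_univ_two, Matrix.mul_apply, h10, smul_eq_mul, Matrix.cons_val_zero,
      Matrix.cons_val_one, mul_zero, add_zero, zero_mul, zero_add, mul_one] at h3
    simp only [cob, Matrix.add_apply, Matrix.sub_apply, Matrix.mul_apply, Fin.sum_univ_two, h10,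
      Matrix.of_apply, Matrix.cons_val_zero, Matrix.cons_val_one, Matrix.cons_val', mul_zero,
      add_zero, zero_mul, zero_add]
    linear_combination (rb σ⁻¹ 0 0) * h3 - (c σ 1 0 - u 1) * hχ σ
  · -- STEP 4
    intro τ hτ
    have hb : rb τ⁻¹ 1 1 = 1 := by
      have := hχ2 τ
      rwa [h11 τ hτ, one_mul] at this
    have h1 : actW rb c τ (rb τ⁻¹ *ᵥ ![0, 1], (0 : Fin 2 → k)) - (rb τ⁻¹ *ᵥ ![0, 1], (0 : Fin 2 → k))
        + rb τ⁻¹ 0 1 • ((![1, 0] : Fin 2 → k), u) ∈ Ord_W' rb c I :=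
      AddSubgroup.add_mem _ (Ord_W'_gen rb c I τ hτ _) (Ord_W'_smul rb c I _ _ hu)
    have h2 : actW rb c τ (rb τ⁻¹ *ᵥ ![0, 1], (0 : Fin 2 → k)) - (rb τ⁻¹ *ᵥ ![0, 1], (0 : Fin 2 → k))
        + rb τ⁻¹ 0 1 • ((![1, 0] : Fin 2 → k), u)
        = ((0 : Fin 2 → k), c τ *ᵥ ![0, 1] + rb τ⁻¹ 0 1 • u) := by
      have e1 : rb τ *ᵥ (rb τ⁻¹ *ᵥ ![0, 1]) = ![0, 1] := by
        rw [Matrix.mulVec_mulVec, Ord_rb_mul_inv, Matrix.one_mulVec]
      have e2 : (c τ * rb τ) *ᵥ (rb τ⁻¹ *ᵥ ![0, 1]) = c τ *ᵥ ![0, 1] := by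
        rw [Matrix.mulVec_mulVec, mul_assoc, Ord_rb_mul_inv, mul_one]
      unfold actW
      simp only [e1, e2]
      ext i
      · fin_cases i
        · simp [Matrix.mulVec, dotProduct, Fin.sum_univ_two]
        · simp [Matrix.mulVec, dotProduct, Fin.sum_univ_two, hb]
      · fin_cases i <;> simp [Matrix.vecHead, Matrix.vecTail]
    rw [h2] at h1
    have h3 := step1 _ h1
    simp only [Pi.add_apply, Pi.smul_apply, Matrix.mulVec, dotProduct,
      Fin.sum_univ_two, smul_eq_mul, Matrix.cons_val_zero,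
      Matrix.cons_val_one, mul_zero, add_zero, zero_mul, zero_add, mul_one] at h3
    simp only [cob, Matrix.add_apply, Matrix.sub_apply, Matrix.mul_apply, Fin.sum_univ_two, h10,
      h11 τ hτ, Matrix.of_apply, Matrix.cons_val_zero, Matrix.cons_val_one, Matrix.cons_val',
      mul_zero, add_zero, zero_mul, zero_add, one_mul, sub_zero]
    linear_combination h3

/-- **FL-ORD** -/
theorem ord : Stmt_ORD := by
  intro p _ k _ M hM rb c hc hCE h10 h11 hram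
  exact Ord_main rb c hc (IsInertGp p M) (fun σ τ hτ => Ord_inert_conj p M hM σ τ hτ) hCE
    h10 h11 hram

end Fermat.Agent.TW56.Flat

end
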