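/-
TEAM TW56 -> S56, block FLAT.  FL-PM : assembly of `Stmt_PM`.
-/
import Fermat.Agent.TW56.Flat.Interface2

set_option autoImplicit false

noncomputable section

namespace Fermat.Agent.TW56.Flat

theorem pm (h1 : Stmt_PMH) (h2 : Stmt_PtField) (h3 : Stmt_Free) : Stmt_PM := by
  intro p _ hp2 W _ act hflat hkill
  obtain ⟨H, iC, iH, hfin, hflatH, hcc, e, hmul, hact⟩ := hflat
  have hfree : Module.Free (Rp p) H := h3 p H hfin hflatH
  obtain ⟨hfd, hnorm, -, -⟩ := h2 p H hfin
  have he1 : e 1 = 0 := by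
    have h := hmul 1 1
    rw [mul_one] at h
    exact left_eq_add.1 h
  have hpow : ∀ (f : WithConv (H →ₐ[Rp p] Om p)) (n : ℕ), e (f ^ n) = n • e f := by
    intro f n
    induction n with
    | zero => rw [pow_zero, zero_smul]; exact he1
    | succ n ih => rw [pow_succ, hmul, ih, succ_nsmul]
  have hp1 : ∀ f : WithConv (H →ₐ[Rp p] Om p), f ^ p = 1 := by
    intro f
    apply e.injective
    rw [hpow, hkill, he1]
  refine ⟨ptField p H, hfd, hnorm, h1 p hp2 H hp1, ?_⟩
  intro τ hτ w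
  obtain ⟨f, rfl⟩ := e.surjective w
  refine (hact τ f f fun h => ?_).symm
  exact (hτ (f h) (IntermediateField.subset_adjoin _ _ ⟨f.ofConv, h, rfl⟩)).symm

end Fermat.Agent.TW56.Flat

end
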