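/-
TEAM TW56 -> S56, block FLAT, task FL-PMH (helper5).
Property `(P_m)` for the field generated by the points of a finite flat group scheme killed by `p`.
-/
import Fermat.Agent.TW56.Flat.Interface2

set_option autoImplicit false

noncomputable section

namespace Fermat.Agent.TW56.Flat

open WithConv Coalgebra
open scoped TensorProduct

section Basic

variable {p : ℕ} [Fact p.Prime]

theorem PMH_alg_eq (r : Rp p) :
    algebraMap (Rp p) (Om p) r = algebraMap ℚ_[p] (Om p) (((r : ℚ) : ℚ_[p])) := by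
  have h1 : algebraMap (Rp p) (Om p) r = algebraMap ℚ (Om p) (r : ℚ) := rfl
  rw [h1, IsScalarTower.algebraMap_apply ℚ ℚ_[p] (Om p)]
  simp

theorem PMH_norm_alg (r : Rp p) : ‖algebraMap (Rp p) (Om p) r‖ ≤ 1 := by
  rw [PMH_alg_eq, norm_algebraMap']
  apply Padic.norm_rat_le_one
  intro hd
  have h2 : (r : ℚ).den.Coprime p := r.2
  have h3 : p ∣ Nat.gcd (r : ℚ).den p := Nat.dvd_gcd hd dvd_rfl
  rw [h2] at h3
  exact (Fact.out : p.Prime).one_lt.ne' (Nat.dvd_one.mp h3)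

theorem PMH_alg_mem (M : IF p) (r : Rp p) : algebraMap (Rp p) (Om p) r ∈ M := by
  rw [PMH_alg_eq]
  exact M.algebraMap_mem _

theorem PMH_norm_p : ‖(p : Om p)‖ = (p : ℝ)⁻¹ := by
  have h1 : (p : Om p) = algebraMap ℚ_[p] (Om p) (p : ℚ_[p]) := by simp
  rw [h1, norm_algebraMap', Padic.norm_p]

theorem PMH_good_Om : GoodField p (Om p) where
  ultra := inferInstance
  norm_alg := PMH_norm_alg
  norm_p := PMH_norm_p

theorem PMH_good_E (E : IF p) : GoodField p E where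
  ultra := inferInstance
  norm_alg r := PMH_norm_alg r
  norm_p := by
    have h1 : ‖(p : E)‖ = ‖(((p : E) : E) : Om p)‖ := rfl
    rw [h1]
    push_cast
    exact PMH_norm_p

theorem PMH_tri {c : ℝ} {x y z : Om p} (h1 : ‖x - y‖ ≤ c) (h2 : ‖y - z‖ ≤ c) : ‖x - z‖ ≤ c := by
  have h3 : x - z = (x - y) + (y - z) := by ring
  rw [h3]
  exact (IsUltrametricDist.norm_add_le_max _ _).trans (max_le h1 h2)

theorem PMH_symm {c : ℝ} {x y : Om p} (h1 : ‖x - y‖ ≤ c) : ‖y - x‖ ≤ c := by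
  rwa [norm_sub_rev]

theorem PMH_sum {ι : Type*} {c : ℝ} (hc : 0 ≤ c) (s : Finset ι) (x y : ι → Om p)
    (h : ∀ i ∈ s, ‖x i - y i‖ ≤ c) : ‖∑ i ∈ s, x i - ∑ i ∈ s, y i‖ ≤ c := by
  rw [← Finset.sum_sub_distrib]
  exact IsUltrametricDist.norm_sum_le_of_forall_le_of_nonneg hc h

theorem PMH_mul {c : ℝ} (hc : 0 ≤ c) {x x' y y' : Om p} (h1 : ‖x - x'‖ ≤ c) (h2 : ‖y - y'‖ ≤ c)
    (hx' : ‖x'‖ ≤ 1) (hy : ‖y‖ ≤ 1) : ‖x * y - x' * y'‖ ≤ c := by
  have h3 : x * y - x' * y' = (x - x') * y + x' * (y - y') := by ring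
  rw [h3]
  refine (IsUltrametricDist.norm_add_le_max _ _).trans (max_le ?_ ?_)
  · rw [norm_mul]
    calc ‖x - x'‖ * ‖y‖ ≤ c * 1 := mul_le_mul h1 hy (norm_nonneg _) hc
      _ = c := mul_one c
  · rw [norm_mul]
    calc ‖x'‖ * ‖y - y'‖ ≤ 1 * c := mul_le_mul hx' h2 (norm_nonneg _) zero_le_one
      _ = c := one_mul c

theorem PMH_norm_le {c : ℝ} (hc : c ≤ 1) {x y : Om p} (h1 : ‖x - y‖ ≤ c) (hy : ‖y‖ ≤ 1) :
    ‖x‖ ≤ 1 := by
  have h3 : x = (x - y) + y := by ring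
  rw [h3]
  exact (IsUltrametricDist.norm_add_le_max _ _).trans (max_le (h1.trans hc) hy)

theorem PMH_norm_sum_le {ι : Type*} (s : Finset ι) (x : ι → Om p) (h : ∀ i ∈ s, ‖x i‖ ≤ 1) :
    ‖∑ i ∈ s, x i‖ ≤ 1 :=
  IsUltrametricDist.norm_sum_le_of_forall_le_of_nonneg zero_le_one h

end Basic

section Track

variable {p : ℕ} [Fact p.Prime]

/-- the data extracted from `ApproxHom` and `Stmt_Apx` -/
structure PMH_Ctx (M E : IF p) (c : ℝ) (u : Om p → Om p) : Prop where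
  hu : ApproxHom p M E c u
  c0 : 0 ≤ c
  c1 : c ≤ 1
  alg : ∀ r : Rp p, ‖u (algebraMap (Rp p) (Om p) r) - algebraMap (Rp p) (Om p) r‖ ≤ c
  sum : ∀ (n : ℕ) (x : Fin n → Om p), (∀ i, x i ∈ M ∧ ‖x i‖ ≤ 1) →
      ‖u (∑ i, x i) - ∑ i, u (x i)‖ ≤ c

variable {M E : IF p} {c : ℝ} {u : Om p → Om p}

theorem PMH_usum (X : PMH_Ctx M E c u) {ι : Type*} (s : Finset ι) (x : ι → Om p)
    (hx : ∀ i ∈ s, x i ∈ M ∧ ‖x i‖ ≤ 1) :
    ‖u (∑ i ∈ s, x i) - ∑ i ∈ s, u (x i)‖ ≤ c := by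
  have h1 := X.sum s.card (fun j => x (s.equivFin.symm j)) (fun j => hx _ (s.equivFin.symm j).2)
  have h2 : ∀ f : ι → Om p, ∑ j : Fin s.card, f (s.equivFin.symm j) = ∑ i ∈ s, f i := by
    intro f
    rw [Equiv.sum_comp s.equivFin.symm (fun i : s => f i), Finset.sum_coe_sort]
  rw [h2 x, h2 (fun i => u (x i))] at h1
  exact h1

variable {H : Type} [CommRing H] [Bialgebra (Rp p) H]

/-- shortcut instance -/
local instance PMH_instSemiring (E : IF p) : Semiring (WithConv (H →ₗ[Rp p] E)) :=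
  LinearMap.convSemiring

/-- the linear map `Z` tracks the point `g` -/
def PMH_Tr (E : IF p) (c : ℝ) (u : Om p → Om p) (Z : H →ₗ[Rp p] E) (g : H →ₐ[Rp p] Om p) : Prop :=
  ∀ h : H, ‖((Z h : E) : Om p) - u (g h)‖ ≤ c

theorem PMH_Tr_one (X : PMH_Ctx M E c u) :
    PMH_Tr E c u (1 : WithConv (H →ₗ[Rp p] E)).ofConv (1 : WithConv (H →ₐ[Rp p] Om p)).ofConv := by
  intro h
  exact PMH_symm (X.alg (counit h))

theorem PMH_Tr_mul (X : PMH_Ctx M E c u)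
    (hM : ∀ (f : H →ₐ[Rp p] Om p) (h : H), f h ∈ M ∧ ‖f h‖ ≤ 1)
    {Z Z' : WithConv (H →ₗ[Rp p] E)} {g g' : WithConv (H →ₐ[Rp p] Om p)}
    (h1 : PMH_Tr E c u Z.ofConv g.ofConv) (h2 : PMH_Tr E c u Z'.ofConv g'.ofConv) :
    PMH_Tr E c u (Z * Z').ofConv (g * g').ofConv := by
  intro h
  have e1 : (Z * Z').ofConv h = ∑ i ∈ (ℛ (Rp p) h).index,
      Z.ofConv ((ℛ (Rp p) h).left i) * Z'.ofConv ((ℛ (Rp p) h).right i) :=
    (ℛ (Rp p) h).convMul_apply Z Z'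
  have e2 : (g * g').ofConv h = ∑ i ∈ (ℛ (Rp p) h).index,
      g.ofConv ((ℛ (Rp p) h).left i) * g'.ofConv ((ℛ (Rp p) h).right i) :=
    (ℛ (Rp p) h).convMul_apply (toConv g.ofConv.toLinearMap) (toConv g'.ofConv.toLinearMap)
  rw [e1, e2]
  push_cast
  refine PMH_symm (PMH_tri (PMH_usum X _ _ ?_) (PMH_sum X.c0 _ _ _ ?_))
  · intro i _
    refine ⟨M.mul_mem (hM _ _).1 (hM _ _).1, ?_⟩
    rw [norm_mul]
    exact mul_le_one₀ (hM _ _).2 (norm_nonneg _) (hM _ _).2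
  · intro i _
    refine PMH_tri (X.hu.mul _ (hM _ _).1 _ (hM _ _).1 (hM _ _).2 (hM _ _).2) ?_
    refine PMH_symm (PMH_mul X.c0 (h1 _) (h2 _) (X.hu.mem _ (hM _ _).1 (hM _ _).2).2 ?_)
    exact PMH_norm_le X.c1 (h2 _) (X.hu.mem _ (hM _ _).1 (hM _ _).2).2

theorem PMH_Tr_pow (X : PMH_Ctx M E c u)
    (hM : ∀ (f : H →ₐ[Rp p] Om p) (h : H), f h ∈ M ∧ ‖f h‖ ≤ 1)
    {Z : WithConv (H →ₗ[Rp p] E)} {g : WithConv (H →ₐ[Rp p] Om p)}
    (h1 : PMH_Tr E c u Z.ofConv g.ofConv) (n : ℕ) :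
    PMH_Tr E c u (Z ^ n).ofConv (g ^ n).ofConv := by
  induction n with
  | zero => rw [pow_zero, pow_zero]; exact PMH_Tr_one X
  | succ n ih => rw [pow_succ, pow_succ]; exact PMH_Tr_mul X hM ih h1

/-- the approximate point attached to a point -/
def PMH_z0 (X : PMH_Ctx M E c u) (hM : ∀ (f : H →ₐ[Rp p] Om p) (h : H), f h ∈ M ∧ ‖f h‖ ≤ 1)
    {n : ℕ} (b : Module.Basis (Fin n) (Rp p) H) (f : H →ₐ[Rp p] Om p) : H →ₗ[Rp p] E :=
  b.constr ℕ (fun i => (⟨u (f (b i)), (X.hu.mem _ (hM f _).1 (hM f _).2).1⟩ : E))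

theorem PMH_z0_tr (X : PMH_Ctx M E c u)
    (hM : ∀ (f : H →ₐ[Rp p] Om p) (h : H), f h ∈ M ∧ ‖f h‖ ≤ 1)
    {n : ℕ} (b : Module.Basis (Fin n) (Rp p) H) (f : H →ₐ[Rp p] Om p) :
    PMH_Tr E c u (PMH_z0 X hM b f) f := by
  intro h
  have e1 : ((PMH_z0 X hM b f h : E) : Om p)
      = ∑ i, algebraMap (Rp p) (Om p) (b.equivFun h i) * u (f (b i)) := by
    rw [PMH_z0, Module.Basis.constr_apply_fintype]
    push_cast
    refine Finset.sum_congr rfl fun i _ => ?_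
    rw [Algebra.smul_def]
  have e2 : f h = ∑ i, algebraMap (Rp p) (Om p) (b.equivFun h i) * f (b i) := by
    conv_lhs => rw [← b.sum_equivFun h]
    rw [map_sum]
    refine Finset.sum_congr rfl fun i _ => ?_
    rw [map_smul, Algebra.smul_def]
  rw [e1, e2]
  refine PMH_symm (PMH_tri (PMH_usum X _ _ ?_) (PMH_sum X.c0 _ _ _ ?_))
  · intro i _
    refine ⟨M.mul_mem (PMH_alg_mem M _) (hM _ _).1, ?_⟩
    rw [norm_mul]
    exact mul_le_one₀ (PMH_norm_alg _) (norm_nonneg _) (hM _ _).2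
  · intro i _
    refine PMH_tri (X.hu.mul _ (PMH_alg_mem M _) _ (hM _ _).1 (PMH_norm_alg _) (hM _ _).2) ?_
    refine PMH_mul X.c0 (X.alg _) ?_ (PMH_norm_alg _) (X.hu.mem _ (hM _ _).1 (hM _ _).2).2
    rw [sub_self, norm_zero]
    exact X.c0

end Track

section Main

/-- a point with values in `E`, seen in `Om p` -/
def PMH_incl {p : ℕ} [Fact p.Prime] {H : Type} [CommRing H] [Algebra (Rp p) H] (E : IF p)
    (z : H →ₐ[Rp p] E) : H →ₐ[Rp p] Om p :=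
  { ((algebraMap E (Om p)).comp (z : H →+* E)) with
    commutes' := fun r => by
      show ((z (algebraMap (Rp p) H r) : E) : Om p) = _
      rw [z.commutes]
      rfl }

theorem PMH_incl_apply {p : ℕ} [Fact p.Prime] {H : Type} [CommRing H] [Algebra (Rp p) H] (E : IF p)
    (z : H →ₐ[Rp p] E) (h : H) : PMH_incl E z h = ((z h : E) : Om p) := rfl

theorem PMH_real {p : ℕ} (hp : 1 < p) {c : ℝ} (c0 : 0 ≤ c) (hc : c ^ (p - 1) * (p : ℝ) ^ p < 1) :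
    ((p : ℝ) * c) ^ (p - 1) < (p : ℝ)⁻¹ ∧ c = (p : ℝ)⁻¹ * ((p : ℝ) * c) ∧ c < (p : ℝ)⁻¹ ∧
      c ≤ (p : ℝ) * c := by
  have hpp : (1 : ℝ) < p := by exact_mod_cast hp
  have hp0 : (0 : ℝ) < p := by linarith
  have hpe : (p : ℝ) ^ p = (p : ℝ) ^ (p - 1) * p := by
    rw [← pow_succ, Nat.sub_add_cancel hp.le]
  have h1 : ((p : ℝ) * c) ^ (p - 1) < (p : ℝ)⁻¹ := by
    have h2 : ((p : ℝ) * c) ^ (p - 1) * p < 1 := by
      rw [mul_pow]
      calc (p : ℝ) ^ (p - 1) * c ^ (p - 1) * p = c ^ (p - 1) * (p : ℝ) ^ p := by rw [hpe]; ring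
        _ < 1 := hc
    calc ((p : ℝ) * c) ^ (p - 1) = ((p : ℝ) * c) ^ (p - 1) * p * (p : ℝ)⁻¹ := by
          field_simp
      _ < 1 * (p : ℝ)⁻¹ := by
          apply mul_lt_mul_of_pos_right h2 (by positivity)
      _ = (p : ℝ)⁻¹ := one_mul _
  have h3 : c = (p : ℝ)⁻¹ * ((p : ℝ) * c) := by field_simp
  have hinv : (p : ℝ)⁻¹ < 1 := inv_lt_one_of_one_lt₀ hpp
  have h4 : (p : ℝ) * c < 1 := by
    by_contra hcon
    have := one_le_pow₀ (not_lt.mp hcon) (n := p - 1)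
    linarith
  refine ⟨h1, h3, ?_, ?_⟩
  · calc c = (p : ℝ)⁻¹ * ((p : ℝ) * c) := h3
      _ < (p : ℝ)⁻¹ * 1 := by apply mul_lt_mul_of_pos_left h4 (by positivity)
      _ = (p : ℝ)⁻¹ := mul_one _
  · nlinarith

theorem pmh (hL : Stmt_Lift) (hS : Stmt_SepPt) (hA : Stmt_Apx) (hF : Stmt_PtField) : Stmt_PMH := by
  intro p _ _ H _ _ _ _ _ hpow E c u hE hc hu
  obtain ⟨hMfin, -, hfin, hint⟩ := hF p H inferInstance
  have c0 : 0 ≤ c := (norm_nonneg _).trans hu.one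
  obtain ⟨hρ, hcρ, hcp, hcle⟩ := PMH_real (Fact.out : p.Prime).one_lt c0 hc
  have hpp : (1 : ℝ) < p := by exact_mod_cast (Fact.out : p.Prime).one_lt
  have hinv : (p : ℝ)⁻¹ < 1 := inv_lt_one_of_one_lt₀ hpp
  have ρ0 : 0 ≤ (p : ℝ) * c := by positivity
  obtain ⟨hA1, hA2, hA3, hA4⟩ := hA p (ptField p H) E c u hMfin hcp hu
  have X : PMH_Ctx (ptField p H) E c u := ⟨hu, c0, by linarith, hA1, hA2⟩
  have hM : ∀ (f : H →ₐ[Rp p] Om p) (h : H), f h ∈ ptField p H ∧ ‖f h‖ ≤ 1 := fun f h =>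
    ⟨IntermediateField.subset_adjoin _ _ ⟨f, h, rfl⟩, hint f h⟩
  have hcomp : CompleteSpace E := FiniteDimensional.complete ℚ_[p] E
  let b := Module.finBasis (Rp p) H
  have key : ∀ f : H →ₐ[Rp p] Om p, ∃ z : H →ₐ[Rp p] E,
      ∀ h, ‖z h - PMH_z0 X hM b f h‖ ≤ (p : ℝ) * c := by
    intro f
    have tr := PMH_z0_tr X hM b f
    have hn1 : ∀ h, ‖((PMH_z0 X hM b f h : E) : Om p)‖ ≤ 1 := fun h =>
      PMH_norm_le X.c1 (tr h) (hu.mem _ (hM _ _).1 (hM _ _).2).2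
    refine hL p E H (PMH_good_E E) hcomp (PMH_z0 X hM b f) _ ρ0 hρ hn1 ?_ ?_ ?_
    · intro a a'
      rw [← hcρ]
      show ‖((PMH_z0 X hM b f (a * a') - PMH_z0 X hM b f a * PMH_z0 X hM b f a' : E) : Om p)‖ ≤ c
      push_cast
      refine PMH_tri (tr _) ?_
      rw [map_mul]
      refine PMH_tri (hu.mul _ (hM _ _).1 _ (hM _ _).1 (hM _ _).2 (hM _ _).2) ?_
      exact PMH_symm (PMH_mul c0 (tr _) (tr _) (hu.mem _ (hM _ _).1 (hM _ _).2).2 (hn1 _))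
    · rw [← hcρ]
      show ‖((PMH_z0 X hM b f 1 - 1 : E) : Om p)‖ ≤ c
      push_cast
      refine PMH_tri (tr _) ?_
      rw [map_one]
      exact hu.one
    · intro h
      rw [← hcρ]
      have t2 := PMH_Tr_pow X hM (Z := toConv (PMH_z0 X hM b f)) (g := toConv f) tr p h
      rw [hpow] at t2
      exact PMH_tri t2 (hA1 _)
  choose z hz using key
  have hz' : ∀ f h, ‖PMH_incl E (z f) h - u (f h)‖ ≤ (p : ℝ) * c := by
    intro f h
    refine PMH_tri (y := ((PMH_z0 X hM b f h : E) : Om p)) (hz f h) ?_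
    exact (PMH_z0_tr X hM b f h).trans hcle
  have hinj : Function.Injective (fun f => PMH_incl E (z f)) := by
    intro f f' hff
    by_contra hne
    obtain ⟨h, hh⟩ := hS p (Om p) H PMH_good_Om hpow f f' hne
    have hx1 : ‖f h - f' h‖ ≤ 1 := by
      rw [sub_eq_add_neg]
      refine (IsUltrametricDist.norm_add_le_max _ _).trans (max_le (hM _ _).2 ?_)
      rw [norm_neg]
      exact (hM _ _).2
    have hxM : f h - f' h ∈ ptField p H := (ptField p H).sub_mem (hM _ _).1 (hM _ _).1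
    have hxρ : (p : ℝ) * c < ‖f h - f' h‖ := by
      by_contra hcon
      have := pow_le_pow_left₀ (norm_nonneg _) (not_lt.mp hcon) (p - 1)
      linarith
    have h5 := hA4 _ hxM hx1 (lt_of_le_of_lt hcle hxρ)
    have h6 := (hA3 _ (hM f h).1 _ (hM f' h).1 (hM _ _).2 (hM _ _).2).trans hcle
    have h7 : ‖u (f h) - u (f' h)‖ ≤ (p : ℝ) * c := by
      refine PMH_tri (PMH_symm (hz' f h)) ?_
      have : PMH_incl E (z f) h = PMH_incl E (z f') h := congrArg (fun g => g h) hff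
      rw [this]
      exact hz' f' h
    have h8 : ‖u (f h - f' h)‖ ≤ (p : ℝ) * c := by
      have := PMH_tri h6 (z := 0) (by rwa [sub_zero])
      rwa [sub_zero] at this
    linarith
  have hsurj := Finite.injective_iff_surjective.mp hinj
  rw [ptField, IntermediateField.adjoin_le_iff]
  rintro x ⟨f, h, rfl⟩
  obtain ⟨f', rfl⟩ := hsurj f
  exact (z f' h).2

end Main

end Fermat.Agent.TW56.Flat

end
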