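/-
TEAM TW56 -> S56, block FLAT.  FL-PROD2 : the product of two flat modules.
-/
import Fermat.Agent.TW56.Flat.Interface

set_option autoImplicit false

noncomputable section

namespace Fermat.Agent.TW56.Flat

open TensorProduct WithConv

section Abs

variable {R : Type} [CommRing R] (H₁ H₂ : Type) [CommRing H₁] [HopfAlgebra R H₁] [CommRing H₂]
  [HopfAlgebra R H₂]

/-- `a ↦ a ⊗ 1` as a bialgebra homomorphism. -/
def Prod2_inclL : H₁ →ₐc[R] H₁ ⊗[R] H₂ :=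
  (Bialgebra.TensorProduct.map (BialgHom.id R H₁) (Bialgebra.unitBialgHom R H₂)).comp
    ((Bialgebra.TensorProduct.rid R R H₁).symm : H₁ →ₐc[R] H₁ ⊗[R] R)

/-- `b ↦ 1 ⊗ b` as a bialgebra homomorphism. -/
def Prod2_inclR : H₂ →ₐc[R] H₁ ⊗[R] H₂ :=
  (Bialgebra.TensorProduct.map (Bialgebra.unitBialgHom R H₁) (BialgHom.id R H₂)).comp
    ((Bialgebra.TensorProduct.lid R H₂).symm : H₂ →ₐc[R] R ⊗[R] H₂)

theorem Prod2_inclL_eq :
    ((Prod2_inclL H₁ H₂ : H₁ →ₐc[R] H₁ ⊗[R] H₂) : H₁ →ₐ[R] H₁ ⊗[R] H₂) =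
      Algebra.TensorProduct.includeLeft := by
  ext a
  simp [Prod2_inclL]

theorem Prod2_inclR_eq :
    ((Prod2_inclR H₁ H₂ : H₂ →ₐc[R] H₁ ⊗[R] H₂) : H₂ →ₐ[R] H₁ ⊗[R] H₂) =
      Algebra.TensorProduct.includeRight := by
  ext a
  simp [Prod2_inclR]

variable {H₁ H₂} {Ω : Type} [CommRing Ω] [Algebra R Ω]

theorem Prod2_mulL (f g : WithConv (H₁ ⊗[R] H₂ →ₐ[R] Ω)) :
    toConv ((f * g).ofConv.comp Algebra.TensorProduct.includeLeft) =
      toConv (f.ofConv.comp Algebra.TensorProduct.includeLeft) *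
        toConv (g.ofConv.comp Algebra.TensorProduct.includeLeft) := by
  apply WithConv.ofConv_injective
  rw [← Prod2_inclL_eq]
  exact AlgHom.convMul_comp_bialgHom_distrib f g (Prod2_inclL H₁ H₂)

theorem Prod2_mulR (f g : WithConv (H₁ ⊗[R] H₂ →ₐ[R] Ω)) :
    toConv ((f * g).ofConv.comp Algebra.TensorProduct.includeRight) =
      toConv (f.ofConv.comp Algebra.TensorProduct.includeRight) *
        toConv (g.ofConv.comp Algebra.TensorProduct.includeRight) := by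
  apply WithConv.ofConv_injective
  rw [← Prod2_inclR_eq]
  exact AlgHom.convMul_comp_bialgHom_distrib f g (Prod2_inclR H₁ H₂)

/-- points of the tensor product = pairs of points. -/
def Prod2_equiv : WithConv (H₁ ⊗[R] H₂ →ₐ[R] Ω) ≃
    WithConv (H₁ →ₐ[R] Ω) × WithConv (H₂ →ₐ[R] Ω) where
  toFun f := (toConv (f.ofConv.comp Algebra.TensorProduct.includeLeft),
    toConv (f.ofConv.comp Algebra.TensorProduct.includeRight))
  invFun w := toConv (Algebra.TensorProduct.lift w.1.ofConv w.2.ofConv fun _ _ => Commute.all _ _)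
  left_inv f := by
    apply WithConv.ofConv_injective
    apply Algebra.TensorProduct.ext'
    intro a b
    show f.ofConv (a ⊗ₜ 1) * f.ofConv (1 ⊗ₜ b) = f.ofConv (a ⊗ₜ b)
    rw [← map_mul, Algebra.TensorProduct.tmul_mul_tmul, mul_one, one_mul]
  right_inv w := by
    refine Prod.ext ?_ ?_
    · apply WithConv.ofConv_injective
      exact Algebra.TensorProduct.lift_comp_includeLeft _ _ fun _ _ => Commute.all _ _
    · apply WithConv.ofConv_injective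
      exact Algebra.TensorProduct.lift_comp_includeRight _ _ fun _ _ => Commute.all _ _

theorem Prod2_abs {Γ : Type} (sig : Γ → Ω → Ω) {W₁ W₂ : Type} [AddCommGroup W₁] [AddCommGroup W₂]
    (act₁ : Γ → W₁ → W₁) (act₂ : Γ → W₂ → W₂)
    (e₁ : WithConv (H₁ →ₐ[R] Ω) ≃ W₁) (e₂ : WithConv (H₂ →ₐ[R] Ω) ≃ W₂)
    (m₁ : ∀ f g : WithConv (H₁ →ₐ[R] Ω), e₁ (f * g) = e₁ f + e₁ g)
    (m₂ : ∀ f g : WithConv (H₂ →ₐ[R] Ω), e₂ (f * g) = e₂ f + e₂ g)
    (q₁ : ∀ (σ : Γ) (f g : WithConv (H₁ →ₐ[R] Ω)), (∀ h : H₁, g h = sig σ (f h)) →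
      e₁ g = act₁ σ (e₁ f))
    (q₂ : ∀ (σ : Γ) (f g : WithConv (H₂ →ₐ[R] Ω)), (∀ h : H₂, g h = sig σ (f h)) →
      e₂ g = act₂ σ (e₂ f)) :
    ∃ e : WithConv (H₁ ⊗[R] H₂ →ₐ[R] Ω) ≃ W₁ × W₂,
      (∀ f g : WithConv (H₁ ⊗[R] H₂ →ₐ[R] Ω), e (f * g) = e f + e g) ∧
      ∀ (σ : Γ) (f g : WithConv (H₁ ⊗[R] H₂ →ₐ[R] Ω)), (∀ h : H₁ ⊗[R] H₂, g h = sig σ (f h)) →
        e g = (act₁ σ (e f).1, act₂ σ (e f).2) := by
  refine ⟨Prod2_equiv.trans (Equiv.prodCongr e₁ e₂), ?_, ?_⟩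
  · intro f g
    refine Prod.ext ?_ ?_
    · show e₁ (toConv ((f * g).ofConv.comp Algebra.TensorProduct.includeLeft)) = _
      rw [Prod2_mulL, m₁]
      rfl
    · show e₂ (toConv ((f * g).ofConv.comp Algebra.TensorProduct.includeRight)) = _
      rw [Prod2_mulR, m₂]
      rfl
  · intro σ f g h
    refine Prod.ext ?_ ?_
    · exact q₁ σ _ _ fun a => h (a ⊗ₜ 1)
    · exact q₂ σ _ _ fun b => h (1 ⊗ₜ b)

end Abs

/-- **FL-PROD2** -/
theorem prod2 : Stmt_Prod2 := by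
  intro p _ W₁ W₂ _ _ act₁ act₂ h₁ h₂
  obtain ⟨H₁, _, _, f₁, l₁, c₁, e₁, m₁, q₁⟩ := h₁
  obtain ⟨H₂, _, _, f₂, l₂, c₂, e₂, m₂, q₂⟩ := h₂
  exact ⟨H₁ ⊗[Rp p] H₂, inferInstance, inferInstance, inferInstance, inferInstance, inferInstance,
    Prod2_abs (fun (σ : Gp p) x => σ x) act₁ act₂ e₁ e₂ m₁ m₂ q₁ q₂⟩

end Fermat.Agent.TW56.Flat

end
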