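/-
TEAM TW56 -> S56, block FLAT, package FL-PROD (helper2): finite products of flat modules.
-/
import Fermat.Agent.TW56.Flat.Interface

set_option autoImplicit false

noncomputable section

namespace Fermat.Agent.TW56.Flat

/-- `PUnit ≃+ (Fin 0 → W)` -/
def ProdN_e0 (W : Type) [AddCommGroup W] : PUnit ≃+ (Fin 0 → W) where
  toFun _ := fun i => i.elim0
  invFun _ := PUnit.unit
  left_inv _ := rfl
  right_inv _ := funext fun i => i.elim0
  map_add' _ _ := funext fun i => i.elim0

/-- `W × (Fin n → W) ≃+ (Fin (n+1) → W)` -/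
def ProdN_eS (n : ℕ) (W : Type) [AddCommGroup W] : W × (Fin n → W) ≃+ (Fin (n + 1) → W) where
  toFun x := Fin.cons x.1 x.2
  invFun f := (f 0, fun i => f i.succ)
  left_inv x := by
    ext <;> simp
  right_inv f := by
    funext i
    refine Fin.cases ?_ (fun j => ?_) i <;> simp
  map_add' x y := by
    funext i
    refine Fin.cases ?_ (fun j => ?_) i <;> simp

/-- FL-PROD : finite products. -/
theorem prodN (h0 : Stmt_Unit) (h2 : Stmt_Prod2) (hc : Stmt_Congr) : Stmt_Prod := by
  intro p _ n
  induction n with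
  | zero =>
    intro W _ act _
    refine hc p PUnit (Fin 0 → W) (ProdN_e0 W) (fun _ x => x) _ ?_ (h0 p)
    intro τ w
    funext i
    exact i.elim0
  | succ n ih =>
    intro W _ act hact
    have h1 := ih W (fun i => act i.succ) (fun i => hact i.succ)
    have h3 := h2 p W (Fin n → W) (act 0) _ (hact 0) h1
    refine hc p (W × (Fin n → W)) (Fin (n + 1) → W) (ProdN_eS n W) _ _ ?_ h3
    intro τ w
    funext i
    refine Fin.cases ?_ (fun j => ?_) i <;> simp [ProdN_eS]

end Fermat.Agent.TW56.Flat

end
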