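/-
TEAM TW56 -> S56, block FLAT.  FL-PTFIELD : the field generated by the points of a finite
`ℤ_(p)`-algebra is finite and normal over `ℚ_p`; there are finitely many points, all integral.
-/
import Fermat.Agent.TW56.Flat.Interface2

set_option autoImplicit false

noncomputable section

namespace Fermat.Agent.TW56.Flat

open Polynomial

section

variable (p : ℕ) [Fact p.Prime]

theorem PtField_algebraMap_eq (r : Rp p) :
    algebraMap (Rp p) (Om p) r = algebraMap ℚ_[p] (Om p) ((r : ℚ) : ℚ_[p]) := by
  rw [map_ratCast]; rfl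

/-- elements of `ℤ_(p)` have norm at most one. -/
theorem PtField_norm_algebraMap_le (r : Rp p) : ‖algebraMap (Rp p) (Om p) r‖ ≤ 1 := by
  rw [PtField_algebraMap_eq, PadicAlgCl.norm_extends]
  apply Padic.norm_rat_le_one
  have h : (r : ℚ).den.Coprime p := r.2
  intro hd
  have h1 : p ∣ Nat.gcd (r : ℚ).den p := Nat.dvd_gcd hd dvd_rfl
  rw [h] at h1
  exact (Fact.out : p.Prime).one_lt.ne' (Nat.dvd_one.1 h1)

/-- elements integral over `ℤ_(p)` have norm at most one. -/
theorem PtField_norm_le_of_isIntegral {x : Om p} (hx : IsIntegral (Rp p) x) : ‖x‖ ≤ 1 := by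
  let v : Valuation (Om p) NNReal := NormedField.valuation
  let φ : Rp p →+* v.integer := (algebraMap (Rp p) (Om p)).codRestrict v.integer (fun r => by
    rw [Valuation.mem_integer_iff]
    exact PtField_norm_algebraMap_le p r)
  have h1 : IsIntegral v.integer x := by
    have := IsIntegral.map_of_comp_eq (R := Rp p) (S := Om p) (T := v.integer) (U := Om p) φ
      (RingHom.id (Om p)) (by ext r; rfl) hx
    simpa using this
  have h2 := (Valuation.integer.integers v).mem_of_integral h1
  rw [Valuation.mem_integer_iff] at h2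
  exact h2

variable {p} {H : Type} [CommRing H] [Algebra (Rp p) H]

theorem PtField_isIntegral [Module.Finite (Rp p) H] (f : H →ₐ[Rp p] Om p) (h : H) :
    IsIntegral (Rp p) (f h) :=
  (Algebra.IsIntegral.isIntegral (R := Rp p) h).map f

/-- composition of a point with an automorphism. -/
def PtField_comp (τ : Gp p) (f : H →ₐ[Rp p] Om p) : H →ₐ[Rp p] Om p :=
  ((τ : Om p →ₐ[ℚ_[p]] Om p).restrictScalars (Rp p)).comp f

theorem PtField_comp_apply (τ : Gp p) (f : H →ₐ[Rp p] Om p) (h : H) :
    PtField_comp τ f h = τ (f h) := rfl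

/-- there are finitely many points. -/
theorem PtField_finite [Module.Finite (Rp p) H] : Finite (H →ₐ[Rp p] Om p) := by
  obtain ⟨s, hs⟩ := (Module.Finite.fg_top : (⊤ : Submodule (Rp p) H).FG)
  choose P hPm hP using fun h : H => Algebra.IsIntegral.isIntegral (R := Rp p) h
  have hroot : ∀ (f : H →ₐ[Rp p] Om p) (h : H), f h ∈ (P h).rootSet (Om p) := by
    intro f h
    rw [mem_rootSet']
    refine ⟨((hPm h).map _).ne_zero, ?_⟩
    rw [aeval_algHom_apply, aeval_def, hP h, map_zero]
  let Φ : (H →ₐ[Rp p] Om p) → (∀ h : s, (P h).rootSet (Om p)) := fun f h => ⟨f h, hroot f h⟩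
  have : ∀ h : s, Finite ((P h).rootSet (Om p)) := fun h => (rootSet_finite (P h) (Om p))
  refine Finite.of_injective Φ ?_
  intro f g hfg
  have h1 : f.toLinearMap = g.toLinearMap := by
    apply LinearMap.ext_on (s := (s : Set H)) hs
    intro x hx
    have := congrArg Subtype.val (congrFun hfg ⟨x, hx⟩)
    exact this
  ext x
  exact congrArg (fun l : H →ₗ[Rp p] Om p => l x) h1

/-- the field generated by the points is generated by a finite set. -/
theorem PtField_eq_adjoin (s : Finset H) (hs : Submodule.span (Rp p) (s : Set H) = ⊤) :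
    ptField p H = IntermediateField.adjoin ℚ_[p]
      {x | ∃ (f : H →ₐ[Rp p] Om p) (h : H), h ∈ s ∧ f h = x} := by
  apply le_antisymm
  · unfold ptField
    rw [IntermediateField.adjoin_le_iff]
    rintro _ ⟨f, h, rfl⟩
    have hh : h ∈ Submodule.span (Rp p) (s : Set H) := by rw [hs]; trivial
    induction hh using Submodule.span_induction with
    | mem x hx => exact IntermediateField.subset_adjoin _ _ ⟨f, x, hx, rfl⟩
    | zero => rw [map_zero]; exact zero_mem _
    | add x y _ _ hx hy => rw [map_add]; exact add_mem hx hy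
    | smul r x _ hx =>
      rw [map_smul, Algebra.smul_def, PtField_algebraMap_eq]
      exact mul_mem (IntermediateField.algebraMap_mem _ _) hx
  · apply IntermediateField.adjoin.mono
    rintro _ ⟨f, h, -, rfl⟩
    exact ⟨f, h, rfl⟩

end

/-- **FL-PTFIELD** -/
theorem ptFieldThm : Stmt_PtField := by
  intro p _ H _ _ hfin
  have hF : Finite (H →ₐ[Rp p] Om p) := PtField_finite
  refine ⟨?_, ?_, hF, fun f h => PtField_norm_le_of_isIntegral p (PtField_isIntegral f h)⟩
  · obtain ⟨s, hs⟩ := (Module.Finite.fg_top : (⊤ : Submodule (Rp p) H).FG)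
    rw [PtField_eq_adjoin s hs]
    have hfinS : Finite ↑{x : Om p | ∃ (f : H →ₐ[Rp p] Om p) (h : H), h ∈ s ∧ f h = x} := by
      have : {x : Om p | ∃ (f : H →ₐ[Rp p] Om p) (h : H), h ∈ s ∧ f h = x}
          = Set.range (fun q : (H →ₐ[Rp p] Om p) × s => q.1 q.2) := by
        ext x
        constructor
        · rintro ⟨f, h, hh, rfl⟩
          exact ⟨(f, ⟨h, hh⟩), rfl⟩
        · rintro ⟨⟨f, ⟨h, hh⟩⟩, rfl⟩
          exact ⟨f, h, hh, rfl⟩
      rw [this]
      exact Set.finite_range _
    apply IntermediateField.finiteDimensional_adjoin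
    intro x _
    exact Algebra.IsIntegral.isIntegral x
  · rw [IntermediateField.normal_iff_forall_map_le']
    intro τ
    unfold ptField
    rw [IntermediateField.adjoin_map]
    apply IntermediateField.adjoin.mono
    rintro _ ⟨_, ⟨f, h, rfl⟩, rfl⟩
    exact ⟨PtField_comp τ f, h, rfl⟩

end Fermat.Agent.TW56.Flat

end
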