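/-
TEAM TW56 -> S56, block FLAT, sub-block RAM, package RAM-FIN (helper65).

`theorem ram : ... → Stmt_RAM` : assembly of `HasPm M ⟹ KB M`.
-/
import Fermat.Agent.TW56.Flat.RamInterface
import Fermat.Agent.CFT.Local.PadicLoc

set_option autoImplicit false

noncomputable section

namespace Fermat.Agent.TW56.Flat

open Fermat.Agent.CFT.Local Polynomial

/-- **RAM-FIN** -/
theorem ram (hA : Stmt_AbsInert) (hI : Stmt_RamInst) (hT : Stmt_RamTwin) (hK : Stmt_RamKum)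
    (hP : Stmt_RamImp) : Stmt_RAM := by
  intro p _ hp2 M hfd hnor hPm K hKM hζ a haK ha0 hα
  obtain ⟨ζ, hζK, hζ1, hζp⟩ := hζ
  obtain ⟨α, hαM, hαp⟩ := hα
  have := hfd
  have := hnor
  obtain ⟨hact, -, htot⟩ := hI p M
  obtain ⟨I, -, hImem, -, -⟩ := hA (GM p M) M hact
  have hIiff : ∀ g, g ∈ I ↔ IsInert p M g := fun g => hImem g
  have hTR := htot I hIiff
  have hfdK : FiniteDimensional ℚ_[p] K :=
    FiniteDimensional.of_injective (IntermediateField.inclusion hKM).toLinearMap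
      (IntermediateField.inclusion hKM).injective
  have hlocK : IsLoc K := padicLoc p K hfdK
  obtain ⟨πK, hπK⟩ := hlocK.unif
  have hnp : ‖((p : ℕ) : K)‖ = (p : ℝ)⁻¹ := hTR.normp
  have ha0' : (⟨a, haK⟩ : K) ≠ 0 := fun h => ha0 (congrArg Subtype.val h)
  obtain ⟨b, hb0, halt⟩ := hP p hp2 K hlocK hnp πK hπK ⟨a, haK⟩ ha0'
  refine ⟨b, b.2, fun h => hb0 (Subtype.ext h), ?_⟩
  rcases halt with h1 | h23
  · exact h1
  -- the Galois correspondence
  have hgal : IsGalois ℚ_[p] M := ⟨⟩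
  let K' : IntermediateField ℚ_[p] M := IntermediateField.restrict hKM
  have hK' : ∀ x : M, x ∈ K' ↔ (x : Om p) ∈ K := fun x => IntermediateField.mem_restrict hKM x
  let GK : Subgroup (GM p M) := K'.fixingSubgroup
  have hGK : ∀ g : GM p M, g ∈ GK ↔ ∀ x : M, (x : Om p) ∈ K → g x = x := by
    intro g
    rw [IntermediateField.mem_fixingSubgroup_iff]
    exact ⟨fun h x hx => h x ((hK' x).2 hx), fun h x hx => h x ((hK' x).1 hx)⟩
  have hfix : ∀ x : M, (∀ g ∈ GK, g x = x) → (x : Om p) ∈ K := by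
    intro x hx
    rw [← hK', ← IsGalois.fixedField_fixingSubgroup K', IntermediateField.mem_fixedField_iff]
    exact hx
  -- the uniformizer of `K` in `M`
  let π : M := ⟨πK, hKM πK.2⟩
  have hπ1 : IsUnifFix GK π := by
    refine ⟨fun h => hπK.1 (Subtype.ext (congrArg (Subtype.val : M → Om p) h)), hπK.2.1, ?_, ?_⟩
    · intro g hg
      exact (hGK g).1 hg π πK.2
    · intro x hx hxfix
      exact hπK.2.2 ⟨x, hfix x hxfix⟩
        (fun h => hx (Subtype.ext (congrArg (Subtype.val : K → Om p) h)))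
  have hπ2 : IsUnifFix (⊤ : Subgroup GK) π :=
    ⟨hπ1.1, hπ1.2.1, fun h _ => hπ1.2.2.1 h.1 h.2,
      fun x hx hxfix => hπ1.2.2.2 x hx (fun h hh => hxfix ⟨h, hh⟩ (Subgroup.mem_top _))⟩
  obtain ⟨I', -, hI'mem, hI'unif, -⟩ := hA GK M (hact.subgroup GK)
  have hπ3 := hI'unif π hπ2
  let H₁ : Subgroup I := GK.subgroupOf I
  have hH₁ : ∀ s : I, s ∈ H₁ ↔ (s : GM p M) ∈ GK := fun s => Subgroup.mem_subgroupOf
  have hπ4 : IsUnifFix H₁ π := by
    refine ⟨hπ1.1, hπ1.2.1, fun h hh => hπ1.2.2.1 h.1 ((hH₁ h).1 hh), ?_⟩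
    intro x hx hxfix
    refine hπ3.2.2.2 x hx ?_
    intro h hh
    have h1 : (h : GM p M) ∈ I := (hImem _).2 ((hI'mem h).1 hh)
    exact hxfix ⟨h.1, h1⟩ ((hH₁ _).2 h.2)
  obtain ⟨Pi, hPi⟩ := hact.loc.unif
  have hDB := hT p hp2 M hfd hnor hPm I hIiff Pi hPi
  have hfixK : ∀ x : M, (x : Om p) ∈ K → ∀ h ∈ H₁, h • x = x := by
    intro x hx h hh
    exact (hGK h.1).1 ((hH₁ h).1 hh) x hx
  let ζ' : M := ⟨ζ, hKM hζK⟩
  let a' : M := ⟨a * (b : Om p) ^ p, hKM (K.mul_mem haK (pow_mem b.2 p))⟩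
  let α' : M := ⟨α * (b : Om p), M.mul_mem hαM (hKM b.2)⟩
  obtain ⟨hk1, hk2⟩ := hK p hp2 I M hTR Pi hPi hDB H₁ π ζ' a' α' hπ4
    (hfixK ζ' hζK) (fun h => hζ1 (congrArg Subtype.val h)) (Subtype.ext hζp)
    (hfixK a' (K.mul_mem haK (pow_mem b.2 p)))
    (Subtype.ext (by
      show (α * (b : Om p)) ^ p = a * (b : Om p) ^ p
      rw [mul_pow, hαp]))
  rcases h23 with ⟨n, hn, h2⟩ | ⟨j, hj, h3⟩
  · exact absurd h2 (hk1 n hn)
  · exact hk2 j hj h3

end Fermat.Agent.TW56.Flat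

end
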