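/-
TEAM TW56 -> S56, block FLAT, RAM-CARD : `e(L/L^H) = #H` in a totally ramified extension.
-/
import Fermat.Agent.TW56.Flat.RamInterface
import Fermat.Agent.CFT.Local.All

set_option autoImplicit false

noncomputable section

namespace Fermat.Agent.TW56.Flat

open Fermat.Agent.CFT.Local Polynomial

theorem RamCard_equivalence {L : Type} [NormedField L] (h : IsUltrametricDist L) :
    Equivalence (fun x y : {x : L // ‖x‖ ≤ 1} => ‖(x : L) - (y : L)‖ < 1) := by
  refine ⟨fun x => by simp, fun {x y} hxy => by rwa [norm_sub_rev], fun {x y z} hxy hyz => ?_⟩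
  have e : (x : L) - z = (x - y) + (y - z) := by ring
  rw [e]
  exact lt_of_le_of_lt (IsUltrametricDist.norm_add_le_max _ _) (max_lt hxy hyz)

/-- the residue field of a subfield over which every residue class has a representative. -/
theorem RamCard_resCard {L : Type} [NormedField L] (h : IsUltrametricDist L) (K : Subfield L)
    (hK : ∀ x : L, ‖x‖ ≤ 1 → ∃ r ∈ K, ‖x - r‖ < 1) : resCard K = resCard L := by
  let f : Quot (fun x y : {x : K // ‖x‖ ≤ 1} => ‖(x : K) - (y : K)‖ < 1) →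
      Quot (fun x y : {x : L // ‖x‖ ≤ 1} => ‖(x : L) - (y : L)‖ < 1) :=
    Quot.map (fun x => ⟨(x.1 : L), x.2⟩) (fun _ _ hxy => hxy)
  have hf : Function.Bijective f := by
    constructor
    · intro a b hab
      induction a using Quot.ind with
      | mk a =>
      induction b using Quot.ind with
      | mk b =>
      have h1 := (RamCard_equivalence h).eqvGen_iff.1 (Quot.eqvGen_exact hab)
      exact Quot.sound h1
    · intro y
      induction y using Quot.ind with
      | mk y =>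
      obtain ⟨r, hr, hyr⟩ := hK y.1 y.2
      have hr1 : ‖r‖ ≤ 1 := by
        have e : r = y.1 + (r - y.1) := by ring
        rw [e]
        refine (IsUltrametricDist.norm_add_le_max _ _).trans (max_le y.2 ?_)
        rw [norm_sub_rev]
        exact hyr.le
      refine ⟨Quot.mk _ ⟨⟨r, hr⟩, hr1⟩, Quot.sound ?_⟩
      show ‖r - y.1‖ < 1
      rwa [norm_sub_rev]
  exact Nat.card_congr (Equiv.ofBijective f hf)

theorem RamCard_exists_nat {L : Type} [NormedField L] {ϖ Pi : L} (h0 : ϖ ≠ 0) (h1 : ‖ϖ‖ < 1)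
    (hPi : IsUnif Pi) : ∃ e : ℕ, ‖ϖ‖ = ‖Pi‖ ^ e := by
  obtain ⟨k, hk⟩ := hPi.2.2 ϖ h0
  have hpos : 0 < ‖Pi‖ := norm_pos_iff.2 hPi.1
  have hk0 : 0 ≤ k := by
    by_contra hneg
    push Not at hneg
    have : 1 ≤ ‖Pi‖ ^ k := by
      have e : ‖Pi‖ ^ k = (‖Pi‖ ^ (-k))⁻¹ := by rw [zpow_neg, inv_inv]
      rw [e]
      exact (one_le_inv₀ (zpow_pos hpos _)).2 (zpow_le_one₀ hpos hPi.2.1.le (by omega))
    rw [← hk] at this
    exact absurd h1 (not_lt.2 this)
  obtain ⟨e, rfl⟩ := Int.eq_ofNat_of_zero_le hk0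
  exact ⟨e, by rw [hk, zpow_natCast]⟩

theorem ramCard : Stmt_RamCard := by
  intro p _ I L _ _ _ _ hT H ϖ Pi hϖ hPi
  have hact : LocAct H L := hT.act.subgroup H
  obtain ⟨h0, h1, h2, h3⟩ := hϖ
  obtain ⟨e, he⟩ := RamCard_exists_nat h0 h1 hPi
  have hunif : IsUnifFix (⊤ : Subgroup H) ϖ :=
    ⟨h0, h1, fun h _ => h2 h.1 h.2, fun x hx hfix =>
      h3 x hx fun h hh => hfix ⟨h, hh⟩ (Subgroup.mem_top _)⟩
  have hcard := all_card H L hact ϖ Pi e hunif hPi he
  have hres : resCard (FixedPoints.subfield H L) = resCard L :=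
    RamCard_resCard hT.act.loc.ultra (FixedPoints.subfield H L) fun x hx => by
      obtain ⟨r, hr, hxr⟩ := hT.res x hx
      exact ⟨r, fun h => hr h.1, hxr⟩
  rw [hres] at hcard
  have h2le : 2 ≤ resCard L := (reps L hT.act.loc).2.2.2.2
  rw [he, Nat.pow_right_injective h2le hcard]

end Fermat.Agent.TW56.Flat

end
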