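/-
TEAM TW56 -> S56, block FLAT, sub-block RAM, tasks RAM-EXP + RAM-DIFF (helper54):
`O_{L^H} = O_{L^I}[ϖ]` and `‖s x - x‖ ≤ ‖s ϖ - ϖ‖` on `O_{L^H}`.
-/
import Fermat.Agent.TW56.Flat.RamInterface

set_option autoImplicit false

noncomputable section

namespace Fermat.Agent.TW56.Flat

open Fermat.Agent.CFT.Local Polynomial Filter Topology

section

variable {p : ℕ} {I L : Type} [Group I] [NormedField L] [MulSemiringAction I L]

/-- `O_{L^H}` -/
def RamExp_PH (H : Subgroup I) (x : L) : Prop := (∀ h ∈ H, h • x = x) ∧ ‖x‖ ≤ 1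

/-- `O_{L^I}` -/
def RamExp_PI (I : Type) {L : Type} [Group I] [NormedField L] [MulSemiringAction I L] (x : L) :
    Prop := (∀ s : I, s • x = x) ∧ ‖x‖ ≤ 1

lemma RamExp_smul_natCast (s : I) (n : ℕ) : s • (n : L) = n :=
  map_natCast (MulSemiringAction.toRingHom I L s) n

lemma RamExp_smul_div (s : I) (x y : L) : s • (x / y) = s • x / s • y :=
  map_div₀ (MulSemiringAction.toRingHom I L s) x y

lemma RamExp_norm_le_unif {H : Subgroup I} {ϖ : L} (hϖ : IsUnifFix H ϖ) {y : L}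
    (hy : ∀ h ∈ H, h • y = y) (hy1 : ‖y‖ < 1) : ∃ n : ℕ, 1 ≤ n ∧ (y ≠ 0 → ‖y‖ = ‖ϖ‖ ^ n) := by
  obtain ⟨h0, h1, -, h3⟩ := hϖ
  by_cases hy0 : y = 0
  · exact ⟨1, le_rfl, fun h => absurd hy0 h⟩
  obtain ⟨k, hk⟩ := h3 y hy0 hy
  have hpos : 0 < ‖ϖ‖ := norm_pos_iff.2 h0
  rcases le_or_gt k 0 with hk0 | hk0
  · exfalso
    have := zpow_le_zpow_right_of_le_one₀ hpos h1.le hk0
    rw [zpow_zero, ← hk] at this
    exact absurd hy1 (not_lt.2 this)
  · refine ⟨k.toNat, by omega, fun _ => ?_⟩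
    rw [hk, ← zpow_natCast, Int.toNat_of_nonneg hk0.le]

lemma RamExp_norm_le {H : Subgroup I} {ϖ : L} (hϖ : IsUnifFix H ϖ) {y : L}
    (hy : ∀ h ∈ H, h • y = y) (hy1 : ‖y‖ < 1) : ‖y‖ ≤ ‖ϖ‖ := by
  obtain ⟨n, hn, h⟩ := RamExp_norm_le_unif hϖ hy hy1
  by_cases hy0 : y = 0
  · rw [hy0, norm_zero]
    exact norm_nonneg _
  · rw [h hy0]
    calc ‖ϖ‖ ^ n ≤ ‖ϖ‖ ^ 1 := pow_le_pow_of_le_one (norm_nonneg _) hϖ.2.1.le hn
      _ = ‖ϖ‖ := pow_one _

variable [Finite I]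

lemma RamExp_normp_lt [Fact p.Prime] (hT : TotRam p I L) : ‖(p : L)‖ < 1 := by
  rw [hT.normp]
  exact inv_lt_one_of_one_lt₀ (Nat.one_lt_cast.2 (Fact.out : p.Prime).one_lt)

lemma RamExp_p_ne [Fact p.Prime] (hT : TotRam p I L) : (p : L) ≠ 0 := by
  intro h
  have h1 := hT.normp
  rw [h, norm_zero] at h1
  have h2 : (p : ℝ) ≠ 0 := Nat.cast_ne_zero.2 (Fact.out : p.Prime).ne_zero
  exact (inv_ne_zero h2) h1.symm

lemma RamExp_exists_e [Fact p.Prime] (hT : TotRam p I L) {H : Subgroup I} {ϖ : L}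
    (hϖ : IsUnifFix H ϖ) : ∃ e : ℕ, ‖(p : L)‖ = ‖ϖ‖ ^ e := by
  obtain ⟨n, -, h⟩ := RamExp_norm_le_unif hϖ (y := (p : L))
    (fun h _ => RamExp_smul_natCast h p) (RamExp_normp_lt hT)
  exact ⟨n, h (RamExp_p_ne hT)⟩

/-- one digit -/
lemma RamExp_step1 (hT : TotRam p I L) {H : Subgroup I} {ϖ : L} (hϖ : IsUnifFix H ϖ) {x : L}
    (hx : RamExp_PH H x) :
    ∃ r x' : L, RamExp_PI I r ∧ RamExp_PH H x' ∧ x = r + ϖ * x' := by
  have hU : IsUltrametricDist L := hT.act.loc.ultra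
  obtain ⟨r, hr, hxr⟩ := hT.res x hx.2
  have hr1 : ‖r‖ ≤ 1 := by
    have e : r = x + -(x - r) := by ring
    rw [e]
    refine (IsUltrametricDist.norm_add_le_max _ _).trans (max_le hx.2 ?_)
    rw [norm_neg]
    exact hxr.le
  have hy : ∀ h ∈ H, h • (x - r) = x - r := by
    intro h hh
    rw [smul_sub, hx.1 h hh, hr h]
  refine ⟨r, (x - r) / ϖ, ⟨hr, hr1⟩, ⟨?_, ?_⟩, ?_⟩
  · intro h hh
    rw [RamExp_smul_div, hy h hh, hϖ.2.2.1 h hh]
  · rw [norm_div]
    exact div_le_one_of_le₀ (RamExp_norm_le hϖ hy hxr) (norm_nonneg _)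
  · rw [mul_div_cancel₀ _ hϖ.1]
    ring

/-- `n` digits -/
lemma RamExp_stepN (hT : TotRam p I L) {H : Subgroup I} {ϖ : L} (hϖ : IsUnifFix H ϖ) (n : ℕ) :
    ∀ x : L, RamExp_PH H x → ∃ (c : ℕ → L) (x' : L), (∀ i, RamExp_PI I (c i)) ∧ RamExp_PH H x' ∧
      x = ∑ i ∈ Finset.range n, c i * ϖ ^ i + ϖ ^ n * x' := by
  induction n with
  | zero =>
    intro x hx
    refine ⟨fun _ => 0, x, fun _ => ⟨fun s => smul_zero s, by simp⟩, hx, by simp⟩
  | succ n ih =>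
    intro x hx
    obtain ⟨r, x₁, hr, hx₁, e₁⟩ := RamExp_step1 hT hϖ hx
    obtain ⟨c, x₂, hc, hx₂, e₂⟩ := ih x₁ hx₁
    refine ⟨fun i => Nat.casesOn i r c, x₂, ?_, hx₂, ?_⟩
    · intro i
      cases i with
      | zero => exact hr
      | succ i => exact hc i
    · rw [Finset.sum_range_succ', e₁, e₂, mul_add, Finset.mul_sum]
      have : ∀ i ∈ Finset.range n, ϖ * (c i * ϖ ^ i) = c i * ϖ ^ (i + 1) := by
        intro i _
        ring
      rw [Finset.sum_congr rfl this]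
      show r + (∑ i ∈ Finset.range n, c i * ϖ ^ (i + 1) + ϖ * (ϖ ^ n * x₂))
        = ∑ i ∈ Finset.range n, c i * ϖ ^ (i + 1) + r * ϖ ^ 0 + ϖ ^ (n + 1) * x₂
      ring

/-- one `p`-adic digit -/
lemma RamExp_stepP [Fact p.Prime] (hT : TotRam p I L) {H : Subgroup I} {ϖ : L}
    (hϖ : IsUnifFix H ϖ) {e : ℕ} (he : ‖(p : L)‖ = ‖ϖ‖ ^ e) :
    ∀ x : L, RamExp_PH H x → ∃ (c : ℕ → L) (x' : L), (∀ i, RamExp_PI I (c i)) ∧ RamExp_PH H x' ∧
      x = ∑ i ∈ Finset.range e, c i * ϖ ^ i + (p : L) * x' := by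
  intro x hx
  obtain ⟨c, x', hc, hx', e'⟩ := RamExp_stepN hT hϖ e x hx
  have hp0 := RamExp_p_ne hT
  refine ⟨c, ϖ ^ e / (p : L) * x', hc, ⟨?_, ?_⟩, ?_⟩
  · intro h hh
    rw [smul_mul', RamExp_smul_div, smul_pow', hϖ.2.2.1 h hh, RamExp_smul_natCast, hx'.1 h hh]
  · rw [norm_mul, norm_div, norm_pow, ← he, div_self (norm_ne_zero_iff.2 hp0), one_mul]
    exact hx'.2
  · rw [e', ← mul_assoc, mul_div_cancel₀ _ hp0]

lemma RamExp_continuous_smul (hT : TotRam p I L) (s : I) :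
    Continuous (DistribSMul.toAddMonoidHom L s) :=
  (AddMonoidHomClass.isometry_of_norm (DistribSMul.toAddMonoidHom L s)
    (fun x => hT.act.isom s x)).continuous

end

/-- RAM-EXP : `O_{L^H} = O_{L^I}[ϖ]` for a uniformizer `ϖ` of `L^H`. -/
theorem ramExp : Stmt_RamExp := by
  intro p _ I L _ _ _ _ hT H ϖ hϖ x hxH hx1
  have hU : IsUltrametricDist L := hT.act.loc.ultra
  have hC : CompleteSpace L := hT.act.loc.complete
  obtain ⟨e, he⟩ := RamExp_exists_e hT hϖ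
  have hp1 := RamExp_normp_lt hT
  choose! c nx hc hnx heq using RamExp_stepP hT hϖ he
  -- the sequence of remainders
  set Y : ℕ → L := fun k => nx^[k] x with hY
  have hY0 : Y 0 = x := rfl
  have hYs : ∀ k, Y (k + 1) = nx (Y k) := fun k => Function.iterate_succ_apply' nx k x
  have hYP : ∀ k, RamExp_PH H (Y k) := by
    intro k
    induction k with
    | zero => exact ⟨hxH, hx1⟩
    | succ k ih => rw [hYs]; exact hnx _ ih
  have hYe : ∀ k, Y k = ∑ i ∈ Finset.range e, c (Y k) i * ϖ ^ i + (p : L) * Y (k + 1) := by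
    intro k
    rw [hYs]
    exact heq _ (hYP k)
  have hcP : ∀ k i, RamExp_PI I (c (Y k) i) := fun k i => hc _ (hYP k) i
  -- the coefficients
  have hbd : ∀ i k, ‖(p : L) ^ k * c (Y k) i‖ ≤ ‖(p : L)‖ ^ k := by
    intro i k
    rw [norm_mul, norm_pow]
    exact mul_le_of_le_one_right (pow_nonneg (norm_nonneg _) _) (hcP k i).2
  have hsum : ∀ i, Summable fun k => (p : L) ^ k * c (Y k) i := fun i =>
    Summable.of_norm_bounded (summable_geometric_of_lt_one (norm_nonneg _) hp1) (hbd i)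
  set r : ℕ → L := fun i => ∑' k, (p : L) ^ k * c (Y k) i with hr
  have hrs : ∀ i, HasSum (fun k => (p : L) ^ k * c (Y k) i) (r i) := fun i => (hsum i).hasSum
  have hrP : ∀ i, RamExp_PI I (r i) := by
    intro i
    refine ⟨fun s => ?_, ?_⟩
    · have h1 := (hrs i).map (DistribSMul.toAddMonoidHom L s) (RamExp_continuous_smul hT s)
      have h2 : (DistribSMul.toAddMonoidHom L s) ∘ (fun k => (p : L) ^ k * c (Y k) i)
          = fun k => (p : L) ^ k * c (Y k) i := by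
        funext k
        show s • ((p : L) ^ k * c (Y k) i) = _
        rw [smul_mul', smul_pow', RamExp_smul_natCast, (hcP k i).1 s]
      rw [h2] at h1
      exact h1.unique (hrs i)
    · refine IsUltrametricDist.norm_tsum_le_of_forall_le_of_nonneg zero_le_one fun k => ?_
      exact (hbd i k).trans (pow_le_one₀ (norm_nonneg _) hp1.le)
  -- the value
  have hval : ∑ i ∈ Finset.range e, r i * ϖ ^ i = x := by
    have h1 : HasSum (fun k => ∑ i ∈ Finset.range e, (p : L) ^ k * c (Y k) i * ϖ ^ i)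
        (∑ i ∈ Finset.range e, r i * ϖ ^ i) :=
      hasSum_sum fun i _ => (hrs i).mul_right (ϖ ^ i)
    have h2 := h1.tendsto_sum_nat
    have h3 : ∀ K : ℕ, ∑ k ∈ Finset.range K, ∑ i ∈ Finset.range e, (p : L) ^ k * c (Y k) i * ϖ ^ i
        = x - (p : L) ^ K * Y K := by
      intro K
      induction K with
      | zero => simp [hY0]
      | succ K ih =>
        rw [Finset.sum_range_succ, ih]
        have h4 : ∑ i ∈ Finset.range e, (p : L) ^ K * c (Y K) i * ϖ ^ i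
            = (p : L) ^ K * ∑ i ∈ Finset.range e, c (Y K) i * ϖ ^ i := by
          rw [Finset.mul_sum]
          exact Finset.sum_congr rfl fun i _ => mul_assoc _ _ _
        have h5 : ∑ i ∈ Finset.range e, c (Y K) i * ϖ ^ i = Y K - (p : L) * Y (K + 1) :=
          eq_sub_of_add_eq (hYe K).symm
        rw [h4, h5]
        ring
    have h6 : Tendsto (fun K : ℕ => (p : L) ^ K * Y K) atTop (𝓝 0) := by
      refine squeeze_zero_norm (fun K => ?_) (tendsto_pow_atTop_nhds_zero_of_lt_one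
        (norm_nonneg (p : L)) hp1)
      rw [norm_mul, norm_pow]
      exact mul_le_of_le_one_right (pow_nonneg (norm_nonneg _) _) (hYP K).2
    have h7 : Tendsto (fun K : ℕ => x - (p : L) ^ K * Y K) atTop (𝓝 (x - 0)) :=
      tendsto_const_nhds.sub h6
    rw [sub_zero] at h7
    simp only [h3] at h2
    exact tendsto_nhds_unique h2 h7
  refine ⟨∑ i ∈ Finset.range e, C (r i) * X ^ i, ?_, ?_⟩
  · intro j
    have hj : (∑ i ∈ Finset.range e, C (r i) * X ^ i).coeff j = if j < e then r j else 0 := by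
      rw [Polynomial.finsetSum_coeff]
      simp only [Polynomial.coeff_C_mul_X_pow]
      rw [Finset.sum_ite_eq]
      simp only [Finset.mem_range]
    rw [hj]
    split_ifs
    · exact hrP j
    · exact ⟨fun s => smul_zero s, by simp⟩
  · rw [Polynomial.eval_finsetSum, ← hval]
    refine Finset.sum_congr rfl fun i _ => ?_
    rw [Polynomial.eval_mul, Polynomial.eval_C, Polynomial.eval_pow, Polynomial.eval_X]

lemma RamExp_pow_sub_pow {L : Type} [NormedField L] [IsUltrametricDist L] {y z : L}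
    (hy : ‖y‖ ≤ 1) (hz : ‖z‖ ≤ 1) (i : ℕ) : ‖y ^ i - z ^ i‖ ≤ ‖y - z‖ := by
  induction i with
  | zero => simp
  | succ i ih =>
    have e : y ^ (i + 1) - z ^ (i + 1) = y * (y ^ i - z ^ i) + (y - z) * z ^ i := by ring
    rw [e]
    refine (IsUltrametricDist.norm_add_le_max _ _).trans (max_le ?_ ?_)
    · rw [norm_mul]
      exact (mul_le_of_le_one_left (norm_nonneg _) hy).trans ih
    · rw [norm_mul, norm_pow]
      exact mul_le_of_le_one_right (norm_nonneg _) (pow_le_one₀ (norm_nonneg _) hz)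

/-- RAM-DIFF : `‖s x - x‖ ≤ ‖s ϖ - ϖ‖` on `O_{L^H}`. -/
theorem ramDiff (h : Stmt_RamExp) : Stmt_RamDiff := by
  intro p _ I L _ _ _ _ hT H ϖ hϖ s x hxH hx1
  have hU : IsUltrametricDist L := hT.act.loc.ultra
  obtain ⟨F, hF, rfl⟩ := h p I L hT H ϖ hϖ x hxH hx1
  have hϖ1 : ‖ϖ‖ ≤ 1 := hϖ.2.1.le
  have hsϖ1 : ‖s • ϖ‖ ≤ 1 := by rw [hT.act.isom]; exact hϖ1
  rw [Polynomial.eval_eq_sum_range, Finset.smul_sum, ← Finset.sum_sub_distrib]
  refine IsUltrametricDist.norm_sum_le_of_forall_le_of_nonneg (norm_nonneg _) fun i _ => ?_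
  rw [smul_mul', smul_pow', (hF i).1 s, ← mul_sub, norm_mul]
  exact (mul_le_of_le_one_left (norm_nonneg _) (hF i).2).trans (RamExp_pow_sub_pow hsϖ1 hϖ1 i)

end Fermat.Agent.TW56.Flat

end
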