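/-
TEAM TW56 -> S56, block FLAT, sub-block RAM : RAM-IMP, normal forms of classes in `Kˣ/Kˣᵖ`.
-/
import Fermat.Agent.TW56.Flat.RamInterface
import Fermat.Agent.CFT.Local.Reps

set_option autoImplicit false

noncomputable section

namespace Fermat.Agent.TW56.Flat

open Fermat.Agent.CFT.Local Polynomial

section RamImp

variable {K : Type} [NormedField K]

/-- the conclusion of `Stmt_RamImp`. -/
def RamImp_C (p : ℕ) (π a : K) : Prop :=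
  ∃ b : K, b ≠ 0 ∧
    (‖a * b ^ p - 1‖ ^ ((p - 1) ^ 2) ≤ ‖(p : K)‖ ^ (p * (p - 2)) ∨
      (∃ n : ℕ, ¬ p ∣ n ∧ ‖a * b ^ p‖ = ‖π‖ ^ n) ∨
      (∃ j : ℕ, ¬ p ∣ j ∧ ‖a * b ^ p - 1‖ = ‖π‖ ^ j))

theorem RamImp_C_of_mul {p : ℕ} {π a b₀ : K} (hb₀ : b₀ ≠ 0) (h : RamImp_C p π (a * b₀ ^ p)) :
    RamImp_C p π a := by
  obtain ⟨b, hb, h⟩ := h
  refine ⟨b₀ * b, mul_ne_zero hb₀ hb, ?_⟩
  rw [mul_pow, ← mul_assoc]
  exact h

theorem RamImp_disc {π : K} (hπ : IsUnif π) {x : K} {j : ℕ} (h : ‖x‖ < ‖π‖ ^ j) :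
    ‖x‖ ≤ ‖π‖ ^ (j + 1) := by
  obtain ⟨hπ0, hπ1, hk⟩ := hπ
  by_cases hx : x = 0
  · rw [hx, norm_zero]
    positivity
  obtain ⟨k, hk⟩ := hk x hx
  have hpos : 0 < ‖π‖ := norm_pos_iff.2 hπ0
  rw [hk] at h ⊢
  rw [← zpow_natCast] at h ⊢
  have h1 : (j : ℤ) < k := (zpow_lt_zpow_iff_right_of_lt_one₀ hpos hπ1).1 h
  exact (zpow_le_zpow_iff_right_of_lt_one₀ hpos hπ1).2 (by push_cast; omega)

theorem RamImp_eq {π : K} (hπ : IsUnif π) {x : K} {j : ℕ} (h1 : ‖x‖ ≤ ‖π‖ ^ j)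
    (h2 : ¬ ‖x‖ ≤ ‖π‖ ^ (j + 1)) : ‖x‖ = ‖π‖ ^ j := by
  by_contra hne
  exact h2 (RamImp_disc hπ (lt_of_le_of_ne h1 hne))

theorem RamImp_dvd (p : ℕ) [Fact p.Prime] (hK : IsLoc K) (hp : ‖(p : K)‖ < 1) :
    p ∣ resCard K := by
  have := hK.ultra
  by_contra hnd
  have hcop : Nat.Coprime p (resCard K) := (Nat.Prime.coprime_iff_not_dvd Fact.out).2 hnd
  have hQ : ‖(resCard K : K)‖ < 1 := (reps K hK).2.2.2.1
  have hb := Nat.gcd_eq_gcd_ab p (resCard K)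
  rw [hcop.gcd_eq_one] at hb
  have hb' : (1 : K) = (p : K) * (Nat.gcdA p (resCard K) : K)
      + (resCard K : K) * (Nat.gcdB p (resCard K) : K) := by
    exact_mod_cast congrArg (Int.cast : ℤ → K) hb
  have h1 : ‖(1 : K)‖ < 1 := by
    rw [hb']
    refine lt_of_le_of_lt (IsUltrametricDist.norm_add_le_max _ _) (max_lt ?_ ?_)
    · rw [norm_mul]
      exact mul_lt_one_of_nonneg_of_lt_one_left (norm_nonneg _) hp
        (IsUltrametricDist.norm_intCast_le_one K _)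
    · rw [norm_mul]
      exact mul_lt_one_of_nonneg_of_lt_one_left (norm_nonneg _) hQ
        (IsUltrametricDist.norm_intCast_le_one K _)
  rw [norm_one] at h1
  exact lt_irrefl _ h1

theorem RamImp_root (p : ℕ) [Fact p.Prime] (hK : IsLoc K) (hp : ‖(p : K)‖ < 1) (x : K)
    (hx : ‖x‖ ≤ 1) : ∃ w : K, ‖w‖ ≤ 1 ∧ ‖w ^ p - x‖ < 1 ∧ (x ≠ 0 → w ≠ 0) := by
  obtain ⟨Q', hQ'⟩ := RamImp_dvd p hK hp
  refine ⟨x ^ Q', ?_, ?_, fun h => pow_ne_zero _ h⟩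
  · rw [norm_pow]
    exact pow_le_one₀ (norm_nonneg _) hx
  · rw [← pow_mul, mul_comm, ← hQ']
    exact (reps K hK).2.2.1 x hx

theorem RamImp_binom (p : ℕ) [Fact p.Prime] (hp2 : p ≠ 2) [IsUltrametricDist K] (t : K)
    (ht : ‖t‖ ≤ 1) : ∃ r : K, ‖r‖ ≤ 1 ∧ (1 - t) ^ p = 1 - t ^ p - p * t * r := by
  have hodd : Odd p := (Fact.out : p.Prime).odd_of_ne_two hp2
  obtain ⟨r, hr⟩ := exists_add_pow_prime_eq (Fact.out : p.Prime) (1 : repsO K) (-⟨t, ht⟩)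
  refine ⟨r, r.2, ?_⟩
  have h1 := congrArg (Subtype.val) hr
  simp only [Subring.coe_add, Subring.coe_pow, Subring.coe_one, Subring.coe_neg, Subring.coe_mul,
    Subring.coe_natCast, one_pow, mul_one, hodd.neg_pow] at h1
  rw [sub_eq_add_neg, h1]
  ring

theorem RamImp_sub_lt [IsUltrametricDist K] {x y : K} {c : ℝ} (hx : ‖x‖ < c) (hy : ‖y‖ < c) :
    ‖x - y‖ < c := by
  rw [sub_eq_add_neg]
  exact lt_of_le_of_lt (IsUltrametricDist.norm_add_le_max _ _) (max_lt hx (by rwa [norm_neg]))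

theorem RamImp_A_of_le (p : ℕ) (hp : 2 ≤ p) (hp1 : ‖(p : K)‖ ≤ 1) {x : K} (hx : ‖x‖ ≤ ‖(p : K)‖) :
    ‖x‖ ^ ((p - 1) ^ 2) ≤ ‖(p : K)‖ ^ (p * (p - 2)) := by
  refine (pow_le_pow_left₀ (norm_nonneg _) hx _).trans ?_
  apply pow_le_pow_of_le_one (norm_nonneg _) hp1
  obtain ⟨m, rfl⟩ : ∃ m, p = m + 2 := ⟨p - 2, by omega⟩
  have e1 : m + 2 - 1 = m + 1 := by omega
  have e2 : m + 2 - 2 = m := by omega
  rw [e1, e2]
  nlinarith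

/-- the key inequality. -/
theorem RamImp_key (p : ℕ) (hp : 2 ≤ p) {ρ P : ℝ} (hρ0 : 0 < ρ) (hρ1 : ρ < 1) (i : ℕ)
    (hnA : ¬ (ρ ^ (p * i)) ^ ((p - 1) ^ 2) ≤ P ^ (p * (p - 2))) : P * ρ ^ i < ρ ^ (p * i) := by
  by_contra hcon
  rw [not_lt] at hcon
  apply hnA
  obtain ⟨m, rfl⟩ : ∃ m, p = m + 2 := ⟨p - 2, by omega⟩
  have e1 : m + 2 - 1 = m + 1 := by omega
  have e2 : m + 2 - 2 = m := by omega
  rw [e1, e2]
  have h1 : ρ ^ ((m + 1) * i) ≤ P := by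
    have h2 : ρ ^ ((m + 2) * i) = ρ ^ ((m + 1) * i) * ρ ^ i := by
      rw [← pow_add]
      congr 1
      ring
    rw [h2] at hcon
    exact le_of_mul_le_mul_right hcon (pow_pos hρ0 i)
  calc (ρ ^ ((m + 2) * i)) ^ ((m + 1) ^ 2) = ρ ^ ((m + 2) * i * (m + 1) ^ 2) := by rw [← pow_mul]
    _ ≤ ρ ^ ((m + 1) * i * ((m + 2) * m)) := by
        apply pow_le_pow_of_le_one hρ0.le hρ1.le
        have : (m + 1) * i * ((m + 2) * m) = ((m + 2) * i * (m + 1)) * m := by ring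
        rw [this]
        have : (m + 2) * i * (m + 1) ^ 2 = ((m + 2) * i * (m + 1)) * (m + 1) := by ring
        rw [this]
        exact Nat.mul_le_mul_left _ (Nat.le_succ m)
    _ = (ρ ^ ((m + 1) * i)) ^ ((m + 2) * m) := by rw [← pow_mul]
    _ ≤ P ^ ((m + 2) * m) := pow_le_pow_left₀ (pow_pos hρ0 _).le h1 _

/-- one step of the improvement. -/
theorem RamImp_improve (p : ℕ) [Fact p.Prime] (hp2 : p ≠ 2) (hK : IsLoc K) (hp : ‖(p : K)‖ < 1)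
    {π : K} (hπ : IsUnif π) {a : K} {i : ℕ} (hi : 0 < i) (ha : ‖a - 1‖ = ‖π‖ ^ (p * i))
    (hnA : ¬ ‖a - 1‖ ^ ((p - 1) ^ 2) ≤ ‖(p : K)‖ ^ (p * (p - 2))) :
    ∃ b : K, b ≠ 0 ∧ ‖a * b ^ p - 1‖ < ‖π‖ ^ (p * i) := by
  have := hK.ultra
  have hpp : p.Prime := Fact.out
  obtain ⟨hπ0, hπ1, -⟩ := hπ
  have hρ0 : 0 < ‖π‖ := norm_pos_iff.2 hπ0
  have hj0 : 0 < p * i := Nat.mul_pos hpp.pos hi
  have hρj : 0 < ‖π‖ ^ (p * i) := pow_pos hρ0 _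
  have hρj1 : ‖π‖ ^ (p * i) < 1 := pow_lt_one₀ hρ0.le hπ1 hj0.ne'
  have hρi1 : ‖π‖ ^ i < 1 := pow_lt_one₀ hρ0.le hπ1 hi.ne'
  have hπj : π ^ (p * i) ≠ 0 := pow_ne_zero _ hπ0
  set u : K := (a - 1) / π ^ (p * i) with hu
  have hu1 : ‖u‖ = 1 := by rw [hu, norm_div, norm_pow, ha, div_self hρj.ne']
  have hau : a = 1 + u * π ^ (p * i) := by
    rw [hu, div_mul_cancel₀ _ hπj]
    ring
  have ha1 : ‖a‖ ≤ 1 := by
    have : a = 1 + (a - 1) := by ring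
    rw [this]
    refine (IsUltrametricDist.norm_add_le_max _ _).trans (max_le (by rw [norm_one]) ?_)
    rw [ha]
    exact hρj1.le
  obtain ⟨w, hw1, hw2, -⟩ := RamImp_root p hK hp u hu1.le
  set t : K := w * π ^ i with ht
  have htn : ‖t‖ ≤ ‖π‖ ^ i := by
    rw [ht, norm_mul, norm_pow]
    exact mul_le_of_le_one_left (pow_pos hρ0 i).le hw1
  obtain ⟨r, hr1, hr⟩ := RamImp_binom p hp2 t (htn.trans hρi1.le)
  have htp : t ^ p = w ^ p * π ^ (p * i) := by rw [ht, mul_pow, ← pow_mul, mul_comm i p]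
  refine ⟨1 - t, ?_, ?_⟩
  · intro h0
    have h1 : t = 1 := (sub_eq_zero.1 h0).symm
    rw [h1, norm_one] at htn
    exact absurd htn (not_le.2 hρi1)
  have hid : a * (1 - t) ^ p - 1 = (u - w ^ p) * π ^ (p * i) - p * t * r * a
      - u * w ^ p * π ^ (p * i) * π ^ (p * i) := by
    rw [hr, htp]
    conv_lhs => rw [hau]
    conv_rhs => rw [hau]
    ring
  rw [hid]
  have hT1 : ‖(u - w ^ p) * π ^ (p * i)‖ < ‖π‖ ^ (p * i) := by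
    rw [norm_mul, norm_pow, norm_sub_rev]
    exact mul_lt_of_lt_one_left hρj hw2
  have hT2 : ‖(p : K) * t * r * a‖ < ‖π‖ ^ (p * i) := by
    have hkey := RamImp_key p hpp.two_le hρ0 hπ1 i (by rw [← ha]; exact hnA)
    refine lt_of_le_of_lt ?_ hkey
    rw [norm_mul, norm_mul, norm_mul]
    calc ‖(p : K)‖ * ‖t‖ * ‖r‖ * ‖a‖ ≤ ‖(p : K)‖ * ‖π‖ ^ i * 1 * 1 := by
          gcongr
      _ = _ := by ring
  have hT3 : ‖u * w ^ p * π ^ (p * i) * π ^ (p * i)‖ < ‖π‖ ^ (p * i) := by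
    rw [norm_mul, norm_mul, norm_mul, hu1, one_mul, norm_pow, norm_pow]
    have hwp : ‖w‖ ^ p ≤ 1 := pow_le_one₀ (norm_nonneg _) hw1
    calc ‖w‖ ^ p * ‖π‖ ^ (p * i) * ‖π‖ ^ (p * i) ≤ 1 * ‖π‖ ^ (p * i) * ‖π‖ ^ (p * i) := by
          gcongr
      _ < 1 * 1 * ‖π‖ ^ (p * i) := by
          gcongr
      _ = _ := by ring
  exact RamImp_sub_lt (RamImp_sub_lt hT1 hT2) hT3

/-- the induction. -/
theorem RamImp_ind (p : ℕ) [Fact p.Prime] (hp2 : p ≠ 2) (hK : IsLoc K) (hp : ‖(p : K)‖ < 1)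
    {π : K} (hπ : IsUnif π) (E : ℕ) (hE : ‖(p : K)‖ = ‖π‖ ^ E) :
    ∀ d j : ℕ, 0 < j → E ≤ j + d → ∀ a : K, ‖a - 1‖ ≤ ‖π‖ ^ j → RamImp_C p π a := by
  have hpp : p.Prime := Fact.out
  intro d
  induction d with
  | zero =>
    intro j _ hEj a ha
    refine ⟨1, one_ne_zero, Or.inl ?_⟩
    rw [one_pow, mul_one]
    apply RamImp_A_of_le p hpp.two_le hp.le
    rw [hE]
    exact ha.trans (pow_le_pow_of_le_one (norm_nonneg _) hπ.2.1.le (by omega))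
  | succ d ih =>
    intro j hj hEj a ha
    by_cases h1 : ‖a - 1‖ ≤ ‖π‖ ^ (j + 1)
    · exact ih (j + 1) (Nat.succ_pos _) (by omega) a h1
    have heq := RamImp_eq hπ ha h1
    by_cases hpj : p ∣ j
    · obtain ⟨i, rfl⟩ := hpj
      by_cases hA : ‖a - 1‖ ^ ((p - 1) ^ 2) ≤ ‖(p : K)‖ ^ (p * (p - 2))
      · exact ⟨1, one_ne_zero, Or.inl (by rwa [one_pow, mul_one])⟩
      · obtain ⟨b, hb, hlt⟩ := RamImp_improve p hp2 hK hp hπ (Nat.pos_of_mul_pos_left hj) heq hA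
        exact RamImp_C_of_mul hb (ih _ (Nat.succ_pos _) (by omega) _ (RamImp_disc hπ hlt))
    · exact ⟨1, one_ne_zero, Or.inr (Or.inr ⟨j, hpj, by rwa [one_pow, mul_one]⟩)⟩

end RamImp

/-- **RAM-IMP**. -/
theorem ramImp : Stmt_RamImp := by
  intro p _ hp2 K _ hK hnp π hπ a ha
  have hpp : p.Prime := Fact.out
  have hp1 : ‖(p : K)‖ < 1 := by
    rw [hnp]
    exact inv_lt_one_of_one_lt₀ (by exact_mod_cast hpp.one_lt)
  have hp0 : (p : K) ≠ 0 := by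
    intro h
    rw [h, norm_zero] at hnp
    have : (0 : ℝ) < (p : ℝ)⁻¹ := inv_pos.2 (by exact_mod_cast hpp.pos)
    exact this.ne hnp
  have hπ0 : π ≠ 0 := hπ.1
  have hρ0 : 0 < ‖π‖ := norm_pos_iff.2 hπ0
  have hρ1 : ‖π‖ < 1 := hπ.2.1
  obtain ⟨E', hE'⟩ := hπ.2.2 (p : K) hp0
  have hE'0 : 0 < E' := by
    rw [hE', ← zpow_zero ‖π‖] at hp1
    exact (zpow_lt_zpow_iff_right_of_lt_one₀ hρ0 hρ1).1 hp1
  obtain ⟨E, rfl⟩ := Int.eq_ofNat_of_zero_le hE'0.le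
  rw [zpow_natCast] at hE'
  obtain ⟨n, hn⟩ := hπ.2.2 a ha
  have hpZ : (0 : ℤ) < (p : ℤ) := by exact_mod_cast hpp.pos
  have hb0 : π ^ (-(n / (p : ℤ))) ≠ 0 := zpow_ne_zero _ hπ0
  have hnorm : ‖a * (π ^ (-(n / (p : ℤ)))) ^ p‖ = ‖π‖ ^ (n % (p : ℤ)) := by
    rw [norm_mul, norm_pow, norm_zpow, hn, ← zpow_natCast, ← zpow_mul, ← zpow_add₀ hρ0.ne']
    congr 1
    have := Int.emod_add_mul_ediv n (p : ℤ)
    linarith
  have hmod0 : 0 ≤ n % (p : ℤ) := Int.emod_nonneg _ hpZ.ne'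
  have hmodlt : n % (p : ℤ) < p := Int.emod_lt_of_pos _ hpZ
  by_cases h0 : n % (p : ℤ) = 0
  · -- units
    rw [h0, zpow_zero] at hnorm
    set a' : K := a * (π ^ (-(n / (p : ℤ)))) ^ p with ha'
    have ha'0 : a' ≠ 0 := mul_ne_zero ha (pow_ne_zero _ hb0)
    obtain ⟨w, -, hw2, hw0⟩ := RamImp_root p hK hp1 a'⁻¹ (by rw [norm_inv, hnorm, inv_one])
    have hw : ‖a' * w ^ p - 1‖ < ‖π‖ ^ 0 := by
      have : a' * w ^ p - 1 = a' * (w ^ p - a'⁻¹) := by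
        rw [mul_sub, mul_inv_cancel₀ ha'0]
      rw [this, norm_mul, hnorm, one_mul, pow_zero]
      exact hw2
    exact RamImp_C_of_mul hb0 (RamImp_C_of_mul (hw0 (inv_ne_zero ha'0))
      (RamImp_ind p hp2 hK hp1 hπ E hE' E 1 one_pos (by omega) _ (RamImp_disc hπ hw)))
  · refine ⟨_, hb0, Or.inr (Or.inl ⟨(n % (p : ℤ)).toNat, ?_, ?_⟩)⟩
    · intro hd
      have h1 : ((n % (p : ℤ)).toNat : ℤ) = n % (p : ℤ) := Int.toNat_of_nonneg hmod0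
      have h2 : (n % (p : ℤ)).toNat < p := by omega
      have h3 : (n % (p : ℤ)).toNat ≠ 0 := by omega
      exact h3 (Nat.eq_zero_of_dvd_of_lt hd h2)
    · rw [hnorm, ← zpow_natCast, Int.toNat_of_nonneg hmod0]

end Fermat.Agent.TW56.Flat

end
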