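/-
TEAM TW56 -> S56, block FLAT, sub-block RAM, task RAM-KUM (helper5).
Kummer extensions inside a totally ramified extension `L/L^I` versus the bound `DB` for the
different.
-/
import Fermat.Agent.TW56.Flat.RamInterface
import Fermat.Agent.CFT.Local.FixedLoc

set_option autoImplicit false

noncomputable section

namespace Fermat.Agent.TW56.Flat

open Fermat.Agent.CFT.Local Polynomial

/-! ### A. ultrametric lemmas -/

section Ultra

variable {L : Type} [NormedField L] [IsUltrametricDist L]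

theorem RamKum_geom (x y : L) (c : ℝ) (hx : ‖x‖ ≤ c) (hy : ‖y‖ ≤ c) (n : ℕ) :
    ‖x ^ (n + 1) - y ^ (n + 1)‖ ≤ ‖x - y‖ * c ^ n := by
  have hc : 0 ≤ c := (norm_nonneg _).trans hx
  induction n with
  | zero => simp
  | succ n ih =>
    have h1 : x ^ (n + 1 + 1) - y ^ (n + 1 + 1)
        = x * (x ^ (n + 1) - y ^ (n + 1)) + (x - y) * y ^ (n + 1) := by ring
    rw [h1]
    refine (IsUltrametricDist.norm_add_le_max _ _).trans (max_le ?_ ?_)
    · rw [norm_mul]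
      calc ‖x‖ * ‖x ^ (n + 1) - y ^ (n + 1)‖ ≤ c * (‖x - y‖ * c ^ n) :=
            mul_le_mul hx ih (norm_nonneg _) hc
        _ = ‖x - y‖ * c ^ (n + 1) := by ring
    · rw [norm_mul, norm_pow]
      exact mul_le_mul_of_nonneg_left (pow_le_pow_left₀ (norm_nonneg _) hy _) (norm_nonneg _)

theorem RamKum_pow_sub_one (z : L) (hz : ‖z‖ ≤ 1) (k : ℕ) : ‖z ^ k - 1‖ ≤ ‖z - 1‖ := by
  cases k with
  | zero => simp
  | succ n =>
    have := RamKum_geom z 1 1 hz (by simp) n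
    simpa using this

theorem RamKum_addpow {p : ℕ} (hp : p.Prime) (x : L) (hx : ‖x‖ ≤ 1) :
    ∃ r : L, ‖r‖ ≤ 1 ∧ (x + 1) ^ p = x ^ p + 1 + p * x * r := by
  refine ⟨_, ?_, by simpa using add_pow_prime_eq hp x 1⟩
  refine IsUltrametricDist.norm_sum_le_of_forall_le_of_nonneg zero_le_one fun k _ => ?_
  rw [norm_mul, norm_pow]
  exact mul_le_one₀ (pow_le_one₀ (norm_nonneg _) hx) (norm_nonneg _)
    (IsUltrametricDist.norm_natCast_le_one L _)

omit [IsUltrametricDist L] in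
theorem RamKum_norm_root {n : ℕ} (hn : n ≠ 0) {z : L} (hz : z ^ n = 1) : ‖z‖ = 1 := by
  have h1 : ‖z‖ ^ n = 1 := by rw [← norm_pow, hz, norm_one]
  exact (pow_eq_one_iff_of_nonneg (norm_nonneg _) hn).1 h1

theorem RamKum_zeta {p : ℕ} (hp : p.Prime) {z : L} (h1 : z ≠ 1) (hz : z ^ p = 1) :
    ‖z - 1‖ ^ (p - 1) ≤ ‖(p : L)‖ := by
  have hn : ‖z‖ = 1 := RamKum_norm_root hp.ne_zero hz
  have hx : ‖z - 1‖ ≤ 1 := by
    rw [sub_eq_add_neg]
    refine (IsUltrametricDist.norm_add_le_max _ _).trans (max_le hn.le ?_)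
    simp
  obtain ⟨r, hr, h2⟩ := RamKum_addpow hp (z - 1) hx
  rw [sub_add_cancel, hz] at h2
  have hx0 : z - 1 ≠ 0 := sub_ne_zero.2 h1
  have h3 : (z - 1) ^ (p - 1) = -(p * r) := by
    have h4 : (z - 1) * (z - 1) ^ (p - 1) = (z - 1) * (-(p * r)) := by
      rw [← pow_succ', Nat.sub_add_cancel hp.one_le]
      linear_combination -h2
    exact mul_left_cancel₀ hx0 h4
  rw [← norm_pow, h3, norm_neg, norm_mul]
  calc ‖(p : L)‖ * ‖r‖ ≤ ‖(p : L)‖ * 1 := mul_le_mul_of_nonneg_left hr (norm_nonneg _)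
    _ = ‖(p : L)‖ := mul_one _

end Ultra

/-! ### B. finite products -/

section Prod

variable {I : Type} [Group I] [Fintype I] [DecidableEq I]

omit [Group I] [DecidableEq I] in
theorem RamKum_finprod (q : I → Prop) [DecidablePred q] (f : I → ℝ) :
    ∏ᶠ s : {s : I // q s}, f s = ∏ s ∈ Finset.univ.filter q, f s := by
  rw [finprod_eq_prod_of_fintype]
  exact (Finset.prod_subtype _ (by simp) f).symm

omit [Fintype I] [DecidableEq I] in
theorem RamKum_double (HF S : Finset I) (hS : ∀ h ∈ HF, ∀ s, s * h ∈ S ↔ s ∈ S) (f : I → ℝ) :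
    ∏ s ∈ S, ∏ h ∈ HF, f (s * h) = (∏ s ∈ S, f s) ^ HF.card := by
  rw [Finset.prod_comm, ← Finset.prod_const]
  refine Finset.prod_congr rfl fun h hh => ?_
  exact Finset.prod_equiv (Equiv.mulRight h) (fun s => by simp [hS h hh s]) (fun s _ => rfl)

end Prod

/-! ### C. the core estimate -/

theorem RamKum_prod {I : Type} [Group I] [Finite I] (H H₁ : Subgroup I) (hHH : H ≤ H₁)
    (N : I → ℝ) (P d : ℝ) (p : ℕ) (hp : 2 ≤ p) (hP0 : 0 < P) (hN0 : ∀ s, 0 ≤ N s)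
    (hNP : ∀ s, N s ≤ P) (hd0 : 0 ≤ d) (hdP : d ≤ P ^ Nat.card H)
    (hcard : Nat.card H₁ = p * Nat.card H)
    (hB : ∀ s ∈ H₁, ∏ᶠ h : H, N (s * h) ≤ d * P ^ Nat.card H) :
    ∃ s₁ : I, s₁ ≠ 1 ∧
      (∏ᶠ s : {s : I // s ≠ 1}, N s) * N s₁ ≤ d ^ (p - 1) * P ^ Nat.card I * P := by
  classical
  have : Fintype I := Fintype.ofFinite I
  set HF : Finset I := Finset.univ.filter (· ∈ H) with hHF
  set H₁F : Finset I := Finset.univ.filter (· ∈ H₁) with hH₁F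
  set S : Finset I := H₁F \ HF with hS
  set e₂ : ℕ := Nat.card H with he₂
  have cH : HF.card = e₂ := by
    rw [he₂, Nat.card_eq_fintype_card, Fintype.card_subtype]
  have cH₁ : H₁F.card = p * e₂ := by
    rw [← hcard, Nat.card_eq_fintype_card, Fintype.card_subtype]
  have he₂pos : 0 < e₂ := Nat.card_pos
  have hsub : HF ⊆ H₁F := by
    intro s hs
    simp only [hHF, hH₁F, Finset.mem_filter, Finset.mem_univ, true_and] at hs ⊢
    exact hHH hs
  have cS : S.card = (p - 1) * e₂ := by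
    rw [hS, Finset.card_sdiff_of_subset hsub, cH, cH₁, Nat.sub_mul, one_mul]
  have memS : ∀ s, s ∈ S ↔ s ∈ H₁ ∧ s ∉ H := by
    intro s
    simp [hS, hHF, hH₁F]
  have hB' : ∀ s ∈ H₁, ∏ h ∈ HF, N (s * h) ≤ d * P ^ e₂ := by
    intro s hs
    have := hB s hs
    rwa [RamKum_finprod (fun h => h ∈ H) (fun h => N (s * h))] at this
  have stab : ∀ h ∈ HF, ∀ s, s * h ∈ S ↔ s ∈ S := by
    intro h hh s
    have hh' : h ∈ H := by simpa [hHF] using hh
    rw [memS, memS, H₁.mul_mem_cancel_right (hHH hh'), H.mul_mem_cancel_right hh']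
  have hdouble := RamKum_double HF S stab N
  have hPS0 : 0 ≤ ∏ s ∈ S, N s := Finset.prod_nonneg fun s _ => hN0 s
  have hBnn : 0 ≤ d * P ^ e₂ := by positivity
  have hSle : ∏ s ∈ S, N s ≤ (d * P ^ e₂) ^ (p - 1) := by
    have h1 : (∏ s ∈ S, N s) ^ e₂ ≤ ((d * P ^ e₂) ^ (p - 1)) ^ e₂ := by
      rw [← cH, ← hdouble, cH, ← pow_mul, ← cS, ← Finset.prod_const]
      refine Finset.prod_le_prod (fun s _ => Finset.prod_nonneg fun h _ => hN0 _) ?_
      intro s hs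
      exact hB' s ((memS s).1 hs).1
    exact (pow_le_pow_iff_left₀ hPS0 (by positivity) he₂pos.ne').1 h1
  have hSne : S.Nonempty := by
    rw [← Finset.card_pos, cS]
    exact Nat.mul_pos (by omega) he₂pos
  obtain ⟨s, hs⟩ := hSne
  have hHFne : HF.Nonempty := by rw [← Finset.card_pos, cH]; exact he₂pos
  have hex : ∃ h ∈ HF, N (s * h) ≤ P ^ 2 := by
    by_contra hcon
    push Not at hcon
    have h1 : ∏ _h ∈ HF, P ^ 2 < ∏ h ∈ HF, N (s * h) :=
      Finset.prod_lt_prod_of_nonempty (fun _ _ => by positivity) hcon hHFne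
    rw [Finset.prod_const, cH] at h1
    have h2 := hB' s ((memS s).1 hs).1
    have h3 : d * P ^ e₂ ≤ P ^ e₂ * P ^ e₂ := mul_le_mul_of_nonneg_right hdP (by positivity)
    have h4 : (P ^ 2) ^ e₂ = P ^ e₂ * P ^ e₂ := by rw [← pow_mul, ← pow_add]; congr 1; ring
    linarith
  obtain ⟨h, hh, hNh⟩ := hex
  have hs₁ : s * h ∈ S := (stab h hh s).2 hs
  refine ⟨s * h, ?_, ?_⟩
  · intro h1
    exact ((memS _).1 hs₁).2 (h1 ▸ H.one_mem)
  rw [RamKum_finprod (fun s => s ≠ 1) N]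
  set U : Finset I := Finset.univ.filter (fun s => s ≠ 1) with hU
  have hSU : S ⊆ U := by
    intro t ht
    simp only [hU, Finset.mem_filter, Finset.mem_univ, true_and]
    intro h1
    exact ((memS _).1 ht).2 (h1 ▸ H.one_mem)
  have cU : U.card + 1 = Nat.card I := by
    rw [hU, Finset.filter_ne' , Finset.card_erase_of_mem (Finset.mem_univ _), Finset.card_univ,
      Nat.card_eq_fintype_card]
    exact Nat.sub_add_cancel Fintype.card_pos
  have cUS : (U \ S).card + (p - 1) * e₂ + 1 = Nat.card I := by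
    rw [← cU, ← cS, Finset.card_sdiff_add_card_eq_card hSU]
  have hrest : ∏ t ∈ U \ S, N t ≤ P ^ (U \ S).card := by
    rw [← Finset.prod_const]
    exact Finset.prod_le_prod (fun t _ => hN0 t) (fun t _ => hNP t)
  rw [← Finset.prod_sdiff hSU]
  calc (∏ t ∈ U \ S, N t) * (∏ t ∈ S, N t) * N (s * h)
      ≤ P ^ (U \ S).card * (d * P ^ e₂) ^ (p - 1) * P ^ 2 := by
        refine mul_le_mul (mul_le_mul hrest hSle hPS0 (by positivity)) hNh (hN0 _) (by positivity)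
    _ = d ^ (p - 1) * P ^ ((U \ S).card + (p - 1) * e₂ + 1) * P := by
        rw [mul_pow, ← pow_mul, pow_add, pow_add, mul_comm e₂ (p - 1)]
        ring
    _ = d ^ (p - 1) * P ^ Nat.card I * P := by rw [cUS]

theorem RamKum_card_le {p : ℕ} [Fact p.Prime] {I L : Type} [Group I] [Finite I] [Field L]
    [MulSemiringAction I L] (H₁ : Subgroup I) (ζ α : L) (hζ1 : ζ ≠ 1) (hζp : ζ ^ p = 1)
    (hα0 : α ≠ 0) (hαfix : ∀ h ∈ H₁, h • (α ^ p) = α ^ p) :
    (∀ h ∈ H₁, ∃ k : ℕ, h • α = ζ ^ k * α) ∧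
    Nat.card H₁ ≤ p * Nat.card (MulAction.stabilizer I α ⊓ H₁ : Subgroup I) := by
  classical
  have : Fintype I := Fintype.ofFinite I
  have hprim : IsPrimitiveRoot ζ p := by
    have := IsPrimitiveRoot.orderOf ζ
    rwa [orderOf_eq_prime hζp hζ1] at this
  have : NeZero p := ⟨(Fact.out : p.Prime).ne_zero⟩
  have h1 : ∀ h ∈ H₁, ∃ k < p, h • α = ζ ^ k * α := by
    intro h hh
    have h2 : (h • α / α) ^ p = 1 := by
      rw [div_pow, ← smul_pow', hαfix h hh, div_self (pow_ne_zero _ hα0)]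
    obtain ⟨k, hk, hk2⟩ := hprim.eq_pow_of_pow_eq_one h2
    exact ⟨k, hk, by rw [hk2, div_mul_cancel₀ _ hα0]⟩
  refine ⟨fun h hh => (h1 h hh).imp fun k hk => hk.2, ?_⟩
  set H : Subgroup I := MulAction.stabilizer I α ⊓ H₁ with hH
  have e1 : Nat.card H₁ = (Finset.univ.filter (· ∈ H₁)).card := by
    rw [Nat.card_eq_fintype_card, Fintype.card_subtype]
  have e2 : Nat.card H = (Finset.univ.filter (· ∈ H)).card := by
    rw [Nat.card_eq_fintype_card, Fintype.card_subtype]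
  have h3 := Finset.card_le_mul_card_image_of_maps_to (f := fun s : I => s • α)
    (s := Finset.univ.filter (· ∈ H₁)) (t := (Finset.range p).image (fun k => ζ ^ k * α)) (by
      intro s hs
      obtain ⟨k, hk, hk2⟩ := h1 s (by simpa using hs)
      exact Finset.mem_image.2 ⟨k, Finset.mem_range.2 hk, hk2.symm⟩) (Nat.card H) (by
      intro b _
      rcases Finset.eq_empty_or_nonempty
        ({a ∈ Finset.univ.filter (· ∈ H₁) | a • α = b} : Finset I) with h0 | ⟨s₀, hs₀⟩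
      · rw [h0]; simp
      · rw [e2]
        simp only [Finset.mem_filter, Finset.mem_univ, true_and] at hs₀
        refine Finset.card_le_card_of_injOn (fun s => s₀⁻¹ * s) ?_ ?_
        · intro s hs
          simp only [Finset.coe_filter, Finset.mem_filter, Finset.mem_univ, true_and,
            Set.mem_ofPred_eq] at hs ⊢
          rw [hH, Subgroup.mem_inf, MulAction.mem_stabilizer_iff]
          refine ⟨?_, H₁.mul_mem (H₁.inv_mem hs₀.1) hs.1⟩
          rw [mul_smul, hs.2, ← hs₀.2, inv_smul_smul]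
        · intro s _ s' _ hss
          exact mul_left_cancel hss)
  rw [e1]
  calc _ ≤ Nat.card H * ((Finset.range p).image (fun k => ζ ^ k * α)).card := h3
    _ ≤ Nat.card H * p := by
        refine Nat.mul_le_mul_left _ ?_
        exact Finset.card_image_le.trans (by simp)
    _ = p * Nat.card H := mul_comm _ _

theorem RamKum_pi2 (hC : Stmt_RamCard) {p : ℕ} [Fact p.Prime] {I L : Type} [Group I] [Finite I]
    [NormedField L] [MulSemiringAction I L] (T : TotRam p I L) (Pi : L) (hPi : IsUnif Pi)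
    (H₁ : Subgroup I) (π ζ α x : L) (hπ : IsUnifFix H₁ π) (hζ1 : ζ ≠ 1) (hζp : ζ ^ p = 1)
    (hα0 : α ≠ 0) (hαfix : ∀ h ∈ H₁, h • (α ^ p) = α ^ p) (hx0 : x ≠ 0)
    (hxα : ∀ h : I, h • x - x = h • α - α) (j : ℕ) (hj : ¬ p ∣ j) (hxj : ‖x‖ ^ p = ‖π‖ ^ j) :
    ∃ r t : ℕ, IsUnifFix (MulAction.stabilizer I α ⊓ H₁ : Subgroup I) (x ^ (r + 1) * (π ^ t)⁻¹) ∧
      Nat.card H₁ = p * Nat.card (MulAction.stabilizer I α ⊓ H₁ : Subgroup I) := by
  have hp : p.Prime := Fact.out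
  have hcop : Nat.Coprime j p := ((Nat.Prime.coprime_iff_not_dvd hp).2 hj).symm
  obtain ⟨m, -, hm⟩ := Nat.exists_mul_mod_eq_one_of_coprime hcop hp.one_lt
  have hm0 : m ≠ 0 := by
    rintro rfl
    simp at hm
  obtain ⟨r, rfl⟩ := Nat.exists_eq_succ_of_ne_zero hm0
  set t : ℕ := j * (r + 1) / p with ht
  have hjt : j * (r + 1) = p * t + 1 := by
    have := Nat.div_add_mod (j * (r + 1)) p
    rw [Nat.succ_eq_add_one] at hm
    rw [hm] at this
    exact this.symm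
  set H : Subgroup I := MulAction.stabilizer I α ⊓ H₁ with hH
  refine ⟨r, t, ?_⟩
  set Pi2 : L := x ^ (r + 1) * (π ^ t)⁻¹ with hPi2
  have hπ0 : π ≠ 0 := hπ.1
  have hπn : ‖π‖ ≠ 0 := norm_ne_zero_iff.2 hπ0
  have hne : Pi2 ≠ 0 := mul_ne_zero (pow_ne_zero _ hx0) (inv_ne_zero (pow_ne_zero _ hπ0))
  have hnorm : ‖Pi2‖ ^ p = ‖π‖ := by
    rw [hPi2, norm_mul, norm_inv, norm_pow, norm_pow, mul_pow, ← pow_mul, mul_comm (r + 1) p,
      pow_mul, hxj, ← pow_mul, hjt, inv_pow, ← pow_mul, mul_comm t p, pow_succ]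
    field_simp
  have hfix : ∀ h ∈ H, h • Pi2 = Pi2 := by
    intro h hh
    rw [hH, Subgroup.mem_inf, MulAction.mem_stabilizer_iff] at hh
    have h1 : h • x = x := by
      have := hxα h
      rw [hh.1, sub_self] at this
      exact sub_eq_zero.1 this
    rw [hPi2, smul_mul', smul_pow', smul_inv'', smul_pow', h1, hπ.2.2.1 h hh.2]
  obtain ⟨ϖ, hϖ⟩ := fixedLoc_exists_unifFix T.act H
  have c2 := hC p I L T H ϖ Pi hϖ hPi
  have c1 := hC p I L T H₁ π Pi hπ hPi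
  obtain ⟨k, hk⟩ := hϖ.2.2.2 Pi2 hne hfix
  have hP0 : 0 < ‖Pi‖ := norm_pos_iff.2 hPi.1
  have hP1 : ‖Pi‖ ≠ 1 := hPi.2.1.ne
  have hle := (RamKum_card_le H₁ ζ α hζ1 hζp hα0 hαfix).2
  rw [← hH] at hle
  have hz : ((Nat.card H₁ : ℕ) : ℤ) = (Nat.card H : ℤ) * k * p := by
    apply zpow_right_injective₀ hP0 hP1
    show ‖Pi‖ ^ ((Nat.card H₁ : ℕ) : ℤ) = ‖Pi‖ ^ ((Nat.card H : ℤ) * k * p)
    rw [zpow_natCast, ← c1, ← hnorm, hk, c2, zpow_mul, zpow_mul, zpow_natCast, zpow_natCast]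
  have h1pos : (0 : ℤ) < (Nat.card H₁ : ℤ) := by exact_mod_cast Nat.card_pos
  have h2pos : (0 : ℤ) < (Nat.card H : ℤ) := by exact_mod_cast Nat.card_pos
  have hppos : (0 : ℤ) < (p : ℤ) := by exact_mod_cast hp.pos
  have hle' : ((Nat.card H₁ : ℕ) : ℤ) ≤ (p : ℤ) * (Nat.card H : ℤ) := by exact_mod_cast hle
  have hk1 : k = 1 := by
    have hq : (0 : ℤ) < (Nat.card H : ℤ) * p := mul_pos h2pos hppos
    have ha : 0 < k := by
      by_contra hcon
      have : (Nat.card H : ℤ) * p * k ≤ 0 := mul_nonpos_of_nonneg_of_nonpos hq.le (not_lt.1 hcon)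
      nlinarith
    have hb : k ≤ 1 := by
      by_contra hcon
      have : (Nat.card H : ℤ) * p * 2 ≤ (Nat.card H : ℤ) * p * k :=
        mul_le_mul_of_nonneg_left (by omega) hq.le
      nlinarith
    omega
  rw [hk1, zpow_one] at hk
  refine ⟨⟨hne, hk ▸ hϖ.2.1, hfix, ?_⟩, ?_⟩
  · intro y hy hyfix
    rw [hk]
    exact hϖ.2.2.2 y hy hyfix
  · rw [hk1] at hz
    have : ((Nat.card H₁ : ℕ) : ℤ) = ((p * Nat.card H : ℕ) : ℤ) := by
      rw [hz]; push_cast; ring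
    exact_mod_cast this

theorem RamKum_core (hD : Stmt_RamDiff) (hC : Stmt_RamCard) (hG : Stmt_RamGProd)
    {p : ℕ} [Fact p.Prime] {I L : Type} [Group I] [Finite I]
    [NormedField L] [MulSemiringAction I L] (T : TotRam p I L) (Pi : L) (hPi : IsUnif Pi)
    (hDB : DB p I L Pi)
    (H₁ : Subgroup I) (π ζ α x : L) (hπ : IsUnifFix H₁ π) (hζfix : ∀ h ∈ H₁, h • ζ = ζ)
    (hζ1 : ζ ≠ 1) (hζp : ζ ^ p = 1)
    (hα0 : α ≠ 0) (hαfix : ∀ h ∈ H₁, h • (α ^ p) = α ^ p) (hx0 : x ≠ 0)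
    (hxα : ∀ h : I, h • x - x = h • α - α) (j : ℕ) (hj : ¬ p ∣ j) (hxj : ‖x‖ ^ p = ‖π‖ ^ j)
    (hδ : ‖(ζ - 1) * α / x‖ < 1) :
    ‖(p : L)‖ ≤ ‖(ζ - 1) * α / x‖ ^ ((p - 1) ^ 2) := by
  have hp : p.Prime := Fact.out
  have := T.act.loc.ultra
  obtain ⟨r, t, hU, hcard⟩ :=
    RamKum_pi2 hC T Pi hPi H₁ π ζ α x hπ hζ1 hζp hα0 hαfix hx0 hxα j hj hxj
  set H : Subgroup I := MulAction.stabilizer I α ⊓ H₁ with hH
  set Pi2 : L := x ^ (r + 1) * (π ^ t)⁻¹ with hPi2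
  set δ : L := (ζ - 1) * α / x with hδdef
  have c2 := hC p I L T H Pi2 Pi hU hPi
  have cI : ‖(p : L)‖ = ‖Pi‖ ^ Nat.card I := by
    have := hC p I L T ⊤ p Pi T.unr hPi
    rwa [Subgroup.card_top] at this
  have hxfix : ∀ h ∈ H, h • x = x ∧ h • α = α ∧ h ∈ H₁ := by
    intro h hh
    rw [hH, Subgroup.mem_inf, MulAction.mem_stabilizer_iff] at hh
    have := hxα h
    rw [hh.1, sub_self] at this
    exact ⟨sub_eq_zero.1 this, hh.1, hh.2⟩
  have hδfix : ∀ h ∈ H, h • δ = δ := by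
    intro h hh
    obtain ⟨h1, h2, h3⟩ := hxfix h hh
    rw [hδdef, div_eq_mul_inv, smul_mul', smul_mul', smul_inv'', smul_sub, smul_one, h1, h2,
      hζfix h h3]
  have hδ0 : δ ≠ 0 := div_ne_zero (mul_ne_zero (sub_ne_zero.2 hζ1) hα0) hx0
  have hQ0 : 0 < ‖Pi2‖ := norm_pos_iff.2 hU.1
  have hδle : ‖δ‖ ≤ ‖Pi2‖ := by
    obtain ⟨k, hk⟩ := hU.2.2.2 δ hδ0 hδfix
    have hk1 : 1 ≤ k := by
      by_contra hcon
      have h0 : k ≤ 0 := by omega
      have := zpow_le_zpow_right_of_le_one₀ hQ0 hU.2.1.le h0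
      rw [zpow_zero, ← hk] at this
      linarith
    have := zpow_le_zpow_right_of_le_one₀ hQ0 hU.2.1.le hk1
    rwa [zpow_one, ← hk] at this
  have hxn : 0 < ‖x‖ := norm_pos_iff.2 hx0
  have hδn : ‖δ‖ * ‖x‖ = ‖ζ - 1‖ * ‖α‖ := by
    rw [hδdef, norm_div, norm_mul]
    field_simp
  have hζn : ‖ζ‖ = 1 := RamKum_norm_root hp.ne_zero hζp
  have hsx : ∀ s ∈ H₁, ‖s • x - x‖ ≤ ‖δ‖ * ‖x‖ := by
    intro s hs
    obtain ⟨k, hk⟩ := (RamKum_card_le H₁ ζ α hζ1 hζp hα0 hαfix).1 s hs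
    have h1 : s • x - x = (ζ ^ k - 1) * α := by rw [hxα, hk]; ring
    rw [h1, norm_mul, hδn]
    exact mul_le_mul_of_nonneg_right (RamKum_pow_sub_one ζ hζn.le k) (norm_nonneg _)
  have hsPi2 : ∀ s ∈ H₁, ‖s • Pi2 - Pi2‖ ≤ ‖δ‖ * ‖Pi2‖ := by
    intro s hs
    have h1 : s • Pi2 - Pi2 = ((s • x) ^ (r + 1) - x ^ (r + 1)) * (π ^ t)⁻¹ := by
      rw [hPi2, smul_mul', smul_pow', smul_inv'', smul_pow', hπ.2.2.1 s hs]
      ring
    rw [h1, norm_mul]
    have h2 := RamKum_geom (s • x) x ‖x‖ (T.act.isom s x).le le_rfl r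
    calc ‖(s • x) ^ (r + 1) - x ^ (r + 1)‖ * ‖(π ^ t)⁻¹‖
        ≤ (‖δ‖ * ‖x‖ * ‖x‖ ^ r) * ‖(π ^ t)⁻¹‖ := by
          refine mul_le_mul_of_nonneg_right (h2.trans ?_) (norm_nonneg _)
          exact mul_le_mul_of_nonneg_right (hsx s hs) (by positivity)
      _ = ‖δ‖ * ‖Pi2‖ := by
          rw [hPi2, norm_mul, norm_pow, pow_succ]
          ring
  have hB : ∀ s ∈ H₁, ∏ᶠ h : H, ‖(s * (h : I)) • Pi - Pi‖ ≤ ‖δ‖ * ‖Pi‖ ^ Nat.card H := by
    intro s hs
    rw [← c2]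
    refine hG I L T.act H Pi s _ hPi.2.1.le ?_
    intro y hy hy1
    exact (hD p I L T H Pi2 hU s y hy hy1).trans (hsPi2 s hs)
  have hP0 : 0 < ‖Pi‖ := norm_pos_iff.2 hPi.1
  have hNP : ∀ s : I, ‖s • Pi - Pi‖ ≤ ‖Pi‖ := by
    intro s
    rw [sub_eq_add_neg]
    refine (IsUltrametricDist.norm_add_le_max _ _).trans (max_le (T.act.isom s Pi).le ?_)
    rw [norm_neg]
  obtain ⟨s₁, hs₁, hprod⟩ := RamKum_prod H H₁ inf_le_right (fun s => ‖s • Pi - Pi‖) ‖Pi‖ ‖δ‖ p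
    hp.two_le hP0 (fun _ => norm_nonneg _) hNP (norm_nonneg _) (c2 ▸ hδle) hcard hB
  have h1 := hDB s₁ hs₁
  rw [← cI] at hprod
  have hpn : 0 < ‖(p : L)‖ := by
    rw [T.normp]
    have : (0 : ℝ) < p := by exact_mod_cast hp.pos
    positivity
  have h2 : ((∏ᶠ s : {s : I // s ≠ 1}, ‖(s : I) • Pi - Pi‖) * ‖s₁ • Pi - Pi‖) ^ (p - 1)
      ≤ (‖δ‖ ^ (p - 1) * ‖(p : L)‖ * ‖Pi‖) ^ (p - 1) := by
    refine pow_le_pow_left₀ ?_ hprod _
    exact mul_nonneg (finprod_nonneg fun _ => norm_nonneg _) (norm_nonneg _)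
  have h3 : ‖(p : L)‖ * (‖(p : L)‖ ^ (p - 1) * ‖Pi‖ ^ (p - 1))
      ≤ ‖δ‖ ^ ((p - 1) ^ 2) * (‖(p : L)‖ ^ (p - 1) * ‖Pi‖ ^ (p - 1)) := by
    calc ‖(p : L)‖ * (‖(p : L)‖ ^ (p - 1) * ‖Pi‖ ^ (p - 1))
        = ‖(p : L)‖ ^ p * ‖Pi‖ ^ (p - 1) := by
          have hpe : ∀ y : ℝ, y ^ p = y * y ^ (p - 1) := by
            intro y
            rw [← pow_succ', Nat.sub_add_cancel hp.one_le]
          rw [hpe ‖(p : L)‖]
          ring
      _ ≤ _ := h1.trans h2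
      _ = _ := by
          rw [mul_pow, mul_pow, ← pow_mul, sq]
          ring
  exact le_of_mul_le_mul_right h3 (by positivity)

/-! ### D. the statement -/

theorem ramKum (hD : Stmt_RamDiff) (hC : Stmt_RamCard) (hG : Stmt_RamGProd) : Stmt_RamKum := by
  intro p _ hp2 I L _ _ _ _ T Pi hPi hDB H₁ π ζ a α hπ hζfix hζ1 hζp hafix hαa
  have hp : p.Prime := Fact.out
  have := T.act.loc.ultra
  have hp3 : 3 ≤ p := by have := hp.two_le; omega
  have hpR : (1 : ℝ) < p := by exact_mod_cast hp.one_lt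
  have hpn0 : 0 < ‖(p : L)‖ := by rw [T.normp]; positivity
  have hpn1 : ‖(p : L)‖ < 1 := by rw [T.normp]; exact inv_lt_one_of_one_lt₀ hpR
  have hz := RamKum_zeta hp hζ1 hζp
  have hαfix : ∀ h ∈ H₁, h • (α ^ p) = α ^ p := by rw [hαa]; exact hafix
  have hπ0 : 0 < ‖π‖ := norm_pos_iff.2 hπ.1
  have hpe : ∀ y : ℝ, y ^ p = y * y ^ (p - 1) := by
    intro y
    rw [← pow_succ', Nat.sub_add_cancel hp.one_le]
  constructor
  · intro n hn han
    have ha0 : a ≠ 0 := by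
      intro h
      rw [h, norm_zero] at han
      exact (pow_pos hπ0 n).ne han
    have hα0 : α ≠ 0 := by
      rintro rfl
      rw [zero_pow hp.ne_zero] at hαa
      exact ha0 hαa.symm
    have hδe : (ζ - 1) * α / α = ζ - 1 := mul_div_cancel_right₀ _ hα0
    have hz1 : ‖ζ - 1‖ < 1 := by
      by_contra hcon
      have := one_le_pow₀ (not_lt.1 hcon) (n := p - 1)
      linarith
    have h1 := RamKum_core hD hC hG T Pi hPi hDB H₁ π ζ α α hπ hζfix hζ1 hζp hα0 hαfix hα0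
      (fun _ => rfl) n hn (by rw [← norm_pow, hαa, han]) (by rw [hδe]; exact hz1)
    rw [hδe, sq, pow_mul] at h1
    have h2 : (‖ζ - 1‖ ^ (p - 1)) ^ (p - 1) ≤ ‖(p : L)‖ ^ (p - 1) :=
      pow_le_pow_left₀ (by positivity) hz _
    have h3 : ‖(p : L)‖ ^ (p - 1) ≤ ‖(p : L)‖ ^ 2 :=
      pow_le_pow_of_le_one hpn0.le hpn1.le (by omega)
    nlinarith
  · intro j hj haj
    have hj0 : j ≠ 0 := by
      rintro rfl
      exact hj (dvd_zero p)
    have ha1 : ‖a - 1‖ < 1 := by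
      rw [haj]
      exact pow_lt_one₀ hπ0.le hπ.2.1 hj0
    by_cases hbig : ‖a - 1‖ ^ (p - 1) ≤ ‖(p : L)‖ ^ p
    · calc ‖a - 1‖ ^ ((p - 1) ^ 2) = (‖a - 1‖ ^ (p - 1)) ^ (p - 1) := by rw [sq, pow_mul]
        _ ≤ (‖(p : L)‖ ^ p) ^ (p - 1) := pow_le_pow_left₀ (by positivity) hbig _
        _ = ‖(p : L)‖ ^ (p * (p - 1)) := by rw [pow_mul]
        _ ≤ ‖(p : L)‖ ^ (p * (p - 2)) :=
          pow_le_pow_of_le_one hpn0.le hpn1.le (Nat.mul_le_mul_left _ (by omega))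
    · have hbig' := not_le.1 hbig
      have han : ‖a‖ = 1 := by
        have h1 : a = (a - 1) + 1 := by ring
        rw [h1, IsUltrametricDist.norm_add_eq_max_of_norm_ne_norm (by rw [norm_one]; exact ha1.ne),
          norm_one]
        exact max_eq_right ha1.le
      have hαn : ‖α‖ = 1 := by
        have h1 : ‖α‖ ^ p = 1 := by rw [← norm_pow, hαa, han]
        exact (pow_eq_one_iff_of_nonneg (norm_nonneg _) hp.ne_zero).1 h1
      have hα0 : α ≠ 0 := by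
        intro h
        rw [h, norm_zero] at hαn
        exact zero_ne_one hαn
      set x : L := α - 1 with hx
      have hx1 : ‖x‖ ≤ 1 := by
        rw [hx, sub_eq_add_neg]
        refine (IsUltrametricDist.norm_add_le_max _ _).trans (max_le hαn.le ?_)
        simp
      obtain ⟨w, hw, hexp⟩ := RamKum_addpow hp x hx1
      have hax : a - 1 = x ^ p + p * x * w := by
        have h1 : x + 1 = α := by rw [hx]; ring
        rw [h1, hαa] at hexp
        rw [hexp]; ring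
      have hpxw : ‖(p : L) * x * w‖ ≤ ‖(p : L)‖ * ‖x‖ := by
        rw [norm_mul, norm_mul]
        calc ‖(p : L)‖ * ‖x‖ * ‖w‖ ≤ ‖(p : L)‖ * ‖x‖ * 1 :=
              mul_le_mul_of_nonneg_left hw (by positivity)
          _ = _ := mul_one _
      have hxbig : ‖(p : L)‖ < ‖x‖ ^ (p - 1) := by
        by_contra hcon
        have hcon' := not_lt.1 hcon
        have h1 : ‖a - 1‖ ≤ ‖(p : L)‖ * ‖x‖ := by
          rw [hax]
          refine (IsUltrametricDist.norm_add_le_max _ _).trans (max_le ?_ hpxw)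
          rw [norm_pow, hpe, mul_comm]
          exact mul_le_mul_of_nonneg_right hcon' (norm_nonneg _)
        have h2 : ‖a - 1‖ ^ (p - 1) ≤ ‖(p : L)‖ ^ p := by
          calc ‖a - 1‖ ^ (p - 1) ≤ (‖(p : L)‖ * ‖x‖) ^ (p - 1) :=
                pow_le_pow_left₀ (norm_nonneg _) h1 _
            _ = ‖(p : L)‖ ^ (p - 1) * ‖x‖ ^ (p - 1) := mul_pow _ _ _
            _ ≤ ‖(p : L)‖ ^ (p - 1) * ‖(p : L)‖ :=
                mul_le_mul_of_nonneg_left hcon' (by positivity)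
            _ = ‖(p : L)‖ ^ p := by rw [hpe]; ring
        exact hbig h2
      have hx0 : x ≠ 0 := by
        intro h
        rw [h, norm_zero, zero_pow (by omega)] at hxbig
        linarith
      have hxn : 0 < ‖x‖ := norm_pos_iff.2 hx0
      have haxn : ‖a - 1‖ = ‖x‖ ^ p := by
        have h1 : ‖(p : L) * x * w‖ < ‖x ^ p‖ := by
          rw [norm_pow, hpe]
          calc ‖(p : L) * x * w‖ ≤ ‖(p : L)‖ * ‖x‖ := hpxw
            _ < ‖x‖ ^ (p - 1) * ‖x‖ := mul_lt_mul_of_pos_right hxbig hxn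
            _ = _ := mul_comm _ _
        rw [hax, IsUltrametricDist.norm_add_eq_max_of_norm_ne_norm h1.ne', max_eq_left h1.le,
          norm_pow]
      have hzx : ‖ζ - 1‖ < ‖x‖ :=
        lt_of_pow_lt_pow_left₀ (p - 1) hxn.le (lt_of_le_of_lt hz hxbig)
      have hδn : ‖(ζ - 1) * α / x‖ = ‖ζ - 1‖ / ‖x‖ := by
        rw [norm_div, norm_mul, hαn, mul_one]
      have h1 := RamKum_core hD hC hG T Pi hPi hDB H₁ π ζ α x hπ hζfix hζ1 hζp hα0 hαfix hx0
        (fun h => by rw [hx, smul_sub, smul_one]; ring) j hj (by rw [← haxn, haj])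
        (by rw [hδn]; exact (div_lt_one hxn).2 hzx)
      rw [hδn, div_pow] at h1
      have h2 : ‖ζ - 1‖ ^ ((p - 1) ^ 2) ≤ ‖(p : L)‖ ^ (p - 1) := by
        rw [sq, pow_mul]
        exact pow_le_pow_left₀ (by positivity) hz _
      have hX : 0 < ‖x‖ ^ ((p - 1) ^ 2) := by positivity
      have h3 : ‖(p : L)‖ * ‖x‖ ^ ((p - 1) ^ 2) ≤ ‖(p : L)‖ * ‖(p : L)‖ ^ (p - 2) := by
        have h4 : ‖(p : L)‖ * ‖x‖ ^ ((p - 1) ^ 2) ≤ ‖ζ - 1‖ ^ ((p - 1) ^ 2) :=
          (le_div_iff₀ hX).1 h1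
        have h5 : ‖(p : L)‖ * ‖(p : L)‖ ^ (p - 2) = ‖(p : L)‖ ^ (p - 1) := by
          rw [← pow_succ']
          congr 1
          omega
        rw [h5]
        exact h4.trans h2
      have h6 : ‖x‖ ^ ((p - 1) ^ 2) ≤ ‖(p : L)‖ ^ (p - 2) := le_of_mul_le_mul_left h3 hpn0
      calc ‖a - 1‖ ^ ((p - 1) ^ 2) = (‖x‖ ^ ((p - 1) ^ 2)) ^ p := by
            rw [haxn, ← pow_mul, ← pow_mul, mul_comm]
        _ ≤ (‖(p : L)‖ ^ (p - 2)) ^ p := pow_le_pow_left₀ hX.le h6 _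
        _ = ‖(p : L)‖ ^ (p * (p - 2)) := by rw [← pow_mul, mul_comm]

end Fermat.Agent.TW56.Flat

end
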