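/-
TEAM TW56 -> S56, block FLAT, task FL-ROOT-E : existence of `p`-th roots near `1`.
-/
import Fermat.Agent.TW56.Flat.Interface2

set_option autoImplicit false

noncomputable section

namespace Fermat.Agent.TW56.Flat

section RootE

variable {p : ℕ} {C : Type} [CommRing C] {N : C → ℝ}

theorem RootE_sub (h : UNorm p C N) (x y : C) : N (x - y) ≤ max (N x) (N y) := by
  rw [sub_eq_add_neg]
  have := h.add x (-y)
  rwa [h.neg] at this

theorem RootE_sub_comm (h : UNorm p C N) (x y : C) : N (x - y) = N (y - x) := by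
  rw [← neg_sub, h.neg]

theorem RootE_sum_le (h : UNorm p C N) {ι : Type} (s : Finset ι) (f : ι → C) {B : ℝ}
    (hB : 0 ≤ B) (hf : ∀ i ∈ s, N (f i) ≤ B) : N (∑ i ∈ s, f i) ≤ B := by
  classical
  induction s using Finset.induction_on with
  | empty => rw [Finset.sum_empty, h.zero]; exact hB
  | insert a s ha ih =>
    rw [Finset.sum_insert ha]
    exact (h.add _ _).trans (max_le (hf a (Finset.mem_insert_self a s))
      (ih fun i hi => hf i (Finset.mem_insert_of_mem hi)))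

theorem RootE_natCast_mul (h : UNorm p C N) (m : ℕ) (z : C) : N ((m : C) * z) ≤ N z := by
  induction m with
  | zero => rw [Nat.cast_zero, zero_mul, h.zero]; exact h.nonneg z
  | succ m ih =>
    rw [Nat.cast_succ, add_mul, one_mul]
    exact (h.add _ _).trans (max_le ih le_rfl)

theorem RootE_pow_le (h : UNorm p C N) {ρ : ℝ} {w : C} (hw : N w ≤ ρ) (i : ℕ) :
    N (w ^ i) ≤ ρ ^ i := by
  induction i with
  | zero => rw [pow_zero, pow_zero]; exact h.one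
  | succ i ih =>
    rw [pow_succ, pow_succ]
    exact (h.mul _ _).trans (mul_le_mul ih hw (h.nonneg _) ((h.nonneg _).trans ih))

theorem RootE_pow_sub (h : UNorm p C N) {ρ : ℝ} (hρ0 : 0 ≤ ρ) {w w' : C} (hw : N w ≤ ρ)
    (hw' : N w' ≤ ρ) (i : ℕ) : N (w ^ (i + 1) - w' ^ (i + 1)) ≤ N (w - w') * ρ ^ i := by
  induction i with
  | zero => simp
  | succ i ih =>
    have e : w ^ (i + 1 + 1) - w' ^ (i + 1 + 1)
        = w * (w ^ (i + 1) - w' ^ (i + 1)) + (w - w') * w' ^ (i + 1) := by ring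
    rw [e]
    refine (h.add _ _).trans (max_le ?_ ?_)
    · calc N (w * (w ^ (i + 1) - w' ^ (i + 1))) ≤ N w * N (w ^ (i + 1) - w' ^ (i + 1)) := h.mul _ _
        _ ≤ ρ * (N (w - w') * ρ ^ i) := mul_le_mul hw ih (h.nonneg _) hρ0
        _ = N (w - w') * ρ ^ (i + 1) := by ring
    · calc N ((w - w') * w' ^ (i + 1)) ≤ N (w - w') * N (w' ^ (i + 1)) := h.mul _ _
        _ ≤ N (w - w') * ρ ^ (i + 1) :=
          mul_le_mul_of_nonneg_left (RootE_pow_le h hw' _) (h.nonneg _)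

/-- the non linear part of `(1 + w) ^ p`. -/
def RootE_P (p : ℕ) (w : C) : C := (1 + w) ^ p - 1 - (p : C) * w

theorem RootE_P_zero (p : ℕ) : RootE_P p (0 : C) = 0 := by
  simp [RootE_P]

theorem RootE_expand (q : ℕ) (w : C) : RootE_P (q + 1) w
    = ∑ i ∈ Finset.range q, ((q + 1).choose (i + 2) : C) * w ^ (i + 2) := by
  unfold RootE_P
  rw [add_comm 1 w, add_pow, Finset.sum_range_succ', Finset.sum_range_succ']
  simp only [one_pow, mul_one, pow_zero, Nat.choose_zero_right, Nat.cast_one, zero_add, pow_one,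
    Nat.choose_one_right]
  have : ∑ i ∈ Finset.range q, w ^ (i + 1 + 1) * ((q + 1).choose (i + 1 + 1) : C)
      = ∑ i ∈ Finset.range q, ((q + 1).choose (i + 2) : C) * w ^ (i + 2) :=
    Finset.sum_congr rfl (fun i _ => mul_comm _ _)
  rw [this]
  ring

/-- the Lipschitz estimate. -/
theorem RootE_lip (hp : p.Prime) (h : UNorm p C N) {ρ : ℝ} (hρ0 : 0 ≤ ρ) (hρ1 : ρ ≤ 1) {w w' : C}
    (hw : N w ≤ ρ) (hw' : N w' ≤ ρ) :
    N (RootE_P p w - RootE_P p w') ≤ max ((p : ℝ)⁻¹ * ρ) (ρ ^ (p - 1)) * N (w - w') := by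
  obtain ⟨q, rfl⟩ : ∃ q, p = q + 1 := ⟨p - 1, (Nat.succ_pred_eq_of_pos hp.pos).symm⟩
  rw [RootE_expand, RootE_expand, ← Finset.sum_sub_distrib]
  have hK : 0 ≤ max (((q + 1 : ℕ) : ℝ)⁻¹ * ρ) (ρ ^ (q + 1 - 1)) :=
    le_max_of_le_right (pow_nonneg hρ0 _)
  apply RootE_sum_le h _ _ (mul_nonneg hK (h.nonneg _))
  intro i hi
  rw [Finset.mem_range] at hi
  rw [← mul_sub]
  have h1 := RootE_pow_sub h hρ0 hw hw' (i + 1)
  rcases Nat.lt_or_ge (i + 2) (q + 1) with hlt | hge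
  · obtain ⟨m, hm⟩ := hp.dvd_choose_self (Nat.succ_ne_zero (i + 1)) hlt
    rw [hm, Nat.cast_mul, mul_assoc, h.smul_p]
    have h2 : ρ ^ (i + 1) ≤ ρ := pow_le_of_le_one hρ0 hρ1 (Nat.succ_ne_zero i)
    have hr : 0 ≤ (((q + 1 : ℕ) : ℝ))⁻¹ := by positivity
    calc ((q + 1 : ℕ) : ℝ)⁻¹ * N ((m : C) * (w ^ (i + 2) - w' ^ (i + 2)))
        ≤ ((q + 1 : ℕ) : ℝ)⁻¹ * (N (w - w') * ρ) :=
          mul_le_mul_of_nonneg_left (((RootE_natCast_mul h m _).trans h1).trans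
            (mul_le_mul_of_nonneg_left h2 (h.nonneg _))) hr
      _ = (((q + 1 : ℕ) : ℝ)⁻¹ * ρ) * N (w - w') := by ring
      _ ≤ _ := mul_le_mul_of_nonneg_right (le_max_left _ _) (h.nonneg _)
  · have hiq : i + 2 = q + 1 := by omega
    have hiq' : i + 1 = q + 1 - 1 := by omega
    have hc : ((q + 1).choose (i + 2) : C) = 1 := by rw [hiq, Nat.choose_self, Nat.cast_one]
    rw [hc, one_mul]
    calc N (w ^ (i + 2) - w' ^ (i + 2)) ≤ N (w - w') * ρ ^ (i + 1) := h1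
      _ = ρ ^ (q + 1 - 1) * N (w - w') := by rw [hiq', mul_comm]
      _ ≤ max (((q + 1 : ℕ) : ℝ)⁻¹ * ρ) (ρ ^ (q + 1 - 1)) * N (w - w') :=
        mul_le_mul_of_nonneg_right (le_max_right _ _) (h.nonneg _)

end RootE

/-- **FL-ROOT-E**. -/
theorem rootE : Stmt_RootE := by
  intro p _ C _ N h hc hdiv x ρ hρ0 hρp hx
  have hp : p.Prime := Fact.out
  have hpR : (0 : ℝ) < p := Nat.cast_pos.2 hp.pos
  have hr0 : 0 < (p : ℝ)⁻¹ := inv_pos.2 hpR
  have hr1 : (p : ℝ)⁻¹ < 1 := inv_lt_one_of_one_lt₀ (by exact_mod_cast hp.one_lt)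
  have hpr : (p : ℝ) * (p : ℝ)⁻¹ = 1 := mul_inv_cancel₀ hpR.ne'
  have hρ1 : ρ < 1 := by
    by_contra hcon
    have h1 : 1 ≤ ρ := not_lt.1 hcon
    have h2 : 1 ≤ ρ ^ (p - 1) := one_le_pow₀ h1
    linarith
  obtain ⟨K, hK⟩ : ∃ K : ℝ, K = max ((p : ℝ)⁻¹ * ρ) (ρ ^ (p - 1)) := ⟨_, rfl⟩
  have hK0 : 0 ≤ K := by rw [hK]; exact le_max_of_le_right (pow_nonneg hρ0 _)
  have hKr : K < (p : ℝ)⁻¹ := by
    rw [hK]
    exact max_lt (by nlinarith) hρp
  have hlam0 : 0 ≤ (p : ℝ) * K := mul_nonneg hpR.le hK0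
  have hlam1 : (p : ℝ) * K < 1 := by
    rw [← hpr]; exact mul_lt_mul_of_pos_left hKr hpR
  choose dv hdv using hdiv
  have hNp : ∀ z, N z = p * N ((p : C) * z) := fun z => by
    rw [h.smul_p, ← mul_assoc, hpr, one_mul]
  obtain ⟨Φ, hΦp⟩ : ∃ Φ : C → C, ∀ w, (p : C) * Φ w = (x - 1) - RootE_P p w :=
    ⟨fun w => dv ((x - 1) - RootE_P p w), fun w => hdv _⟩
  have hball : ∀ w, N w ≤ ρ → N (Φ w) ≤ ρ := by
    intro w hw
    have h0 : N (0 : C) ≤ ρ := by rw [h.zero]; exact hρ0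
    have h1 := RootE_lip hp h hρ0 hρ1.le hw h0
    rw [RootE_P_zero, sub_zero, sub_zero, ← hK] at h1
    have h2 : N (RootE_P p w) ≤ (p : ℝ)⁻¹ * ρ :=
      h1.trans (mul_le_mul hKr.le hw (h.nonneg _) hr0.le)
    rw [hNp, hΦp]
    have h3 : N ((x - 1) - RootE_P p w) ≤ (p : ℝ)⁻¹ * ρ :=
      (RootE_sub h _ _).trans (max_le hx h2)
    calc (p : ℝ) * N ((x - 1) - RootE_P p w) ≤ p * ((p : ℝ)⁻¹ * ρ) :=
          mul_le_mul_of_nonneg_left h3 hpR.le
      _ = ρ := by rw [← mul_assoc, hpr, one_mul]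
  have hlip : ∀ w w', N w ≤ ρ → N w' ≤ ρ → N (Φ w - Φ w') ≤ (p : ℝ) * K * N (w - w') := by
    intro w w' hw hw'
    rw [hNp, mul_sub, hΦp, hΦp]
    have e : (x - 1 - RootE_P p w) - (x - 1 - RootE_P p w') = RootE_P p w' - RootE_P p w := by
      ring
    have h1 := RootE_lip hp h hρ0 hρ1.le hw' hw
    rw [← hK] at h1
    rw [e, RootE_sub_comm h w w', mul_assoc]
    exact mul_le_mul_of_nonneg_left h1 hpR.le
  -- the sequence
  obtain ⟨s, hs0, hss⟩ : ∃ s : ℕ → C, s 0 = 0 ∧ ∀ n, s (n + 1) = Φ (s n) :=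
    ⟨fun n => Φ^[n] 0, rfl, fun n => Function.iterate_succ_apply' Φ n 0⟩
  have hsb : ∀ n, N (s n) ≤ ρ := by
    intro n
    induction n with
    | zero => rw [hs0, h.zero]; exact hρ0
    | succ n ih => rw [hss]; exact hball _ ih
  have hsd : ∀ n, N (s (n + 1) - s n) ≤ ((p : ℝ) * K) ^ n := by
    intro n
    induction n with
    | zero => rw [pow_zero, hs0, sub_zero]; exact (hsb 1).trans hρ1.le
    | succ n ih =>
      have h1 := (hlip _ _ (hsb (n + 1)) (hsb n)).trans (mul_le_mul_of_nonneg_left ih hlam0)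
      rw [← hss (n + 1), ← hss n, ← pow_succ'] at h1
      exact h1
  obtain ⟨w, hw⟩ := hc s (by
    intro ε hε
    obtain ⟨n₀, hn₀⟩ := exists_pow_lt_of_lt_one hε hlam1
    exact ⟨n₀, fun n hn =>
      (hsd n).trans ((pow_le_pow_of_le_one hlam0 hlam1.le hn).trans hn₀.le)⟩)
  have hwb : N w ≤ ρ := by
    apply le_of_forall_pos_le_add
    intro ε hε
    obtain ⟨n₀, hn₀⟩ := hw ε hε
    have h1 := hn₀ n₀ le_rfl
    have e : w = (w - s n₀) + s n₀ := by ring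
    rw [e]
    refine (h.add _ _).trans (max_le ?_ ?_)
    · linarith
    · linarith [hsb n₀]
  have hfix : Φ w = w := by
    have h0 : N (Φ w - w) ≤ 0 := by
      apply le_of_forall_pos_le_add
      intro ε hε
      obtain ⟨n₀, hn₀⟩ := hw ε hε
      have h1 := hn₀ n₀ le_rfl
      have h2 := hn₀ (n₀ + 1) (Nat.le_succ _)
      have e : Φ w - w = (Φ w - Φ (s n₀)) - (w - s (n₀ + 1)) := by rw [hss]; ring
      rw [e, zero_add]
      refine (RootE_sub h _ _).trans (max_le ?_ h2)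
      refine (hlip _ _ hwb (hsb _)).trans ?_
      calc (p : ℝ) * K * N (w - s n₀) ≤ 1 * ε := mul_le_mul hlam1.le h1 (h.nonneg _) zero_le_one
        _ = ε := one_mul _
    have h1 := h.eq_zero _ (le_antisymm h0 (h.nonneg _))
    exact sub_eq_zero.1 h1
  refine ⟨1 + w, ?_, by rw [add_sub_cancel_left]; exact hwb⟩
  have h1 := hΦp w
  rw [hfix] at h1
  unfold RootE_P at h1
  linear_combination h1

end Fermat.Agent.TW56.Flat

end
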