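import Fermat.Agent.TW56.Flat.Interface2

/-!
# TW56 / Flat, task FL-ROOT-INV (helper77): elements near `1` are units
-/

set_option autoImplicit false

namespace Fermat.Agent.TW56.Flat

theorem RootInv_pow_le {p : ℕ} {C : Type} [CommRing C] {N : C → ℝ} (h : UNorm p C N) (z : C)
    (n : ℕ) : N (z ^ n) ≤ N z ^ n := by
  induction n with
  | zero => simpa using h.one
  | succ n ih =>
    rw [pow_succ, pow_succ]
    exact (h.mul _ _).trans (mul_le_mul_of_nonneg_right ih (h.nonneg z))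

theorem RootInv_small {ρ ε : ℝ} (h0 : 0 ≤ ρ) (h1 : ρ < 1) (hε : 0 < ε) :
    ∃ n₀ : ℕ, ∀ n, n₀ ≤ n → ρ ^ n ≤ ε := by
  obtain ⟨n₀, hn₀⟩ := exists_pow_lt_of_lt_one hε h1
  exact ⟨n₀, fun n hn => (pow_le_pow_of_le_one h0 h1.le hn).trans hn₀.le⟩

theorem rootInv : Stmt_RootInv := by
  intro p _ C _ N h hc x hx
  obtain ⟨z, hz⟩ : ∃ z : C, z = 1 - x := ⟨_, rfl⟩
  have hρ : N z = N (x - 1) := by rw [hz, ← h.neg, neg_sub]
  have hz1 : N z < 1 := hρ ▸ hx
  have hz0 := h.nonneg z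
  let Y : ℕ → C := fun n => ∑ i ∈ Finset.range n, z ^ i
  have hstep : ∀ n, Y (n + 1) - Y n = z ^ n := fun n => by
    simp only [Y, Finset.sum_range_succ]
    ring
  obtain ⟨y, hy⟩ := hc Y (fun ε hε => by
    obtain ⟨n₀, hn₀⟩ := RootInv_small hz0 hz1 hε
    exact ⟨n₀, fun n hn => by rw [hstep]; exact (RootInv_pow_le h z n).trans (hn₀ n hn)⟩)
  have hxY : ∀ n, x * Y n - 1 = - z ^ n := by
    intro n
    have h1 : (1 - z) * Y n = 1 - z ^ n := mul_neg_geom_sum z n
    have hx' : x = 1 - z := by rw [hz]; ring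
    rw [hx', h1]
    ring
  have hNx : N x ≤ 1 := by
    have : x = (x - 1) + 1 := by ring
    rw [this]
    exact (h.add _ _).trans (max_le hx.le h.one)
  refine ⟨y, ?_, ?_⟩
  · have h1 : N (x * y - 1) ≤ 0 := by
      apply le_of_forall_pos_le_add
      intro ε hε
      obtain ⟨n₁, hn₁⟩ := hy ε hε
      obtain ⟨n₂, hn₂⟩ := RootInv_small hz0 hz1 hε
      have e : x * y - 1 = x * (y - Y (max n₁ n₂)) + (x * Y (max n₁ n₂) - 1) := by ring
      rw [e, zero_add]
      refine (h.add _ _).trans (max_le ?_ ?_)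
      · calc N (x * (y - Y (max n₁ n₂))) ≤ N x * N (y - Y (max n₁ n₂)) := h.mul _ _
          _ ≤ 1 * ε := mul_le_mul hNx (hn₁ _ (le_max_left _ _)) (h.nonneg _) zero_le_one
          _ = ε := one_mul _
      · rw [hxY, h.neg]
        exact (RootInv_pow_le h z _).trans (hn₂ _ (le_max_right _ _))
    exact sub_eq_zero.mp (h.eq_zero _ (le_antisymm h1 (h.nonneg _)))
  · rw [← hρ]
    have hY1 : ∀ n, N (Y (n + 1) - 1) ≤ N z := by
      intro n
      induction n with
      | zero => simp [Y, h.zero, hz0]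
      | succ n ih =>
        have e : Y (n + 1 + 1) - 1 = (Y (n + 1) - 1) + z ^ (n + 1) := by
          rw [← hstep (n + 1)]
          ring
        rw [e]
        refine (h.add _ _).trans (max_le ih ?_)
        calc N (z ^ (n + 1)) ≤ N z ^ (n + 1) := RootInv_pow_le h z _
          _ ≤ N z := pow_le_of_le_one hz0 hz1.le (Nat.succ_ne_zero n)
    apply le_of_forall_pos_le_add
    intro ε hε
    obtain ⟨n₁, hn₁⟩ := hy ε hε
    have e : y - 1 = (y - Y (n₁ + 1)) + (Y (n₁ + 1) - 1) := by ring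
    rw [e]
    refine (h.add _ _).trans (max_le ?_ ?_)
    · exact (hn₁ _ (Nat.le_succ _)).trans (by linarith)
    · exact (hY1 n₁).trans (by linarith)

end Fermat.Agent.TW56.Flat
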