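/-
TEAM TW56 -> S56, block FLAT, task FL-ROOT-U (helper92): API of `UNorm` and uniqueness of `p`-th
roots near `1`.
-/
import Fermat.Agent.TW56.Flat.Interface2

set_option autoImplicit false

noncomputable section

namespace Fermat.Agent.TW56.Flat

namespace UNorm

variable {p : ℕ} {C : Type} [CommRing C] {N : C → ℝ}

theorem sub_le (h : UNorm p C N) (x y : C) : N (x - y) ≤ max (N x) (N y) := by
  rw [sub_eq_add_neg, ← h.neg y]
  exact h.add x (-y)

theorem sub_comm (h : UNorm p C N) (x y : C) : N (x - y) = N (y - x) := by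
  rw [← h.neg (x - y), neg_sub]

theorem natCast_mul_le (h : UNorm p C N) (m : ℕ) (x : C) : N ((m : C) * x) ≤ N x := by
  induction m with
  | zero => simp [h.zero, h.nonneg]
  | succ m ih =>
    rw [Nat.cast_succ, add_mul, one_mul]
    exact (h.add _ _).trans (max_le ih le_rfl)

theorem mul_natCast_le (h : UNorm p C N) (m : ℕ) (x : C) : N (x * (m : C)) ≤ N x := by
  rw [mul_comm]
  exact h.natCast_mul_le m x

theorem natCast_le (h : UNorm p C N) (m : ℕ) : N (m : C) ≤ 1 := by
  have := h.natCast_mul_le m 1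
  rw [mul_one] at this
  exact this.trans h.one

theorem pow_le (h : UNorm p C N) (x : C) (k : ℕ) : N (x ^ k) ≤ N x ^ k := by
  induction k with
  | zero => simpa using h.one
  | succ k ih =>
    rw [pow_succ, pow_succ]
    exact (h.mul _ _).trans (mul_le_mul_of_nonneg_right ih (h.nonneg x))

theorem sum_le (h : UNorm p C N) {ι : Type*} (s : Finset ι) (f : ι → C) {B : ℝ} (hB : 0 ≤ B)
    (hf : ∀ i ∈ s, N (f i) ≤ B) : N (∑ i ∈ s, f i) ≤ B := by
  classical
  induction s using Finset.induction_on with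
  | empty => simpa [h.zero] using hB
  | insert a s ha ih =>
    rw [Finset.sum_insert ha]
    exact (h.add _ _).trans (max_le (hf a (Finset.mem_insert_self a s))
      (ih fun i hi => hf i (Finset.mem_insert_of_mem hi)))

/-- the dominant term. -/
theorem le_add_of_lt (h : UNorm p C N) {x y : C} (hxy : N y < N x) : N x ≤ N (x + y) := by
  have e : x = (x + y) - y := by ring
  have h1 := h.sub_le (x + y) y
  rw [← e] at h1
  rcases le_max_iff.1 h1 with h' | h'
  · exact h'
  · exact absurd hxy (not_lt.2 h')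

theorem add_eq_of_lt (h : UNorm p C N) {x y : C} (hxy : N y < N x) : N (x + y) = N x :=
  le_antisymm ((h.add x y).trans (max_le le_rfl hxy.le)) (h.le_add_of_lt hxy)

theorem pos_of_ne_zero (h : UNorm p C N) {x : C} (hx : x ≠ 0) : 0 < N x :=
  lt_of_le_of_ne (h.nonneg x) fun e => hx (h.eq_zero x e.symm)

end UNorm

/-- **FL-ROOT-U**. -/
theorem rootU : Stmt_RootU := by
  intro p _ C _ N h y hy hlt
  have hp : p.Prime := Fact.out
  by_contra hne
  set w := y - 1 with hw
  have hw0 : w ≠ 0 := sub_ne_zero.2 hne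
  have hn0 : 0 < N w := h.pos_of_ne_zero hw0
  have hpR : (0 : ℝ) < p := by exact_mod_cast hp.pos
  have hp1 : (p : ℝ)⁻¹ ≤ 1 := inv_le_one_of_one_le₀ (by exact_mod_cast hp.one_le)
  have hn1 : N w < 1 := by
    by_contra hge
    have : 1 ≤ N w ^ (p - 1) := one_le_pow₀ (not_lt.1 hge)
    linarith
  have hexp := add_pow_prime_eq' hp w 1
  have hy' : w + 1 = y := by rw [hw]; ring
  rw [hy', hy] at hexp
  simp only [one_pow, mul_one] at hexp
  have hmem : 1 ∈ Finset.Ioo 0 p := Finset.mem_Ioo.2 ⟨one_pos, hp.one_lt⟩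
  have hsplit := Finset.add_sum_erase (Finset.Ioo 0 p)
    (fun k => w ^ k * ((p.choose k / p : ℕ) : C)) hmem
  have hc1 : ((p.choose 1 / p : ℕ) : C) = 1 := by
    rw [Nat.choose_one_right, Nat.div_self hp.pos, Nat.cast_one]
  simp only [pow_one, hc1, mul_one] at hsplit
  rw [← hsplit] at hexp
  set R := ∑ k ∈ (Finset.Ioo 0 p).erase 1, w ^ k * ((p.choose k / p : ℕ) : C) with hR
  have h1 : (p : C) * (w + R) = - w ^ p := by linear_combination -hexp
  have hRle : N R ≤ N w ^ 2 := by
    refine h.sum_le _ _ (by positivity) ?_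
    intro k hk
    obtain ⟨hk1, hk2⟩ := Finset.mem_erase.1 hk
    obtain ⟨hk3, hk4⟩ := Finset.mem_Ioo.1 hk2
    refine (h.mul_natCast_le _ _).trans ((h.pow_le _ _).trans ?_)
    exact pow_le_pow_of_le_one hn0.le hn1.le (by omega)
  have hRlt : N R < N w := by nlinarith
  have hTge : N w ≤ N (w + R) := h.le_add_of_lt hRlt
  have h2 : N ((p : C) * (w + R)) = (p : ℝ)⁻¹ * N (w + R) := h.smul_p _
  rw [h1, h.neg] at h2
  have h3 : N (w ^ p) ≤ N w ^ p := h.pow_le w p
  have h4 : N w ^ p = N w ^ (p - 1) * N w := by rw [← pow_succ, Nat.sub_add_cancel hp.one_le]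
  have h5 : N w ^ (p - 1) * N w < (p : ℝ)⁻¹ * N w := mul_lt_mul_of_pos_right hlt hn0
  have h6 : (p : ℝ)⁻¹ * N w ≤ (p : ℝ)⁻¹ * N (w + R) :=
    mul_le_mul_of_nonneg_left hTge (by positivity)
  linarith

end Fermat.Agent.TW56.Flat

end
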