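/-
TEAM TW56 -> S56, block FLAT.  FL-SEPPT : distinct points are incongruent modulo `p^{1/(p-1)}`.
-/
import Fermat.Agent.TW56.Flat.Interface2

set_option autoImplicit false

noncomputable section

namespace Fermat.Agent.TW56.Flat

open WithConv

/-- integral elements of an ultrametric normed field have norm `≤ 1`. -/
theorem SepPt_norm_le_one {R F : Type} [CommRing R] [NormedField F] [Algebra R F]
    (hu : IsUltrametricDist F) (hR : ∀ r : R, ‖algebraMap R F r‖ ≤ 1) {x : F}
    (hx : IsIntegral R x) : ‖x‖ ≤ 1 := by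
  by_contra hlt
  rw [not_le] at hlt
  obtain ⟨P, hP, hPx⟩ := hx
  set n := P.natDegree with hn
  have hn0 : n ≠ 0 := by
    intro h0
    have h1 : P = 1 := hP.natDegree_eq_zero.1 h0
    rw [h1] at hPx
    simp at hPx
  rw [Polynomial.eval₂_eq_sum_range, Finset.sum_range_succ, ← hn] at hPx
  have hlead : P.coeff n = 1 := hP
  rw [hlead, map_one, one_mul] at hPx
  have h1 : x ^ n = - ∑ i ∈ Finset.range n, algebraMap R F (P.coeff i) * x ^ i := by
    rw [eq_neg_iff_add_eq_zero, add_comm]; exact hPx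
  have h2 : ‖x ^ n‖ ≤ ‖x‖ ^ (n - 1) := by
    rw [h1, norm_neg]
    apply IsUltrametricDist.norm_sum_le_of_forall_le_of_nonneg (by positivity)
    intro i hi
    rw [norm_mul, norm_pow]
    calc ‖algebraMap R F (P.coeff i)‖ * ‖x‖ ^ i ≤ 1 * ‖x‖ ^ i := by
          gcongr; exact hR _
      _ = ‖x‖ ^ i := one_mul _
      _ ≤ ‖x‖ ^ (n - 1) := pow_le_pow_right₀ hlt.le (by have := Finset.mem_range.1 hi; omega)
  rw [norm_pow] at h2
  have h3 : ‖x‖ ^ (n - 1) < ‖x‖ ^ n := pow_lt_pow_right₀ hlt (by omega)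
  linarith

/-- **FL-SEPPT** -/
theorem sepPt (hU : Stmt_RootU) (hN : Stmt_ConvN) : Stmt_SepPt := by
  intro p _ F H _ _ _ _ _ _ _ hF hp f g hfg
  obtain ⟨hUN, hle, hatt, -, -⟩ := hN p H F hF
  let L : WithConv (H →ₐ[Rp p] F) → WithConv (H →ₗ[Rp p] F) :=
    fun φ => toConv φ.ofConv.toLinearMap
  have hLmul : ∀ a b, L (a * b) = L a * L b := AlgHom.toLinearMap_convMul
  have hLone : L 1 = 1 := AlgHom.toLinearMap_convOne
  have hLpow : ∀ a n, L (a ^ n) = L a ^ n := AlgHom.toLinearMap_convPow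
  have hLinj : Function.Injective L := fun a b h => by
    apply WithConv.ofConv_injective
    apply AlgHom.toLinearMap_injective
    exact WithConv.toConv_injective h
  have hint : ∀ φ : WithConv (H →ₐ[Rp p] F), convN p H F (L φ) ≤ 1 := by
    intro φ
    rw [hle _ 1 zero_le_one]
    intro c
    exact SepPt_norm_le_one hF.ultra hF.norm_alg
      ((Algebra.IsIntegral.isIntegral (R := Rp p) c).map φ.ofConv)
  set f' : WithConv (H →ₐ[Rp p] F) := toConv f with hf'
  set g' : WithConv (H →ₐ[Rp p] F) := toConv g with hg'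
  have hp1 : p - 1 + 1 = p := Nat.sub_add_cancel (Fact.out : p.Prime).pos
  set y := g' * f' ^ (p - 1) with hy
  have hy1 : y ≠ 1 := by
    intro h
    apply hfg
    have h2 : g' = f' := by
      calc g' = g' * f' ^ p := by rw [hp f', mul_one]
        _ = g' * (f' ^ (p - 1) * f') := by rw [← pow_succ, hp1]
        _ = y * f' := by rw [hy, mul_assoc]
        _ = f' := by rw [h, one_mul]
    exact (congrArg WithConv.ofConv h2).symm
  have hYp : (L y) ^ p = 1 := by rw [← hLpow, hp y, hLone]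
  have hY1 : L y ≠ 1 := fun h => hy1 (hLinj (h.trans hLone.symm))
  have hge : (p : ℝ)⁻¹ ≤ convN p H F (L y - 1) ^ (p - 1) := by
    by_contra hlt
    exact hY1 (hU p _ _ hUN (L y) hYp (not_le.1 hlt))
  have hfac : L y - 1 = (L g' - L f') * L (f' ^ (p - 1)) := by
    rw [sub_mul, ← hLmul, ← hLmul, ← pow_succ', hp1, hp f', hLone]
  have hNle : convN p H F (L y - 1) ≤ convN p H F (L g' - L f') := by
    rw [hfac]
    calc convN p H F ((L g' - L f') * L (f' ^ (p - 1)))
        ≤ convN p H F (L g' - L f') * convN p H F (L (f' ^ (p - 1))) := hUN.mul _ _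
      _ ≤ convN p H F (L g' - L f') * 1 :=
          mul_le_mul_of_nonneg_left (hint _) (hUN.nonneg _)
      _ = _ := mul_one _
  obtain ⟨h, hh⟩ := hatt (L g' - L f')
  refine ⟨h, hge.trans ?_⟩
  have h3 : ‖f h - g h‖ = convN p H F (L g' - L f') := by
    rw [← hh, norm_sub_rev]
    rfl
  rw [h3]
  exact pow_le_pow_left₀ (hUN.nonneg _) hNle _

end Fermat.Agent.TW56.Flat

end
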