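/-
TEAM TW56 -> S56, block FLAT, sub-block RAM, package RAM-TWIN (helper48).

`HasPm M` implies the bound `DB` for the different: the Eisenstein twin `Q = P₀ - p^a X^j`.
-/
import Fermat.Agent.TW56.Flat.RamInterface
set_option autoImplicit false
noncomputable section
namespace Fermat.Agent.TW56.Flat
open Fermat.Agent.CFT.Local Polynomial

/-! ### generic ultrametric lemmas -/

section Gen

variable {W : Type} [NormedField W] [IsUltrametricDist W]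

theorem Twin_norm_eval_le_one (F : W[X]) (hF : ∀ i, ‖F.coeff i‖ ≤ 1) (β : W) (hβ : ‖β‖ ≤ 1) :
    ‖F.eval β‖ ≤ 1 := by
  rw [eval_eq_sum_range]
  refine IsUltrametricDist.norm_sum_le_of_forall_le_of_nonneg zero_le_one ?_
  intro i _
  rw [norm_mul, norm_pow]
  exact mul_le_one₀ (hF i) (by positivity) (pow_le_one₀ (norm_nonneg _) hβ)

theorem Twin_norm_eq_of_add_lt {x y : W} (h : ‖x + y‖ < ‖y‖) : ‖x‖ = ‖y‖ := by
  by_contra hne
  have h1 := IsUltrametricDist.norm_add_eq_max_of_norm_ne_norm hne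
  rw [h1] at h
  exact absurd (le_max_right _ _) (not_le.2 h)

/-- the norm of a root of an Eisenstein polynomial -/
theorem Twin_root_norm (Q : W[X]) (e : ℕ) (t : ℝ) (β : W) (hm : Q.Monic) (hd : Q.natDegree = e)
    (he : 1 ≤ e) (hc : ∀ i, i < e → ‖Q.coeff i‖ ≤ t) (h0 : ‖Q.coeff 0‖ = t) (ht0 : 0 < t)
    (ht1 : t < 1) (hβ : Q.eval β = 0) : ‖β‖ ^ e = t := by
  have hsum : β ^ e + ∑ i ∈ Finset.range e, Q.coeff i * β ^ i = 0 := by
    have h1 := hβ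
    rw [eval_eq_sum_range, hd, Finset.sum_range_succ] at h1
    have h2 : Q.coeff e = 1 := by rw [← hd]; exact hm.coeff_natDegree
    rw [h2, one_mul] at h1
    rw [add_comm]; exact h1
  -- `‖β‖ < 1`
  have hlt : ‖β‖ < 1 := by
    by_contra hge
    have hge : 1 ≤ ‖β‖ := not_lt.1 hge
    have hb : ‖∑ i ∈ Finset.range e, Q.coeff i * β ^ i‖ ≤ t * ‖β‖ ^ e := by
      refine IsUltrametricDist.norm_sum_le_of_forall_le_of_nonneg (by positivity) ?_
      intro i hi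
      rw [norm_mul, norm_pow]
      have hi' : i < e := Finset.mem_range.1 hi
      exact mul_le_mul (hc i hi') (pow_le_pow_right₀ hge hi'.le) (by positivity) ht0.le
    have h3 : β ^ e = - ∑ i ∈ Finset.range e, Q.coeff i * β ^ i := eq_neg_of_add_eq_zero_left hsum
    have h4 : ‖β‖ ^ e ≤ t * ‖β‖ ^ e := by
      calc ‖β‖ ^ e = ‖β ^ e‖ := (norm_pow _ _).symm
        _ = ‖∑ i ∈ Finset.range e, Q.coeff i * β ^ i‖ := by rw [h3, norm_neg]
        _ ≤ _ := hb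
    have h5 : 0 < ‖β‖ ^ e := by positivity
    nlinarith
  obtain ⟨e', rfl⟩ : ∃ e', e = e' + 1 := ⟨e - 1, by omega⟩
  rw [Finset.sum_range_succ'] at hsum
  have hb : ‖∑ i ∈ Finset.range e', Q.coeff (i + 1) * β ^ (i + 1)‖ ≤ t * ‖β‖ := by
    refine IsUltrametricDist.norm_sum_le_of_forall_le_of_nonneg (by positivity) ?_
    intro i hi
    rw [norm_mul, norm_pow]
    have hi' : i < e' := Finset.mem_range.1 hi
    refine mul_le_mul (hc (i + 1) (by omega)) ?_ (by positivity) ht0.le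
    calc ‖β‖ ^ (i + 1) ≤ ‖β‖ ^ 1 := pow_le_pow_of_le_one (norm_nonneg _) hlt.le (by omega)
      _ = ‖β‖ := pow_one _
  have h3 : β ^ (e' + 1) + Q.coeff 0 = - ∑ i ∈ Finset.range e', Q.coeff (i + 1) * β ^ (i + 1) := by
    have : β ^ (e' + 1) + Q.coeff 0 + ∑ i ∈ Finset.range e', Q.coeff (i + 1) * β ^ (i + 1) = 0 := by
      rw [← hsum]; simp; ring
    exact eq_neg_of_add_eq_zero_left this
  have h4 : ‖β ^ (e' + 1) + Q.coeff 0‖ < ‖Q.coeff 0‖ := by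
    rw [h3, norm_neg, h0]
    calc _ ≤ t * ‖β‖ := hb
      _ < t * 1 := by exact mul_lt_mul_of_pos_left hlt ht0
      _ = t := mul_one t
  have h5 := Twin_norm_eq_of_add_lt h4
  rw [norm_pow, h0] at h5
  exact h5

end Gen

section Abs

theorem Twin_norm_sub_le {W : Type} [NormedField W] [IsUltrametricDist W] (x y : W) {t : ℝ}
    (hx : ‖x‖ ≤ t) (hy : ‖y‖ ≤ t) : ‖x - y‖ ≤ t := by
  rw [sub_eq_add_neg]
  refine (IsUltrametricDist.norm_add_le_max x (-y)).trans ?_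
  rw [norm_neg]
  exact max_le hx hy

theorem Twin_norm_sub_eq {W : Type} [NormedField W] [IsUltrametricDist W] (x y : W)
    (h : ‖y‖ < ‖x‖) : ‖x - y‖ = ‖x‖ := by
  rw [sub_eq_add_neg]
  have h1 : ‖x‖ ≠ ‖-y‖ := by rw [norm_neg]; exact h.ne'
  rw [IsUltrametricDist.norm_add_eq_max_of_norm_ne_norm h1, norm_neg]
  exact max_eq_left h.le

variable {p : ℕ} {I L : Type} [Group I] [Finite I] [NormedField L] [MulSemiringAction I L]

/-- it suffices to prove `DB` for a minimising `s₁`. -/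
theorem Twin_reduce (Pi : L)
    (h : ∀ s₁ : I, s₁ ≠ 1 → (∀ s : I, s ≠ 1 → ‖s₁ • Pi - Pi‖ ≤ ‖s • Pi - Pi‖) →
      ‖(p : L)‖ ^ p * ‖Pi‖ ^ (p - 1) ≤
        ((∏ᶠ s : {s : I // s ≠ 1}, ‖(s : I) • Pi - Pi‖) * ‖s₁ • Pi - Pi‖) ^ (p - 1)) :
    DB p I L Pi := by
  intro s₁ hs₁
  have : Nonempty {s : I // s ≠ 1} := ⟨⟨s₁, hs₁⟩⟩
  obtain ⟨s₀, hs₀⟩ := Finite.exists_min (fun s : {s : I // s ≠ 1} => ‖(s : I) • Pi - Pi‖)
  refine (h s₀ s₀.2 (fun s hs => hs₀ ⟨s, hs⟩)).trans ?_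
  have hD : 0 ≤ ∏ᶠ s : {s : I // s ≠ 1}, ‖(s : I) • Pi - Pi‖ :=
    finprod_nonneg (fun _ => norm_nonneg _)
  refine pow_le_pow_left₀ (mul_nonneg hD (norm_nonneg _)) ?_ _
  exact mul_le_mul_of_nonneg_left (hs₀ ⟨s₁, hs₁⟩) hD

theorem Twin_core (hC : Stmt_RamCard) (hA : Stmt_TwinA) [Fact p.Prime] (hT : TotRam p I L)
    (Pi : L) (hPi : IsUnif Pi) (s₁ : I) (hs₁ : s₁ ≠ 1)
    (hlt : ((∏ᶠ s : {s : I // s ≠ 1}, ‖(s : I) • Pi - Pi‖) * ‖s₁ • Pi - Pi‖) ^ (p - 1) <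
      ‖(p : L)‖ ^ p * ‖Pi‖ ^ (p - 1))
    {W : Type} [NormedField W] [IsUltrametricDist W] [IsAlgClosed W] (j : L →+* W)
    (hj : ∀ x, ‖j x‖ = ‖x‖) :
    ∃ (c : ℝ) (Q : L[X]) (β : W), c ^ (p - 1) * (p : ℝ) ^ p < 1 ∧ Q.Monic ∧
      Q.natDegree = Nat.card I ∧ (∀ i (s : I), s • Q.coeff i = Q.coeff i) ∧
      (Q.map j).eval β = 0 ∧ ‖β‖ ≤ 1 ∧
      c * ‖Pi‖ = (∏ᶠ s : {s : I // s ≠ 1}, ‖(s : I) • Pi - Pi‖) * ‖s₁ • Pi - Pi‖ ∧
      ‖((∏ᶠ s : I, (X - C (s • Pi))).map j).eval β‖ = c := by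
  have := hT.act.loc.ultra
  obtain ⟨hmon, hdeg, hint, hcoef, hcoef0, hfree, -⟩ := hA p I L hT Pi hPi
  set P0 : L[X] := ∏ᶠ s : I, (X - C (s • Pi)) with hP0
  set DM : ℝ := (∏ᶠ s : {s : I // s ≠ 1}, ‖(s : I) • Pi - Pi‖) * ‖s₁ • Pi - Pi‖ with hDM
  set P : ℝ := ‖Pi‖ with hP
  set e : ℕ := Nat.card I with he
  have hP0' : 0 < P := norm_pos_iff.2 hPi.1
  have hP1 : P < 1 := hPi.2.1
  have he1 : 1 ≤ e := Nat.card_pos
  have hpe : ‖(p : L)‖ = P ^ e := by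
    have := hC p I L hT ⊤ (p : L) Pi hT.unr hPi
    rwa [Subgroup.card_top] at this
  have hp0 : 0 < ‖(p : L)‖ := by rw [hpe]; positivity
  have hp1 : ‖(p : L)‖ < 1 := hT.unr.2.1
  have hpp : 0 < p := (Fact.out : p.Prime).pos
  -- all the norms are powers of `P`
  have hN : ∀ s : I, s ≠ 1 → ∃ k : ℤ, ‖s • Pi - Pi‖ = P ^ k := fun s hs =>
    hPi.2.2 _ (sub_ne_zero.2 (fun h => hs (hfree s h)))
  have hDMk : ∃ k : ℤ, DM = P ^ k := by
    have h1 : ∃ k : ℤ, (∏ᶠ s : {s : I // s ≠ 1}, ‖(s : I) • Pi - Pi‖) = P ^ k := by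
      refine finprod_induction (fun x : ℝ => ∃ k : ℤ, x = P ^ k) ⟨0, by simp⟩ ?_ ?_
      · rintro x y ⟨k, rfl⟩ ⟨l, rfl⟩
        exact ⟨k + l, (zpow_add₀ hP0'.ne' k l).symm⟩
      · intro s
        exact hN s s.2
    obtain ⟨k, hk⟩ := h1
    obtain ⟨l, hl⟩ := hN s₁ hs₁
    exact ⟨k + l, by rw [hDM, hk, hl, zpow_add₀ hP0'.ne']⟩
  obtain ⟨k, hk⟩ := hDMk
  have hDM0 : 0 < DM := by rw [hk]; positivity
  have hc0 : 0 < DM / P := by positivity
  have hcpow : (DM / P) ^ (p - 1) < ‖(p : L)‖ ^ p := by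
    rw [div_pow, div_lt_iff₀ (by positivity)]
    exact hlt
  have hclt : DM / P < ‖(p : L)‖ := by
    by_contra hge
    have hge : ‖(p : L)‖ ≤ DM / P := not_lt.1 hge
    have h1 : ‖(p : L)‖ ^ (p - 1) ≤ (DM / P) ^ (p - 1) := pow_le_pow_left₀ hp0.le hge _
    have h2 : ‖(p : L)‖ ^ p ≤ ‖(p : L)‖ ^ (p - 1) :=
      pow_le_pow_of_le_one hp0.le hp1.le (Nat.sub_le _ _)
    linarith
  have hck : DM / P = P ^ (k - 1) := by
    rw [hk, zpow_sub₀ hP0'.ne', zpow_one]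
  have hek : (e : ℤ) < k - 1 := by
    rw [hck, hpe, ← zpow_natCast] at hclt
    exact (zpow_lt_zpow_iff_right_of_lt_one₀ hP0' hP1).1 hclt
  obtain ⟨Mv, hMv⟩ : ∃ Mv : ℕ, k - 1 = (Mv : ℤ) := ⟨(k - 1).toNat, by omega⟩
  have heM : e < Mv := by omega
  have hcM : DM / P = P ^ Mv := by rw [hck, hMv, zpow_natCast]
  set a : ℕ := Mv / e with ha
  set jj : ℕ := Mv % e with hjj
  have hMdiv : e * a + jj = Mv := Nat.div_add_mod Mv e
  have hjlt : jj < e := Nat.mod_lt _ he1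
  have ha1 : 1 ≤ a := by
    rw [ha]; exact (Nat.one_le_div_iff he1).2 heM.le
  have ha2 : jj = 0 → 2 ≤ a := by
    intro h0
    by_contra hlt2
    have : a = 1 := by omega
    rw [this, h0] at hMdiv
    omega
  set Q : L[X] := P0 - C ((p : L) ^ a) * X ^ jj with hQ
  have hQcoeff : ∀ i, Q.coeff i = P0.coeff i - (p : L) ^ a * (if i = jj then 1 else 0) := by
    intro i
    rw [hQ, coeff_sub, coeff_C_mul, coeff_X_pow]
  have hQmon : Q.Monic := by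
    refine hmon.sub_of_left ?_
    refine (degree_C_mul_X_pow_le jj _).trans_lt ?_
    rw [degree_eq_natDegree hmon.ne_zero, hdeg]
    exact_mod_cast hjlt
  have hQdeg : Q.natDegree = e := by
    rw [hQ, natDegree_sub_eq_left_of_natDegree_lt, hdeg]
    rw [hdeg]
    exact (natDegree_C_mul_X_pow_le _ jj).trans_lt hjlt
  have hpfix : ∀ s : I, s • (p : L) = (p : L) := fun s => hT.unr.2.2.1 s (Subgroup.mem_top s)
  have hQfix : ∀ i (s : I), s • Q.coeff i = Q.coeff i := by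
    intro i s
    rw [hQcoeff, smul_sub, smul_mul', smul_pow', hpfix, (hint i).1 s]
    split_ifs
    · rw [smul_one]
    · rw [smul_zero]
  have hpa : ‖(p : L) ^ a‖ ≤ ‖(p : L)‖ := by
    rw [norm_pow]
    calc ‖(p : L)‖ ^ a ≤ ‖(p : L)‖ ^ 1 := pow_le_pow_of_le_one hp0.le hp1.le ha1
      _ = _ := pow_one _
  have hQle : ∀ i, i < e → ‖Q.coeff i‖ ≤ ‖(p : L)‖ := by
    intro i hi
    rw [hQcoeff]
    refine Twin_norm_sub_le _ _ (hcoef i hi) ?_
    split_ifs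
    · rw [mul_one]; exact hpa
    · rw [mul_zero, norm_zero]; exact hp0.le
  have hQ0 : ‖Q.coeff 0‖ = ‖(p : L)‖ := by
    rw [hQcoeff]
    by_cases h0 : (0 : ℕ) = jj
    · rw [if_pos h0, mul_one, ← hcoef0]
      refine Twin_norm_sub_eq _ _ ?_
      rw [hcoef0, norm_pow]
      calc ‖(p : L)‖ ^ a ≤ ‖(p : L)‖ ^ 2 := pow_le_pow_of_le_one hp0.le hp1.le (ha2 h0.symm)
        _ < ‖(p : L)‖ := by nlinarith
    · rw [if_neg h0, mul_zero, sub_zero, hcoef0]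
  have hQjdeg : (Q.map j).natDegree = e := by rw [natDegree_map, hQdeg]
  obtain ⟨β, hβ⟩ := IsAlgClosed.exists_root (Q.map j) (by
    rw [degree_eq_natDegree (hQmon.map j).ne_zero, hQjdeg]
    exact_mod_cast (by omega : e ≠ 0))
  have hβ' : (Q.map j).eval β = 0 := hβ
  have hβe : ‖β‖ ^ e = ‖(p : L)‖ :=
    Twin_root_norm (Q.map j) e ‖(p : L)‖ β (hQmon.map j) hQjdeg he1
      (fun i hi => by rw [coeff_map, hj]; exact hQle i hi) (by rw [coeff_map, hj]; exact hQ0)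
      hp0 hp1 hβ'
  have hβP : ‖β‖ = P := by
    rw [hpe] at hβe
    exact (pow_left_inj₀ (norm_nonneg _) hP0'.le (by omega)).1 hβe
  refine ⟨DM / P, Q, β, ?_, hQmon, hQdeg, hQfix, hβ', by rw [hβP]; exact hP1.le,
    div_mul_cancel₀ _ hP0'.ne', ?_⟩
  · have h1 : ‖(p : L)‖ ^ p * (p : ℝ) ^ p = 1 := by
      rw [hT.normp, ← mul_pow, inv_mul_cancel₀ (by exact_mod_cast hpp.ne'), one_pow]
    calc (DM / P) ^ (p - 1) * (p : ℝ) ^ p < ‖(p : L)‖ ^ p * (p : ℝ) ^ p :=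
          mul_lt_mul_of_pos_right hcpow (by positivity)
      _ = 1 := h1
  · have h1 : (P0.map j).eval β = j ((p : L) ^ a) * β ^ jj := by
      have h2 := hβ'
      rw [hQ, Polynomial.map_sub, Polynomial.map_mul, map_C, Polynomial.map_pow, map_X, eval_sub,
        eval_mul, eval_C, eval_pow, eval_X, sub_eq_zero] at h2
      exact h2
    rw [h1, norm_mul, hj, norm_pow, norm_pow, hβP, hpe, hcM, ← pow_mul, ← pow_add, hMdiv]

/-! ### `IntCoeff` is a subring -/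

omit [Finite I] in
theorem Twin_int_add [IsUltrametricDist L] {F G : L[X]} (hF : IntCoeff I L F)
    (hG : IntCoeff I L G) : IntCoeff I L (F + G) := by
  intro i
  refine ⟨fun s => ?_, ?_⟩
  · rw [coeff_add, smul_add, (hF i).1 s, (hG i).1 s]
  · rw [coeff_add]
    exact (IsUltrametricDist.norm_add_le_max _ _).trans (max_le (hF i).2 (hG i).2)

omit [Finite I] in
theorem Twin_int_sub [IsUltrametricDist L] {F G : L[X]} (hF : IntCoeff I L F)
    (hG : IntCoeff I L G) : IntCoeff I L (F - G) := by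
  intro i
  refine ⟨fun s => ?_, ?_⟩
  · rw [coeff_sub, smul_sub, (hF i).1 s, (hG i).1 s]
  · rw [coeff_sub]
    exact Twin_norm_sub_le _ _ (hF i).2 (hG i).2

omit [Finite I] in
theorem Twin_int_mul [IsUltrametricDist L] {F G : L[X]} (hF : IntCoeff I L F)
    (hG : IntCoeff I L G) : IntCoeff I L (F * G) := by
  intro i
  refine ⟨fun s => ?_, ?_⟩
  · rw [coeff_mul, Finset.smul_sum]
    refine Finset.sum_congr rfl (fun x _ => ?_)
    rw [smul_mul', (hF x.1).1 s, (hG x.2).1 s]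
  · rw [coeff_mul]
    refine IsUltrametricDist.norm_sum_le_of_forall_le_of_nonneg zero_le_one (fun x _ => ?_)
    rw [norm_mul]
    exact mul_le_one₀ (hF x.1).2 (norm_nonneg _) (hG x.2).2

omit [Finite I] in
theorem Twin_int_one : IntCoeff I L (1 : L[X]) := by
  intro i
  rw [coeff_one]
  split_ifs
  · exact ⟨fun s => smul_one s, by rw [norm_one]⟩
  · exact ⟨fun s => smul_zero s, by rw [norm_zero]; exact zero_le_one⟩

theorem Twin_prod_norm (Pi β : L) :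
    ∏ᶠ s : I, ‖β - s • Pi‖ = ‖(∏ᶠ s : I, (X - C (s • Pi))).eval β‖ := by
  have := Fintype.ofFinite I
  simp only [finprod_eq_prod_of_fintype, eval_prod, norm_prod, eval_sub, eval_X, eval_C]

end Abs

/-- **RAM-TWIN** -/
theorem ramTwin (hI : Stmt_RamInst) (hE : Stmt_RamExp) (hC : Stmt_RamCard) (hA : Stmt_TwinA)
    (hG : Stmt_TwinGap) (hF : Stmt_TwinField) : Stmt_RamTwin := by
  classical
  intro p _ _ M hfd hnorm hPm I hIchar Pi hPi
  have := hfd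
  have := hnorm
  have hT : TotRam p I M := (hI p M).2.2 I hIchar
  refine Twin_reduce Pi ?_
  intro s₁ hs₁ hmin
  by_contra hcon
  have hlt := not_le.1 hcon
  obtain ⟨c, Q, β, hc, hQmon, hQdeg, hQfix, hβ, hβ1, hcP, hP0β⟩ :=
    Twin_core hC hA hT Pi hPi s₁ hs₁ hlt (algebraMap M (Om p)) (fun x => rfl)
  obtain ⟨-, -, -, -, -, -, hdiv⟩ := hA p I M hT Pi hPi
  set j : M →+* Om p := algebraMap M (Om p) with hj
  have hc0 : 0 ≤ c := by rw [← hP0β]; exact norm_nonneg _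
  obtain ⟨hEfd, hEβ⟩ := hF p M hfd hnorm I (Q.map j) β (hQmon.map j)
    (by rw [natDegree_map, hQdeg])
    (fun i => ⟨Q.coeff i, by rw [coeff_map]; rfl, fun s hs => hQfix i ⟨s, hs⟩⟩) hβ
  set E : IF p := IntermediateField.adjoin ℚ_[p]
      ({y : Om p | ∃ x : M, (x : Om p) = y ∧ ∀ s ∈ I, s x = x} ∪ {β}) with hEdef
  -- the expansions
  have hPiFix : IsUnifFix (⊥ : Subgroup I) Pi :=
    ⟨hPi.1, hPi.2.1, fun h hh => by rw [Subgroup.mem_bot.1 hh, one_smul],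
      fun x hx _ => hPi.2.2 x hx⟩
  have hex : ∀ x : M, ∃ F : M[X], ‖x‖ ≤ 1 → IntCoeff I M F ∧ F.eval Pi = x := by
    intro x
    by_cases hx : ‖x‖ ≤ 1
    · obtain ⟨F, h1, h2⟩ := hE p I M hT ⊥ Pi hPiFix x
        (fun h hh => by rw [Subgroup.mem_bot.1 hh, one_smul]) hx
      exact ⟨F, fun _ => ⟨h1, h2⟩⟩
    · exact ⟨0, fun h => absurd h hx⟩
  choose Fc hFc using hex
  set u : Om p → Om p := fun y => if h : y ∈ M then ((Fc ⟨y, h⟩).map j).eval β else 0 with hu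
  have hux : ∀ x : M, u (x : Om p) = ((Fc x).map j).eval β := by
    intro x
    simp only [hu]
    rw [dif_pos x.2]
  -- the key estimate
  have key : ∀ F : M[X], IntCoeff I M F → F.eval Pi = 0 → ‖(F.map j).eval β‖ ≤ c := by
    intro F hFi h0
    obtain ⟨q, hq, rfl⟩ := hdiv F hFi h0
    rw [Polynomial.map_mul, eval_mul, norm_mul, hP0β]
    have h1 : ‖(q.map j).eval β‖ ≤ 1 :=
      Twin_norm_eval_le_one (q.map j) (fun i => by rw [coeff_map]; exact (hq i).2) β hβ1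
    calc c * ‖(q.map j).eval β‖ ≤ c * 1 := mul_le_mul_of_nonneg_left h1 hc0
      _ = c := mul_one c
  have memE : ∀ F : M[X], IntCoeff I M F → (F.map j).eval β ∈ E := by
    intro F hFi
    rw [eval_map, eval₂_eq_sum_range]
    refine sum_mem (fun i _ => mul_mem ?_ (pow_mem ?_ i))
    · exact IntermediateField.subset_adjoin _ _
        (Or.inl ⟨F.coeff i, rfl, fun s hs => (hFi i).1 ⟨s, hs⟩⟩)
    · exact IntermediateField.subset_adjoin _ _ (Or.inr rfl)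
  have hmem : ∀ x : M, ‖x‖ ≤ 1 → u (x : Om p) ∈ E ∧ ‖u (x : Om p)‖ ≤ 1 := by
    intro x hx1
    have h1 := hFc x hx1
    rw [hux x]
    exact ⟨memE _ h1.1,
      Twin_norm_eval_le_one _ (fun i => by rw [coeff_map]; exact (h1.1 i).2) β hβ1⟩
  have hadd : ∀ x y : M, ‖x‖ ≤ 1 → ‖y‖ ≤ 1 →
      ‖u ((x + y : M) : Om p) - (u (x : Om p) + u (y : Om p))‖ ≤ c := by
    intro x y hx1 hy1
    have h1 := hFc x hx1
    have h2 := hFc y hy1
    have hxy : ‖x + y‖ ≤ 1 := (IsUltrametricDist.norm_add_le_max _ _).trans (max_le hx1 hy1)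
    have h3 := hFc (x + y) hxy
    rw [hux x, hux y, hux (x + y), ← eval_add, ← eval_sub, ← Polynomial.map_add,
      ← Polynomial.map_sub]
    refine key _ (Twin_int_sub h3.1 (Twin_int_add h1.1 h2.1)) ?_
    rw [eval_sub, eval_add, h1.2, h2.2, h3.2, sub_self]
  have hmul : ∀ x y : M, ‖x‖ ≤ 1 → ‖y‖ ≤ 1 →
      ‖u ((x * y : M) : Om p) - u (x : Om p) * u (y : Om p)‖ ≤ c := by
    intro x y hx1 hy1
    have h1 := hFc x hx1
    have h2 := hFc y hy1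
    have hxy : ‖x * y‖ ≤ 1 := by
      rw [norm_mul]
      exact mul_le_one₀ hx1 (norm_nonneg _) hy1
    have h3 := hFc (x * y) hxy
    rw [hux x, hux y, hux (x * y), ← eval_mul, ← eval_sub, ← Polynomial.map_mul,
      ← Polynomial.map_sub]
    refine key _ (Twin_int_sub h3.1 (Twin_int_mul h1.1 h2.1)) ?_
    rw [eval_sub, eval_mul, h1.2, h2.2, h3.2, sub_self]
  have hone : ‖u ((1 : M) : Om p) - 1‖ ≤ c := by
    have h11 : ‖(1 : M)‖ ≤ 1 := by rw [norm_one]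
    have h1 := hFc 1 h11
    have e2 : (1 : Om p) = ((1 : M[X]).map j).eval β := by
      rw [Polynomial.map_one, eval_one]
    rw [hux 1]
    conv_lhs => rw [e2]
    rw [← eval_sub, ← Polynomial.map_sub]
    refine key _ (Twin_int_sub h1.1 Twin_int_one) ?_
    rw [eval_sub, h1.2, eval_one, sub_self]
  have happ : ApproxHom p M E c u :=
    ⟨fun x hx hx1 => hmem ⟨x, hx⟩ hx1,
      fun x hx y hy hx1 hy1 => hadd ⟨x, hx⟩ ⟨y, hy⟩ hx1 hy1,
      fun x hx y hy hx1 hy1 => hmul ⟨x, hx⟩ ⟨y, hy⟩ hx1 hy1, hone⟩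
  have hME : M ≤ E := hPm E c u hEfd hc happ
  have hβM : β ∈ M := hEβ hME
  refine hG p I M hT Pi hPi s₁ hs₁ hmin ⟨β, hβM⟩ ?_
  rw [Twin_prod_norm, ← hcP, ← hP0β]
  congr 1
  have h1 : ((∏ᶠ s : I, (X - C (s • Pi))).map j).eval β
      = j ((∏ᶠ s : I, (X - C (s • Pi))).eval ⟨β, hβM⟩) := by
    rw [eval_map]
    exact eval₂_at_apply j (⟨β, hβM⟩ : M)
  rw [h1]
  rfl

end Fermat.Agent.TW56.Flat
end
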