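/-
TEAM TW56 -> S56, block FLAT, sub-block RAM, package RAM-TWIN-A :
the Eisenstein polynomial `P₀ = ∏_s (X - s Pi)` of a uniformizer (`Stmt_TwinA`).
-/
import Fermat.Agent.TW56.Flat.RamInterface

set_option autoImplicit false

noncomputable section

namespace Fermat.Agent.TW56.Flat

open Fermat.Agent.CFT.Local Polynomial

section Gen

variable (I : Type) {L : Type} [Group I] [Fintype I] [NormedField L] [MulSemiringAction I L]

/-- `P₀ = ∏_s (X - s Pi)`. -/
def TwinA_P0 (Pi : L) : L[X] := ∏ s : I, (X - C (s • Pi))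

theorem TwinA_monic (Pi : L) : (TwinA_P0 I Pi).Monic :=
  monic_prod_of_monic _ _ fun _ _ => monic_X_sub_C _

theorem TwinA_natDegree (Pi : L) : (TwinA_P0 I Pi).natDegree = Fintype.card I := by
  rw [TwinA_P0, natDegree_prod_of_monic _ _ fun _ _ => monic_X_sub_C _]
  simp

theorem TwinA_smul (Pi : L) (s : I) : s • TwinA_P0 I Pi = TwinA_P0 I Pi := by
  unfold TwinA_P0
  rw [Finset.smul_prod']
  simp only [smul_sub, Polynomial.smul_X, Polynomial.smul_C, smul_smul]
  exact Fintype.prod_equiv (Equiv.mulLeft s) _ _ fun _ => rfl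

theorem TwinA_coeff_fixed (Pi : L) (s : I) (i : ℕ) :
    s • (TwinA_P0 I Pi).coeff i = (TwinA_P0 I Pi).coeff i := by
  conv_rhs => rw [← TwinA_smul I Pi s]
  rw [Polynomial.coeff_smul]

theorem TwinA_coeff (Pi : L) {k : ℕ} (hk : k ≤ Fintype.card I) :
    (TwinA_P0 I Pi).coeff k = (-1) ^ (Fintype.card I - k) *
      ∑ t ∈ (Finset.univ : Finset I).powersetCard (Fintype.card I - k), ∏ s ∈ t, s • Pi := by
  have h1 : TwinA_P0 I Pi =
      (((Finset.univ : Finset I).val.map fun s => s • Pi).map fun t => X - C t).prod := by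
    rw [Multiset.map_map]
    rfl
  have hc : Multiset.card ((Finset.univ : Finset I).val.map fun s => s • Pi) = Fintype.card I := by
    rw [Multiset.card_map]
    rfl
  rw [h1, Multiset.prod_X_sub_C_coeff _ (by rw [hc]; exact hk), hc, Finset.esymm_map_val]

theorem TwinA_norm_coeff_le [IsUltrametricDist L] (hisom : ∀ (g : I) (x : L), ‖g • x‖ = ‖x‖)
    (Pi : L) {k : ℕ} (hk : k ≤ Fintype.card I) :
    ‖(TwinA_P0 I Pi).coeff k‖ ≤ ‖Pi‖ ^ (Fintype.card I - k) := by
  rw [TwinA_coeff I Pi hk, norm_mul, norm_pow, norm_neg, norm_one, one_pow, one_mul]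
  refine IsUltrametricDist.norm_sum_le_of_forall_le_of_nonneg (pow_nonneg (norm_nonneg _) _)
    fun t ht => ?_
  rw [norm_prod, Finset.prod_congr rfl fun s _ => hisom s Pi, Finset.prod_const,
    (Finset.mem_powersetCard.1 ht).2]

theorem TwinA_norm_coeff_zero (hisom : ∀ (g : I) (x : L), ‖g • x‖ = ‖x‖) (Pi : L) :
    ‖(TwinA_P0 I Pi).coeff 0‖ = ‖Pi‖ ^ Fintype.card I := by
  rw [coeff_zero_eq_eval_zero, TwinA_P0, eval_prod, norm_prod]
  simp only [eval_sub, eval_X, eval_C, zero_sub, norm_neg, hisom, Finset.prod_const]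
  rfl

/-- the subring `O_{L^I}`. -/
def TwinA_O0 (L : Type) [NormedField L] [MulSemiringAction I L] [IsUltrametricDist L] :
    Subring L where
  carrier := {x | (∀ s : I, s • x = x) ∧ ‖x‖ ≤ 1}
  mul_mem' := by
    rintro x y ⟨hx, hx'⟩ ⟨hy, hy'⟩
    refine ⟨fun s => by rw [smul_mul', hx, hy], ?_⟩
    rw [norm_mul]
    exact mul_le_one₀ hx' (norm_nonneg _) hy'
  one_mem' := ⟨fun s => smul_one s, norm_one.le⟩
  add_mem' := by
    rintro x y ⟨hx, hx'⟩ ⟨hy, hy'⟩
    refine ⟨fun s => by rw [smul_add, hx, hy], ?_⟩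
    exact (IsUltrametricDist.norm_add_le_max x y).trans (max_le hx' hy')
  zero_mem' := ⟨fun s => smul_zero s, by rw [norm_zero]; exact zero_le_one⟩
  neg_mem' := by
    rintro x ⟨hx, hx'⟩
    exact ⟨fun s => by rw [smul_neg, hx], by rwa [norm_neg]⟩

theorem TwinA_coeffs_sub [IsUltrametricDist L] {F : L[X]} (hF : IntCoeff I L F) :
    (↑F.coeffs : Set L) ⊆ TwinA_O0 I L := by
  intro c hc
  obtain ⟨n, -, rfl⟩ := Polynomial.mem_coeffs_iff.1 (Finset.mem_coe.1 hc)
  exact hF n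

/-- division by a monic polynomial preserves `IntCoeff`. -/
theorem TwinA_div [IsUltrametricDist L] {F P : L[X]} (hF : IntCoeff I L F) (hP : IntCoeff I L P)
    (hm : P.Monic) (hdvd : P ∣ F) : ∃ q : L[X], IntCoeff I L q ∧ F = P * q := by
  let F' := F.toSubring (TwinA_O0 I L) (TwinA_coeffs_sub I hF)
  let P' := P.toSubring (TwinA_O0 I L) (TwinA_coeffs_sub I hP)
  have hF' : F'.map (TwinA_O0 I L).subtype = F := map_toSubring _ _ _
  have hP' : P'.map (TwinA_O0 I L).subtype = P := map_toSubring _ _ _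
  have hm' : P'.Monic := (monic_toSubring _ _ _).2 hm
  refine ⟨(F' /ₘ P').map (TwinA_O0 I L).subtype, fun i => ?_, ?_⟩
  · rw [coeff_map]
    exact ((F' /ₘ P').coeff i).2
  · rw [map_divByMonic _ hm', hF', hP']
    have h0 : F %ₘ P = 0 := (modByMonic_eq_zero_iff_dvd hm).2 hdvd
    have h1 := modByMonic_add_div F P
    rw [h0, zero_add] at h1
    exact h1.symm

/-- a polynomial with `I`-fixed coefficients. -/
theorem TwinA_smul_eq {F : L[X]} (hF : ∀ i, ∀ s : I, s • F.coeff i = F.coeff i) (s : I) :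
    s • F = F := by
  ext i
  rw [Polynomial.coeff_smul, hF]

theorem TwinA_smul_eval {F : L[X]} (hF : ∀ i, ∀ s : I, s • F.coeff i = F.coeff i) (s : I)
    (x : L) : F.eval (s • x) = s • F.eval x := by
  rw [← smul_eval_smul, TwinA_smul_eq I hF]

theorem TwinA_dvd (Pi : L) (hinj : ∀ s : I, s • Pi = Pi → s = 1) {F : L[X]}
    (hF : ∀ i, ∀ s : I, s • F.coeff i = F.coeff i) (h0 : F.eval Pi = 0) : TwinA_P0 I Pi ∣ F := by
  have hi : Function.Injective fun s : I => s • Pi := by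
    intro s t hst
    have h1 : (t⁻¹ * s) • Pi = Pi := by
      rw [mul_smul, show s • Pi = t • Pi from hst, inv_smul_smul]
    have h2 := hinj _ h1
    rw [inv_mul_eq_one] at h2
    exact h2.symm
  refine Fintype.prod_dvd_of_coprime (pairwise_coprime_X_sub_C hi) fun s => ?_
  rw [dvd_iff_isRoot, IsRoot.def, TwinA_smul_eval I hF, h0, smul_zero]

end Gen

/-- an `I`-fixed element of norm `< 1` has norm `≤ ‖ϖ‖`. -/
theorem TwinA_le_unif {I L : Type} [Group I] [NormedField L] [MulSemiringAction I L] {ϖ c : L}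
    (hϖ : IsUnifFix (⊤ : Subgroup I) ϖ) (hc : ∀ s : I, s • c = c) (h1 : ‖c‖ < 1) :
    ‖c‖ ≤ ‖ϖ‖ := by
  by_cases h0 : c = 0
  · rw [h0, norm_zero]
    exact norm_nonneg _
  obtain ⟨k, hk⟩ := hϖ.2.2.2 c h0 fun h _ => hc h
  have hpos : 0 < ‖ϖ‖ := norm_pos_iff.2 hϖ.1
  rw [hk] at h1 ⊢
  have hk1 : 1 ≤ k := by
    by_contra hlt
    have hk0 : k ≤ 0 := by omega
    have : 1 ≤ ‖ϖ‖ ^ k := by
      rw [← zpow_zero ‖ϖ‖]
      exact zpow_le_zpow_right_of_le_one₀ hpos hϖ.2.1.le hk0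
    exact absurd h1 (not_lt.2 this)
  calc ‖ϖ‖ ^ k ≤ ‖ϖ‖ ^ (1 : ℤ) := zpow_le_zpow_right_of_le_one₀ hpos hϖ.2.1.le hk1
    _ = ‖ϖ‖ := zpow_one _

/-- RAM-TWIN-A -/
theorem twinA (hE : Stmt_RamExp) (hC : Stmt_RamCard) : Stmt_TwinA := by
  intro p _ I L _ _ _ _ hT Pi hPi
  have hU : IsUltrametricDist L := hT.act.loc.ultra
  let _ : Fintype I := Fintype.ofFinite I
  have hP : (∏ᶠ s : I, (X - C (s • Pi))) = TwinA_P0 I Pi := finprod_eq_prod_of_fintype _
  have hcard : Nat.card I = Fintype.card I := Nat.card_eq_fintype_card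
  have hisom := hT.act.isom
  rw [hP, hcard]
  have hle1 : ‖Pi‖ ≤ 1 := hPi.2.1.le
  have hint : IntCoeff I L (TwinA_P0 I Pi) := by
    intro i
    refine ⟨fun s => TwinA_coeff_fixed I Pi s i, ?_⟩
    by_cases hi : i ≤ Fintype.card I
    · exact (TwinA_norm_coeff_le I hisom Pi hi).trans (pow_le_one₀ (norm_nonneg _) hle1)
    · rw [coeff_eq_zero_of_natDegree_lt (by rw [TwinA_natDegree]; omega), norm_zero]
      exact zero_le_one
  have hinj : ∀ s : I, s • Pi = Pi → s = 1 := by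
    intro s hs
    have hbot : IsUnifFix (⊥ : Subgroup I) Pi :=
      ⟨hPi.1, hPi.2.1, fun h hh => by rw [Subgroup.mem_bot.1 hh, one_smul],
        fun x hx _ => hPi.2.2 x hx⟩
    have hfix : ∀ x : L, ‖x‖ ≤ 1 → s • x = x := by
      intro x hx
      obtain ⟨F, hF, rfl⟩ := hE p I L hT ⊥ Pi hbot x
        (fun h hh => by rw [Subgroup.mem_bot.1 hh, one_smul]) hx
      rw [← TwinA_smul_eval I (fun i => (hF i).1), hs]
    apply hT.act.faithful.eq_of_smul_eq_smul
    intro x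
    rw [one_smul]
    rcases le_total ‖x‖ 1 with hx | hx
    · exact hfix x hx
    · have hx0 : x ≠ 0 := by
        rintro rfl
        rw [norm_zero] at hx
        exact absurd hx (not_le.2 zero_lt_one)
      have h1 : s • x⁻¹ = x⁻¹ := hfix _ (by rw [norm_inv]; exact inv_le_one_of_one_le₀ hx)
      rw [smul_inv''] at h1
      exact inv_injective h1
  refine ⟨TwinA_monic I Pi, TwinA_natDegree I Pi, hint, ?_, ?_, hinj, ?_⟩
  · intro i hi
    refine TwinA_le_unif hT.unr (fun s => TwinA_coeff_fixed I Pi s i) ?_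
    refine (TwinA_norm_coeff_le I hisom Pi hi.le).trans_lt ?_
    exact pow_lt_one₀ (norm_nonneg _) hPi.2.1 (by omega)
  · rw [TwinA_norm_coeff_zero I hisom, hC p I L hT ⊤ (p : L) Pi hT.unr hPi, Subgroup.card_top,
      hcard]
  · intro F hF h0
    exact TwinA_div I hF hint (TwinA_monic I Pi) (TwinA_dvd I Pi hinj (fun i => (hF i).1) h0)

end Fermat.Agent.TW56.Flat

end
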