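/-
TEAM TW56 -> S56, block FLAT / RAM, task RAM-TWIN-FIELD: `E = M^I(β)` is finite over `ℚ_p`, and
`M ≤ E` implies `β ∈ M` (`Stmt_TwinField`).

`L₁ = adjoin K S` is the lift of the fixed field `M^I`; `[L₁(β) : L₁] ≤ deg Q = #I`, so
`[E : K] ≤ [M^I : K] #I = [M : K]`; hence `M ≤ E` forces `M = E ∋ β`.
-/
import Fermat.Agent.TW56.Flat.RamInterface

set_option autoImplicit false

noncomputable section

namespace Fermat.Agent.TW56.Flat

open Polynomial IntermediateField Module

theorem TwinField_finrank {K W : Type} [Field K] [Field W] [Algebra K W]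
    (L : IntermediateField K W) (F : IntermediateField L W) :
    finrank K (F.restrictScalars K) = finrank K L * finrank L F :=
  (Module.finrank_mul_finrank K L F).symm

theorem TwinField_abs {K W : Type} [Field K] [Field W] [Algebra K W]
    (M : IntermediateField K W) [FiniteDimensional K M] (I : Subgroup (M ≃ₐ[K] M)) (Q : W[X])
    (β : W) (hQ : Q.Monic) (hdeg : Q.natDegree = Nat.card I)
    (hco : ∀ i, ∃ x : M, (x : W) = Q.coeff i ∧ ∀ s ∈ I, s x = x) (hβ : Q.eval β = 0) :
    FiniteDimensional K (adjoin K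
      ({y : W | ∃ x : M, (x : W) = y ∧ ∀ s ∈ I, s x = x} ∪ {β})) ∧
    (M ≤ adjoin K ({y : W | ∃ x : M, (x : W) = y ∧ ∀ s ∈ I, s x = x} ∪ {β}) → β ∈ M) := by
  set S : Set W := {y : W | ∃ x : M, (x : W) = y ∧ ∀ s ∈ I, s x = x} with hSdef
  have hS : S = ((lift (fixedField I) : IntermediateField K W) : Set W) := by
    ext y
    constructor
    · rintro ⟨x, rfl, hx⟩
      exact (mem_lift x).2 ((mem_fixedField_iff I x).2 hx)
    · rintro ⟨x, hx, rfl⟩
      exact ⟨x, rfl, (mem_fixedField_iff I x).1 hx⟩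
  have hL1 : adjoin K S = lift (fixedField I) := by rw [hS, adjoin_self]
  have hfr1 : finrank K (adjoin K S) = finrank K (fixedField I) := by
    rw [hL1]
    exact (liftAlgEquiv (fixedField I)).toLinearEquiv.finrank_eq.symm
  have hfin1 : FiniteDimensional K (adjoin K S) := by
    rw [hL1]
    exact Module.Finite.equiv (liftAlgEquiv (fixedField I)).toLinearEquiv
  have hM : finrank K (fixedField I) * Nat.card I = finrank K M := by
    rw [← finrank_fixedField_eq_card I]
    exact Module.finrank_mul_finrank K (fixedField I) M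
  have hlift : Q ∈ lifts (algebraMap (adjoin K S) W) := by
    rw [lifts_iff_coeff_lifts]
    intro n
    obtain ⟨x, hx1, hx2⟩ := hco n
    exact ⟨⟨Q.coeff n, subset_adjoin K S ⟨x, hx1, hx2⟩⟩, rfl⟩
  obtain ⟨Q', hQ'map, hQ'deg, hQ'monic⟩ := lifts_and_natDegree_eq_and_monic hlift hQ
  have haeval : aeval β Q' = 0 := by
    rw [aeval_def, eval₂_eq_eval_map, hQ'map, hβ]
  have hint : IsIntegral (adjoin K S) β := ⟨Q', hQ'monic, haeval⟩
  have hfr2 : finrank (adjoin K S) (adjoin (adjoin K S) {β}) ≤ Nat.card I := by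
    rw [adjoin.finrank hint, ← hdeg, ← hQ'deg]
    exact natDegree_le_natDegree (minpoly.min _ β hQ'monic haeval)
  have hfin2 : FiniteDimensional (adjoin K S) (adjoin (adjoin K S) {β}) :=
    adjoin.finiteDimensional hint
  have hfin3 : FiniteDimensional K (adjoin (adjoin K S) {β}) :=
    Module.Finite.trans (adjoin K S) _
  have hE : ((adjoin (adjoin K S) {β}).restrictScalars K) = adjoin K (S ∪ {β}) :=
    adjoin_adjoin_left K S {β}
  have hfinE : FiniteDimensional K (adjoin K (S ∪ {β})) := by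
    rw [← hE]
    exact hfin3
  refine ⟨hfinE, fun hle => ?_⟩
  have hfrE : finrank K (adjoin K (S ∪ {β})) ≤ finrank K M := by
    rw [← hE, ← hM, ← hfr1]
    rw [TwinField_finrank]
    exact Nat.mul_le_mul_left _ hfr2
  have heq : M = adjoin K (S ∪ {β}) := eq_of_le_of_finrank_le hle hfrE
  rw [heq]
  exact subset_adjoin K _ (Or.inr rfl)

/-- **RAM-TWIN-FIELD** -/
theorem twinField : Stmt_TwinField := by
  intro p _ M hfin _ I Q β hQ hdeg hco hβ
  exact TwinField_abs M I Q β hQ hdeg hco hβ

end Fermat.Agent.TW56.Flat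

end
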