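/-
TEAM TW56 -> S56, block FLAT, sub-block RAM.  TWIN-GAP : `D m / ‖Pi‖` is not a value of `‖P₀(β)‖`.
-/
import Fermat.Agent.TW56.Flat.RamInterface

set_option autoImplicit false

noncomputable section

namespace Fermat.Agent.TW56.Flat

open Fermat.Agent.CFT.Local Polynomial Finset

/-- the real number content of TWIN-GAP. -/
theorem TwinGap_real {ι : Type*} [Fintype ι] [DecidableEq ι] (o s₁ : ι) (hs₁ : s₁ ≠ o)
    (N b : ι → ℝ) (P x : ℝ) (hP0 : 0 < P) (hP1 : P < 1) (hN : ∀ s, s ≠ o → 0 < N s)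
    (hmin : ∀ s, s ≠ o → N s₁ ≤ N s) (hbo : b o = x) (hx0 : 0 ≤ x) (hbx : ∀ s, x ≤ b s)
    (hbN : ∀ s, s ≠ o → N s ≤ b s) (hbmax : ∀ s, s ≠ o → b s ≤ max x (N s))
    (hdisc : N s₁ < x → N s₁ ≤ x * P) :
    (∏ s, b s) * P ≠ (∏ s ∈ univ.erase o, N s) * N s₁ := by
  have hm0 : 0 < N s₁ := hN s₁ hs₁
  have hb0 : ∀ s, 0 ≤ b s := fun s => hx0.trans (hbx s)
  have hD0 : 0 < ∏ s ∈ univ.erase o, N s := Finset.prod_pos fun s hs => hN s (Finset.ne_of_mem_erase hs)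
  have hsplit : ∏ s, b s = x * ∏ s ∈ univ.erase o, b s := by
    rw [← Finset.mul_prod_erase univ b (Finset.mem_univ o), hbo]
  rw [hsplit]
  rcases le_or_gt x (N s₁) with hx | hx
  · -- `x ≤ m`
    have hB : ∏ s ∈ univ.erase o, b s ≤ ∏ s ∈ univ.erase o, N s := by
      apply Finset.prod_le_prod (fun s _ => hb0 s)
      intro s hs
      have hso := Finset.ne_of_mem_erase hs
      exact (hbmax s hso).trans (max_le (hx.trans (hmin s hso)) le_rfl)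
    have h1 : x * ∏ s ∈ univ.erase o, b s ≤ N s₁ * ∏ s ∈ univ.erase o, N s :=
      mul_le_mul hx hB (Finset.prod_nonneg fun s _ => hb0 s) hm0.le
    have h2 : (x * ∏ s ∈ univ.erase o, b s) * P ≤ (N s₁ * ∏ s ∈ univ.erase o, N s) * P :=
      mul_le_mul_of_nonneg_right h1 hP0.le
    have h3 : (N s₁ * ∏ s ∈ univ.erase o, N s) * P < N s₁ * ∏ s ∈ univ.erase o, N s :=
      mul_lt_of_lt_one_right (mul_pos hm0 hD0) hP1
    rw [mul_comm (∏ s ∈ univ.erase o, N s) (N s₁)]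
    exact (h2.trans_lt h3).ne
  · -- `m < x`
    have hmem : s₁ ∈ univ.erase o := Finset.mem_erase.2 ⟨hs₁, Finset.mem_univ _⟩
    have hD' : 0 < ∏ s ∈ (univ.erase o).erase s₁, N s :=
      Finset.prod_pos fun s hs => hN s (Finset.ne_of_mem_erase (Finset.mem_of_mem_erase hs))
    have hB' : ∏ s ∈ (univ.erase o).erase s₁, N s ≤ ∏ s ∈ (univ.erase o).erase s₁, b s := by
      apply Finset.prod_le_prod
        (fun s hs => (hN s (Finset.ne_of_mem_erase (Finset.mem_of_mem_erase hs))).le)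
      intro s hs
      exact hbN s (Finset.ne_of_mem_erase (Finset.mem_of_mem_erase hs))
    rw [← Finset.mul_prod_erase (univ.erase o) b hmem, ← Finset.mul_prod_erase (univ.erase o) N hmem]
    have hxpos : 0 < x := hm0.trans hx
    have h1 : x * ∏ s ∈ (univ.erase o).erase s₁, N s ≤
        b s₁ * ∏ s ∈ (univ.erase o).erase s₁, b s :=
      mul_le_mul (hbx s₁) hB' hD'.le (hb0 s₁)
    have h2 : x * (x * ∏ s ∈ (univ.erase o).erase s₁, N s) * P ≤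
        x * (b s₁ * ∏ s ∈ (univ.erase o).erase s₁, b s) * P :=
      mul_le_mul_of_nonneg_right (mul_le_mul_of_nonneg_left h1 hxpos.le) hP0.le
    have h3 : N s₁ * N s₁ < x * (x * P) :=
      mul_lt_mul hx (hdisc hx) hm0 hxpos.le
    have h4 : N s₁ * N s₁ * ∏ s ∈ (univ.erase o).erase s₁, N s <
        x * (x * P) * ∏ s ∈ (univ.erase o).erase s₁, N s :=
      mul_lt_mul_of_pos_right h3 hD'
    have h5 : N s₁ * (∏ s ∈ (univ.erase o).erase s₁, N s) * N s₁ <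
        x * (b s₁ * ∏ s ∈ (univ.erase o).erase s₁, b s) * P := by
      calc N s₁ * (∏ s ∈ (univ.erase o).erase s₁, N s) * N s₁
          = N s₁ * N s₁ * ∏ s ∈ (univ.erase o).erase s₁, N s := by ring
        _ < x * (x * P) * ∏ s ∈ (univ.erase o).erase s₁, N s := h4
        _ = x * (x * ∏ s ∈ (univ.erase o).erase s₁, N s) * P := by ring
        _ ≤ _ := h2
    exact h5.ne'

theorem TwinGap_norm_sub_le_max {L : Type*} [NormedField L] [IsUltrametricDist L] (x y : L) :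
    ‖x - y‖ ≤ max ‖x‖ ‖y‖ := by
  have := IsUltrametricDist.norm_add_le_max x (-y)
  rwa [norm_neg, ← sub_eq_add_neg] at this

/-- **TWIN-GAP** -/
theorem twinGap (hA : Stmt_TwinA) : Stmt_TwinGap := by
  intro p _ I L _ _ _ _ hT Pi hPi s₁ hs₁ hmin β
  classical
  have : Fintype I := Fintype.ofFinite I
  have hult : IsUltrametricDist L := hT.act.loc.ultra
  have hisom := hT.act.isom
  have hinj : ∀ s : I, s • Pi = Pi → s = 1 := (hA p I L hT Pi hPi).2.2.2.2.2.1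
  obtain ⟨hPi0, hPi1, hval⟩ := hPi
  have hP0 : 0 < ‖Pi‖ := norm_pos_iff.2 hPi0
  obtain ⟨s₀, hs₀⟩ := Finite.exists_min (fun s : I => ‖β - s • Pi‖)
  -- the distance between two conjugates
  have hconj : ∀ t : I, ‖(s₀ * t) • Pi - s₀ • Pi‖ = ‖t • Pi - Pi‖ := by
    intro t
    rw [mul_smul, ← smul_sub, hisom]
  have hL : ∏ᶠ s : I, ‖β - s • Pi‖ = ∏ t : I, ‖β - (s₀ * t) • Pi‖ := by
    rw [finprod_eq_prod_of_fintype]
    exact (Equiv.prod_comp (Equiv.mulLeft s₀) (fun s : I => ‖β - s • Pi‖)).symm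
  have hR : ∏ᶠ s : {s : I // s ≠ 1}, ‖(s : I) • Pi - Pi‖
      = ∏ s ∈ univ.erase (1 : I), ‖s • Pi - Pi‖ := by
    rw [finprod_eq_prod_of_fintype]
    exact (Finset.prod_subtype (univ.erase (1 : I)) (fun s => by simp)
      (fun s : I => ‖s • Pi - Pi‖)).symm
  rw [hL, hR]
  refine TwinGap_real (1 : I) s₁ hs₁ (fun s => ‖s • Pi - Pi‖) (fun t => ‖β - (s₀ * t) • Pi‖) ‖Pi‖
    ‖β - s₀ • Pi‖ hP0 hPi1 ?_ hmin (by simp) (norm_nonneg _) (fun t => hs₀ (s₀ * t)) ?_ ?_ ?_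
  · intro s hs
    rw [norm_pos_iff, sub_ne_zero]
    exact fun h => hs (hinj s h)
  · intro t _
    show ‖t • Pi - Pi‖ ≤ ‖β - (s₀ * t) • Pi‖
    rw [← hconj t]
    have h1 : (s₀ * t) • Pi - s₀ • Pi = (β - s₀ • Pi) - (β - (s₀ * t) • Pi) := by ring
    rw [h1]
    exact (TwinGap_norm_sub_le_max _ _).trans (max_le (hs₀ (s₀ * t)) le_rfl)
  · intro t _
    show ‖β - (s₀ * t) • Pi‖ ≤ max ‖β - s₀ • Pi‖ ‖t • Pi - Pi‖
    rw [← hconj t]
    have h1 : β - (s₀ * t) • Pi = (β - s₀ • Pi) - ((s₀ * t) • Pi - s₀ • Pi) := by ring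
    rw [h1]
    exact TwinGap_norm_sub_le_max _ _
  · intro hlt
    change ‖s₁ • Pi - Pi‖ < ‖β - s₀ • Pi‖ at hlt
    show ‖s₁ • Pi - Pi‖ ≤ ‖β - s₀ • Pi‖ * ‖Pi‖
    have hx0 : β - s₀ • Pi ≠ 0 := by
      intro h
      rw [h, norm_zero] at hlt
      exact absurd hlt (not_lt.2 (norm_nonneg _))
    have hm0 : s₁ • Pi - Pi ≠ 0 := sub_ne_zero.2 fun h => hs₁ (hinj s₁ h)
    obtain ⟨a, ha⟩ := hval _ hx0
    obtain ⟨c, hc⟩ := hval _ hm0
    rw [ha, hc] at hlt ⊢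
    have h1 : a < c := (zpow_lt_zpow_iff_right_of_lt_one₀ hP0 hPi1).1 hlt
    rw [← zpow_add_one₀ hP0.ne']
    exact (zpow_le_zpow_iff_right_of_lt_one₀ hP0 hPi1).2 h1

end Fermat.Agent.TW56.Flat

end
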