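/-
TEAM TW56 -> S56, block FLAT.  FL-UNIT : the trivial group is flat.
-/
import Fermat.Agent.TW56.Flat.Interface

set_option autoImplicit false

noncomputable section

namespace Fermat.Agent.TW56.Flat

open Fermat.Agent.S53 Matrix Polynomial

theorem unitFlat : Stmt_Unit := by
  intro p _
  refine ⟨Rp p, inferInstance, inferInstance, inferInstance, inferInstance, inferInstance,
    ⟨fun _ => PUnit.unit, fun _ => WithConv.toConv (Algebra.ofId (Rp p) (Om p)), ?_, ?_⟩, ?_, ?_⟩
  · intro f
    apply (WithConv.equiv _).injective
    exact Subsingleton.elim _ _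
  · intro x
    rfl
  · intro f g
    rfl
  · intro σ f g _
    rfl

end Fermat.Agent.TW56.Flat

end
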