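import Fermat.Agent.TW56.Flat.Interface2
import Fermat.Agent.TW56.Flat.InertSub
import Fermat.Agent.CFT.GR.UNR

/-!
# TW56 / Flat / UnramFix : the fixed field of the inertia subgroup of `Gal(M/ℚ_p)` is unramified

`x^(p^s) ≡ x` on `O_M` for some `s > 0` (finite residue field); `Z` a primitive `(p^s - 1)`-th root of
unity in `ℚ̄_p`: every integral element of `M` is congruent to `0` or to a power of `Z`, so the
stabiliser of `Z` is contained in the inertia; `ℚ_p(Z)` is unramified (`CFT.GR.UNR_level`).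
-/

set_option autoImplicit false

noncomputable section

namespace Fermat.Agent.TW56.Flat

section Ball

variable (L : Type*) [NormedField L] [IsUltrametricDist L]

/-- the closed unit ball of an ultrametric normed field. -/
def UnramFix_ball : ValuationSubring L where
  carrier := {x | ‖x‖ ≤ 1}
  mul_mem' {a b} ha hb := by
    show ‖a * b‖ ≤ 1
    rw [norm_mul]
    exact mul_le_one₀ ha (norm_nonneg _) hb
  one_mem' := by show ‖(1 : L)‖ ≤ 1; rw [norm_one]
  add_mem' {a b} ha hb := (IsUltrametricDist.norm_add_le_max a b).trans (max_le ha hb)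
  zero_mem' := by show ‖(0 : L)‖ ≤ 1; rw [norm_zero]; exact zero_le_one
  neg_mem' {a} ha := by show ‖-a‖ ≤ 1; rw [norm_neg]; exact ha
  mem_or_inv_mem' a := by
    rcases le_total ‖a‖ 1 with h | h
    · exact Or.inl h
    · right
      show ‖a⁻¹‖ ≤ 1
      rw [norm_inv]
      exact inv_le_one_of_one_le₀ h

variable {L}

theorem UnramFix_mem_ball {x : L} : x ∈ UnramFix_ball L ↔ ‖x‖ ≤ 1 := Iff.rfl

theorem UnramFix_residue_eq_zero (a : UnramFix_ball L) :
    IsLocalRing.residue (UnramFix_ball L) a = 0 ↔ ‖(a : L)‖ < 1 := by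
  rw [IsLocalRing.residue_eq_zero_iff, IsLocalRing.mem_maximalIdeal, mem_nonunits_iff]
  constructor
  · intro h
    by_contra h1
    have h2 : ‖(a : L)‖ = 1 := le_antisymm a.2 (not_lt.1 h1)
    have h0 : (a : L) ≠ 0 := by
      intro h0
      rw [h0, norm_zero] at h2
      exact zero_ne_one h2
    apply h
    refine IsUnit.of_mul_eq_one ⟨(a : L)⁻¹, ?_⟩ (Subtype.ext (mul_inv_cancel₀ h0))
    show ‖(a : L)⁻¹‖ ≤ 1
    rw [norm_inv, h2, inv_one]
  · rintro h ⟨u, rfl⟩
    have h1 : ((u : UnramFix_ball L) : L) * ((u⁻¹ : (UnramFix_ball L)ˣ) : UnramFix_ball L) = 1 :=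
      congrArg Subtype.val u.mul_inv
    have h2 := congrArg norm h1
    rw [norm_mul, norm_one] at h2
    have h3 : ‖(((u⁻¹ : (UnramFix_ball L)ˣ) : UnramFix_ball L) : L)‖ ≤ 1 :=
      ((u⁻¹ : (UnramFix_ball L)ˣ) : UnramFix_ball L).2
    have : ‖((u : UnramFix_ball L) : L)‖ * ‖(((u⁻¹ : (UnramFix_ball L)ˣ) : UnramFix_ball L) : L)‖ < 1 :=
      mul_lt_one_of_nonneg_of_lt_one_left (norm_nonneg _) h h3
    exact absurd h2 this.ne

/-- a power of the Frobenius is trivial on the residue field. -/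
theorem UnramFix_frob (p : ℕ) (hp : p.Prime) (hpL : ‖(p : L)‖ < 1) (R : Finset L)
    (hR : ∀ x : L, ‖x‖ ≤ 1 → ∃ r ∈ R, ‖x - r‖ < 1) :
    ∃ s : ℕ, 0 < s ∧ ∀ x : L, ‖x‖ ≤ 1 → ‖x ^ (p ^ s) - x‖ < 1 := by
  classical
  set k := IsLocalRing.ResidueField (UnramFix_ball L) with hk
  have hfin : Finite k := by
    let f : {r : L // r ∈ R ∧ ‖r‖ ≤ 1} → k := fun r => IsLocalRing.residue _ ⟨r.1, r.2.2⟩
    have : Finite {r : L // r ∈ R ∧ ‖r‖ ≤ 1} :=
      Set.Finite.subset R.finite_toSet (fun r hr => hr.1)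
    refine Finite.of_surjective f ?_
    intro y
    obtain ⟨a, rfl⟩ := IsLocalRing.residue_surjective y
    obtain ⟨r, hr, har⟩ := hR a a.2
    have hr1 : ‖r‖ ≤ 1 := by
      have : r = (a : L) - ((a : L) - r) := by ring
      rw [this, sub_eq_add_neg]
      refine (IsUltrametricDist.norm_add_le_max _ _).trans (max_le a.2 ?_)
      rw [norm_neg]
      exact har.le
    refine ⟨⟨r, hr, hr1⟩, ?_⟩
    show IsLocalRing.residue _ (⟨r, hr1⟩ : UnramFix_ball L) = IsLocalRing.residue _ a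
    rw [eq_comm, ← sub_eq_zero, ← map_sub, UnramFix_residue_eq_zero]
    exact har
  have : Fintype k := Fintype.ofFinite k
  have hchar : CharP k p := by
    rw [CharP.charP_iff_prime_eq_zero hp]
    have h1 : IsLocalRing.residue (UnramFix_ball L) (p : UnramFix_ball L) = 0 := by
      rw [UnramFix_residue_eq_zero]
      simpa using hpL
    simpa using h1
  obtain ⟨n, -, hn⟩ := FiniteField.card k p
  refine ⟨n, n.pos, fun x hx => ?_⟩
  have h1 := FiniteField.pow_card (IsLocalRing.residue (UnramFix_ball L) ⟨x, hx⟩)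
  rw [hn, ← map_pow, ← sub_eq_zero, ← map_sub, UnramFix_residue_eq_zero] at h1
  exact h1

end Ball

open Fermat.Agent.CFT.Local in
theorem unramFix : Stmt_UnramFix := by
  intro p _ M hfd _ x hxM hfix hx1
  have hp : p.Prime := Fact.out
  by_cases hx0 : x = 0
  · rw [hx0, norm_zero]; exact norm_nonneg _
  have hnp : ‖(p : Om p)‖ < 1 := by
    rw [InertSub_norm_p]
    exact inv_lt_one_of_one_lt₀ (by exact_mod_cast hp.one_lt)
  have hpos : 0 < ‖(p : Om p)‖ := by
    rw [InertSub_norm_p]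
    exact inv_pos.2 (by exact_mod_cast hp.pos)
  -- step 1
  have hloc : IsLoc M := padicLoc p M hfd
  obtain ⟨R, hR⟩ := hloc.resFinite
  have := hloc.ultra
  obtain ⟨s, hs, hfrob⟩ := UnramFix_frob (L := M) p hp (by
    show ‖((p : M) : Om p)‖ < 1
    simpa using hnp) R hR
  -- step 2
  have hge : 2 ≤ p ^ s := calc
    2 ≤ p := hp.two_le
    _ = p ^ 1 := (pow_one p).symm
    _ ≤ p ^ s := Nat.pow_le_pow_right hp.pos hs
  have ht0 : p ^ s - 1 ≠ 0 := by omega
  have : NeZero ((p ^ s - 1 : ℕ) : PadicAlgCl p) := ⟨Nat.cast_ne_zero.mpr ht0⟩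
  obtain ⟨Z, hZ⟩ := HasEnoughRootsOfUnity.exists_primitiveRoot (PadicAlgCl p) (p ^ s - 1)
  -- step 3
  have hin : ∀ τ : Gp p, τ Z = Z → IsInertGp p M τ := by
    intro τ hτ y hyM hy1
    have h1 : ‖y ^ (p ^ s) - y‖ < 1 := hfrob ⟨y, hyM⟩ hy1
    have h2 : y ^ (p ^ s) - y = y * ∏ ζ ∈ Polynomial.nthRootsFinset (p ^ s - 1) (1 : Om p), (y - ζ) := by
      have h3 := hZ.pow_sub_pow_eq_prod_sub_mul y 1 (Nat.pos_of_ne_zero ht0)
      simp only [one_pow, mul_one] at h3
      rw [← h3, mul_sub, mul_one, ← pow_succ']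
      congr 2
      omega
    have key : ∀ w : Om p, τ w = w → ‖y - w‖ < 1 → ‖τ y - y‖ < 1 := by
      intro w hw hyw
      have e : τ y - y = τ (y - w) + -(y - w) := by rw [map_sub, hw]; ring
      rw [e]
      refine lt_of_le_of_lt (IsUltrametricDist.norm_add_le_max _ _) (max_lt ?_ ?_)
      · rw [InertSub_norm_Gp]; exact hyw
      · rw [norm_neg]; exact hyw
    by_contra hcon
    have hy : 1 ≤ ‖y‖ := by
      by_contra h
      exact hcon (key 0 (map_zero τ) (by simpa using not_le.1 h))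
    have hprod : 1 ≤ ‖∏ ζ ∈ Polynomial.nthRootsFinset (p ^ s - 1) (1 : Om p), (y - ζ)‖ := by
      rw [norm_prod]
      refine Finset.prod_induction _ (fun a : ℝ => 1 ≤ a)
        (fun a b ha hb => one_le_mul_of_one_le_of_one_le ha hb) le_rfl ?_
      intro ζ hζ
      rw [Polynomial.mem_nthRootsFinset (Nat.pos_of_ne_zero ht0)] at hζ
      have : NeZero (p ^ s - 1) := ⟨ht0⟩
      obtain ⟨i, -, rfl⟩ := hZ.eq_pow_of_pow_eq_one hζ
      by_contra h
      exact hcon (key (Z ^ i) (by rw [map_pow, hτ]) (not_le.1 h))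
    rw [h2, norm_mul] at h1
    exact absurd h1 (not_lt.2 (one_le_mul_of_one_le_of_one_le hy hprod))
  -- step 4
  have hT := all_padicTower p
  have hQ : resCard (FixedPoints.subfield (Gq p) (PadicAlgCl p)) = p :=
    LN_resCard p reps (all_towerBase _ _ _ hT).1
  have key := Fermat.Agent.CFT.GR.UNR_level (Gq p) (PadicAlgCl p) (levq p) hT s hs Z
    (by rw [hQ]; exact hZ) (by rw [hQ]; exact ht0) x (p : PadicAlgCl p)
  obtain ⟨k, hk⟩ := key.2.2 (LN_isUnifFix_q p) hx0 (fun g hg => hfix g (hin g hg))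
  rw [hk] at hx1 ⊢
  have hk1 : 1 ≤ k := by
    by_contra h
    have h0 : k ≤ 0 := by omega
    have : 1 ≤ ‖(p : PadicAlgCl p)‖ ^ k := by
      obtain ⟨m, rfl⟩ : ∃ m : ℕ, k = -(m : ℤ) := ⟨(-k).toNat, by omega⟩
      rw [zpow_neg, zpow_natCast]
      exact (one_le_inv₀ (pow_pos hpos m)).2 (pow_le_one₀ hpos.le hnp.le)
    exact absurd hx1 (not_lt.2 this)
  obtain ⟨m, rfl⟩ : ∃ m : ℕ, k = (m : ℤ) + 1 := ⟨(k - 1).toNat, by omega⟩
  rw [zpow_add_one₀ hpos.ne', zpow_natCast]
  exact mul_le_of_le_one_left hpos.le (pow_le_one₀ hpos.le hnp.le)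

end Fermat.Agent.TW56.Flat

end
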