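/-
TEAM TW56 -> S56, block FLAT (architect helper33).  The unconditional chain.
-/
import Fermat.Agent.TW56.Flat.AbsInert
import Fermat.Agent.TW56.Flat.Apx
import Fermat.Agent.TW56.Flat.Bridge
import Fermat.Agent.TW56.Flat.CEabs
import Fermat.Agent.TW56.Flat.CEmodel
import Fermat.Agent.TW56.Flat.CaseI
import Fermat.Agent.TW56.Flat.CaseI1
import Fermat.Agent.TW56.Flat.CaseI2
import Fermat.Agent.TW56.Flat.CaseOrd
import Fermat.Agent.TW56.Flat.CaseR
import Fermat.Agent.TW56.Flat.Congr
import Fermat.Agent.TW56.Flat.Conj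
import Fermat.Agent.TW56.Flat.ConvN
import Fermat.Agent.TW56.Flat.Descend
import Fermat.Agent.TW56.Flat.Dich
import Fermat.Agent.TW56.Flat.Fin1
import Fermat.Agent.TW56.Flat.Fin2
import Fermat.Agent.TW56.Flat.Fin3
import Fermat.Agent.TW56.Flat.Fin4
import Fermat.Agent.TW56.Flat.Fin5
import Fermat.Agent.TW56.Flat.Fin6I
import Fermat.Agent.TW56.Flat.Fin6T
import Fermat.Agent.TW56.Flat.Fin7T
import Fermat.Agent.TW56.Flat.Fin8
import Fermat.Agent.TW56.Flat.FinLin
import Fermat.Agent.TW56.Flat.Free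
import Fermat.Agent.TW56.Flat.InertSub
import Fermat.Agent.TW56.Flat.Lift
import Fermat.Agent.TW56.Flat.LiftHoms
import Fermat.Agent.TW56.Flat.NoFlat
import Fermat.Agent.TW56.Flat.Ord
import Fermat.Agent.TW56.Flat.PM
import Fermat.Agent.TW56.Flat.PMH
import Fermat.Agent.TW56.Flat.Prod2
import Fermat.Agent.TW56.Flat.ProdN
import Fermat.Agent.TW56.Flat.PtField
import Fermat.Agent.TW56.Flat.Ram
import Fermat.Agent.TW56.Flat.RamCard
import Fermat.Agent.TW56.Flat.RamExp
import Fermat.Agent.TW56.Flat.RamGProd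
import Fermat.Agent.TW56.Flat.RamImp
import Fermat.Agent.TW56.Flat.RamInst
import Fermat.Agent.TW56.Flat.RamKum
import Fermat.Agent.TW56.Flat.RootE
import Fermat.Agent.TW56.Flat.RootInv
import Fermat.Agent.TW56.Flat.RootU
import Fermat.Agent.TW56.Flat.SepPt
import Fermat.Agent.TW56.Flat.Twin
import Fermat.Agent.TW56.Flat.TwinA
import Fermat.Agent.TW56.Flat.TwinField
import Fermat.Agent.TW56.Flat.TwinGap
import Fermat.Agent.TW56.Flat.UnitFlat
import Fermat.Agent.TW56.Flat.UnramFix

set_option autoImplicit false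

namespace Fermat.Agent.TW56.Flat

theorem all_Prod : Stmt_Prod := prodN unitFlat prod2 congr
theorem all_Conj : Stmt_Conj := conj congr
theorem all_Lift : Stmt_Lift := lift rootU rootE rootInv convNorm liftHoms
theorem all_SepPt : Stmt_SepPt := sepPt rootU convNorm
theorem all_PMH : Stmt_PMH := pmh all_Lift all_SepPt apx ptFieldThm
theorem all_PM : Stmt_PM := pm all_PMH ptFieldThm free
theorem all_CE : Stmt_CE := ce (ceAbs unramFix) (ceModel ptFieldThm)
theorem all_CaseI : Stmt_CaseI := caseI caseI1 caseI2 cardConj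
theorem all_RamDiff : Stmt_RamDiff := ramDiff ramExp
theorem all_RamKum : Stmt_RamKum := ramKum all_RamDiff ramCard ramGProd
theorem all_RamInst : Stmt_RamInst := ramInst absInert
theorem all_TwinA : Stmt_TwinA := twinA ramExp ramCard
theorem all_TwinGap : Stmt_TwinGap := twinGap all_TwinA
theorem all_RamTwin : Stmt_RamTwin :=
  ramTwin all_RamInst ramExp ramCard all_TwinA all_TwinGap twinField
theorem all_RAM : Stmt_RAM := ram absInert all_RamInst all_RamTwin all_RamKum ramImp
theorem all_Fin2 : Stmt_Fin2 := fin2 all_Prod all_PM all_RAM all_CE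
theorem all_Fin6I : Stmt_Fin6I := fin6I all_CaseI fin5a
theorem all_Fin6T : Stmt_Fin6T := fin6T caseR caseOrd dich finChi fin5a fin5b

/-- **the block FLAT, modulo COUNT** -/
theorem flat_of_COUNT (hC : Stmt_COUNT) : Stmt_FLAT :=
  have h4 : Stmt_Fin4 := fin4 descend hC
  have h7T : Stmt_Fin7T := fin7T fin3 fin3' h4 finLin all_Fin6T ord noFlat
  flat_of fin0 fin1 all_Fin2 (fin7 fin3 fin3' h4 finLin all_Fin6I h7T)

end Fermat.Agent.TW56.Flat
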