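/-
TEAM TW56 -> S56, block FLAT, task FL-TOP2 (1529, helper53):
helper55's contract `Stmt_LocFlat` from `Stmt_FLAT`.
-/
import Fermat.Agent.TW56.Top.Asm
import Fermat.Agent.TW56.Flat.FinInterface

set_option autoImplicit false

noncomputable section

namespace Fermat.Agent.TW56.Flat

open IsLocalRing Polynomial Fermat.Agent.S53 ExtCitation Matrix

/-- the global element `loc p σ` acts on the roots of unity of `ℚ̄` as `σ` does on those of
`ℚ̄_p`. -/
theorem TopLocFlat_mu (p : ℕ) [Fact p.Prime] (σ : Gp p) (a n : ℕ)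
    (h : ∀ μ : Om p, μ ^ n = 1 → σ μ = μ ^ a) (μ : Qb) (hμ : μ ^ n = 1) :
    loc p σ μ = μ ^ a := by
  have hinj : Function.Injective (padicEmbedding p) := (padicEmbedding p).toRingHom.injective
  apply hinj
  rw [padicEmbedding_localGaloisToGlobal, map_pow]
  exact h _ (by rw [← map_pow, hμ, map_one])

theorem topLocFlat (h : Stmt_FLAT) : Fermat.Agent.TW56.Stmt_LocFlat := by
  intro 𝒪 _ _ _ _ _ p _ ρbar S Smin H e
  have hp : p.Prime := Fact.out
  have hp0 : (p : ResidueField 𝒪) = 0 := by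
    rw [← map_natCast (residue 𝒪)]
    exact (residue_eq_zero_iff _).2 H.hp𝒪
  have hchar : CharP (ResidueField 𝒪) p := (CharP.charP_iff_prime_eq_zero hp).2 hp0
  have hcyc : IsCycLoc p (fun σ => (((rbar ρbar e).comp (loc p)) σ).det) := by
    intro σ a ha
    have h1 := H.hdet.2 1 (loc p σ) a
      (fun μ hμ => TopLocFlat_mu p σ a p ha μ (by rwa [pow_one] at hμ))
    rw [pow_one, hp0, Ideal.span_singleton_eq_bot.2 rfl, Ideal.mem_bot, sub_eq_zero] at h1
    show (LinearMap.toMatrix e e (ρbar.ρ (loc p σ))).det = (a : ResidueField 𝒪)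
    rw [LinearMap.det_toMatrix]
    exact h1
  have hsplit : ∀ σ, ∃ α β : ResidueField 𝒪,
      (((rbar ρbar e).comp (loc p)) σ).charpoly = (X - C α) * (X - C β) := by
    intro σ
    obtain ⟨α, β, hαβ⟩ := H.hsplit (loc p σ)
    refine ⟨α, β, ?_⟩
    show (LinearMap.toMatrix e e (ρbar.ρ (loc p σ))).charpoly = _
    rw [LinearMap.charpoly_toMatrix]
    exact hαβ
  exact h p H.hp2 (ResidueField 𝒪) ((rbar ρbar e).comp (loc p)) hcyc hsplit

end Fermat.Agent.TW56.Flat

end
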