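/-
TEAM TW56 -> S56, block FLAT, task FL-FREE (helper54): finite flat `ℤ_(p)`-modules are free.
`ℤ_(p)` is a valuation subring of `ℚ`, hence a local ring; finite flat over a local ring is free.
-/
import Fermat.Agent.TW56.Flat.Interface2
import Mathlib.RingTheory.LocalRing.Module
import Mathlib.RingTheory.Valuation.ValuationSubring

set_option autoImplicit false

noncomputable section

namespace Fermat.Agent.TW56.Flat

lemma Free_mem_or_inv_mem (p : ℕ) [Fact p.Prime] (x : ℚ) : x ∈ Rp p ∨ x⁻¹ ∈ Rp p := by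
  have hp : p.Prime := Fact.out
  by_cases hx : x = 0
  · left
    rw [hx]
    exact zero_mem _
  by_cases hd : p ∣ x.den
  · right
    show (x⁻¹).den.Coprime p
    rw [Rat.den_inv_of_ne_zero hx]
    refine (Nat.Coprime.symm ?_)
    rw [Nat.Prime.coprime_iff_not_dvd hp]
    intro hn
    have h1 : p ∣ Nat.gcd x.num.natAbs x.den := Nat.dvd_gcd hn hd
    rw [x.reduced] at h1
    exact hp.one_lt.ne' (Nat.dvd_one.1 h1)
  · left
    show x.den.Coprime p
    exact (Nat.Coprime.symm ((Nat.Prime.coprime_iff_not_dvd hp).2 hd))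

/-- `ℤ_(p)` as a valuation subring of `ℚ`. -/
def Free_valSub (p : ℕ) [Fact p.Prime] : ValuationSubring ℚ :=
  { Rp p with mem_or_inv_mem' := Free_mem_or_inv_mem p }

lemma Free_isLocalRing (p : ℕ) [Fact p.Prime] : IsLocalRing (Rp p) :=
  (inferInstance : IsLocalRing (Free_valSub p))

/-- FL-FREE : finite flat `ℤ_(p)`-modules are free. -/
theorem free : Stmt_Free := by
  intro p _ C _ _ hfin hflat
  have := Free_isLocalRing p
  exact Module.free_of_flat_of_isLocalRing

end Fermat.Agent.TW56.Flat

end
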