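/-
TEAM TW56 -> S56, block FLAT, sub-block RAM.  RAM-GPROD :
`∏_{h ∈ H} ‖τ h Pi - Pi‖ ≤ sup_{x ∈ O_{L^H}} ‖τ x - x‖`.
-/
import Fermat.Agent.TW56.Flat.RamInterface

set_option autoImplicit false

noncomputable section

namespace Fermat.Agent.TW56.Flat

open Fermat.Agent.CFT.Local Polynomial

/-- the ring of integers of an ultrametric normed field. -/
def RamGProd_O (L : Type) [NormedField L] (_h : IsUltrametricDist L) : Subring L where
  carrier := {x | ‖x‖ ≤ 1}
  mul_mem' := by
    intro a b ha hb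
    show ‖a * b‖ ≤ 1
    rw [norm_mul]
    exact mul_le_one₀ ha (norm_nonneg _) hb
  one_mem' := by
    show ‖(1 : L)‖ ≤ 1
    rw [norm_one]
  add_mem' := fun {a b} ha hb => (IsUltrametricDist.norm_add_le_max a b).trans (max_le ha hb)
  zero_mem' := by
    show ‖(0 : L)‖ ≤ 1
    rw [norm_zero]
    exact zero_le_one
  neg_mem' := by
    intro a ha
    show ‖-a‖ ≤ 1
    rw [norm_neg]
    exact ha

theorem RamGProd_coeff {L : Type} [NormedField L] (hu : IsUltrametricDist L) {ι : Type}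
    (s : Finset ι) (a : ι → L) (ha : ∀ i ∈ s, ‖a i‖ ≤ 1) (n : ℕ) :
    ‖(∏ i ∈ s, (X - C (a i))).coeff n‖ ≤ 1 := by
  classical
  have key : ∏ i ∈ s, (X - C (a i)) ∈ Polynomial.lifts (RamGProd_O L hu).subtype := by
    refine Subsemiring.prod_mem _ fun i hi => ?_
    refine ⟨X - C ⟨a i, ha i hi⟩, ?_⟩
    simp
  obtain ⟨q, hq⟩ := key
  have hq' : q.map (RamGProd_O L hu).subtype = ∏ i ∈ s, (X - C (a i)) := hq
  rw [← hq', coeff_map]
  exact (q.coeff n).2

theorem ramGProd : Stmt_RamGProd := by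
  intro I L _ _ _ _ hact H Pi τ B hPi hB
  classical
  have hu := hact.loc.ultra
  have : Fintype H := Fintype.ofFinite H
  rw [finprod_eq_prod_of_fintype]
  have hB0 : 0 ≤ B := by
    have := hB 0 (fun h _ => smul_zero h) (by rw [norm_zero]; exact zero_le_one)
    rwa [smul_zero, sub_zero, norm_zero] at this
  set g : L[X] := ∏ h : H, (X - C ((h : I) • Pi)) with hg
  have hmap : ∀ σ : I, g.map (MulSemiringAction.toRingHom I L σ)
      = ∏ h : H, (X - C ((σ * (h : I)) • Pi)) := by
    intro σ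
    rw [hg, Polynomial.map_prod]
    refine Finset.prod_congr rfl fun h _ => ?_
    rw [Polynomial.map_sub, map_X, map_C, MulSemiringAction.toRingHom_apply, smul_smul]
  have hfix : ∀ (n : ℕ), ∀ h' ∈ H, h' • g.coeff n = g.coeff n := by
    intro n h' hh'
    have h1 : g.map (MulSemiringAction.toRingHom I L h') = g := by
      rw [hmap, hg]
      exact Fintype.prod_equiv (Equiv.mulLeft (⟨h', hh'⟩ : H)) _ _ fun h => rfl
    have h2 := congrArg (fun f => f.coeff n) h1
    simpa [coeff_map] using h2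
  have hint : ∀ n : ℕ, ‖g.coeff n‖ ≤ 1 := fun n =>
    RamGProd_coeff hu Finset.univ _ (fun h _ => by rw [hact.isom]; exact hPi) n
  have hg0 : g.eval Pi = 0 := by
    rw [hg, eval_prod]
    refine Finset.prod_eq_zero (Finset.mem_univ (1 : H)) ?_
    simp
  have hgτ : (g.map (MulSemiringAction.toRingHom I L τ)).eval Pi
      = ∏ h : H, (Pi - (τ * (h : I)) • Pi) := by
    rw [hmap, eval_prod]
    refine Finset.prod_congr rfl fun h _ => ?_
    simp
  have hsum : (g.map (MulSemiringAction.toRingHom I L τ)).eval Pi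
      = ∑ i ∈ Finset.range (g.natDegree + 1), (τ • g.coeff i - g.coeff i) * Pi ^ i := by
    have e1 := eval_eq_sum_range' (p := g.map (MulSemiringAction.toRingHom I L τ))
      (n := g.natDegree + 1) (Nat.lt_succ_of_le (natDegree_map_le)) Pi
    have e2 := eval_eq_sum_range' (p := g) (n := g.natDegree + 1) (Nat.lt_succ_self _) Pi
    rw [hg0] at e2
    rw [e1, ← sub_zero (∑ i ∈ Finset.range (g.natDegree + 1), _ * Pi ^ i), e2,
      ← Finset.sum_sub_distrib]
    refine Finset.sum_congr rfl fun i _ => ?_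
    rw [coeff_map, MulSemiringAction.toRingHom_apply, sub_mul]
  have hnorm : ∏ h : H, ‖(τ * (h : I)) • Pi - Pi‖ = ‖∏ h : H, (Pi - (τ * (h : I)) • Pi)‖ := by
    rw [norm_prod]
    exact Finset.prod_congr rfl fun h _ => norm_sub_rev _ _
  rw [hnorm, ← hgτ, hsum]
  refine IsUltrametricDist.norm_sum_le_of_forall_le_of_nonneg hB0 fun i _ => ?_
  rw [norm_mul, norm_pow]
  calc ‖τ • g.coeff i - g.coeff i‖ * ‖Pi‖ ^ i ≤ B * 1 :=
        mul_le_mul (hB _ (hfix i) (hint i)) (pow_le_one₀ (norm_nonneg _) hPi)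
          (pow_nonneg (norm_nonneg _) _) hB0
    _ = B := mul_one B

end Fermat.Agent.TW56.Flat

end
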