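/-
TEAM TW56 -> S56, block FLAT, package FL-TOP1 : helper55's contract `Stmt_FlatLoc`
(a globally flat deformation is locally flat).
-/
import Fermat.Agent.TW56.Top.Asm
import Fermat.Agent.TW56.Flat.Bridge

set_option autoImplicit false

noncomputable section

namespace Fermat.Agent.TW56.Flat

theorem topFlatLoc : Fermat.Agent.TW56.Stmt_FlatLoc := by
  intro p _ k _ _ rb c _ hflat
  exact bridge p ((Fin 2 → k) × (Fin 2 → k)) (actW rb c) hflat

end Fermat.Agent.TW56.Flat
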